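import Fermat.Agent.S27.Interface
import Fermat.Agent.S24.DegPrincipal

/-!
# S27, package R0 : basics of function fields (wrappers of the S24 algebra files)
-/

set_option autoImplicit false
set_option linter.unusedSectionVars false

namespace Fermat.Agent.S27

open AlgebraicCurve IntermediateField

namespace R0

open Fermat.Agent.S24

variable {K F : Type*} [Field K] [Field F] [Algebra K F] [IsAlgClosed K] [CharZero K]

/-- an element of `F` is a constant or transcendental -/
theorem const_or_transcendental (f : F) :
    (∃ a : K, f = algebraMap K F a) ∨ Transcendental K f := by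
  by_cases hf : IsAlgebraic K f
  · obtain ⟨a, rfl⟩ := minpoly.mem_range_of_degree_eq_one K f
      (IsAlgClosed.degree_eq_one_of_irreducible K (minpoly.irreducible hf.isIntegral))
    exact Or.inl ⟨a, rfl⟩
  · exact Or.inr hf

/-- finitely many zeros -/
theorem finite_zeros (h : IsFF K F) (f : F) : {v : Place K F | 0 < v.ord f}.Finite := by
  obtain ⟨x, hx, hfd⟩ := h
  rcases const_or_transcendental (K := K) f with ⟨a, rfl⟩ | hf
  · convert Set.finite_empty (α := Place K F)
    ext v
    simp [ord_algebraMap]
  · have := finiteDimensional_adjoin_simple_of_transcendental x hx f hf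
    exact zeroPlaces_finite f hf

/-- finitely many poles -/
theorem finite_poles (h : IsFF K F) (f : F) : {v : Place K F | v.ord f < 0}.Finite := by
  refine (finite_zeros h f⁻¹).subset fun v hv => ?_
  simp only [Set.mem_ofPred_eq, Place.ord_inv] at hv ⊢
  omega

/-- finite support of the divisor of `f` -/
theorem finite_support (h : IsFF K F) (f : F) : {v : Place K F | v.ord f ≠ 0}.Finite := by
  refine ((finite_zeros h f).union (finite_poles h f)).subset fun v hv => ?_
  simp only [Set.mem_ofPred_eq, Set.mem_union] at hv ⊢
  omega

theorem hasPrincipalDivisors (h : IsFF K F) : HasPrincipalDivisors K F := by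
  refine ⟨fun f hf => ?_⟩
  have hfin := finite_support h f
  obtain ⟨x, hx, hfd⟩ := h
  let D : Divisor K F := Finsupp.ofSupportFinite (fun v => v.ord f) hfin
  have hD : ∀ v : Place K F, D v = v.ord f := fun v => rfl
  exact ⟨D, hD, degree_eq_zero_of_forall_ord x hx f hf D hD⟩

theorem deg_eq_one (h : IsFF K F) (v : Place K F) : v.deg = 1 := by
  obtain ⟨x, hx, hfd⟩ := h
  exact place_deg_eq_one x hx v

/-- every transcendental element has a zero -/
theorem exists_zero (h : IsFF K F) (f : F) (hf : Transcendental K f) :
    ∃ v : Place K F, 0 < v.ord f := by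
  obtain ⟨x, hx, hfd⟩ := h
  have := finiteDimensional_adjoin_simple_of_transcendental x hx f hf
  have hsum := sum_ord_zeroPlaces f hf
  by_contra hne
  push Not at hne
  have hempty : (zeroPlaces_finite (K := K) f hf).toFinset = ∅ := by
    ext v
    simp only [Set.Finite.mem_toFinset, zeroPlaces, Set.mem_ofPred_eq, Finset.notMem_empty,
      iff_false, not_lt]
    exact hne v
  rw [hempty, Finset.sum_empty] at hsum
  have hpos : 0 < Module.finrank K⟮f⟯ F := Module.finrank_pos
  omega

theorem transcendental_sub {x : F} (hx : Transcendental K x) (a : K) :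
    Transcendental K (x - algebraMap K F a) := by
  intro h
  apply hx
  have := h.add (isAlgebraic_algebraMap (A := F) a)
  rwa [sub_add_cancel] at this

theorem infinite_places (h : IsFF K F) : Infinite (Place K F) := by
  have h' := h
  obtain ⟨x, hx, hfd⟩ := h
  have hex : ∀ a : K, ∃ v : Place K F, 0 < v.ord (x - algebraMap K F a) := fun a =>
    exists_zero h' _ (transcendental_sub hx a)
  choose φ hφ using hex
  have hinj : Function.Injective φ := by
    intro a b hab
    rcases place_cases x hx (φ a) with ⟨-, h1⟩ | ⟨-, c, -, hc⟩
    · exact absurd (hφ a) (h1 a)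
    · rw [hc a (hφ a), hc b (hab ▸ hφ b)]
  exact Infinite.of_injective φ hinj

theorem mem_repartitions_iff (h : IsFF K F) (α : Place K F → F) :
    α ∈ repartitions K F ↔ {v : Place K F | v.ord (α v) < 0}.Finite := by
  refine ⟨fun hα => ?_, mem_repartitions_of_finite_ord⟩
  have key : {v : Place K F | ¬v.adicValuation (α v) ≤ 1}.Finite := by
    unfold repartitions at hα
    induction hα using Algebra.adjoin_induction with
    | mem x hx => exact hx
    | algebraMap f =>
      have := finite_poles h f
      rwa [show {v : Place K F | v.ord f < 0} = {v : Place K F | ¬v.adicValuation f ≤ 1} from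
        Set.ext fun v => v.not_adicValuation_le_one_iff.symm] at this
    | add x y _ _ hx hy =>
      refine (hx.union hy).subset fun v hv => ?_
      simp only [Set.mem_ofPred_eq, Set.mem_union, Pi.add_apply] at hv ⊢
      by_contra hcon
      push Not at hcon
      exact hv ((Valuation.map_add _ _ _).trans (max_le hcon.1 hcon.2))
    | mul x y _ _ hx hy =>
      refine (hx.union hy).subset fun v hv => ?_
      simp only [Set.mem_ofPred_eq, Set.mem_union, Pi.mul_apply] at hv ⊢
      by_contra hcon
      push Not at hcon
      apply hv
      rw [map_mul]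
      exact mul_le_one' hcon.1 hcon.2
  rwa [show {v : Place K F | ¬v.adicValuation (α v) ≤ 1} = {v : Place K F | v.ord (α v) < 0} from
    Set.ext fun v => v.not_adicValuation_le_one_iff] at key

theorem exists_value (h : IsFF K F) (v : Place K F) (f : F) (hf : RegularAt v f) :
    ∃ a : K, VanishesAt v (f - algebraMap K F a) := by
  rcases hf with rfl | hf
  · exact ⟨0, Or.inl (by simp)⟩
  rcases eq_or_ne f 0 with rfl | hf0
  · exact ⟨0, Or.inl (by simp)⟩
  have hmem : f ∈ v.toValuationSubring := mem_of_ord_nonneg v hf0 hf
  have hdeg : Module.finrank K v.ResidueField = 1 := deg_eq_one h v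
  rw [finrank_eq_one_iff_of_nonzero' (1 : v.ResidueField) one_ne_zero] at hdeg
  obtain ⟨a, ha⟩ := hdeg (IsLocalRing.residue v.toValuationSubring ⟨f, hmem⟩)
  refine ⟨a, ?_⟩
  by_cases hne : (⟨f, hmem⟩ : v.toValuationSubring) - algebraMap K v.toValuationSubring a = 0
  · exact Or.inl (congrArg Subtype.val hne)
  · right
    have hm : (⟨f, hmem⟩ : v.toValuationSubring) - algebraMap K v.toValuationSubring a ∈
        IsLocalRing.maximalIdeal v.toValuationSubring := by
      rw [← IsLocalRing.residue_eq_zero_iff, map_sub, ← ha, sub_eq_zero,
        ← Algebra.algebraMap_eq_smul_one]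
      rfl
    exact (mem_maximalIdeal_iff_ord_pos v _ hne).mp hm

end R0

theorem r0 : Stmt_R0 := by
  intro K F _ _ _ _ _ h
  exact ⟨R0.hasPrincipalDivisors h, R0.deg_eq_one h, R0.infinite_places h,
    R0.mem_repartitions_iff h, R0.exists_value h⟩

end Fermat.Agent.S27
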