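import Fermat.Agent.S27.Interface
import Fermat.Agent.S24.PlaceBasic

/-!
# S27, package RA : Riemann–Roch spaces, finiteness and elementary bounds
-/

set_option autoImplicit false

namespace Fermat.Agent.S27

open AlgebraicCurve IntermediateField

namespace RA

open Fermat.Agent.S24

variable {K F : Type*} [Field K] [Field F] [Algebra K F]

theorem degree_eq_sum (D : Divisor K F) : Divisor.degree D = D.sum fun v n => n * (v.deg : ℤ) := by
  simp [Divisor.degree, Finsupp.liftAddHom_apply]

theorem degree_nonneg {D : Divisor K F} (h : ∀ v, 0 ≤ D v) : 0 ≤ Divisor.degree D := by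
  rw [degree_eq_sum]
  exact Finsupp.sum_nonneg fun v _ => mul_nonneg (h v) (Int.natCast_nonneg _)

/-- (B) -/
theorem eq_bot_of_degree_neg [HasPrincipalDivisors K F] (D : Divisor K F)
    (hD : Divisor.degree D < 0) : riemannRochSpace D = ⊥ := by
  rw [eq_bot_iff]
  intro f hf
  rw [Submodule.mem_bot]
  by_contra hf0
  obtain ⟨E, hE, hE0⟩ := HasPrincipalDivisors.exists_divisor (K := K) f hf0
  rw [mem_riemannRochSpace_iff] at hf
  have h1 : 0 ≤ Divisor.degree (E + D) := degree_nonneg fun v => by
    rw [Finsupp.add_apply, hE v]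
    have := (hf v).resolve_left hf0
    omega
  rw [map_add, hE0, zero_add] at h1
  omega

/-- multiplication by `c` as a map `L(D + v) → O_v`. -/
noncomputable def toRing (D : Divisor K F) (v : Place K F) (c : F)
    (hc : ∀ f ∈ riemannRochSpace D, c * f ∈ v.toValuationSubring) :
    ↥(riemannRochSpace D) →ₗ[K] v.toValuationSubring where
  toFun f := ⟨c * f, hc f f.2⟩
  map_add' f g := Subtype.ext (by simp [mul_add])
  map_smul' a f := Subtype.ext (by
    simp only [Submodule.coe_smul, RingHom.id_apply, Algebra.smul_def]
    show c * (algebraMap K F a * (f : F)) = algebraMap K F a * (c * f)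
    ring)

/-- the leading coefficient map `L(D) → κ(v)`. -/
noncomputable def lead (D : Divisor K F) (v : Place K F) (c : F)
    (hc : ∀ f ∈ riemannRochSpace D, c * f ∈ v.toValuationSubring) :
    ↥(riemannRochSpace D) →ₗ[K] v.ResidueField :=
  (IsScalarTower.toAlgHom K v.toValuationSubring v.ResidueField).toLinearMap ∘ₗ toRing D v c hc

theorem lead_eq_zero_iff (D : Divisor K F) (v : Place K F) (c : F)
    (hc : ∀ f ∈ riemannRochSpace D, c * f ∈ v.toValuationSubring) (f : ↥(riemannRochSpace D)) :
    lead D v c hc f = 0 ↔
      (⟨c * f, hc f f.2⟩ : v.toValuationSubring) ∈ IsLocalRing.maximalIdeal v.toValuationSubring :=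
  IsLocalRing.residue_eq_zero_iff _

theorem le_add_single (D : Divisor K F) (v : Place K F) :
    riemannRochSpace D ≤ riemannRochSpace (D + Finsupp.single v 1) := by
  classical
  intro f hf
  rw [mem_riemannRochSpace_iff] at hf ⊢
  intro w
  rcases hf w with h | h
  · exact Or.inl h
  · right
    rw [Finsupp.add_apply, Finsupp.single_apply]
    split_ifs <;> omega

theorem exists_lead (D : Divisor K F) (v : Place K F) :
    ∃ φ : ↥(riemannRochSpace (D + Finsupp.single v 1)) →ₗ[K] v.ResidueField,
      LinearMap.ker φ =
        (riemannRochSpace D).comap (riemannRochSpace (D + Finsupp.single v 1)).subtype := by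
  classical
  obtain ⟨s, hs⟩ := exists_ord_eq_one v
  have hs0 : s ≠ 0 := by
    rintro rfl
    simp at hs
  set n : ℤ := D v + 1 with hn
  have hsn : s ^ n ≠ 0 := zpow_ne_zero _ hs0
  have hord : ∀ f : F, f ≠ 0 → v.ord (s ^ n * f) = n + v.ord f := fun f hf => by
    rw [v.ord_mul hsn hf, v.ord_zpow, hs, mul_one]
  have hc : ∀ f ∈ riemannRochSpace (D + Finsupp.single v 1), s ^ n * f ∈ v.toValuationSubring := by
    intro f hf
    rcases eq_or_ne f 0 with rfl | hf0
    · rw [mul_zero]; exact zero_mem _
    · apply mem_of_ord_nonneg v (mul_ne_zero hsn hf0)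
      rw [hord f hf0]
      have := ((mem_riemannRochSpace_iff.mp hf) v).resolve_left hf0
      rw [Finsupp.add_apply, Finsupp.single_eq_same] at this
      omega
  refine ⟨lead _ v (s ^ n) hc, ?_⟩
  ext f
  rw [LinearMap.mem_ker, lead_eq_zero_iff, Submodule.mem_comap, Submodule.subtype_apply]
  rcases eq_or_ne (f : F) 0 with hf0 | hf0
  · simp only [hf0, mul_zero]
    exact ⟨fun _ => zero_mem _, fun _ => zero_mem _⟩
  · have hne : (⟨s ^ n * f, hc f f.2⟩ : v.toValuationSubring) ≠ 0 := fun h =>
      mul_ne_zero hsn hf0 (congrArg Subtype.val h)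
    rw [mem_maximalIdeal_iff_ord_pos v _ hne]
    show 0 < v.ord (s ^ n * (f : F)) ↔ _
    rw [hord _ hf0, mem_riemannRochSpace_iff]
    constructor
    · intro h w
      right
      by_cases hw : w = v
      · subst hw; omega
      · have := ((mem_riemannRochSpace_iff.mp f.2) w).resolve_left hf0
        rw [Finsupp.add_apply, Finsupp.single_apply, if_neg (Ne.symm hw), add_zero] at this
        exact this
    · intro h
      have := (h v).resolve_left hf0
      omega

/-- the key step -/
theorem step (hdeg : ∀ v : Place K F, v.deg = 1) (D : Divisor K F) (v : Place K F)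
    (hfin : Module.Finite K (riemannRochSpace D)) :
    Module.Finite K (riemannRochSpace (D + Finsupp.single v 1)) ∧
      Module.finrank K (riemannRochSpace (D + Finsupp.single v 1)) ≤
        Module.finrank K (riemannRochSpace D) + 1 := by
  obtain ⟨φ, hφ⟩ := exists_lead D v
  have hres : Module.Finite K v.ResidueField :=
    Module.finite_of_finrank_pos (by
      have : Module.finrank K v.ResidueField = 1 := hdeg v
      omega)
  let e : ↥(LinearMap.ker φ) ≃ₗ[K] ↥(riemannRochSpace D) :=
    (LinearEquiv.ofEq _ _ hφ).trans (Submodule.comapSubtypeEquivOfLe (le_add_single D v))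
  have hker : Module.Finite K ↥(LinearMap.ker φ) := Module.Finite.equiv e.symm
  have hF : Module.Finite K (riemannRochSpace (D + Finsupp.single v 1)) := by
    rw [Module.finite_def]
    apply Submodule.fg_of_fg_map_of_fg_inf_ker φ
    · exact IsNoetherian.noetherian _
    · rw [top_inf_eq]
      exact Module.Finite.iff_fg.mp hker
  refine ⟨hF, ?_⟩
  have h1 := LinearMap.finrank_range_add_finrank_ker φ
  have h2 : Module.finrank K ↥(LinearMap.range φ) ≤ 1 := by
    have := Submodule.finrank_le (LinearMap.range φ)
    have h3 : Module.finrank K v.ResidueField = 1 := hdeg v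
    omega
  have h3 := e.finrank_eq
  omega

theorem degree_single_one (hdeg : ∀ v : Place K F, v.deg = 1) (v : Place K F) (n : ℤ) :
    Divisor.degree (Finsupp.single v n) = n := by
  rw [Divisor.degree_single, hdeg v]; simp

/-- (A) -/
theorem finite [HasPrincipalDivisors K F] [Nonempty (Place K F)]
    (hdeg : ∀ v : Place K F, v.deg = 1) (D : Divisor K F) :
    Module.Finite K (riemannRochSpace D) := by
  obtain ⟨v₀⟩ := (inferInstance : Nonempty (Place K F))
  have key : ∀ (m : ℕ) (D₀ : Divisor K F), Divisor.degree D₀ < 0 →
      Module.Finite K (riemannRochSpace (D₀ + Finsupp.single v₀ (m : ℤ))) := by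
    intro m
    induction m with
    | zero =>
      intro D₀ h
      rw [Nat.cast_zero, Finsupp.single_zero, add_zero, eq_bot_of_degree_neg D₀ h]
      infer_instance
    | succ m ih =>
      intro D₀ h
      have := (step hdeg _ v₀ (ih D₀ h)).1
      rwa [add_assoc, ← Finsupp.single_add, ← Nat.cast_succ] at this
  set m : ℕ := (Divisor.degree D + 1).toNat with hm
  have h := key m (D - Finsupp.single v₀ (m : ℤ)) (by
    rw [map_sub, degree_single_one hdeg]
    have := Int.self_le_toNat (Divisor.degree D + 1)
    omega)
  rwa [sub_add_cancel] at h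

end RA

universe u v

open RA Fermat.Agent.S24 in
theorem ra : Stmt_R0.{u, v} → Stmt_RA.{u, v} := by
  intro hR0 K F _ _ _ _ _ hFF
  obtain ⟨hP, hdeg, hinf, -, hval⟩ := hR0 K F hFF
  have hne : Nonempty (Place K F) := inferInstance
  refine ⟨fun D => finite hdeg D, fun D hD => eq_bot_of_degree_neg D hD, fun f => ?_,
    fun D v => (step hdeg D v (finite hdeg D)).2⟩
  constructor
  · intro hf
    obtain ⟨v₀⟩ := hne
    have hreg : RegularAt v₀ f := by
      have := (mem_riemannRochSpace_iff.mp hf) v₀
      simpa [RegularAt] using this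
    obtain ⟨a, ha⟩ := hval v₀ f hreg
    refine ⟨a, ?_⟩
    have hconst : algebraMap K F a ∈ riemannRochSpace (0 : Divisor K F) := by
      rw [mem_riemannRochSpace_iff]
      intro v
      right
      rw [ord_algebraMap]; simp
    have hg : f - algebraMap K F a ∈ riemannRochSpace (-Finsupp.single v₀ 1 : Divisor K F) := by
      classical
      have h0 := mem_riemannRochSpace_iff.mp (sub_mem hf hconst)
      rw [mem_riemannRochSpace_iff]
      intro v
      rcases h0 v with h | h
      · exact Or.inl h
      · rcases ha with h' | h'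
        · exact Or.inl h'
        · right
          rw [Finsupp.neg_apply, Finsupp.single_apply]
          split_ifs with hv
          · subst hv; omega
          · simpa using h
    rw [eq_bot_of_degree_neg _ (by rw [map_neg, degree_single_one hdeg]; norm_num),
      Submodule.mem_bot, sub_eq_zero] at hg
    exact hg.symm
  · rintro ⟨a, rfl⟩
    rw [mem_riemannRochSpace_iff]
    intro v
    right
    rw [ord_algebraMap]; simp

end Fermat.Agent.S27
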