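import Fermat.Agent.S27.Interface

/-!
# S27, package RB : `dim A(D')/A(D) = deg D' - deg D`
-/

set_option autoImplicit false

namespace Fermat.Agent.S27

open AlgebraicCurve IntermediateField

namespace RB

section LinAlg

variable {K V : Type*} [Field K] [AddCommGroup V] [Module K V]

/-- `C/A` (image of `C` in `V/A`) is finite dimensional of dimension `n`. -/
def Rel (A C : Submodule K V) (n : ℤ) : Prop :=
  Module.Finite K ↥(C.map A.mkQ) ∧ (Module.finrank K ↥(C.map A.mkQ) : ℤ) = n

theorem rel_self (A : Submodule K V) : Rel A A 0 := by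
  unfold Rel
  rw [Submodule.mkQ_map_self]
  exact ⟨inferInstance, by simp⟩

theorem rel_trans {A B C : Submodule K V} (hAB : A ≤ B) (hBC : B ≤ C) {m n : ℤ}
    (h1 : Rel A B m) (h2 : Rel B C n) : Rel A C (m + n) := by
  obtain ⟨f1, r1⟩ := h1
  obtain ⟨f2, r2⟩ := h2
  set φ : (V ⧸ A) →ₗ[K] (V ⧸ B) := Submodule.factor hAB with hφdef
  have hφ : φ ∘ₗ A.mkQ = B.mkQ := Submodule.factor_comp_mk hAB
  have hmap : (C.map A.mkQ).map φ = C.map B.mkQ := by
    rw [← Submodule.map_comp, hφ]
  have hker : LinearMap.ker φ = B.map A.mkQ := by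
    ext x
    obtain ⟨y, rfl⟩ := A.mkQ_surjective x
    rw [LinearMap.mem_ker, hφdef, Submodule.factor_mk, Submodule.mkQ_apply,
      Submodule.Quotient.mk_eq_zero]
    constructor
    · intro hy
      exact ⟨y, hy, rfl⟩
    · rintro ⟨z, hz, hzy⟩
      have : z - y ∈ A := by
        rw [← Submodule.Quotient.mk_eq_zero, Submodule.Quotient.mk_sub]
        simpa [sub_eq_zero] using hzy
      have h3 : y = z - (z - y) := by abel
      rw [h3]
      exact B.sub_mem hz (hAB this)
  have hle : B.map A.mkQ ≤ C.map A.mkQ := Submodule.map_mono hBC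
  have hfin : Module.Finite K ↥(C.map A.mkQ) := by
    rw [Module.Finite.iff_fg]
    refine Submodule.fg_of_fg_map_of_fg_inf_ker φ ?_ ?_
    · rw [hmap]; exact Module.Finite.iff_fg.mp f2
    · rw [hker, inf_eq_right.mpr hle]; exact Module.Finite.iff_fg.mp f1
  refine ⟨hfin, ?_⟩
  have key := LinearMap.finrank_range_add_finrank_ker (φ.domRestrict (C.map A.mkQ))
  rw [LinearMap.range_domRestrict, hmap, LinearMap.ker_domRestrict, hker,
    (Submodule.comapSubtypeEquivOfLe hle).finrank_eq] at key
  rw [← key, ← r1, ← r2]
  push_cast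
  ring

theorem rel_one {A C : Submodule K V} (e : V) (heC : e ∈ C) (heA : e ∉ A)
    (h : ∀ x ∈ C, ∃ a : K, x - a • e ∈ A) : Rel A C 1 := by
  have hspan : C.map A.mkQ = Submodule.span K {A.mkQ e} := by
    apply le_antisymm
    · rintro _ ⟨x, hx, rfl⟩
      obtain ⟨a, ha⟩ := h x hx
      rw [Submodule.mem_span_singleton]
      refine ⟨a, ?_⟩
      rw [← map_smul, eq_comm, ← sub_eq_zero, ← map_sub, Submodule.mkQ_apply,
        Submodule.Quotient.mk_eq_zero]
      exact ha
    · rw [Submodule.span_singleton_le_iff_mem]
      exact ⟨e, heC, rfl⟩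
  have hne : A.mkQ e ≠ 0 := by
    rw [Submodule.mkQ_apply, ne_eq, Submodule.Quotient.mk_eq_zero]
    exact heA
  unfold Rel
  rw [hspan]
  exact ⟨inferInstance, by rw [finrank_span_singleton hne]; simp⟩

end LinAlg

section Adele

variable {K F : Type*} [Field K] [Field F] [Algebra K F]

theorem exists_ord_one (v : Place K F) : ∃ s : F, v.ord s = 1 := by
  obtain ⟨π, hπ⟩ := IsDiscreteValuationRing.exists_irreducible v.toValuationSubring
  exact ⟨(π : F), v.ord_coe_irreducible hπ⟩

theorem adeleSingle_apply_self (v : Place K F) (f : F) :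
    ((adeleSingle v f : ↥(repartitions K F)) : Place K F → F) v = f := by
  simp [adeleSingle]

theorem adeleSingle_apply_ne (v : Place K F) (f : F) {w : Place K F} (h : w ≠ v) :
    ((adeleSingle v f : ↥(repartitions K F)) : Place K F → F) w = 0 := by
  simp [adeleSingle, h]

theorem coe_sub_smul (x e : ↥(repartitions K F)) (a : K) (w : Place K F) :
    ((x - a • e : ↥(repartitions K F)) : Place K F → F) w
      = (x : Place K F → F) w - algebraMap K F a * (e : Place K F → F) w := by
  rw [← Algebra.smul_def]
  rfl

theorem rel_step (hreg : ∀ (v : Place K F) (f : F), RegularAt v f →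
      ∃ a : K, VanishesAt v (f - algebraMap K F a))
    (D : Divisor K F) (v : Place K F) :
    Rel (repartitionsOf D) (repartitionsOf (D + Finsupp.single v 1)) 1 := by
  obtain ⟨s, hs⟩ := exists_ord_one v
  have hs0 : s ≠ 0 := by
    rintro rfl
    simp at hs
  set n : ℤ := D v + 1 with hn
  have hsn : ∀ m : ℤ, v.ord (s ^ m) = m := fun m => by rw [v.ord_zpow, hs, mul_one]
  have hsn0 : ∀ m : ℤ, s ^ m ≠ 0 := fun m => zpow_ne_zero m hs0
  refine rel_one (adeleSingle v (s ^ (-n))) ?_ ?_ ?_
  · rw [mem_repartitionsOf_iff]
    intro w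
    by_cases hw : w = v
    · subst hw
      right
      rw [adeleSingle_apply_self, hsn, Finsupp.add_apply, Finsupp.single_eq_same]
    · left
      exact adeleSingle_apply_ne v _ hw
  · rw [mem_repartitionsOf_iff]
    intro h
    rcases h v with h | h
    · rw [adeleSingle_apply_self] at h
      exact hsn0 _ h
    · rw [adeleSingle_apply_self, hsn] at h
      omega
  · intro x hx
    rw [mem_repartitionsOf_iff] at hx
    set f : F := (x : Place K F → F) v with hf
    have hregf : RegularAt v (s ^ n * f) := by
      rcases hx v with h | h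
      · left
        rw [← hf] at h
        rw [h, mul_zero]
      · by_cases hf0 : f = 0
        · left; rw [hf0, mul_zero]
        · right
          rw [v.ord_mul (hsn0 n) hf0, hsn]
          rw [Finsupp.add_apply, Finsupp.single_eq_same, ← hf] at h
          omega
    obtain ⟨a, ha⟩ := hreg v _ hregf
    refine ⟨a, ?_⟩
    rw [mem_repartitionsOf_iff]
    intro w
    rw [coe_sub_smul]
    by_cases hw : w = v
    · subst hw
      rw [adeleSingle_apply_self, ← hf]
      have hfac : f - algebraMap K F a * s ^ (-n) = s ^ (-n) * (s ^ n * f - algebraMap K F a) := by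
        rw [mul_sub, ← mul_assoc, ← zpow_add₀ hs0]
        simp [mul_comm]
      rcases ha with ha | ha
      · left
        rw [hfac, ha, mul_zero]
      · right
        have hne : s ^ n * f - algebraMap K F a ≠ 0 := by
          intro h0
          rw [h0] at ha
          simp at ha
        rw [hfac, w.ord_mul (hsn0 _) hne, hsn]
        omega
    · rw [adeleSingle_apply_ne v _ hw, mul_zero, sub_zero]
      have := hx w
      rwa [Finsupp.add_apply, Finsupp.single_eq_of_ne hw, add_zero] at this

theorem single_nonneg' (v w : Place K F) {n : ℤ} (hn : 0 ≤ n) :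
    (0 : ℤ) ≤ Finsupp.single v n w := by
  classical
  rw [Finsupp.single_apply]
  split_ifs
  · exact hn
  · exact le_rfl

theorem rel_single
    (hreg : ∀ (v : Place K F) (f : F), RegularAt v f →
      ∃ a : K, VanishesAt v (f - algebraMap K F a))
    (v : Place K F) (n : ℕ) (D : Divisor K F) :
    Rel (repartitionsOf D) (repartitionsOf (D + Finsupp.single v (n : ℤ))) n := by
  induction n with
  | zero => simpa using rel_self (repartitionsOf D)
  | succ n ih =>
    have h1 := rel_step hreg (D + Finsupp.single v (n : ℤ)) v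
    have h2 := rel_trans (repartitionsOf_mono ?_) (repartitionsOf_mono ?_) ih h1
    · rw [add_assoc, ← Finsupp.single_add] at h2
      push_cast
      exact h2
    · intro w
      rw [Finsupp.add_apply]
      have : (0 : ℤ) ≤ Finsupp.single v (n : ℤ) w := single_nonneg' v w (by positivity)
      omega
    · intro w
      rw [Finsupp.add_apply (D + _)]
      have : (0 : ℤ) ≤ Finsupp.single v (1 : ℤ) w := single_nonneg' v w (by positivity)
      omega

theorem rel_add (hdeg : ∀ v : Place K F, v.deg = 1)
    (hreg : ∀ (v : Place K F) (f : F), RegularAt v f →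
      ∃ a : K, VanishesAt v (f - algebraMap K F a))
    (E : Divisor K F) : 0 ≤ E → ∀ D : Divisor K F,
    Rel (repartitionsOf D) (repartitionsOf (D + E)) (Divisor.degree E) := by
  induction E using Finsupp.induction with
  | zero =>
    intro _ D
    simpa using rel_self (repartitionsOf D)
  | single_add v b f hv hb ih =>
    intro h0 D
    have hfv : f v = 0 := by simpa using hv
    have hb0 : 0 ≤ b := by
      have := h0 v
      simpa [hfv] using this
    have hf0 : 0 ≤ f := by
      intro w
      by_cases hw : w = v
      · subst hw; simp [hfv]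
      · have := h0 w
        simpa [Finsupp.single_eq_of_ne hw] using this
    obtain ⟨n, rfl⟩ := Int.eq_ofNat_of_zero_le hb0
    have h1 := ih hf0 D
    have h2 := rel_single hreg v n (D + f)
    have h3 := rel_trans (repartitionsOf_mono ?_) (repartitionsOf_mono ?_) h1 h2
    · rw [map_add, Divisor.degree_single, hdeg v]
      have e1 : D + (Finsupp.single v (n : ℤ) + f) = D + f + Finsupp.single v (n : ℤ) := by abel
      rw [e1]
      have e2 : (n : ℤ) * ((1 : ℕ) : ℤ) + Divisor.degree f = Divisor.degree f + (n : ℤ) := by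
        push_cast; ring
      rw [e2]
      exact h3
    · intro w
      have := hf0 w
      rw [Finsupp.add_apply]
      simp only [Finsupp.coe_zero, Pi.zero_apply] at this
      omega
    · intro w
      rw [Finsupp.add_apply (D + _)]
      have : (0 : ℤ) ≤ Finsupp.single v (n : ℤ) w := single_nonneg' v w (by positivity)
      omega

end Adele

end RB

universe u v

theorem rb (h0 : Stmt_R0.{u, v}) : Stmt_RB.{u, v} := by
  intro K F _ _ _ _ _ hFF D D' hDD'
  obtain ⟨-, hdeg, -, -, hreg⟩ := h0 K F hFF
  have h := RB.rel_add hdeg hreg (D' - D) (sub_nonneg.mpr hDD') D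
  rw [add_sub_cancel, map_sub] at h
  exact h

end Fermat.Agent.S27

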