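import Fermat.Agent.S27.Interface
import Fermat.Agent.S24.FundId
import Fermat.Agent.S24.PlaceCases
import Fermat.Agent.S24.DegPrincipalCore

/-!
# S27 / RC : Riemann's bound `deg D - l(D) ≤ γ`

Stichtenoth, Prop. 1.4.14.
-/

set_option autoImplicit false

namespace Fermat.Agent.S27

open AlgebraicCurve IntermediateField

universe u v

namespace RC

variable {K : Type u} {F : Type v} [Field K] [Field F] [Algebra K F]

/-- `deg D - l(D)`. -/
noncomputable def defect (D : Divisor K F) : ℤ :=
  Divisor.degree D - (Module.finrank K (riemannRochSpace D) : ℤ)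

theorem rrSpace_mono {D D' : Divisor K F} (h : D ≤ D') :
    riemannRochSpace D ≤ riemannRochSpace D' := by
  intro f hf
  rw [mem_riemannRochSpace_iff] at hf ⊢
  intro v
  rcases hf v with h0 | h1
  · exact Or.inl h0
  · have := Finsupp.le_def.mp h v
    exact Or.inr (by omega)

section Mono

variable (hdeg : ∀ v : Place K F, v.deg = 1)
  (hstep : ∀ (D : Divisor K F) (v : Place K F),
    Module.finrank K (riemannRochSpace (D + Finsupp.single v 1)) ≤
      Module.finrank K (riemannRochSpace D) + 1)

include hdeg hstep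

theorem defect_le_add_single (D : Divisor K F) (v : Place K F) :
    defect D ≤ defect (D + Finsupp.single v 1) := by
  have h := hstep D v
  unfold defect
  rw [map_add, Divisor.degree_single, hdeg v]
  push_cast
  omega

theorem defect_le_add_single_nat (D : Divisor K F) (v : Place K F) (n : ℕ) :
    defect D ≤ defect (D + Finsupp.single v (n : ℤ)) := by
  induction n with
  | zero => simp
  | succ n ih =>
    have h : D + Finsupp.single v ((n + 1 : ℕ) : ℤ)
        = (D + Finsupp.single v (n : ℤ)) + Finsupp.single v 1 := by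
      rw [add_assoc, ← Finsupp.single_add]
      push_cast
      rfl
    rw [h]
    exact ih.trans (defect_le_add_single hdeg hstep _ v)

theorem defect_le_add (E : Divisor K F) : 0 ≤ E → ∀ D : Divisor K F, defect D ≤ defect (D + E) := by
  induction E using Finsupp.induction with
  | zero => intro _ D; simp
  | single_add a b f ha hb ih =>
    intro hE D
    have hfa : f a = 0 := by simpa using ha
    have hb0 : 0 ≤ b := by
      have := Finsupp.le_def.mp hE a
      simpa [hfa] using this
    have hf0 : 0 ≤ f := by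
      rw [Finsupp.le_def]
      intro w
      by_cases hw : w = a
      · subst hw; simp [hfa]
      · have := Finsupp.le_def.mp hE w
        simpa [Finsupp.single_apply, Ne.symm hw] using this
    obtain ⟨n, rfl⟩ := Int.eq_ofNat_of_zero_le hb0
    rw [← add_assoc]
    exact (defect_le_add_single_nat hdeg hstep D a n).trans (ih hf0 _)

theorem defect_mono {D D' : Divisor K F} (h : D ≤ D') : defect D ≤ defect D' := by
  have := defect_le_add hdeg hstep (D' - D) (sub_nonneg.mpr h) D
  rwa [add_sub_cancel] at this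

end Mono

/-- multiplication by `z⁻¹` embeds `L(D - (z))` into `L(D)`. -/
theorem finrank_sub_principal_le (hfin : ∀ D : Divisor K F, Module.Finite K (riemannRochSpace D))
    (D Z : Divisor K F) (z : F) (hz : z ≠ 0) (hZ : ∀ v, Z v = v.ord z) :
    Module.finrank K (riemannRochSpace (D - Z)) ≤ Module.finrank K (riemannRochSpace D) := by
  have hmem : ∀ f ∈ riemannRochSpace (D - Z), z⁻¹ * f ∈ riemannRochSpace D := by
    intro f hf
    rw [mem_riemannRochSpace_iff] at hf ⊢
    intro v
    rcases hf v with h0 | h1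
    · left; rw [h0, mul_zero]
    · rcases eq_or_ne f 0 with h0 | hf0
      · left; rw [h0, mul_zero]
      · right
        rw [v.ord_mul (inv_ne_zero hz) hf0, v.ord_inv]
        rw [Finsupp.sub_apply, hZ v] at h1
        omega
  let φ : riemannRochSpace (D - Z) →ₗ[K] riemannRochSpace D :=
    ((LinearMap.mulLeft K z⁻¹).domRestrict _).codRestrict _ (fun f => hmem f f.2)
  have hinj : Function.Injective φ := by
    intro f g hfg
    have h := congrArg Subtype.val hfg
    have h' : z⁻¹ * (f : F) = z⁻¹ * (g : F) := h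
    exact Subtype.ext (mul_left_cancel₀ (inv_ne_zero hz) h')
  have := hfin D
  exact LinearMap.finrank_le_finrank_of_injective hinj

theorem exists_ge_mem (hP : HasPrincipalDivisors K F) (f : F) :
    ∃ C : Divisor K F, 0 ≤ C ∧ f ∈ riemannRochSpace C := by
  rcases eq_or_ne f 0 with rfl | hf
  · exact ⟨0, le_rfl, Submodule.zero_mem _⟩
  · obtain ⟨D, hD, -⟩ := hP.exists_divisor f hf
    refine ⟨(-D) ⊔ 0, le_sup_right, ?_⟩
    rw [mem_riemannRochSpace_iff]
    intro v
    right
    have h : (-D) v ≤ ((-D) ⊔ 0) v := Finsupp.le_def.mp le_sup_left v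
    rw [Finsupp.neg_apply, hD] at h
    omega

theorem exists_ge_mem_family (hP : HasPrincipalDivisors K F) {ι : Type*} [Fintype ι] (f : ι → F) :
    ∃ C : Divisor K F, 0 ≤ C ∧ ∀ i, f i ∈ riemannRochSpace C := by
  choose C hC0 hC using exists_ge_mem (K := K) (F := F) hP
  refine ⟨∑ i, C (f i), Finset.sum_nonneg (fun i _ => hC0 _), fun i => ?_⟩
  exact rrSpace_mono
    (Finset.single_le_sum (f := fun i => C (f i)) (fun j _ => hC0 (f j)) (Finset.mem_univ i))
    (hC (f i))

/-- the pole divisor of `x` has degree `[F : K(x)]`. -/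
theorem exists_poleDivisor [IsAlgClosed K] [CharZero K] (hP : HasPrincipalDivisors K F)
    (hdeg : ∀ v : Place K F, v.deg = 1) (x : F) (hx : Transcendental K x)
    [FiniteDimensional K⟮x⟯ F] :
    ∃ B : Divisor K F, (∀ v, 0 ≤ B v) ∧ (∀ v, -B v ≤ v.ord x) ∧
      Divisor.degree B = (Module.finrank K⟮x⟯ F : ℤ) := by
  classical
  have hx0 : x ≠ 0 := fun h => hx (h ▸ isAlgebraic_zero)
  obtain ⟨X, hX, -⟩ := hP.exists_divisor x hx0
  have hB : ∀ v, ((-X) ⊔ 0 : Divisor K F) v = max (-v.ord x) 0 := by
    intro v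
    rw [Finsupp.sup_apply, Finsupp.neg_apply, hX, Finsupp.zero_apply]
  refine ⟨(-X) ⊔ 0, fun v => ?_, fun v => ?_, ?_⟩
  · rw [hB]; exact le_max_right _ _
  · rw [hB]; have := le_max_left (-v.ord x) 0; omega
  · have := S24.placeCases_finiteDimensional_adjoin_inv (K := K) x
    have hxi := S24.placeCases_transcendental_inv hx
    have key := S24.sum_ord_zeroPlaces (K := K) x⁻¹ hxi
    have hrank : Module.finrank K⟮x⁻¹⟯ F = Module.finrank K⟮x⟯ F := by
      rw [S24.placeCases_adjoin_inv_eq]
    rw [hrank] at key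
    rw [← key, S24.degree_eq_sum_support]
    have hsupp : ((-X) ⊔ 0 : Divisor K F).support
        = (S24.zeroPlaces_finite (K := K) x⁻¹ hxi).toFinset := by
      ext v
      simp only [Finsupp.mem_support_iff, Set.Finite.mem_toFinset, S24.zeroPlaces,
        Set.mem_ofPred_eq, hB v, Place.ord_inv]
      omega
    rw [hsupp]
    refine Finset.sum_congr rfl fun v hv => ?_
    simp only [Set.Finite.mem_toFinset, S24.zeroPlaces, Set.mem_ofPred_eq, Place.ord_inv] at hv
    rw [hB v, hdeg v, Place.ord_inv]
    push_cast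
    omega

theorem linearIndependent_pow_of_transcendental {A : Type*} [CommRing A] [Algebra K A] {x : A}
    (hx : Transcendental K x) : LinearIndependent K (fun i : ℕ => x ^ i) := by
  have h := (Polynomial.basisMonomials K).linearIndependent.map' (Polynomial.aeval x).toLinearMap
    (LinearMap.ker_eq_bot.mpr (transcendental_iff_injective.mp hx))
  have he : (fun i : ℕ => x ^ i)
      = (Polynomial.aeval x).toLinearMap ∘ (Polynomial.basisMonomials K) := by
    funext i
    simp
  rw [he]
  exact h

theorem main [IsAlgClosed K] [CharZero K] (hP : HasPrincipalDivisors K F)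
    (hdeg : ∀ v : Place K F, v.deg = 1)
    (hfin : ∀ D : Divisor K F, Module.Finite K (riemannRochSpace D))
    (hstep : ∀ (D : Divisor K F) (v : Place K F),
      Module.finrank K (riemannRochSpace (D + Finsupp.single v 1)) ≤
        Module.finrank K (riemannRochSpace D) + 1)
    (x : F) (hx : Transcendental K x) [FiniteDimensional K⟮x⟯ F] :
    ∃ γ : ℤ, ∀ D : Divisor K F, defect D ≤ γ := by
  classical
  have hx0 : x ≠ 0 := fun h => hx (h ▸ isAlgebraic_zero)
  obtain ⟨B, hB0, hBx, hBdeg⟩ := exists_poleDivisor hP hdeg x hx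
  set n : ℕ := Module.finrank K⟮x⟯ F with hn
  have hnpos : 0 < n := Module.finrank_pos
  let b := Module.finBasis K⟮x⟯ F
  obtain ⟨C, hC0, hC⟩ := exists_ge_mem_family hP (fun j => b j)
  -- Claim 1
  have claim1 : ∀ l : ℕ, (l + 1) * n ≤ Module.finrank K (riemannRochSpace (l • B + C)) := by
    intro l
    have hg : LinearIndependent K (fun i : ℕ => (AdjoinSimple.gen K x) ^ i) := by
      refine LinearIndependent.of_comp (K⟮x⟯.val.toLinearMap) ?_
      have he : (K⟮x⟯.val.toLinearMap) ∘ (fun i : ℕ => (AdjoinSimple.gen K x) ^ i)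
          = fun i : ℕ => x ^ i := by
        funext i
        simp
      rw [he]
      exact linearIndependent_pow_of_transcendental hx
    have hg' : LinearIndependent K (fun i : Fin (l + 1) => (AdjoinSimple.gen K x) ^ (i : ℕ)) :=
      hg.comp _ Fin.val_injective
    have hli := linearIndependent_smul hg' b.linearIndependent
    have hw : ∀ p : Fin (l + 1) × Fin n,
        (AdjoinSimple.gen K x) ^ (p.1 : ℕ) • b p.2 ∈ riemannRochSpace (l • B + C) := by
      intro p
      have hb0 : b p.2 ≠ 0 := b.ne_zero _
      have he : (AdjoinSimple.gen K x) ^ (p.1 : ℕ) • b p.2 = x ^ (p.1 : ℕ) * b p.2 := by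
        rw [Algebra.smul_def]
        simp
      rw [he, mem_riemannRochSpace_iff]
      intro v
      right
      have h1 := (mem_riemannRochSpace_iff.mp (hC p.2) v).resolve_left hb0
      rw [v.ord_mul (pow_ne_zero _ hx0) hb0, ← zpow_natCast, v.ord_zpow, Finsupp.add_apply,
        Finsupp.smul_apply, nsmul_eq_mul]
      have h2 := hBx v
      have h3 := hB0 v
      have h4 : ((p.1 : ℕ) : ℤ) ≤ (l : ℤ) := by
        have := p.1.2
        omega
      have h5 : (0 : ℤ) ≤ ((p.1 : ℕ) : ℤ) := Int.natCast_nonneg _
      have h6 : -((l : ℤ) * B v) ≤ ((p.1 : ℕ) : ℤ) * v.ord x := by nlinarith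
      linarith
    have hli' : LinearIndependent K (fun p : Fin (l + 1) × Fin n =>
        (⟨_, hw p⟩ : riemannRochSpace (l • B + C))) :=
      LinearIndependent.of_comp (riemannRochSpace (l • B + C)).subtype hli
    have := hfin (l • B + C)
    have h := hli'.fintype_card_le_finrank
    simpa using h
  -- Claim 2
  have claim2 : ∀ l : ℕ, defect (l • B) ≤ Divisor.degree C - n := by
    intro l
    have h1 := defect_le_add hdeg hstep C hC0 (l • B)
    have h2 := claim1 l
    refine h1.trans ?_
    unfold defect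
    rw [map_add, map_nsmul, hBdeg, nsmul_eq_mul]
    have h3 : (((l + 1) * n : ℕ) : ℤ) ≤ (Module.finrank K (riemannRochSpace (l • B + C)) : ℤ) := by
      exact_mod_cast h2
    push_cast at h3
    linarith
  refine ⟨Divisor.degree C - n, fun D => ?_⟩
  set γ : ℤ := Divisor.degree C - n with hγ
  set D1 : Divisor K F := D ⊔ 0 with hD1
  have hD1D : D ≤ D1 := le_sup_left
  have hD10 : 0 ≤ D1 := le_sup_right
  set l : ℕ := (Divisor.degree D1 + γ).toNat + 1 with hl
  have hl1 : Divisor.degree D1 + γ < (l : ℤ) * n := by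
    have h1 : Divisor.degree D1 + γ < (l : ℤ) := by
      rw [hl]
      push_cast
      have := Int.self_le_toNat (Divisor.degree D1 + γ)
      omega
    have h2 : (1 : ℤ) ≤ (n : ℤ) := by exact_mod_cast hnpos
    have h3 : (0 : ℤ) ≤ (l : ℤ) := Int.natCast_nonneg _
    nlinarith
  have hle : l • B - D1 ≤ l • B := sub_le_self _ hD10
  have hd1 := (defect_mono hdeg hstep hle).trans (claim2 l)
  have hpos : 0 < Module.finrank K (riemannRochSpace (l • B - D1)) := by
    unfold defect at hd1
    rw [map_sub, map_nsmul, hBdeg, nsmul_eq_mul] at hd1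
    have : (0 : ℤ) < (Module.finrank K (riemannRochSpace (l • B - D1)) : ℤ) := by linarith
    exact_mod_cast this
  have := Module.nontrivial_of_finrank_pos hpos
  obtain ⟨⟨z, hzmem⟩, hz⟩ := exists_ne (0 : riemannRochSpace (l • B - D1))
  have hz0 : z ≠ 0 := fun h => hz (Subtype.ext h)
  obtain ⟨Z, hZ, hZdeg⟩ := hP.exists_divisor z hz0
  have hle2 : D1 - Z ≤ l • B := by
    rw [Finsupp.le_def]
    intro v
    have h1 := (mem_riemannRochSpace_iff.mp hzmem v).resolve_left hz0
    rw [Finsupp.sub_apply] at h1 ⊢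
    rw [hZ v]
    omega
  have h1 : defect D ≤ defect D1 := defect_mono hdeg hstep hD1D
  have h2 : defect D1 ≤ defect (D1 - Z) := by
    have := finrank_sub_principal_le hfin D1 Z z hz0 hZ
    unfold defect
    rw [map_sub, hZdeg]
    omega
  have h3 : defect (D1 - Z) ≤ defect (l • B) := defect_mono hdeg hstep hle2
  exact h1.trans (h2.trans (h3.trans (claim2 l)))

end RC

/-- Riemann's bound. -/
theorem rc (h0 : Stmt_R0.{u, v}) (hA : Stmt_RA.{u, v}) : Stmt_RC.{u, v} := by
  intro K F _ _ _ _ _ hFF
  obtain ⟨hP, hdeg, -, -, -⟩ := h0 K F hFF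
  obtain ⟨hfin, -, -, hstep⟩ := hA K F hFF
  obtain ⟨x, hx, hfd⟩ := hFF
  exact RC.main hP hdeg hfin hstep x hx

end Fermat.Agent.S27
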