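import Fermat.Agent.S27.Interface

/-!
# S27, block RD : Riemann's theorem with the index of speciality `dim H¹(D)`
-/

set_option autoImplicit false

namespace Fermat.Agent.S27

open AlgebraicCurve

namespace RD

section LinAlg

variable {K V W : Type*} [Field K] [AddCommGroup V] [Module K V] [AddCommGroup W] [Module K W]

theorem finrank_map_add (f : V →ₗ[K] W) (S : Submodule K V) [Module.Finite K S] :
    Module.finrank K ↥(S.map f) + Module.finrank K ↥(S ⊓ LinearMap.ker f)
      = Module.finrank K S := by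
  have h := LinearMap.finrank_range_add_finrank_ker (f.domRestrict S)
  rw [LinearMap.range_domRestrict] at h
  have e : Module.finrank K ↥(LinearMap.ker (f.domRestrict S))
      = Module.finrank K ↥(S ⊓ LinearMap.ker f) := by
    rw [LinearMap.ker_domRestrict, ← Submodule.finrank_map_subtype_eq, Submodule.map_comap_subtype]
  rw [← e]
  exact h

theorem la_key (A A' P : Submodule K V) (hAA' : A ≤ A')
    [Module.Finite K ↥(A'.map A.mkQ)] [Module.Finite K ↥(A' ⊓ P)] :
    Module.Finite K ↥(A'.map (A ⊔ P).mkQ) ∧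
    Module.finrank K ↥(A'.map (A ⊔ P).mkQ) + Module.finrank K ↥(A' ⊓ P) =
      Module.finrank K ↥(A'.map A.mkQ) + Module.finrank K ↥(A ⊓ P) := by
  set φ : (V ⧸ A) →ₗ[K] (V ⧸ (A ⊔ P)) := Submodule.factor (le_sup_left : A ≤ A ⊔ P) with hφ
  have hcomp : φ ∘ₗ A.mkQ = (A ⊔ P).mkQ := by
    ext x
    simp [hφ]
  have hmap : (A'.map A.mkQ).map φ = A'.map (A ⊔ P).mkQ := by
    rw [← Submodule.map_comp, hcomp]
  have hker : (A'.map A.mkQ) ⊓ LinearMap.ker φ = (A' ⊓ P).map A.mkQ := by
    apply le_antisymm
    · rintro _ ⟨⟨a, ha, rfl⟩, hk⟩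
      have hk' : (A ⊔ P).mkQ a = 0 := by
        rw [← hcomp]; exact hk
      rw [Submodule.mkQ_apply, Submodule.Quotient.mk_eq_zero, Submodule.mem_sup] at hk'
      obtain ⟨y, hy, p, hp, rfl⟩ := hk'
      refine ⟨p, ⟨?_, hp⟩, ?_⟩
      · have : p = (y + p) - y := by abel
        rw [this]
        exact A'.sub_mem ha (hAA' hy)
      · rw [map_add]
        have : A.mkQ y = 0 := by
          rw [Submodule.mkQ_apply, Submodule.Quotient.mk_eq_zero]; exact hy
        rw [this, zero_add]
    · rintro _ ⟨p, ⟨hpA, hpP⟩, rfl⟩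
      refine ⟨⟨p, hpA, rfl⟩, ?_⟩
      show φ (A.mkQ p) = 0
      have : φ (A.mkQ p) = (A ⊔ P).mkQ p := by rw [← hcomp]; rfl
      rw [this, Submodule.mkQ_apply, Submodule.Quotient.mk_eq_zero]
      exact Submodule.mem_sup_right hpP
  have h1 := finrank_map_add φ (A'.map A.mkQ)
  have h2 := finrank_map_add A.mkQ (A' ⊓ P)
  rw [hmap, hker] at h1
  have hk2 : (A' ⊓ P) ⊓ LinearMap.ker A.mkQ = A ⊓ P := by
    rw [Submodule.ker_mkQ]
    apply le_antisymm
    · rintro x ⟨⟨_, h2⟩, h3⟩
      exact ⟨h3, h2⟩
    · rintro x ⟨h1, h2⟩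
      exact ⟨⟨hAA' h1, h2⟩, h1⟩
  rw [hk2] at h2
  refine ⟨?_, by omega⟩
  rw [← hmap]
  infer_instance

end LinAlg

section FF

variable {K F : Type*} [Field K] [Field F] [Algebra K F]

variable (K F) in
/-- The diagonal embedding `F → A`, as a `K`-linear map. -/
noncomputable def diag : F →ₗ[K] ↥(repartitions K F) :=
  (Algebra.linearMap F ↥(repartitions K F)).restrictScalars K

theorem diag_apply (f : F) (v : Place K F) : (diag K F f : Place K F → F) v = f := rfl

theorem diag_injective [Nonempty (Place K F)] : Function.Injective (diag K F) := by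
  intro f g h
  obtain ⟨v⟩ := ‹Nonempty (Place K F)›
  have := congrArg (fun a : ↥(repartitions K F) => (a : Place K F → F) v) h
  simpa [diag_apply] using this

theorem map_diag (D : Divisor K F) :
    (riemannRochSpace D).map (diag K F) = repartitionsOf D ⊓ principalRepartitions K F := by
  apply le_antisymm
  · rintro _ ⟨f, hf, rfl⟩
    exact ⟨hf, mem_principalRepartitions_iff.mpr ⟨f, rfl⟩⟩
  · rintro α ⟨hα, hP⟩
    obtain ⟨f, hf⟩ := mem_principalRepartitions_iff.mp hP
    have hαf : α = diag K F f := Subtype.ext hf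
    refine ⟨f, ?_, hαf.symm⟩
    rw [hαf] at hα
    exact hα

theorem finrank_inf [Nonempty (Place K F)] (D : Divisor K F) :
    Module.finrank K ↥(repartitionsOf D ⊓ principalRepartitions K F)
      = Module.finrank K ↥(riemannRochSpace D) := by
  rw [← map_diag]
  exact (LinearEquiv.finrank_eq
    (Submodule.equivMapOfInjective (diag K F) diag_injective (riemannRochSpace D))).symm

theorem finite_inf (D : Divisor K F) [Module.Finite K ↥(riemannRochSpace D)] :
    Module.Finite K ↥(repartitionsOf D ⊓ principalRepartitions K F) := by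
  rw [← map_diag]
  infer_instance

/-- `r(D) = deg D - l(D)`. -/
noncomputable def rr (D : Divisor K F) : ℤ :=
  Divisor.degree D - (Module.finrank K (riemannRochSpace D) : ℤ)

/-- The image of `A(D')` in `H¹(D)`. -/
noncomputable def img (D D' : Divisor K F) : Submodule K (H1 D) :=
  (repartitionsOf D').map (repartitionsOf D ⊔ principalRepartitions K F).mkQ

theorem img_mono (D : Divisor K F) {D' D'' : Divisor K F} (h : D' ≤ D'') :
    img D D' ≤ img D D'' :=
  Submodule.map_mono (repartitionsOf_mono h)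

/-- The hypotheses we use, for a fixed function field. -/
structure Hyp (K F : Type*) [Field K] [Field F] [Algebra K F] : Prop where
  ne : Nonempty (Place K F)
  poles : ∀ α : Place K F → F, α ∈ repartitions K F → {v : Place K F | v.ord (α v) < 0}.Finite
  finL : ∀ D : Divisor K F, Module.Finite K (riemannRochSpace D)
  L0 : ∀ f : F, f ∈ riemannRochSpace (0 : Divisor K F) ↔ f ∈ Set.range (algebraMap K F)
  quot : ∀ D D' : Divisor K F, D ≤ D' →
      Module.Finite K ↥((repartitionsOf D').map (repartitionsOf D).mkQ) ∧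
      (Module.finrank K ↥((repartitionsOf D').map (repartitionsOf D).mkQ) : ℤ)
        = Divisor.degree D' - Divisor.degree D
  bound : ∃ γ : ℤ, ∀ D : Divisor K F,
      Divisor.degree D - (Module.finrank K (riemannRochSpace D) : ℤ) ≤ γ

variable (H : Hyp K F)

include H

theorem img_finite {D D' : Divisor K F} (h : D ≤ D') : Module.Finite K ↥(img D D') := by
  have := (H.quot D D' h).1
  have := H.finL D'
  have := finite_inf D'
  exact (la_key (repartitionsOf D) (repartitionsOf D') (principalRepartitions K F)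
    (repartitionsOf_mono h)).1

theorem img_finrank {D D' : Divisor K F} (h : D ≤ D') :
    (Module.finrank K ↥(img D D') : ℤ) = rr D' - rr D := by
  have := (H.quot D D' h).1
  have := H.finL D'
  have := finite_inf D'
  have := H.ne
  have h1 := (la_key (repartitionsOf D) (repartitionsOf D') (principalRepartitions K F)
    (repartitionsOf_mono h)).2
  have h2 := (H.quot D D' h).2
  rw [finrank_inf, finrank_inf] at h1
  change Module.finrank K ↥(img D D') + _ = _ at h1
  unfold rr
  omega

theorem rr_mono {D D' : Divisor K F} (h : D ≤ D') : rr D ≤ rr D' := by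
  have := img_finrank H h
  omega

theorem exists_max : ∃ Dm : Divisor K F, ∀ D : Divisor K F, rr D ≤ rr Dm := by
  obtain ⟨γ, hγ⟩ := H.bound
  obtain ⟨ub, ⟨Dm, hDm⟩, hub⟩ := Int.exists_greatest_of_bdd
    (P := fun z => ∃ D : Divisor K F, rr D = z) ⟨γ, by rintro z ⟨D, rfl⟩; exact hγ D⟩
    ⟨rr (0 : Divisor K F), 0, rfl⟩
  exact ⟨Dm, fun D => by rw [hDm]; exact hub _ ⟨D, rfl⟩⟩

theorem exists_divisor (α : ↥(repartitions K F)) (D₁ : Divisor K F) :
    ∃ E : Divisor K F, D₁ ≤ E ∧ α ∈ repartitionsOf E := by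
  classical
  have hfin := H.poles α α.2
  let E₀ : Divisor K F := Finsupp.onFinset hfin.toFinset
    (fun v => if v.ord ((α : Place K F → F) v) < 0 then - v.ord ((α : Place K F → F) v) else 0)
    (by
      intro v hv
      rw [Set.Finite.mem_toFinset]
      by_contra hc
      exact hv (if_neg hc))
  refine ⟨D₁ ⊔ E₀, le_sup_left, repartitionsOf_mono (le_sup_right : E₀ ≤ D₁ ⊔ E₀) ?_⟩
  rw [mem_repartitionsOf_iff]
  intro v
  right
  show - (if v.ord ((α : Place K F → F) v) < 0 then - v.ord ((α : Place K F → F) v) else 0) ≤ _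
  split_ifs with h
  · simp
  · simpa using h

theorem img_eq_top {Dm : Divisor K F} (hm : ∀ D : Divisor K F, rr D ≤ rr Dm)
    {D D₁ : Divisor K F} (h : D ≤ D₁) (h' : Dm ≤ D₁) : img D D₁ = ⊤ := by
  rw [eq_top_iff]
  rintro x -
  obtain ⟨α, rfl⟩ := Submodule.mkQ_surjective _ x
  obtain ⟨E, hE, hα⟩ := exists_divisor H α D₁
  have := img_finite H (h.trans hE)
  have heq : img D D₁ = img D E := by
    apply Submodule.eq_of_le_of_finrank_le (img_mono D hE)
    have e1 := img_finrank H (h.trans hE)
    have e2 := img_finrank H h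
    have e3 := hm E
    have e4 := rr_mono H h'
    omega
  rw [heq]
  exact ⟨α, hα, rfl⟩

theorem h1_finite (D : Divisor K F) : Module.Finite K (H1 D) := by
  obtain ⟨Dm, hm⟩ := exists_max H
  have htop := img_eq_top H hm (le_sup_left : D ≤ D ⊔ Dm) le_sup_right
  have := img_finite H (le_sup_left : D ≤ D ⊔ Dm)
  rw [htop] at this
  exact Module.Finite.equiv (Submodule.topEquiv (R := K) (M := H1 D))

theorem h1_finrank {Dm : Divisor K F} (hm : ∀ D : Divisor K F, rr D ≤ rr Dm) (D : Divisor K F) :
    (Module.finrank K (H1 D) : ℤ) = rr Dm - rr D := by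
  have htop := img_eq_top H hm (le_sup_left : D ≤ D ⊔ Dm) le_sup_right
  have e := img_finrank H (le_sup_left : D ≤ D ⊔ Dm)
  rw [htop, finrank_top] at e
  have e1 := hm (D ⊔ Dm)
  have e2 := rr_mono H (le_sup_right : Dm ≤ D ⊔ Dm)
  omega

theorem finrank_L0 : Module.finrank K (riemannRochSpace (0 : Divisor K F)) = 1 := by
  have : riemannRochSpace (0 : Divisor K F) = LinearMap.range (Algebra.linearMap K F) := by
    ext f
    rw [H.L0 f]
    rfl
  rw [this, LinearMap.finrank_range_of_inj (algebraMap K F).injective]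
  exact Module.finrank_self K

theorem rr_zero : rr (0 : Divisor K F) = -1 := by
  unfold rr
  rw [finrank_L0 H]
  simp

theorem genus_eq {Dm : Divisor K F} (hm : ∀ D : Divisor K F, rr D ≤ rr Dm) :
    (genusFF K F : ℤ) = rr Dm + 1 := by
  have := h1_finrank H hm 0
  rw [rr_zero H] at this
  unfold genusFF
  omega

theorem riemann (D : Divisor K F) :
    (Module.finrank K (riemannRochSpace D) : ℤ) - Module.finrank K (H1 D)
      = Divisor.degree D + 1 - genusFF K F := by
  obtain ⟨Dm, hm⟩ := exists_max H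
  rw [genus_eq H hm, h1_finrank H hm D]
  unfold rr
  ring

omit H in
theorem sup_eq_top_of_mem {D₀ D : Divisor K F} {z : F} (hz : z ≠ 0)
    (hzL : z ∈ riemannRochSpace (D - D₀))
    (h0 : repartitionsOf D₀ ⊔ principalRepartitions K F = ⊤) :
    repartitionsOf D ⊔ principalRepartitions K F = ⊤ := by
  rw [eq_top_iff]
  rintro α -
  have hmem : z⁻¹ • α ∈ repartitionsOf D₀ ⊔ principalRepartitions K F := by
    rw [h0]; trivial
  obtain ⟨a, ha, p, hp, hap⟩ := Submodule.mem_sup.mp hmem
  have hα : α = z • a + z • p := by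
    rw [← smul_add, hap, smul_smul, mul_inv_cancel₀ hz, one_smul]
  rw [hα]
  apply Submodule.add_mem
  · apply Submodule.mem_sup_left
    intro v
    show v.adicValuation (z • (a : Place K F → F) v) ≤ WithZero.exp (D v)
    rw [smul_eq_mul, map_mul]
    have h1 := hzL v
    have h2 := ha v
    have h3 : WithZero.exp (D v) = WithZero.exp ((D - D₀) v) * WithZero.exp (D₀ v) := by
      rw [← WithZero.exp_add]
      congr 1
      simp
    rw [h3]
    exact mul_le_mul' h1 h2
  · apply Submodule.mem_sup_right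
    obtain ⟨f, hf⟩ := mem_principalRepartitions_iff.mp hp
    refine mem_principalRepartitions_iff.mpr ⟨z * f, ?_⟩
    funext v
    show z • (p : Place K F → F) v = z * f
    rw [hf, smul_eq_mul]

theorem vanish : ∃ c : ℤ, ∀ D : Divisor K F, c ≤ Divisor.degree D → Subsingleton (H1 D) := by
  obtain ⟨Dm, hm⟩ := exists_max H
  refine ⟨Divisor.degree Dm + genusFF K F, fun D hD => ?_⟩
  have h0 : repartitionsOf Dm ⊔ principalRepartitions K F = ⊤ := by
    rw [← Submodule.Quotient.subsingleton_iff]
    have := h1_finite H Dm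
    rw [← Module.finrank_zero_iff (R := K)]
    have h2 := h1_finrank H hm Dm
    rw [sub_self] at h2
    exact_mod_cast h2
  have hR := riemann H (D - Dm)
  rw [map_sub] at hR
  have hpos : 0 < Module.finrank K (riemannRochSpace (D - Dm)) := by omega
  have hne : riemannRochSpace (D - Dm) ≠ ⊥ := by
    intro hb
    rw [hb, finrank_bot] at hpos
    exact lt_irrefl _ hpos
  obtain ⟨z, hzL, hz⟩ := Submodule.exists_mem_ne_zero_of_ne_bot hne
  rw [Submodule.Quotient.subsingleton_iff]
  exact sup_eq_top_of_mem hz hzL h0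

omit H in
theorem mono_subsingleton {D D' : Divisor K F} (h : D ≤ D') (hs : Subsingleton (H1 D)) :
    Subsingleton (H1 D') := by
  rw [Submodule.Quotient.subsingleton_iff] at hs ⊢
  rw [eq_top_iff, ← hs]
  exact sup_le_sup_right (repartitionsOf_mono h) _

end FF

end RD

universe u v

/-- **RD**: Riemann's theorem with the index of speciality `dim H¹(D)`. -/
theorem rd (h0 : Stmt_R0.{u, v}) (hA : Stmt_RA.{u, v}) (hB : Stmt_RB.{u, v})
    (hC : Stmt_RC.{u, v}) : Stmt_RD.{u, v} := by
  intro K F _ _ _ _ _ hFF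
  obtain ⟨-, -, hinf, hpoles, -⟩ := h0 K F hFF
  obtain ⟨hfin, -, hL0, -⟩ := hA K F hFF
  have H : RD.Hyp K F :=
    { ne := inferInstance
      poles := fun α hα => (hpoles α).mp hα
      finL := hfin
      L0 := hL0
      quot := hB K F hFF
      bound := hC K F hFF }
  exact ⟨RD.h1_finite H, RD.riemann H, RD.vanish H, fun D D' h hs => RD.mono_subsingleton h hs⟩

end Fermat.Agent.S27
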