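import Mathlib
import Fermat.Prelude.Def_AlgebraicCurve_IsCurveOver
import Fermat.Prelude.Def_AlgebraicCurve_Repartitions

/-!
# S27 : shared definitions

`#Pic⁰(F)[n] = n^(2g)` for a function field `F` of genus `g` over an algebraically closed field of
characteristic zero, via the `H¹(O)`-valued local Abel–Jacobi map over `ℂ` and a Lefschetz argument.
-/

set_option autoImplicit false

namespace Fermat.Agent.S27

open AlgebraicCurve IntermediateField

section General

variable {K F : Type*} [Field K] [Field F] [Algebra K F]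

variable (K F) in
/-- `F` is a function field of one variable over `K`. -/
def IsFF : Prop := ∃ x : F, Transcendental K x ∧ FiniteDimensional K⟮x⟯ F

/-- `f` is regular at the place `v`. -/
def RegularAt (v : Place K F) (f : F) : Prop := f = 0 ∨ 0 ≤ v.ord f

/-- `f` vanishes at the place `v` (`f = 0` allowed). -/
def VanishesAt (v : Place K F) (f : F) : Prop := f = 0 ∨ 0 < v.ord f

open Classical in
/-- The value `f(v) ∈ K` of `f` at the place `v` (junk value `0` if `f` has a pole at `v`, or if the
residue class of `f` is not in `K`). -/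
noncomputable def evalAt (v : Place K F) (f : F) : K :=
  if h : ∃ a : K, VanishesAt v (f - algebraMap K F a) then h.choose else 0

open Classical in
/-- The repartition (adele) with component `f` at `v` and `0` elsewhere. -/
noncomputable def adeleSingle (v : Place K F) (f : F) : ↥(repartitions K F) :=
  ⟨fun w => if w = v then f else 0, mem_repartitions_of_finite <|
    (Set.finite_singleton v).subset fun w hw => by
      by_contra hne
      have hne' : w ≠ v := hne
      exact hw (by simp [hne'])⟩

/-- The class in `H¹(0) = A/(A(0)+F)` of the adele with component `f` at `v`, `0` elsewhere. -/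
noncomputable def h1Single (v : Place K F) (f : F) : H1 (0 : Divisor K F) :=
  Submodule.Quotient.mk (adeleSingle v f)

/-- The divisor `∑ i, [v i]`. -/
noncomputable def sumPlaces {ι : Type*} [Fintype ι] (v : ι → Place K F) : Divisor K F :=
  ∑ i, Finsupp.single (v i) 1

end General

section Complex

variable {F : Type*} [Field F] [Algebra ℂ F]

/-- A holomorphic chart: a family of places `c ↦ P c`, `‖c‖ < r`, with coordinate function `t ∈ F`
(`t(P c) = c`, unramified), along which every `f ∈ F` is meromorphic with the right orders. -/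
structure IsChart (r : ℝ) (P : ℂ → Place ℂ F) (t : F) : Prop where
  r_pos : 0 < r
  ord_t : ∀ c : ℂ, ‖c‖ < r → (P c).ord (t - algebraMap ℂ F c) = 1
  mero : ∀ (f : F) (c : ℂ), ‖c‖ < r → MeromorphicAt (fun z => evalAt (P z) f) c
  order : ∀ f : F, f ≠ 0 → ∀ c : ℂ, ‖c‖ < r →
    meromorphicOrderAt (fun z => evalAt (P z) f) c = (((P c).ord f : ℤ) : WithTop ℤ)
  analytic : ∀ (f : F) (c : ℂ), ‖c‖ < r → RegularAt (P c) f →
    AnalyticAt ℂ (fun z => evalAt (P z) f) c

/-- The tangent vector of the chart at `c`, in `H¹(0)`: class of the adele `1/(t-c)` at `P c`. -/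
noncomputable def kappa (P : ℂ → Place ℂ F) (t : F) (c : ℂ) : H1 (0 : Divisor ℂ F) :=
  h1Single (P c) (t - algebraMap ℂ F c)⁻¹

/-- `U` is the local Abel–Jacobi map of the chart in the coordinates `L` of `H¹(0)`. -/
def IsAJ {g : ℕ} (L : H1 (0 : Divisor ℂ F) ≃ₗ[ℂ] (Fin g → ℂ)) (r : ℝ) (P : ℂ → Place ℂ F) (t : F)
    (U : ℂ → (Fin g → ℂ)) : Prop :=
  U 0 = 0 ∧ ∀ c : ℂ, ‖c‖ < r → HasDerivAt U (L (kappa P t c)) c

end Complex

section ConstExt

variable (K₁ F₁ K₂ F₂ : Type*) [Field K₁] [Field F₁] [Field K₂] [Field F₂]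
  [Algebra K₁ F₁] [Algebra K₂ F₂] [Algebra K₁ K₂] [Algebra F₁ F₂] [Algebra K₁ F₂]
  [IsScalarTower K₁ K₂ F₂] [IsScalarTower K₁ F₁ F₂]

/-- `F₂ = F₁ K₂` is the constant field extension of `F₁/K₁` to `K₂`. -/
structure IsConstExt : Prop where
  linDisj : ∀ (n : ℕ) (f : Fin n → F₁), LinearIndependent K₁ f →
    LinearIndependent K₂ (fun i => algebraMap F₁ F₂ (f i))
  gen : IntermediateField.adjoin K₂ (Set.range (algebraMap F₁ F₂)) = ⊤

variable {K₁ F₁ K₂ F₂}

/-- `φ` sends every place of `F₁/K₁` to its (unique) extension to `F₂/K₂`. -/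
structure IsPlaceExt (φ : Place K₁ F₁ → Place K₂ F₂) : Prop where
  ord_eq : ∀ (v : Place K₁ F₁) (f : F₁), (φ v).ord (algebraMap F₁ F₂ f) = v.ord f
  injective : Function.Injective φ
  exists_of_ne : ∀ w : Place K₂ F₂, (∃ f : F₁, w.ord (algebraMap F₁ F₂ f) ≠ 0) → ∃ v, φ v = w
  degree_eq : ∀ D : Divisor K₁ F₁, Divisor.degree (D.mapDomain φ) = Divisor.degree D
  principal_iff : ∀ D : Divisor K₁ F₁,
    Divisor.IsPrincipal (D.mapDomain φ) ↔ Divisor.IsPrincipal D

end ConstExt

end Fermat.Agent.S27
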