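import Fermat.Agent.S27.Defs
import Fermat.Agent.S24.PlaceCases

/-!
# S27, package EV : API for `RegularAt`, `VanishesAt`, `evalAt`, and basic chart lemmas
-/

set_option autoImplicit false

namespace Fermat.Agent.S27

open AlgebraicCurve IntermediateField Polynomial

section General

variable {K F : Type*} [Field K] [Field F] [Algebra K F]

/-! ### translation to the valuation subring -/

theorem regularAt_iff_mem {v : Place K F} {f : F} :
    RegularAt v f ↔ f ∈ v.toValuationSubring := by
  constructor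
  · rintro (rfl | h)
    · exact zero_mem _
    · rcases eq_or_ne f 0 with rfl | hf
      · exact zero_mem _
      · exact S24.mem_of_ord_nonneg v hf h
  · intro h
    exact Or.inr (S24.ord_nonneg_of_mem v h)

theorem regularAt_iff_valuation_le_one {v : Place K F} {f : F} :
    RegularAt v f ↔ v.toValuationSubring.valuation f ≤ 1 := by
  rw [regularAt_iff_mem, ValuationSubring.valuation_le_one_iff]

theorem VanishesAt.regularAt {v : Place K F} {f : F} (h : VanishesAt v f) : RegularAt v f :=
  h.imp id le_of_lt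

theorem vanishesAt_iff_mem_maximalIdeal {v : Place K F} {f : F} :
    VanishesAt v f ↔ ∃ h : f ∈ v.toValuationSubring,
      (⟨f, h⟩ : v.toValuationSubring) ∈ IsLocalRing.maximalIdeal v.toValuationSubring := by
  constructor
  · intro h
    refine ⟨regularAt_iff_mem.1 h.regularAt, ?_⟩
    rcases h with rfl | h
    · exact zero_mem _
    · have hf : f ≠ 0 := by
        rintro rfl
        simp at h
      exact (S24.mem_maximalIdeal_iff_ord_pos v ⟨f, _⟩
        (fun h0 => hf (congrArg Subtype.val h0))).2 h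
  · rintro ⟨h, hm⟩
    rcases eq_or_ne f 0 with rfl | hf
    · exact Or.inl rfl
    · exact Or.inr ((S24.mem_maximalIdeal_iff_ord_pos v ⟨f, h⟩
        (fun h0 => hf (congrArg Subtype.val h0))).1 hm)

theorem vanishesAt_iff_valuation_lt_one {v : Place K F} {f : F} :
    VanishesAt v f ↔ v.toValuationSubring.valuation f < 1 := by
  rw [vanishesAt_iff_mem_maximalIdeal]
  constructor
  · rintro ⟨h, hm⟩
    exact (ValuationSubring.valuation_lt_one_iff _ ⟨f, h⟩).1 hm
  · intro h
    have hmem : f ∈ v.toValuationSubring :=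
      (ValuationSubring.valuation_le_one_iff _ _).1 h.le
    exact ⟨hmem, (ValuationSubring.valuation_lt_one_iff _ ⟨f, hmem⟩).2 h⟩

theorem regularAt_of_ord_nonneg {v : Place K F} {f : F} (h : 0 ≤ v.ord f) : RegularAt v f :=
  Or.inr h

theorem vanishesAt_of_ord_pos {v : Place K F} {f : F} (h : 0 < v.ord f) : VanishesAt v f :=
  Or.inr h

theorem RegularAt.ord_nonneg {v : Place K F} {f : F} (h : RegularAt v f) : 0 ≤ v.ord f := by
  rcases h with rfl | h
  · simp
  · exact h

theorem regularAt_iff_ord_nonneg {v : Place K F} {f : F} : RegularAt v f ↔ 0 ≤ v.ord f :=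
  ⟨RegularAt.ord_nonneg, regularAt_of_ord_nonneg⟩

theorem VanishesAt.ord_pos {v : Place K F} {f : F} (h : VanishesAt v f) (hf : f ≠ 0) :
    0 < v.ord f := h.resolve_left hf

theorem vanishesAt_iff_ord_pos {v : Place K F} {f : F} (hf : f ≠ 0) :
    VanishesAt v f ↔ 0 < v.ord f :=
  ⟨fun h => h.ord_pos hf, vanishesAt_of_ord_pos⟩

theorem not_regularAt_iff {v : Place K F} {f : F} : ¬ RegularAt v f ↔ v.ord f < 0 := by
  rw [regularAt_iff_ord_nonneg, not_le]

/-! ### closure properties of `RegularAt` -/

@[simp] theorem regularAt_zero (v : Place K F) : RegularAt v (0 : F) := Or.inl rfl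

@[simp] theorem regularAt_one (v : Place K F) : RegularAt v (1 : F) :=
  regularAt_iff_mem.2 (one_mem _)

@[simp] theorem regularAt_algebraMap (v : Place K F) (a : K) : RegularAt v (algebraMap K F a) :=
  regularAt_iff_mem.2 (v.algebraMap_mem' a)

theorem regularAt_add {v : Place K F} {f g : F} (hf : RegularAt v f) (hg : RegularAt v g) :
    RegularAt v (f + g) :=
  regularAt_iff_mem.2 (add_mem (regularAt_iff_mem.1 hf) (regularAt_iff_mem.1 hg))

theorem regularAt_sub {v : Place K F} {f g : F} (hf : RegularAt v f) (hg : RegularAt v g) :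
    RegularAt v (f - g) :=
  regularAt_iff_mem.2 (sub_mem (regularAt_iff_mem.1 hf) (regularAt_iff_mem.1 hg))

theorem regularAt_neg {v : Place K F} {f : F} (hf : RegularAt v f) : RegularAt v (-f) :=
  regularAt_iff_mem.2 (neg_mem (regularAt_iff_mem.1 hf))

theorem regularAt_mul {v : Place K F} {f g : F} (hf : RegularAt v f) (hg : RegularAt v g) :
    RegularAt v (f * g) :=
  regularAt_iff_mem.2 (mul_mem (regularAt_iff_mem.1 hf) (regularAt_iff_mem.1 hg))

theorem regularAt_pow {v : Place K F} {f : F} (hf : RegularAt v f) (n : ℕ) :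
    RegularAt v (f ^ n) :=
  regularAt_iff_mem.2 (pow_mem (regularAt_iff_mem.1 hf) n)

theorem regularAt_smul {v : Place K F} {f : F} (a : K) (hf : RegularAt v f) :
    RegularAt v (a • f) := by
  rw [Algebra.smul_def]
  exact regularAt_mul (regularAt_algebraMap v a) hf

theorem regularAt_sum {v : Place K F} {ι : Type*} (s : Finset ι) (f : ι → F)
    (hf : ∀ i ∈ s, RegularAt v (f i)) : RegularAt v (∑ i ∈ s, f i) :=
  regularAt_iff_mem.2 (sum_mem fun i hi => regularAt_iff_mem.1 (hf i hi))

theorem regularAt_prod {v : Place K F} {ι : Type*} (s : Finset ι) (f : ι → F)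
    (hf : ∀ i ∈ s, RegularAt v (f i)) : RegularAt v (∏ i ∈ s, f i) :=
  regularAt_iff_mem.2 (prod_mem fun i hi => regularAt_iff_mem.1 (hf i hi))

theorem regularAt_natCast (v : Place K F) (n : ℕ) : RegularAt v (n : F) :=
  regularAt_iff_mem.2 (natCast_mem _ n)

theorem regularAt_intCast (v : Place K F) (n : ℤ) : RegularAt v (n : F) :=
  regularAt_iff_mem.2 (intCast_mem _ n)

theorem regularAt_or_inv (v : Place K F) (f : F) : RegularAt v f ∨ RegularAt v f⁻¹ :=
  (v.toValuationSubring.mem_or_inv_mem f).imp regularAt_iff_mem.2 regularAt_iff_mem.2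

theorem regularAt_aeval {v : Place K F} {f : F} (hf : RegularAt v f) (p : K[X]) :
    RegularAt v (aeval f p) := by
  rw [aeval_eq_sum_range]
  exact regularAt_sum _ _ fun i _ => regularAt_smul _ (regularAt_pow hf i)

/-! ### closure properties of `VanishesAt` -/

@[simp] theorem vanishesAt_zero (v : Place K F) : VanishesAt v (0 : F) := Or.inl rfl

theorem vanishesAt_add {v : Place K F} {f g : F} (hf : VanishesAt v f) (hg : VanishesAt v g) :
    VanishesAt v (f + g) := by
  rw [vanishesAt_iff_valuation_lt_one] at *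
  exact lt_of_le_of_lt (Valuation.map_add _ _ _) (max_lt hf hg)

theorem vanishesAt_neg {v : Place K F} {f : F} (hf : VanishesAt v f) : VanishesAt v (-f) := by
  rw [vanishesAt_iff_valuation_lt_one] at *
  rwa [Valuation.map_neg]

theorem vanishesAt_sub {v : Place K F} {f g : F} (hf : VanishesAt v f) (hg : VanishesAt v g) :
    VanishesAt v (f - g) := by
  rw [sub_eq_add_neg]
  exact vanishesAt_add hf (vanishesAt_neg hg)

/-- regular * vanishing -/
theorem vanishesAt_mul_left {v : Place K F} {f g : F} (hf : RegularAt v f) (hg : VanishesAt v g) :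
    VanishesAt v (f * g) := by
  rw [vanishesAt_iff_mem_maximalIdeal] at *
  obtain ⟨hg1, hg2⟩ := hg
  have hf1 := regularAt_iff_mem.1 hf
  exact ⟨mul_mem hf1 hg1, Ideal.mul_mem_left _ (⟨f, hf1⟩ : v.toValuationSubring) hg2⟩

/-- vanishing * regular -/
theorem vanishesAt_mul_right {v : Place K F} {f g : F} (hf : VanishesAt v f) (hg : RegularAt v g) :
    VanishesAt v (f * g) := by
  rw [mul_comm]
  exact vanishesAt_mul_left hg hf

theorem vanishesAt_smul {v : Place K F} {f : F} (a : K) (hf : VanishesAt v f) :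
    VanishesAt v (a • f) := by
  rw [Algebra.smul_def]
  exact vanishesAt_mul_left (regularAt_algebraMap v a) hf

theorem vanishesAt_pow {v : Place K F} {f : F} (hf : VanishesAt v f) {n : ℕ} (hn : n ≠ 0) :
    VanishesAt v (f ^ n) := by
  obtain ⟨m, rfl⟩ := Nat.exists_eq_succ_of_ne_zero hn
  rw [pow_succ]
  exact vanishesAt_mul_left (regularAt_pow hf.regularAt m) hf

theorem vanishesAt_sum {v : Place K F} {ι : Type*} (s : Finset ι) (f : ι → F)
    (hf : ∀ i ∈ s, VanishesAt v (f i)) : VanishesAt v (∑ i ∈ s, f i) := by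
  classical
  induction s using Finset.induction_on with
  | empty => simp
  | insert a s ha ih =>
    rw [Finset.sum_insert ha]
    exact vanishesAt_add (hf a (Finset.mem_insert_self a s))
      (ih fun i hi => hf i (Finset.mem_insert_of_mem hi))

theorem vanishesAt_mul_iff {v : Place K F} {f g : F} (hf : RegularAt v f) (hg : RegularAt v g) :
    VanishesAt v (f * g) ↔ VanishesAt v f ∨ VanishesAt v g := by
  constructor
  · intro h
    by_contra hcon
    rw [not_or] at hcon
    rw [vanishesAt_iff_valuation_lt_one, not_lt] at hcon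
    rw [vanishesAt_iff_valuation_lt_one, not_lt] at hcon
    rw [regularAt_iff_valuation_le_one] at hf hg
    rw [vanishesAt_iff_valuation_lt_one, map_mul, le_antisymm hf hcon.1,
      le_antisymm hg hcon.2] at h
    simp at h
  · rintro (h | h)
    · exact vanishesAt_mul_right h hg
    · exact vanishesAt_mul_left hf h

theorem not_vanishesAt_one (v : Place K F) : ¬ VanishesAt v (1 : F) := by
  rw [vanishesAt_iff_valuation_lt_one, map_one]
  exact lt_irrefl _

theorem vanishesAt_algebraMap_iff {v : Place K F} {a : K} :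
    VanishesAt v (algebraMap K F a) ↔ a = 0 := by
  constructor
  · rintro (h | h)
    · exact (map_eq_zero _).1 h
    · rw [S24.ord_algebraMap] at h
      exact absurd h (lt_irrefl _)
  · rintro rfl
    simp

/-- `f` has a pole at `v` iff `f⁻¹` vanishes there and `f ≠ 0`. -/
theorem vanishesAt_inv_of_not_regularAt {v : Place K F} {f : F} (h : ¬ RegularAt v f) :
    VanishesAt v f⁻¹ := by
  rw [not_regularAt_iff] at h
  refine Or.inr ?_
  rw [v.ord_inv]
  omega

/-! ### `evalAt` -/

theorem evalAt_unique (v : Place K F) (f : F) (a : K)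
    (h : VanishesAt v (f - algebraMap K F a)) : evalAt v f = a := by
  classical
  have hex : ∃ a : K, VanishesAt v (f - algebraMap K F a) := ⟨a, h⟩
  unfold evalAt
  rw [dif_pos hex]
  have h2 := vanishesAt_sub h hex.choose_spec
  have h3 : f - algebraMap K F a - (f - algebraMap K F hex.choose)
      = algebraMap K F (hex.choose - a) := by
    rw [map_sub]; ring
  rw [h3, vanishesAt_algebraMap_iff] at h2
  exact sub_eq_zero.1 h2

theorem evalAt_of_not_regularAt {v : Place K F} {f : F} (h : ¬ RegularAt v f) :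
    evalAt v f = 0 := by
  classical
  unfold evalAt
  rw [dif_neg]
  rintro ⟨a, ha⟩
  apply h
  have := regularAt_add ha.regularAt (regularAt_algebraMap v a)
  rwa [sub_add_cancel] at this

@[simp] theorem evalAt_algebraMap (v : Place K F) (a : K) : evalAt v (algebraMap K F a) = a :=
  evalAt_unique v _ a (by simp)

@[simp] theorem evalAt_zero (v : Place K F) : evalAt v (0 : F) = 0 :=
  evalAt_unique v _ 0 (by simp)

@[simp] theorem evalAt_one (v : Place K F) : evalAt v (1 : F) = 1 :=
  evalAt_unique v _ 1 (by simp)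

theorem evalAt_eq_zero_of_vanishesAt {v : Place K F} {f : F} (h : VanishesAt v f) :
    evalAt v f = 0 :=
  evalAt_unique v _ 0 (by simpa using h)

/-- `f` has a value in `K` at `v`. -/
def HasValueAt (v : Place K F) (f : F) : Prop := ∃ a : K, VanishesAt v (f - algebraMap K F a)

theorem HasValueAt.spec {v : Place K F} {f : F} (h : HasValueAt v f) :
    VanishesAt v (f - algebraMap K F (evalAt v f)) := by
  obtain ⟨a, ha⟩ := h
  rwa [evalAt_unique v f a ha]

theorem HasValueAt.regularAt {v : Place K F} {f : F} (h : HasValueAt v f) : RegularAt v f := by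
  obtain ⟨a, ha⟩ := h
  have := regularAt_add ha.regularAt (regularAt_algebraMap v a)
  rwa [sub_add_cancel] at this

theorem HasValueAt.evalAt_add {v : Place K F} {f g : F} (hf : HasValueAt v f)
    (hg : HasValueAt v g) : evalAt v (f + g) = evalAt v f + evalAt v g := by
  refine evalAt_unique v _ _ ?_
  have := vanishesAt_add hf.spec hg.spec
  rw [map_add]
  convert this using 1
  ring

theorem HasValueAt.evalAt_neg {v : Place K F} {f : F} (hf : HasValueAt v f) :
    evalAt v (-f) = -evalAt v f := by
  refine evalAt_unique v _ _ ?_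
  have := vanishesAt_neg hf.spec
  rw [map_neg]
  convert this using 1
  ring

theorem HasValueAt.evalAt_mul {v : Place K F} {f g : F} (hf : HasValueAt v f)
    (hg : HasValueAt v g) : evalAt v (f * g) = evalAt v f * evalAt v g := by
  refine evalAt_unique v _ _ ?_
  have := vanishesAt_add (vanishesAt_mul_right hf.spec hg.regularAt)
    (vanishesAt_mul_left (regularAt_algebraMap v (evalAt v f)) hg.spec)
  rw [map_mul]
  convert this using 1
  ring

/-! ### places -/

theorem place_eq_of_regularAt_iff {v w : Place K F} (h : ∀ f, RegularAt v f ↔ RegularAt w f) :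
    v = w := by
  apply Place.ext
  ext f
  rw [← regularAt_iff_mem, ← regularAt_iff_mem]
  exact h f

theorem place_ext_of_ord {v w : Place K F} (h : ∀ f, v.ord f = w.ord f) : v = w :=
  place_eq_of_regularAt_iff fun f => by
    rw [regularAt_iff_ord_nonneg, regularAt_iff_ord_nonneg, h f]

/-- two DVRs of `F`, one inside the other, are equal. -/
theorem place_eq_of_regularAt_imp {v w : Place K F} (h : ∀ f, RegularAt v f → RegularAt w f) :
    v = w := by
  refine place_eq_of_regularAt_iff fun f => ⟨h f, fun hw => ?_⟩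
  by_contra hv
  -- `f` has a pole at `v`; then every element of `F` is regular at `w`
  rw [not_regularAt_iff] at hv
  apply w.ne_top'
  refine SetLike.ext fun g => ⟨fun _ => ValuationSubring.mem_top g, fun _ => ?_⟩
  rw [← regularAt_iff_mem]
  have hf0 : f ≠ 0 := by
    rintro rfl
    simp at hv
  rcases eq_or_ne g 0 with rfl | hg0
  · exact regularAt_zero w
  -- `g = (g * f⁻¹ ^ n) * f ^ n` with `n` large
  obtain ⟨n, hn⟩ : ∃ n : ℕ, 0 ≤ v.ord g + n * (-v.ord f) := by
    refine ⟨(-v.ord g).toNat, ?_⟩
    have h1 : -v.ord g ≤ ((-v.ord g).toNat : ℤ) := Int.self_le_toNat _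
    have h2 : (0 : ℤ) ≤ ((-v.ord g).toNat : ℤ) := Int.natCast_nonneg _
    nlinarith
  have h1 : RegularAt v (g * (f⁻¹) ^ n) := by
    refine regularAt_of_ord_nonneg ?_
    rw [v.ord_mul hg0 (pow_ne_zero _ (inv_ne_zero hf0)), ← zpow_natCast, v.ord_zpow, v.ord_inv]
    exact hn
  have h2 := regularAt_mul (h _ h1) (regularAt_pow hw n)
  have h3 : g * f⁻¹ ^ n * f ^ n = g := by
    rw [mul_assoc, ← mul_pow, inv_mul_cancel₀ hf0, one_pow, mul_one]
  rwa [h3] at h2

end General

section AlgClosed

variable {K F : Type*} [Field K] [Field F] [Algebra K F] [IsAlgClosed K]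

theorem hasValueAt_of_regularAt (hF : IsFF K F) {v : Place K F} {f : F} (h : RegularAt v f) :
    HasValueAt v f := by
  obtain ⟨x, hx, hfd⟩ := hF
  have hdeg : Module.finrank K v.ResidueField = 1 := S24.place_deg_eq_one x hx v
  have hmem := regularAt_iff_mem.1 h
  have htop : (⊥ : Subalgebra K v.ResidueField) = ⊤ := Subalgebra.bot_eq_top_of_finrank_eq_one hdeg
  have hin : IsLocalRing.residue v.toValuationSubring ⟨f, hmem⟩ ∈
      (⊥ : Subalgebra K v.ResidueField) := by
    rw [htop]; exact Algebra.mem_top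
  obtain ⟨c, hc⟩ := Algebra.mem_bot.1 hin
  refine ⟨c, vanishesAt_iff_mem_maximalIdeal.2
    ⟨sub_mem hmem (v.algebraMap_mem' c), ?_⟩⟩
  have : (⟨f - algebraMap K F c, sub_mem hmem (v.algebraMap_mem' c)⟩ : v.toValuationSubring)
      = ⟨f, hmem⟩ - algebraMap K v.toValuationSubring c := rfl
  rw [this, ← IsLocalRing.residue_eq_zero_iff, map_sub, ← hc, sub_eq_zero]
  rfl

theorem evalAt_spec (hF : IsFF K F) {v : Place K F} {f : F} (h : RegularAt v f) :
    VanishesAt v (f - algebraMap K F (evalAt v f)) :=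
  (hasValueAt_of_regularAt hF h).spec

theorem evalAt_add (hF : IsFF K F) {v : Place K F} {f g : F} (hf : RegularAt v f)
    (hg : RegularAt v g) : evalAt v (f + g) = evalAt v f + evalAt v g :=
  (hasValueAt_of_regularAt hF hf).evalAt_add (hasValueAt_of_regularAt hF hg)

theorem evalAt_neg (hF : IsFF K F) {v : Place K F} {f : F} (hf : RegularAt v f) :
    evalAt v (-f) = -evalAt v f :=
  (hasValueAt_of_regularAt hF hf).evalAt_neg

theorem evalAt_sub (hF : IsFF K F) {v : Place K F} {f g : F} (hf : RegularAt v f)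
    (hg : RegularAt v g) : evalAt v (f - g) = evalAt v f - evalAt v g := by
  rw [sub_eq_add_neg, evalAt_add hF hf (regularAt_neg hg), evalAt_neg hF hg, sub_eq_add_neg]

theorem evalAt_mul (hF : IsFF K F) {v : Place K F} {f g : F} (hf : RegularAt v f)
    (hg : RegularAt v g) : evalAt v (f * g) = evalAt v f * evalAt v g :=
  (hasValueAt_of_regularAt hF hf).evalAt_mul (hasValueAt_of_regularAt hF hg)

theorem evalAt_smul (hF : IsFF K F) {v : Place K F} {f : F} (a : K) (hf : RegularAt v f) :
    evalAt v (a • f) = a * evalAt v f := by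
  rw [Algebra.smul_def, evalAt_mul hF (regularAt_algebraMap v a) hf, evalAt_algebraMap]

theorem evalAt_pow (hF : IsFF K F) {v : Place K F} {f : F} (hf : RegularAt v f) (n : ℕ) :
    evalAt v (f ^ n) = evalAt v f ^ n := by
  induction n with
  | zero => simp
  | succ n ih => rw [pow_succ, evalAt_mul hF (regularAt_pow hf n) hf, ih, pow_succ]

theorem evalAt_sum (hF : IsFF K F) {v : Place K F} {ι : Type*} (s : Finset ι) (f : ι → F)
    (hf : ∀ i ∈ s, RegularAt v (f i)) : evalAt v (∑ i ∈ s, f i) = ∑ i ∈ s, evalAt v (f i) := by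
  classical
  induction s using Finset.induction_on with
  | empty => simp
  | insert a s ha ih =>
    rw [Finset.sum_insert ha, Finset.sum_insert ha,
      evalAt_add hF (hf a (Finset.mem_insert_self a s))
        (regularAt_sum _ _ fun i hi => hf i (Finset.mem_insert_of_mem hi)),
      ih fun i hi => hf i (Finset.mem_insert_of_mem hi)]

theorem evalAt_prod (hF : IsFF K F) {v : Place K F} {ι : Type*} (s : Finset ι) (f : ι → F)
    (hf : ∀ i ∈ s, RegularAt v (f i)) : evalAt v (∏ i ∈ s, f i) = ∏ i ∈ s, evalAt v (f i) := by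
  classical
  induction s using Finset.induction_on with
  | empty => simp
  | insert a s ha ih =>
    rw [Finset.prod_insert ha, Finset.prod_insert ha,
      evalAt_mul hF (hf a (Finset.mem_insert_self a s))
        (regularAt_prod _ _ fun i hi => hf i (Finset.mem_insert_of_mem hi)),
      ih fun i hi => hf i (Finset.mem_insert_of_mem hi)]

theorem evalAt_eq_zero_iff (hF : IsFF K F) {v : Place K F} {f : F} (hf : RegularAt v f) :
    evalAt v f = 0 ↔ VanishesAt v f := by
  constructor
  · intro h
    have := evalAt_spec hF hf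
    rwa [h, map_zero, sub_zero] at this
  · exact evalAt_eq_zero_of_vanishesAt

theorem evalAt_eq_iff (hF : IsFF K F) {v : Place K F} {f : F} (hf : RegularAt v f) (a : K) :
    evalAt v f = a ↔ VanishesAt v (f - algebraMap K F a) :=
  ⟨fun h => h ▸ evalAt_spec hF hf, evalAt_unique v f a⟩

theorem regularAt_inv (hF : IsFF K F) {v : Place K F} {f : F} (hf : RegularAt v f)
    (h0 : evalAt v f ≠ 0) : RegularAt v f⁻¹ ∧ evalAt v f⁻¹ = (evalAt v f)⁻¹ := by
  have hreg : RegularAt v f⁻¹ := by
    by_contra hcon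
    have h1 := vanishesAt_inv_of_not_regularAt hcon
    rw [inv_inv] at h1
    exact h0 (evalAt_eq_zero_of_vanishesAt h1)
  refine ⟨hreg, ?_⟩
  have hf0 : f ≠ 0 := by
    rintro rfl
    simp at h0
  have h1 := evalAt_mul hF hf hreg
  rw [mul_inv_cancel₀ hf0, evalAt_one] at h1
  exact eq_inv_of_mul_eq_one_right h1.symm

theorem evalAt_div (hF : IsFF K F) {v : Place K F} {f g : F} (hf : RegularAt v f)
    (hg : RegularAt v g) (h0 : evalAt v g ≠ 0) :
    RegularAt v (f / g) ∧ evalAt v (f / g) = evalAt v f / evalAt v g := by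
  obtain ⟨h1, h2⟩ := regularAt_inv hF hg h0
  rw [div_eq_mul_inv, div_eq_mul_inv]
  exact ⟨regularAt_mul hf h1, by rw [evalAt_mul hF hf h1, h2]⟩

/-- for `f ≠ 0`: `ord = 0` iff `f` is regular with nonzero value. -/
theorem ord_eq_zero_iff (hF : IsFF K F) {v : Place K F} {f : F} (hf : f ≠ 0) :
    v.ord f = 0 ↔ RegularAt v f ∧ evalAt v f ≠ 0 := by
  constructor
  · intro h
    have hreg : RegularAt v f := regularAt_of_ord_nonneg h.ge
    refine ⟨hreg, fun h0 => ?_⟩
    have := ((evalAt_eq_zero_iff hF hreg).1 h0).ord_pos hf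
    omega
  · rintro ⟨hreg, h0⟩
    have h1 := hreg.ord_nonneg
    rcases h1.lt_or_eq with h | h
    · exact absurd (evalAt_eq_zero_of_vanishesAt (vanishesAt_of_ord_pos h)) h0
    · exact h.symm

theorem evalAt_aeval (hF : IsFF K F) {v : Place K F} {f : F} (hf : RegularAt v f) (p : K[X]) :
    evalAt v (aeval f p) = p.eval (evalAt v f) := by
  rw [aeval_eq_sum_range, eval_eq_sum_range,
    evalAt_sum hF _ _ fun i _ => regularAt_smul _ (regularAt_pow hf i)]
  refine Finset.sum_congr rfl fun i _ => ?_
  rw [evalAt_smul hF _ (regularAt_pow hf i), evalAt_pow hF hf]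

/-- bivariate polynomials: regularity and value of `Φ(t,y)`. -/
theorem regularAt_evalAt_aevalAeval (hF : IsFF K F) {v : Place K F} {t y : F}
    (ht : RegularAt v t) (hy : RegularAt v y) (Φ : K[X][X]) :
    RegularAt v (aevalAeval t y Φ) ∧
      evalAt v (aevalAeval t y Φ) = Φ.evalEval (evalAt v t) (evalAt v y) := by
  induction Φ using Polynomial.induction_on with
  | C p =>
    rw [aevalAeval_C, evalEval_C]
    exact ⟨regularAt_aeval ht p, evalAt_aeval hF ht p⟩
  | add p q hp hq =>
    rw [map_add, evalEval_add]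
    exact ⟨regularAt_add hp.1 hq.1, by rw [evalAt_add hF hp.1 hq.1, hp.2, hq.2]⟩
  | monomial n a ih =>
    rw [pow_succ, ← mul_assoc, map_mul, aevalAeval_Y, evalEval_mul, evalEval_X]
    exact ⟨regularAt_mul ih.1 hy, by rw [evalAt_mul hF ih.1 hy, ih.2]⟩

theorem regularAt_aevalAeval (hF : IsFF K F) {v : Place K F} {t y : F}
    (ht : RegularAt v t) (hy : RegularAt v y) (Φ : K[X][X]) :
    RegularAt v (aevalAeval t y Φ) :=
  (regularAt_evalAt_aevalAeval hF ht hy Φ).1

theorem evalAt_aevalAeval (hF : IsFF K F) {v : Place K F} {t y : F}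
    (ht : RegularAt v t) (hy : RegularAt v y) (Φ : K[X][X]) :
    evalAt v (aevalAeval t y Φ) = Φ.evalEval (evalAt v t) (evalAt v y) :=
  (regularAt_evalAt_aevalAeval hF ht hy Φ).2

omit [IsAlgClosed K] in
theorem aevalAeval_eq_evalEval_map (t y : F) (Φ : K[X][X]) :
    aevalAeval t y Φ = (Φ.map (mapRingHom (algebraMap K F))).evalEval t y := by
  induction Φ using Polynomial.induction_on with
  | C p => rw [aevalAeval_C, map_C, evalEval_C, coe_mapRingHom, eval_map, aeval_def]
  | add p q hp hq => rw [map_add, Polynomial.map_add, evalEval_add, hp, hq]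
  | monomial n a ih =>
    rw [pow_succ, ← mul_assoc, map_mul, aevalAeval_Y, Polynomial.map_mul, evalEval_mul, ih,
      Polynomial.map_X, evalEval_X]

theorem regularAt_evalEval_map (hF : IsFF K F) {v : Place K F} {t y : F}
    (ht : RegularAt v t) (hy : RegularAt v y) (Φ : K[X][X]) :
    RegularAt v ((Φ.map (mapRingHom (algebraMap K F))).evalEval t y) := by
  rw [← aevalAeval_eq_evalEval_map]
  exact regularAt_aevalAeval hF ht hy Φ

theorem evalAt_evalEval_map (hF : IsFF K F) {v : Place K F} {t y : F}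
    (ht : RegularAt v t) (hy : RegularAt v y) (Φ : K[X][X]) :
    evalAt v ((Φ.map (mapRingHom (algebraMap K F))).evalEval t y)
      = Φ.evalEval (evalAt v t) (evalAt v y) := by
  rw [← aevalAeval_eq_evalEval_map]
  exact evalAt_aevalAeval hF ht hy Φ

/-- two distinct places can be separated by a function. -/
theorem exists_separating (hF : IsFF K F) {v w : Place K F} (hvw : v ≠ w) :
    ∃ f : F, RegularAt v f ∧ RegularAt w f ∧ evalAt v f = 0 ∧ evalAt w f = 1 := by
  have h1 : ¬ ∀ f, RegularAt v f → RegularAt w f := fun h => hvw (place_eq_of_regularAt_imp h)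
  simp only [not_forall] at h1
  obtain ⟨a, hav, haw⟩ := h1
  -- `b` vanishes at `v` and has a pole at `w`
  set b : F := a - algebraMap K F (evalAt v a) with hb
  have hbv : VanishesAt v b := evalAt_spec hF hav
  have hbw : ¬ RegularAt w b := by
    intro h
    apply haw
    have := regularAt_add h (regularAt_algebraMap w (evalAt v a))
    rwa [hb, sub_add_cancel] at this
  have hb0 : b ≠ 0 := by
    intro h
    exact hbw (h ▸ regularAt_zero w)
  have hbw' : VanishesAt w b⁻¹ := vanishesAt_inv_of_not_regularAt hbw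
  have e1 : evalAt v (1 + b) = 1 := by
    rw [evalAt_add hF (regularAt_one v) hbv.regularAt, evalAt_one,
      evalAt_eq_zero_of_vanishesAt hbv, add_zero]
  have e2 : evalAt w (b⁻¹ + 1) = 1 := by
    rw [evalAt_add hF hbw'.regularAt (regularAt_one w), evalAt_one,
      evalAt_eq_zero_of_vanishesAt hbw', zero_add]
  have h1b : 1 + b ≠ 0 := by
    intro h
    rw [h, evalAt_zero] at e1
    exact zero_ne_one e1
  have hv := evalAt_div hF hbv.regularAt (regularAt_add (regularAt_one v) hbv.regularAt)
    (by rw [e1]; exact one_ne_zero)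
  have hw := regularAt_inv hF (regularAt_add hbw'.regularAt (regularAt_one w))
    (by rw [e2]; exact one_ne_zero)
  have heq : (b⁻¹ + 1)⁻¹ = b / (1 + b) := by
    field_simp
  rw [heq, e2, inv_one] at hw
  rw [evalAt_eq_zero_of_vanishesAt hbv, zero_div] at hv
  exact ⟨b / (1 + b), hv.1, hw.1, hv.2, hw.2⟩

end AlgClosed

/-! ### charts -/

section Chart

variable {F : Type*} [Field F] [Algebra ℂ F]

theorem IsChart.mono {r r' : ℝ} {P : ℂ → Place ℂ F} {t : F} (h : IsChart r P t)
    (hr' : 0 < r') (hle : r' ≤ r) : IsChart r' P t where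
  r_pos := hr'
  ord_t c hc := h.ord_t c (hc.trans_le hle)
  mero f c hc := h.mero f c (hc.trans_le hle)
  order f hf c hc := h.order f hf c (hc.trans_le hle)
  analytic f c hc := h.analytic f c (hc.trans_le hle)

theorem IsChart.vanishesAt_t {r : ℝ} {P : ℂ → Place ℂ F} {t : F} (h : IsChart r P t)
    {c : ℂ} (hc : ‖c‖ < r) : VanishesAt (P c) (t - algebraMap ℂ F c) :=
  vanishesAt_of_ord_pos (by rw [h.ord_t c hc]; exact one_pos)

theorem IsChart.evalAt_t {r : ℝ} {P : ℂ → Place ℂ F} {t : F} (h : IsChart r P t)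
    {c : ℂ} (hc : ‖c‖ < r) : evalAt (P c) t = c :=
  evalAt_unique _ _ _ (h.vanishesAt_t hc)

theorem IsChart.regularAt_t {r : ℝ} {P : ℂ → Place ℂ F} {t : F} (h : IsChart r P t)
    {c : ℂ} (hc : ‖c‖ < r) : RegularAt (P c) t := by
  have := regularAt_add (h.vanishesAt_t hc).regularAt (regularAt_algebraMap (P c) c)
  rwa [sub_add_cancel] at this

theorem IsChart.injOn {r : ℝ} {P : ℂ → Place ℂ F} {t : F} (h : IsChart r P t) :
    Set.InjOn P {c : ℂ | ‖c‖ < r} := by
  intro c hc c' hc' hcc
  rw [← h.evalAt_t hc, hcc, h.evalAt_t hc']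

theorem IsChart.eq_of_eq {r : ℝ} {P : ℂ → Place ℂ F} {t : F} (h : IsChart r P t)
    {c c' : ℂ} (hc : ‖c‖ < r) (hc' : ‖c'‖ < r) (hcc : P c = P c') : c = c' :=
  h.injOn hc hc' hcc

theorem IsChart.recenter {r : ℝ} {P : ℂ → Place ℂ F} {t : F} (h : IsChart r P t)
    {c0 : ℂ} (hc0 : ‖c0‖ < r) :
    IsChart (r - ‖c0‖) (fun z => P (c0 + z)) (t - algebraMap ℂ F c0) := by
  have hlt : ∀ c : ℂ, ‖c‖ < r - ‖c0‖ → ‖c0 + c‖ < r := fun c hc =>
    lt_of_le_of_lt (norm_add_le _ _) (by linarith)
  have han : ∀ c : ℂ, AnalyticAt ℂ (fun z : ℂ => c0 + z) c := fun c => by fun_prop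
  refine ⟨sub_pos.2 hc0, fun c hc => ?_, fun f c hc => ?_, fun f hf c hc => ?_,
    fun f c hc hreg => ?_⟩
  · have := h.ord_t (c0 + c) (hlt c hc)
    rwa [map_add, ← sub_sub] at this
  · exact (h.mero f (c0 + c) (hlt c hc)).comp_analyticAt (g := fun z : ℂ => c0 + z) (han c)
  · have h1 := h.order f hf (c0 + c) (hlt c hc)
    have h2 : meromorphicOrderAt ((fun z => evalAt (P z) f) ∘ fun z : ℂ => c0 + z) c
        = meromorphicOrderAt (fun z => evalAt (P z) f) (c0 + c) :=
      meromorphicOrderAt_comp_of_deriv_ne_zero (han c) (by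
        have : deriv (fun z : ℂ => c0 + z) c = 1 := by
          simp
        rw [this]; exact one_ne_zero)
    rw [← h1, ← h2]
    rfl
  · exact (h.analytic f (c0 + c) (hlt c hc) hreg).comp (g := fun z => evalAt (P z) f)
      (f := fun z : ℂ => c0 + z) (han c)

end Chart

end Fermat.Agent.S27
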