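import Fermat.Agent.S27.Interface2
import Fermat.Agent.S27.EvalAt
import Fermat.Agent.S27.R0
import Fermat.Agent.S24.FundId

/-!
# S27, package CH1 : existence of a plane model adapted to `(Q, t)`

Let `t` be a uniformiser at `Q`, `B` the integral closure of `K[t]` in `F`.  By the Chinese
remainder theorem there is `y ∈ B` taking pairwise distinct values `b_v` at the zeros `v` of `t`,
with `ord_v (y - b_v) = 1`.  If `Φ(t, Y)` is the minimal polynomial of `y` over `K[t]`, then
`Φ(0, y) ∈ t K[t, y]`, so `(Y - b_v) ^ (ord_v t) ∣ Φ(0, Y)` for all `v`; as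
`∑ ord_v t = [F : K(t)] ≥ deg Φ`, we get `Φ(0, Y) = ∏ (Y - b_v) ^ (ord_v t)`, the element `y` is
primitive, and `b_Q` is a simple root of `Φ(0, Y)`.
-/

set_option autoImplicit false

namespace Fermat.Agent.S27

open AlgebraicCurve IntermediateField Polynomial
open scoped Polynomial.Bivariate

universe u v

namespace CH1

section Basic

variable {K F : Type*} [Field K] [Field F] [Algebra K F]

theorem evalF_eq_eval₂ (Φ : K[X][Y]) (t y : F) :
    evalF Φ t y = Φ.eval₂ (Polynomial.aeval t : K[X] →ₐ[K] F).toRingHom y := by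
  rw [evalF, eval_map]

theorem evalF_add (Φ Ψ : K[X][Y]) (t y : F) :
    evalF (Φ + Ψ) t y = evalF Φ t y + evalF Ψ t y := by
  simp only [evalF_eq_eval₂, eval₂_add]

theorem evalF_mul (Φ Ψ : K[X][Y]) (t y : F) :
    evalF (Φ * Ψ) t y = evalF Φ t y * evalF Ψ t y := by
  simp only [evalF_eq_eval₂, eval₂_mul]

theorem evalF_C (p : K[X]) (t y : F) : evalF (C p) t y = aeval t p := by
  rw [evalF_eq_eval₂, eval₂_C]
  rfl

theorem evalF_Y (t y : F) : evalF (Y : K[X][Y]) t y = y := by
  rw [evalF_eq_eval₂, eval₂_X]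

theorem evalF_map_C (g : K[X]) (t y : F) : evalF (g.map C) t y = aeval y g := by
  rw [evalF, Polynomial.map_map]
  have : (Polynomial.aeval t : K[X] →ₐ[K] F).toRingHom.comp C = algebraMap K F := by
    ext a
    simp
  rw [this, eval_map_algebraMap]

theorem evalF_eq_aevalAeval (Φ : K[X][Y]) (t y : F) : evalF Φ t y = aevalAeval t y Φ := by
  induction Φ using Polynomial.induction_on with
  | C p => rw [aevalAeval_C, evalF_C]
  | add p q hp hq => rw [map_add, evalF_add, hp, hq]
  | monomial n a ih =>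
    rw [pow_succ, ← mul_assoc, map_mul, aevalAeval_Y, evalF_mul, ih, evalF_Y]

theorem exists_decomp (Φ : K[X][Y]) :
    ∃ Φ' : K[X][Y], Φ = (Φ.map (evalRingHom 0)).map C + C X * Φ' := by
  have h : (C (X : K[X]) : K[X][Y]) ∣ Φ - (Φ.map (evalRingHom 0)).map C := by
    rw [C_dvd_iff_dvd_coeff]
    intro i
    rw [coeff_sub, coeff_map, coeff_map, coe_evalRingHom, ← coeff_zero_eq_eval_zero]
    exact X_dvd_sub_C
  obtain ⟨Φ', h⟩ := h
  exact ⟨Φ', by rw [← h]; ring⟩

end Basic

section Local

variable {K F : Type*} [Field K] [Field F] [Algebra K F] [IsAlgClosed K]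

/-- the local estimate: if `g(y) ∈ t O_v` and `y - b` is a uniformiser at `v`, then
`(X - b) ^ (ord_v t)` divides `g`. -/
theorem pow_dvd_of_ord (hF : IsFF K F) (v : Place K F) {t y w : F} {b : K} {g : K[X]}
    (hg : g ≠ 0) (hw : RegularAt v w) (hgw : aeval y g = t * w)
    (hy : v.ord (y - algebraMap K F b) = 1) (e : ℕ) (ht : v.ord t = e) :
    (X - C b) ^ e ∣ g := by
  obtain ⟨q, hq, hdvd⟩ := exists_eq_pow_rootMultiplicity_mul_and_not_dvd g hg b
  set m := g.rootMultiplicity b with hm
  have hqb : q.eval b ≠ 0 := fun h => hdvd (dvd_iff_isRoot.2 h)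
  have hyb0 : y - algebraMap K F b ≠ 0 := by
    intro h
    rw [h, Place.ord_zero] at hy
    exact zero_ne_one hy
  have hvan : VanishesAt v (y - algebraMap K F b) := vanishesAt_of_ord_pos (by rw [hy]; exact one_pos)
  have hyreg : RegularAt v y := by
    have := regularAt_add hvan.regularAt (regularAt_algebraMap v b)
    rwa [sub_add_cancel] at this
  have hyval : evalAt v y = b := evalAt_unique v y b hvan
  have hqreg : RegularAt v (aeval y q) := regularAt_aeval hyreg q
  have hqval : evalAt v (aeval y q) ≠ 0 := by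
    rw [evalAt_aeval hF hyreg, hyval]; exact hqb
  have hq0 : aeval y q ≠ 0 := by
    intro h
    rw [h, evalAt_zero] at hqval
    exact hqval rfl
  have hqord : v.ord (aeval y q) = 0 := (ord_eq_zero_iff hF hq0).2 ⟨hqreg, hqval⟩
  have hexp : aeval y g = (y - algebraMap K F b) ^ m * aeval y q := by
    conv_lhs => rw [hq]
    simp
  have hord1 : v.ord (aeval y g) = m := by
    rw [hexp, v.ord_mul (pow_ne_zero _ hyb0) hq0, hqord, ← zpow_natCast, v.ord_zpow, hy]
    simp
  have hne : aeval y g ≠ 0 := by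
    rw [hexp]; exact mul_ne_zero (pow_ne_zero _ hyb0) hq0
  have ht0 : t ≠ 0 := by
    rintro rfl
    rw [zero_mul] at hgw
    exact hne hgw
  have hw0 : w ≠ 0 := by
    rintro rfl
    rw [mul_zero] at hgw
    exact hne hgw
  have hord2 : v.ord (aeval y g) = e + v.ord w := by
    rw [hgw, v.ord_mul ht0 hw0, ht]
  have hle : e ≤ m := by
    have := hw.ord_nonneg
    omega
  exact (pow_dvd_pow _ hle).trans ⟨q, hq⟩

/-- the counting argument -/
theorem map_eval_zero_eq_prod (hF : IsFF K F) {t y : F} (Z : Finset (Place K F)) (n : ℕ)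
    (hpos : ∀ v ∈ Z, 0 ≤ v.ord t) (hsum : ∑ v ∈ Z, v.ord t = n)
    (b : Place K F → K) (hb : Set.InjOn b Z)
    (hy : ∀ v ∈ Z, v.ord (y - algebraMap K F (b v)) = 1)
    (Φ : K[X][Y]) (hΦ : Φ.Monic) (hroot : evalF Φ t y = 0) (hdeg : Φ.natDegree ≤ n) :
    Φ.map (evalRingHom 0) = ∏ v ∈ Z, (X - C (b v)) ^ (v.ord t).toNat ∧ Φ.natDegree = n := by
  set g : K[X] := Φ.map (evalRingHom 0) with hg
  have hgm : g.Monic := hΦ.map _
  have hgdeg : g.natDegree = Φ.natDegree := hΦ.natDegree_map _
  obtain ⟨Φ', hΦ'⟩ := exists_decomp Φ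
  have hrel : aeval y g = t * (-evalF Φ' t y) := by
    have h1 := hroot
    rw [hΦ', evalF_add, evalF_mul, evalF_C, aeval_X, evalF_map_C] at h1
    rw [mul_neg]
    exact eq_neg_of_add_eq_zero_left h1
  have hdvd : ∀ v ∈ Z, (X - C (b v)) ^ (v.ord t).toNat ∣ g := by
    intro v hv
    have hvan : VanishesAt v (y - algebraMap K F (b v)) :=
      vanishesAt_of_ord_pos (by rw [hy v hv]; exact one_pos)
    have hyreg : RegularAt v y := by
      have := regularAt_add hvan.regularAt (regularAt_algebraMap v (b v))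
      rwa [sub_add_cancel] at this
    have htreg : RegularAt v t := regularAt_of_ord_nonneg (hpos v hv)
    refine pow_dvd_of_ord hF v hgm.ne_zero (w := -evalF Φ' t y) ?_ hrel (hy v hv) _
      (Int.toNat_of_nonneg (hpos v hv)).symm
    rw [evalF_eq_aevalAeval]
    exact regularAt_neg (regularAt_aevalAeval hF htreg hyreg Φ')
  have hprod : ∏ v ∈ Z, (X - C (b v)) ^ (v.ord t).toNat ∣ g := by
    refine Finset.prod_dvd_of_coprime ?_ hdvd
    intro v hv w hw hvw
    refine IsCoprime.pow (isCoprime_X_sub_C_of_isUnit_sub ?_)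
    exact (sub_ne_zero.2 fun h => hvw (hb hv hw h)).isUnit
  have hpm : (∏ v ∈ Z, (X - C (b v)) ^ (v.ord t).toNat).Monic :=
    monic_prod_of_monic _ _ fun v _ => (monic_X_sub_C _).pow _
  have hpdeg : (∏ v ∈ Z, (X - C (b v)) ^ (v.ord t).toNat).natDegree = n := by
    rw [natDegree_prod_of_monic _ _ fun v _ => (monic_X_sub_C _).pow _]
    have h1 : ∀ v ∈ Z, ((X - C (b v)) ^ (v.ord t).toNat).natDegree = (v.ord t).toNat := by
      intro v _
      rw [(monic_X_sub_C _).natDegree_pow, natDegree_X_sub_C, mul_one]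
    rw [Finset.sum_congr rfl h1]
    have h2 : ((∑ v ∈ Z, (v.ord t).toNat : ℕ) : ℤ) = n := by
      rw [← hsum]
      push_cast
      exact Finset.sum_congr rfl fun v hv => Int.toNat_of_nonneg (hpos v hv)
    exact_mod_cast h2
  have heq : g = ∏ v ∈ Z, (X - C (b v)) ^ (v.ord t).toNat :=
    eq_of_monic_of_dvd_of_natDegree_le hpm hgm hprod (by rw [hpdeg, hgdeg]; exact hdeg)
  refine ⟨heq, ?_⟩
  rw [← hgdeg, heq, hpdeg]

omit [IsAlgClosed K] in
theorem derivative_prod_eval_ne_zero (Z : Finset (Place K F)) (Q : Place K F) (hQ : Q ∈ Z)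
    (b : Place K F → K) (hb : Set.InjOn b Z) (e : Place K F → ℕ) (he : e Q = 1) :
    (derivative (∏ v ∈ Z, (X - C (b v)) ^ e v)).eval (b Q) ≠ 0 := by
  classical
  rw [← Finset.mul_prod_erase Z _ hQ, he, pow_one, derivative_mul, eval_add, eval_mul, eval_mul,
    derivative_X_sub_C, eval_one, one_mul, eval_sub, eval_X, eval_C, sub_self, zero_mul, add_zero,
    eval_prod, Finset.prod_ne_zero_iff]
  intro v hv
  rw [eval_pow, eval_sub, eval_X, eval_C]
  refine pow_ne_zero _ (sub_ne_zero.2 fun h => ?_)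
  exact (Finset.ne_of_mem_erase hv) (hb (Finset.mem_of_mem_erase hv) hQ h.symm)

end Local

section CRT

open Fermat.Agent.S24 IsDedekindDomain

variable {K F : Type*} [Field K] [Field F] [Algebra K F]

section Abstract

variable {R : Type*} [CommRing R] [IsDedekindDomain R] [Algebra R F] [IsFractionRing R F]
  [Algebra K R] [IsScalarTower K R F]

/-- `π + r` has order one at `P` when `π` is a uniformiser and `r ∈ P ^ 2`. -/
theorem ord_add_eq_one (P : HeightOneSpectrum R) (π r : R)
    (hπ : P.intValuation π = WithZero.exp (-1 : ℤ)) (hr : r ∈ P.asIdeal ^ 2) :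
    (Place.ofHeightOneSpectrum (K := K) P).ord (algebraMap R F (π + r)) = 1 := by
  have h1 : P.intValuation r ≤ WithZero.exp (-((2 : ℕ) : ℤ)) :=
    (P.intValuation_le_pow_iff_mem r 2).2 hr
  have h2 : P.intValuation r < P.intValuation π := by
    rw [hπ]
    refine lt_of_le_of_lt h1 ?_
    rw [WithZero.exp_lt_exp]
    norm_num
  have h3 : P.intValuation (π + r) = WithZero.exp (-1 : ℤ) := by
    rw [Valuation.map_add_eq_of_lt_left _ h2, hπ]
  have h4 : P.valuation F (algebraMap R F (π + r)) = WithZero.exp (-1 : ℤ) := by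
    rw [HeightOneSpectrum.valuation_of_algebraMap, h3]
  have h0 : algebraMap R F (π + r) ≠ 0 := by
    intro h
    rw [h, map_zero] at h4
    exact WithZero.exp_ne_zero h4.symm
  rw [ord_ofHeightOneSpectrum P _ h0, h4, WithZero.log_exp, neg_neg]

/-- CRT: an element of `R` with pairwise distinct values and order-one deviations at finitely many
primes. -/
theorem exists_crt {ι : Type*} [Finite ι] (P : ι → HeightOneSpectrum R)
    (hP : Function.Injective P) (c : ι → K) :
    ∃ y : R, ∀ i, (Place.ofHeightOneSpectrum (K := K) (P i)).ord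
      (algebraMap R F y - algebraMap K F (c i)) = 1 := by
  classical
  have := Fintype.ofFinite ι
  choose π hπ using fun i => (P i).intValuation_exists_uniformizer
  obtain ⟨y, hy⟩ := IsDedekindDomain.exists_forall_sub_mem_ideal (s := Finset.univ)
    (fun i => (P i).asIdeal) (fun _ => 2) (fun i _ => (P i).prime)
    (fun i _ j _ hij h => hij (hP (HeightOneSpectrum.ext h)))
    (fun i => algebraMap K R (c i.1) + π i.1)
  refine ⟨y, fun i => ?_⟩
  have h1 := ord_add_eq_one (K := K) (F := F) (P i) (π i) _ (hπ i) (hy i (Finset.mem_univ i))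
  have h2 : algebraMap R F (π i + (y - (algebraMap K R (c i) + π i)))
      = algebraMap R F y - algebraMap K F (c i) := by
    rw [IsScalarTower.algebraMap_apply K R F, ← map_sub]
    congr 1
    ring
  rwa [h2] at h1

end Abstract

theorem exists_y [IsAlgClosed K] [CharZero K] {t : F} (ht : Transcendental K t)
    [FiniteDimensional K⟮t⟯ F] :
    ∃ (y : F) (b : Place K F → K), IsIntegral (polyRing K t) y ∧
      Set.InjOn b (zeroPlaces (K := K) t) ∧
      ∀ v ∈ zeroPlaces (K := K) t, v.ord (y - algebraMap K F (b v)) = 1 := by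
  classical
  have := intRing_isDedekindDomain ht
  have := intRing_isFractionRing (K := K) t
  have ht0 : t ≠ 0 := fun h => ht (h ▸ isAlgebraic_zero)
  have hfin := zeroPlaces_finite (K := K) t ht
  have : Finite (zeroPlaces (K := K) t) := hfin
  have hex : ∀ v : zeroPlaces (K := K) t, ∃ P : HeightOneSpectrum (intRing K t),
      v.1 = Place.ofHeightOneSpectrum P := fun v =>
    exists_heightOneSpectrum_of_le v.1 fun r =>
      intRing_le_valuationSubring v.1 (mem_of_ord_nonneg v.1 ht0 (le_of_lt v.2)) r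
  choose P hP using hex
  have hPinj : Function.Injective P := by
    intro v w h
    apply Subtype.ext
    rw [hP v, hP w, h]
  obtain ⟨c, hc⟩ : ∃ c : zeroPlaces (K := K) t → K, Function.Injective c := by
    obtain ⟨n, ⟨e⟩⟩ := Finite.exists_equiv_fin (zeroPlaces (K := K) t)
    exact ⟨fun v => ((e v : ℕ) : K), fun v w h =>
      e.injective (Fin.val_injective (Nat.cast_injective h))⟩
  obtain ⟨y, hy⟩ := exists_crt (K := K) (F := F) P hPinj c
  refine ⟨(y : F), fun v => if h : v ∈ zeroPlaces (K := K) t then c ⟨v, h⟩ else 0, y.2, ?_, ?_⟩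
  · intro v hv w hw h
    simp only [dif_pos hv, dif_pos hw] at h
    exact congrArg Subtype.val (hc h)
  · intro v hv
    simp only [dif_pos hv]
    have := hy ⟨v, hv⟩
    rw [← hP ⟨v, hv⟩] at this
    exact this

end CRT

section Model

open Fermat.Agent.S24
open scoped IntermediateField.algebraAdjoinAdjoin

variable {K F : Type*} [Field K] [Field F] [Algebra K F]

/-- the ring isomorphism `K[t] ≃ K[X]`, as a ring hom. -/
noncomputable def toPoly {t : F} (ht : Transcendental K t) : polyRing K t →+* K[X] :=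
  (Polynomial.algEquivOfTranscendental K t ht).symm.toRingEquiv.toRingHom

/-- the ring isomorphism `K[X] ≃ K[t]`, as a ring hom. -/
noncomputable def ofPoly {t : F} (ht : Transcendental K t) : K[X] →+* polyRing K t :=
  (Polynomial.algEquivOfTranscendental K t ht).toRingEquiv.toRingHom

theorem ofPoly_toPoly {t : F} (ht : Transcendental K t) (a : polyRing K t) :
    ofPoly ht (toPoly ht a) = a :=
  (Polynomial.algEquivOfTranscendental K t ht).apply_symm_apply a

theorem toPoly_ofPoly {t : F} (ht : Transcendental K t) (p : K[X]) :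
    toPoly ht (ofPoly ht p) = p :=
  (Polynomial.algEquivOfTranscendental K t ht).symm_apply_apply p

theorem coe_ofPoly {t : F} (ht : Transcendental K t) (p : K[X]) :
    ((ofPoly ht p : polyRing K t) : F) = aeval t p := by
  show ((Polynomial.algEquivOfTranscendental K t ht p : polyRing K t) : F) = aeval t p
  rw [Polynomial.algEquivOfTranscendental_apply]
  have := Polynomial.aeval_algebraMap_apply F
    (⟨t, Algebra.self_mem_adjoin_singleton K t⟩ : polyRing K t) p
  exact this.symm

theorem aeval_comp_toPoly {t : F} (ht : Transcendental K t) :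
    (Polynomial.aeval t : K[X] →ₐ[K] F).toRingHom.comp (toPoly ht)
      = algebraMap (polyRing K t) F := by
  ext a
  show aeval t (toPoly ht a) = (a : F)
  rw [← coe_ofPoly ht, ofPoly_toPoly]

theorem algebraMap_comp_ofPoly {t : F} (ht : Transcendental K t) :
    (algebraMap (polyRing K t) F).comp (ofPoly ht)
      = (Polynomial.aeval t : K[X] →ₐ[K] F).toRingHom := by
  ext p
  · simp [coe_ofPoly]
  · simp [coe_ofPoly]

theorem evalF_map_toPoly {t : F} (ht : Transcendental K t) (y : F) (Φ₀ : (polyRing K t)[X]) :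
    evalF (Φ₀.map (toPoly ht)) t y = aeval y Φ₀ := by
  rw [evalF, Polynomial.map_map, aeval_comp_toPoly, eval_map_algebraMap]

theorem aeval_map_ofPoly {t : F} (ht : Transcendental K t) (y : F) (Ψ : K[X][Y]) :
    aeval y (Ψ.map (ofPoly ht)) = evalF Ψ t y := by
  rw [evalF, ← eval_map_algebraMap, Polynomial.map_map, algebraMap_comp_ofPoly]

theorem exists_model [IsAlgClosed K] [CharZero K] (hF : IsFF K F) (Q : Place K F) (t : F)
    (hQ : Q.ord t = 1) : ∃ (y : F) (Φ : K[X][Y]), IsPlaneModel Q t y Φ := by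
  classical
  -- `t` is transcendental
  have ht : Transcendental K t := by
    rcases R0.const_or_transcendental (K := K) t with ⟨a, rfl⟩ | h
    · rw [ord_algebraMap] at hQ
      exact absurd hQ zero_ne_one
    · exact h
  have hfd : FiniteDimensional K⟮t⟯ F := by
    obtain ⟨x, hx, hfd⟩ := hF
    exact finiteDimensional_adjoin_simple_of_transcendental x hx t ht
  have hpid := polyRing_isPrincipalIdealRing ht
  obtain ⟨y, b, hint, hb, hy⟩ := exists_y (K := K) ht
  set Z : Finset (Place K F) := (zeroPlaces_finite (K := K) t ht).toFinset with hZ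
  have hmemZ : ∀ v, v ∈ Z ↔ 0 < v.ord t := by
    intro v
    rw [hZ, Set.Finite.mem_toFinset]
    rfl
  have hQZ : Q ∈ Z := (hmemZ Q).2 (by rw [hQ]; exact one_pos)
  have hbZ : Set.InjOn b (Z : Set (Place K F)) := by
    rw [hZ, Set.Finite.coe_toFinset]
    exact hb
  set Φ₀ : (polyRing K t)[X] := minpoly (polyRing K t) y with hΦ₀
  set Φ : K[X][Y] := Φ₀.map (toPoly ht) with hΦ
  have hΦ₀m : Φ₀.Monic := minpoly.monic hint
  have hΦm : Φ.Monic := hΦ₀m.map _
  have hdegΦ : Φ.natDegree = Φ₀.natDegree := hΦ₀m.natDegree_map _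
  have hroot : evalF Φ t y = 0 := by
    rw [hΦ, evalF_map_toPoly, hΦ₀, minpoly.aeval]
  have hfrac : minpoly K⟮t⟯ y = Φ₀.map (algebraMap (polyRing K t) K⟮t⟯) :=
    minpoly.isIntegrallyClosed_eq_field_fractions' K⟮t⟯ hint
  have hdeg' : (minpoly K⟮t⟯ y).natDegree = Φ.natDegree := by
    rw [hfrac, hΦ₀m.natDegree_map, hdegΦ]
  have hdegle : Φ.natDegree ≤ Module.finrank K⟮t⟯ F := by
    rw [← hdeg']
    exact minpoly.natDegree_le y
  obtain ⟨hprod, hdeg⟩ := map_eval_zero_eq_prod hF Z (Module.finrank K⟮t⟯ F)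
    (fun v hv => le_of_lt ((hmemZ v).1 hv)) (sum_ord_zeroPlaces t ht) b hbZ
    (fun v hv => hy v ((hmemZ v).1 hv)) Φ hΦm hroot hdegle
  have hvan : VanishesAt Q (y - algebraMap K F (b Q)) :=
    vanishesAt_of_ord_pos (by rw [hy Q ((hmemZ Q).1 hQZ)]; exact one_pos)
  have hyreg : RegularAt Q y := by
    have := regularAt_add hvan.regularAt (regularAt_algebraMap Q (b Q))
    rwa [sub_add_cancel] at this
  have hyval : evalAt Q y = b Q := evalAt_unique Q y (b Q) hvan
  refine ⟨y, Φ, hQ, hΦm, hroot, ?_, ?_, hyreg, ?_⟩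
  · -- minimality
    intro Ψ hΨdeg hΨ
    have h1 : aeval y (Ψ.map (ofPoly ht)) = 0 := by rw [aeval_map_ofPoly, hΨ]
    have h2 : Φ₀ ∣ Ψ.map (ofPoly ht) := minpoly.isIntegrallyClosed_dvd hint h1
    have h3 : Ψ.map (ofPoly ht) = 0 := by
      refine eq_zero_of_dvd_of_natDegree_lt h2 ?_
      calc (Ψ.map (ofPoly ht)).natDegree ≤ Ψ.natDegree := natDegree_map_le
        _ < Φ.natDegree := hΨdeg
        _ = Φ₀.natDegree := hdegΦ
    have h4 : (Ψ.map (ofPoly ht)).map (toPoly ht) = Ψ := by
      rw [Polynomial.map_map]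
      have : (toPoly ht).comp (ofPoly ht) = RingHom.id K[X] :=
        RingHom.ext fun p => toPoly_ofPoly ht p
      rw [this, Polynomial.map_id]
    rw [← h4, h3, Polynomial.map_zero]
  · -- generation
    have h1 : K⟮t⟯⟮y⟯ = ⊤ :=
      (Field.primitive_element_iff_minpoly_natDegree_eq K⟮t⟯ y).2 (by rw [hdeg', hdeg])
    have h2 := IntermediateField.adjoin_simple_adjoin_simple K t y
    rw [h1, IntermediateField.restrictScalars_top] at h2
    exact h2.symm
  · -- simplicity
    rw [hyval, ← map_evalRingHom_eval, ← derivative_map, hprod]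
    exact derivative_prod_eval_ne_zero Z Q hQZ b hbZ _ (by rw [hQ]; rfl)

end Model

end CH1

theorem ch1 : Stmt_CH1.{u, v} := by
  intro K F _ _ _ _ _ hF Q t hQ
  exact CH1.exists_model hF Q t hQ

end Fermat.Agent.S27
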