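import Fermat.Agent.S27.Interface

/-!
# S27 / LA : interface of the local Abel theorem (split of package `LA`)

Notation: `B : BaseData F g L ι`, `Q i = B.P i 0`, `D0 = ∑ [Q i]`,
`B.G i f z = (t_i f)(P_i z)` for `f ∈ L(D0)`.

* `LA_G`   : chart facts (joint injectivity, regularity, analyticity and linearity of `G`)
* `LA_DIV` : `div f = B.div c` in terms of the zeros of the `G i f`
* `LA_RES` : residue identity `∑ G_i(h)(c_i)/G_i(f)'(c_i) • κ_i(c_i) = 0`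
* `LA_LIN` : kernel / image of the polar part map
* `AN_*`   : pure analysis (implicit function theorem + abstract local Abel)
-/

set_option autoImplicit false

namespace Fermat.Agent.S27

open AlgebraicCurve

universe u

namespace BaseData

variable {F : Type u} [Field F] [Algebra ℂ F] {g : ℕ}
  {L : H1 (0 : Divisor ℂ F) ≃ₗ[ℂ] (Fin g → ℂ)} {ι : Type} [Fintype ι]

/-- the base divisor `∑ [P i 0]` -/
noncomputable def D0 (B : BaseData F g L ι) : Divisor ℂ F := sumPlaces fun i => B.P i 0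

/-- `G i f z` = value of `t_i f` at the place `P_i z` -/
noncomputable def G (B : BaseData F g L ι) (i : ι) (f : F) (z : ℂ) : ℂ :=
  evalAt (B.P i z) (B.t i * f)

/-- the radius `ρ` is good for the chart facts -/
structure GoodRadius (B : BaseData F g L ι) (ρ : ℝ) : Prop where
  pos : 0 < ρ
  le_r : ∀ i, ρ ≤ B.r i
  inj : ∀ (i j : ι) (c c' : ℂ), ‖c‖ < ρ → ‖c'‖ < ρ → B.P i c = B.P j c' → i = j ∧ c = c'
  regular : ∀ f ∈ riemannRochSpace B.D0, ∀ (i : ι) (z : ℂ), ‖z‖ < ρ →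
    RegularAt (B.P i z) (B.t i * f)
  analytic : ∀ f ∈ riemannRochSpace B.D0, ∀ (i : ι) (z : ℂ), ‖z‖ < ρ → AnalyticAt ℂ (B.G i f) z
  add : ∀ f ∈ riemannRochSpace B.D0, ∀ f' ∈ riemannRochSpace B.D0, ∀ (i : ι) (z : ℂ), ‖z‖ < ρ →
    B.G i (f + f') z = B.G i f z + B.G i f' z
  smul : ∀ (a : ℂ), ∀ f ∈ riemannRochSpace B.D0, ∀ (i : ι) (z : ℂ), ‖z‖ < ρ →
    B.G i (algebraMap ℂ F a * f) z = a * B.G i f z
  one : ∀ (i : ι) (z : ℂ), ‖z‖ < ρ → B.G i 1 z = z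

end BaseData

/-- LA-G : chart facts. (Also: every smaller positive radius is good, trivially.) -/
def Stmt_LA_G : Prop :=
  ∀ (F : Type u) [Field F] [Algebra ℂ F], IsFF ℂ F →
    ∀ (g : ℕ) (L : H1 (0 : Divisor ℂ F) ≃ₗ[ℂ] (Fin g → ℂ)) (ι : Type) [Fintype ι]
      (B : BaseData F g L ι), ∃ ρ : ℝ, B.GoodRadius ρ

/-- LA-DIV : the divisor of `f ∈ L(D0)` from the zeros of the `G i f`, and conversely. -/
def Stmt_LA_DIV : Prop :=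
  ∀ (F : Type u) [Field F] [Algebra ℂ F], IsFF ℂ F →
    ∀ (g : ℕ) (L : H1 (0 : Divisor ℂ F) ≃ₗ[ℂ] (Fin g → ℂ)) (ι : Type) [Fintype ι]
      (B : BaseData F g L ι) (ρ : ℝ), B.GoodRadius ρ →
      ∀ (f : F), f ≠ 0 → ∀ c : ι → ℂ, (∀ i, ‖c i‖ < ρ) →
        ((f ∈ riemannRochSpace B.D0 → (∀ i, B.G i f (c i) = 0) →
            (∀ i, B.G i f 0 = 0 → c i = 0) → ∀ v : Place ℂ F, B.div c v = v.ord f) ∧
         ((∀ v : Place ℂ F, B.div c v = v.ord f) →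
            f ∈ riemannRochSpace B.D0 ∧ ∀ i, B.G i f (c i) = 0))

/-- LA-RES : the residue identity. -/
def Stmt_LA_RES : Prop :=
  ∀ (F : Type u) [Field F] [Algebra ℂ F], IsFF ℂ F →
    ∀ (g : ℕ) (L : H1 (0 : Divisor ℂ F) ≃ₗ[ℂ] (Fin g → ℂ)) (ι : Type) [Fintype ι]
      (B : BaseData F g L ι) (ρ : ℝ), B.GoodRadius ρ →
      ∀ (f : F), f ≠ 0 → ∀ c : ι → ℂ, (∀ i, ‖c i‖ < ρ) →
        (∀ v : Place ℂ F, B.div c v = v.ord f) →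
        (∀ i, deriv (B.G i f) (c i) ≠ 0) ∧
        ∀ h ∈ riemannRochSpace B.D0,
          ∑ i, (B.G i h (c i) / deriv (B.G i f) (c i)) • kappa (B.P i) (B.t i) (c i) = 0

/-- LA-LIN : kernel and image of the polar part map `f ↦ (G i f 0)_i`. -/
def Stmt_LA_LIN : Prop :=
  ∀ (F : Type u) [Field F] [Algebra ℂ F], IsFF ℂ F →
    ∀ (g : ℕ) (L : H1 (0 : Divisor ℂ F) ≃ₗ[ℂ] (Fin g → ℂ)) (ι : Type) [Fintype ι]
      (B : BaseData F g L ι),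
      (∀ f ∈ riemannRochSpace B.D0, (∀ i, B.G i f 0 = 0) → f ∈ Set.range (algebraMap ℂ F)) ∧
      (∀ δ : ι → ℂ, ∑ i, δ i • kappa (B.P i) (B.t i) 0 = 0 →
        ∃ f ∈ riemannRochSpace B.D0, ∀ i, B.G i f 0 = δ i) ∧
      (∀ w : H1 (0 : Divisor ℂ F), ∃ δ : ι → ℂ, ∑ i, δ i • kappa (B.P i) (B.t i) 0 = w)

/-! ## pure analysis -/

/-- the analytic data extracted from a `BaseData` and a basis `1, b_1, …, b_m` of `L(D0)`: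
`gk i k = G i (b k)`, `K i z = L (κ_i z)`. -/
structure ANData (ι : Type) [Fintype ι] (m g : ℕ) : Type where
  ρ0 : ℝ
  gk : ι → Fin m → ℂ → ℂ
  U : ι → ℂ → (Fin g → ℂ)
  K : ι → ℂ → (Fin g → ℂ)
  ρ0_pos : 0 < ρ0
  gk_an : ∀ i k z, ‖z‖ < ρ0 → AnalyticAt ℂ (gk i k) z
  U_zero : ∀ i, U i 0 = 0
  U_deriv : ∀ i z, ‖z‖ < ρ0 → HasDerivAt (U i) (K i z) z
  K_cont : ∀ i z, ‖z‖ < ρ0 → ContinuousAt (K i) z

namespace ANData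

variable {ι : Type} [Fintype ι] {m g : ℕ} (A : ANData ι m g)

/-- `Ψ_i(ε, z) = z + ∑ ε_k g_ik(z)` (`= G i (1 + ∑ ε_k b_k) z`) -/
noncomputable def Psi (i : ι) (ε : Fin m → ℂ) (z : ℂ) : ℂ := z + ∑ k, ε k * A.gk i k z

/-- total Abel–Jacobi map -/
noncomputable def u (c : ι → ℂ) : Fin g → ℂ := ∑ i, A.U i (c i)

/-- the polar part matrix -/
noncomputable def alpha : (Fin m → ℂ) →L[ℂ] (ι → ℂ) :=
  ContinuousLinearMap.pi fun i => ∑ k, A.gk i k 0 • ContinuousLinearMap.proj (R := ℂ) k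

/-- the residue identity -/
def Hres : Prop :=
  ∀ (ε : Fin m → ℂ) (c : ι → ℂ), (∀ i, ‖c i‖ < A.ρ0) → (∀ i, A.Psi i ε (c i) = 0) →
    (∀ i, A.Psi i ε 0 = 0 → c i = 0) →
    (∀ i, deriv (A.Psi i ε) (c i) ≠ 0) ∧
    ∀ η : Fin m → ℂ,
      ∑ i, ((∑ k, η k * A.gk i k (c i)) / deriv (A.Psi i ε) (c i)) • A.K i (c i) = 0

def Hinj : Prop := ∀ a : Fin m → ℂ, (∀ i, ∑ k, a k * A.gk i k 0 = 0) → a = 0

def Hker : Prop :=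
  ∀ δ : ι → ℂ, ∑ i, δ i • A.K i 0 = 0 → ∃ a : Fin m → ℂ, ∀ i, ∑ k, a k * A.gk i k 0 = δ i

def Hsurj : Prop := ∀ w : Fin g → ℂ, ∃ δ : ι → ℂ, ∑ i, δ i • A.K i 0 = w

/-- `γ` is the implicit function: `γ ε i` is the unique zero of `Ψ_i(ε, ·)` in the disc `ρ2`. -/
structure IsGamma (ρ1 ρ2 : ℝ) (γ : (Fin m → ℂ) → (ι → ℂ)) : Prop where
  ρ1_pos : 0 < ρ1
  ρ2_pos : 0 < ρ2
  ρ2_le : ρ2 ≤ A.ρ0
  zero : γ 0 = 0
  small : ∀ ε, ‖ε‖ < ρ1 → ∀ i, ‖γ ε i‖ < ρ2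
  isZero : ∀ ε, ‖ε‖ < ρ1 → ∀ i, A.Psi i ε (γ ε i) = 0
  unique : ∀ ε, ‖ε‖ < ρ1 → ∀ (i : ι) (z : ℂ), ‖z‖ < ρ2 → A.Psi i ε z = 0 → z = γ ε i
  differentiable : ∀ ε, ‖ε‖ < ρ1 → DifferentiableAt ℂ γ ε
  strict : HasStrictFDerivAt γ (-A.alpha) 0

end ANData

/-- AN-IFT : existence of the implicit function. -/
def Stmt_AN_IFT : Prop :=
  ∀ (ι : Type) [Fintype ι] (m g : ℕ) (A : ANData ι m g),
    ∃ (ρ1 ρ2 : ℝ) (γ : (Fin m → ℂ) → (ι → ℂ)), A.IsGamma ρ1 ρ2 γ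

/-- AN-EASY : `u ∘ γ = 0`. -/
def Stmt_AN_EASY : Prop :=
  ∀ (ι : Type) [Fintype ι] (m g : ℕ) (A : ANData ι m g) (ρ1 ρ2 : ℝ)
    (γ : (Fin m → ℂ) → (ι → ℂ)), A.IsGamma ρ1 ρ2 γ → A.Hres →
    ∀ ε, ‖ε‖ < ρ1 → A.u (γ ε) = 0

/-- AN-HARD : a small zero of `u` is in the image of `γ`. -/
def Stmt_AN_HARD : Prop :=
  ∀ (ι : Type) [Fintype ι] (m g : ℕ) (A : ANData ι m g) (ρ1 ρ2 : ℝ)
    (γ : (Fin m → ℂ) → (ι → ℂ)), A.IsGamma ρ1 ρ2 γ → (∀ ε, ‖ε‖ < ρ1 → A.u (γ ε) = 0) →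
    A.Hker → A.Hsurj →
    ∃ ρ > 0, ∀ c : ι → ℂ, (∀ i, ‖c i‖ < ρ) → A.u c = 0 → ∃ ε, ‖ε‖ < ρ1 ∧ c = γ ε

/-- AN-CONV : a small common zero of a nonzero element `a0 + ∑ a_k b_k` is in the image of `γ`. -/
def Stmt_AN_CONV : Prop :=
  ∀ (ι : Type) [Fintype ι] (m g : ℕ) (A : ANData ι m g) (ρ1 ρ2 : ℝ)
    (γ : (Fin m → ℂ) → (ι → ℂ)), A.IsGamma ρ1 ρ2 γ → A.Hinj →
    ∃ ρ > 0, ∀ c : ι → ℂ, (∀ i, ‖c i‖ < ρ) → ∀ (a0 : ℂ) (a : Fin m → ℂ), (a0 ≠ 0 ∨ a ≠ 0) →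
      (∀ i, a0 * c i + ∑ k, a k * A.gk i k (c i) = 0) → ∃ ε, ‖ε‖ < ρ1 ∧ c = γ ε

end Fermat.Agent.S27
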