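/-
TEAM S27, package LA / AN-EASY: `u ∘ γ = 0` (pure analysis).
-/
import Fermat.Agent.S27.LAInterface

set_option autoImplicit false

namespace Fermat.Agent.S27

namespace ANEASY

variable {ι : Type} [Fintype ι] {m g : ℕ} (A : ANData ι m g)

/-- derivative of `Ψ_i(ε, ·)` -/
lemma hasDerivAt_Psi (i : ι) (ε : Fin m → ℂ) {z : ℂ} (hz : ‖z‖ < A.ρ0) :
    HasDerivAt (A.Psi i ε) (1 + ∑ k, ε k * deriv (A.gk i k) z) z := by
  unfold ANData.Psi
  refine (hasDerivAt_id z).add (HasDerivAt.fun_sum fun k _ => ?_)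
  exact ((A.gk_an i k z hz).differentiableAt.hasDerivAt).const_mul (ε k)

/-- the derivative of `u ∘ γ` vanishes -/
lemma hasFDerivAt_zero {ρ1 ρ2 : ℝ} {γ : (Fin m → ℂ) → (ι → ℂ)} (hγ : A.IsGamma ρ1 ρ2 γ)
    (hres : A.Hres) {ε : Fin m → ℂ} (hε : ‖ε‖ < ρ1) :
    HasFDerivAt (fun ε' => A.u (γ ε')) (0 : (Fin m → ℂ) →L[ℂ] (Fin g → ℂ)) ε := by
  classical
  set γ' := fderiv ℂ γ ε with hγ'
  have hγd : HasFDerivAt γ γ' ε := (hγ.differentiable ε hε).hasFDerivAt
  have hc : ∀ i, ‖γ ε i‖ < A.ρ0 := fun i => (hγ.small ε hε i).trans_le hγ.ρ2_le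
  have hγi : ∀ i, HasFDerivAt (fun ε' => γ ε' i)
      ((ContinuousLinearMap.proj (R := ℂ) (φ := fun _ : ι => ℂ) i).comp γ') ε := fun i =>
    (ContinuousLinearMap.proj (R := ℂ) (φ := fun _ : ι => ℂ) i).hasFDerivAt.comp ε hγd
  obtain ⟨hd, hsum⟩ := hres ε (γ ε) hc (hγ.isZero ε hε)
    (fun i h0 => (hγ.unique ε hε i 0 (by simpa using hγ.ρ2_pos) h0).symm)
  -- differentiate the identity `Ψ_i(ε', γ ε' i) = 0`
  have key : ∀ i η, γ' η i * deriv (A.Psi i ε) (γ ε i) + ∑ k, η k * A.gk i k (γ ε i) = 0 := by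
    intro i η
    have h1 : HasFDerivAt (fun ε' => γ ε' i + ∑ k, ε' k * A.gk i k (γ ε' i))
        ((ContinuousLinearMap.proj (R := ℂ) (φ := fun _ : ι => ℂ) i).comp γ' +
          ∑ k, (ε k • (deriv (A.gk i k) (γ ε i) •
              (ContinuousLinearMap.proj (R := ℂ) (φ := fun _ : ι => ℂ) i).comp γ') +
            A.gk i k (γ ε i) • ContinuousLinearMap.proj (R := ℂ) (φ := fun _ : Fin m => ℂ) k)) ε := by
      refine (hγi i).add (HasFDerivAt.fun_sum fun k _ => ?_)
      have h2 : HasFDerivAt (fun ε' : Fin m → ℂ => ε' k)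
          (ContinuousLinearMap.proj (R := ℂ) (φ := fun _ : Fin m => ℂ) k) ε :=
        (ContinuousLinearMap.proj (R := ℂ) (φ := fun _ : Fin m => ℂ) k).hasFDerivAt
      have h3 : HasFDerivAt (fun ε' => A.gk i k (γ ε' i)) (deriv (A.gk i k) (γ ε i) •
          (ContinuousLinearMap.proj (R := ℂ) (φ := fun _ : ι => ℂ) i).comp γ') ε :=
        ((A.gk_an i k _ (hc i)).differentiableAt.hasDerivAt).comp_hasFDerivAt ε (hγi i)
      exact h2.mul h3
    have h0 : (fun ε' => γ ε' i + ∑ k, ε' k * A.gk i k (γ ε' i)) =ᶠ[nhds ε] fun _ => 0 := by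
      have : Metric.ball (0 : Fin m → ℂ) ρ1 ∈ nhds ε :=
        Metric.isOpen_ball.mem_nhds (by simpa using hε)
      filter_upwards [this] with ε' hε'
      exact hγ.isZero ε' (by simpa using hε') i
    have h4 := (h0.hasFDerivAt_iff.1 h1).unique (hasFDerivAt_const (0 : ℂ) ε)
    have h5 := DFunLike.congr_fun h4 η
    rw [(hasDerivAt_Psi A i ε (hc i)).deriv]
    simp only [_root_.add_apply, _root_.sum_apply,
      _root_.smul_apply, ContinuousLinearMap.comp_apply,
      ContinuousLinearMap.proj_apply, smul_eq_mul, _root_.zero_apply,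
      Finset.sum_add_distrib] at h5
    rw [← h5, mul_add, mul_one, Finset.mul_sum, add_assoc]
    congr 2
    · exact Finset.sum_congr rfl fun k _ => by ring
    · exact Finset.sum_congr rfl fun k _ => by ring
  -- chain rule for `u ∘ γ`
  have hu : HasFDerivAt (fun ε' => A.u (γ ε'))
      (∑ i, ((1 : ℂ →L[ℂ] ℂ).smulRight (A.K i (γ ε i))).comp
        ((ContinuousLinearMap.proj (R := ℂ) (φ := fun _ : ι => ℂ) i).comp γ')) ε := by
    unfold ANData.u
    refine HasFDerivAt.fun_sum fun i _ => ?_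
    exact (A.U_deriv i _ (hc i)).hasFDerivAt.comp ε (hγi i)
  convert hu using 1
  ext1 η
  simp only [_root_.zero_apply, _root_.sum_apply,
    ContinuousLinearMap.comp_apply, ContinuousLinearMap.smulRight_apply,
    _root_.one_apply_eq_self, ContinuousLinearMap.proj_apply]
  have h6 : ∀ i, γ' η i = -((∑ k, η k * A.gk i k (γ ε i)) / deriv (A.Psi i ε) (γ ε i)) := by
    intro i
    have hk := key i η
    rw [eq_neg_iff_add_eq_zero, eq_comm, ← mul_right_inj' (hd i), mul_zero, ← hk, mul_add,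
      mul_div_cancel₀ _ (hd i), mul_comm]
  rw [Finset.sum_congr rfl fun i _ => by rw [h6 i, neg_smul], Finset.sum_neg_distrib, hsum η,
    neg_zero]

end ANEASY

theorem an_easy : Stmt_AN_EASY := by
  intro ι _ m g A ρ1 ρ2 γ hγ hres ε hε
  have hdiff : DifferentiableOn ℂ (fun ε' => A.u (γ ε')) (Metric.ball 0 ρ1) := fun x hx =>
    (ANEASY.hasFDerivAt_zero A hγ hres (by simpa using hx)).differentiableAt.differentiableWithinAt
  have h := IsOpen.is_const_of_fderiv_eq_zero (𝕜 := ℂ) (f := fun ε' => A.u (γ ε'))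
    Metric.isOpen_ball (convex_ball (0 : Fin m → ℂ) ρ1).isPreconnected hdiff
    (fun x hx => (ANEASY.hasFDerivAt_zero A hγ hres (by simpa using hx)).fderiv)
    (x := ε) (y := 0) (by simpa using hε) (by simpa using hγ.ρ1_pos)
  rw [h, hγ.zero]
  simp [ANData.u, A.U_zero]

end Fermat.Agent.S27
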