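import Fermat.Agent.S27.LAInterface

/-!
# S27 / AN-HARD : small zeros of `u` lie on the image of `γ`
-/

set_option autoImplicit false

namespace Fermat.Agent.S27

namespace ANHard

open Filter Topology

variable {ι : Type} [Fintype ι] {m g : ℕ} (A : ANData ι m g)

/-- the derivative of `u` at `0` -/
noncomputable def A0 : (ι → ℂ) →L[ℂ] (Fin g → ℂ) :=
  ∑ i, (ContinuousLinearMap.proj (R := ℂ) (φ := fun _ : ι => ℂ) i).smulRight (A.K i 0)

theorem A0_apply (c : ι → ℂ) : A0 A c = ∑ i, c i • A.K i 0 := by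
  simp [A0]

theorem hasStrictFDerivAt_u : HasStrictFDerivAt A.u (A0 A) 0 := by
  have h1 : ∀ i, HasStrictDerivAt (A.U i) (A.K i 0) 0 := by
    intro i
    apply hasStrictDerivAt_of_hasDerivAt_of_continuousAt
    · have : ∀ᶠ y in 𝓝 (0 : ℂ), ‖y‖ < A.ρ0 := by
        have := Metric.ball_mem_nhds (0 : ℂ) A.ρ0_pos
        filter_upwards [this] with y hy
        simpa using hy
      filter_upwards [this] with y hy
      exact A.U_deriv i y hy
    · exact A.K_cont i 0 (by simpa using A.ρ0_pos)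
  have h2 : ∀ i, HasStrictFDerivAt (fun c : ι → ℂ => A.U i (c i))
      ((ContinuousLinearMap.proj (R := ℂ) (φ := fun _ : ι => ℂ) i).smulRight (A.K i 0)) 0 := by
    intro i
    have hp : HasStrictFDerivAt (fun c : ι → ℂ => c i)
        (ContinuousLinearMap.proj (R := ℂ) (φ := fun _ : ι => ℂ) i) 0 :=
      (ContinuousLinearMap.proj (R := ℂ) (φ := fun _ : ι => ℂ) i).hasStrictFDerivAt
    have h3 : HasStrictFDerivAt (A.U i) (ContinuousLinearMap.smulRight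
        (1 : ℂ →L[ℂ] ℂ) (A.K i 0)) ((fun c : ι → ℂ => c i) 0) := (h1 i).hasStrictFDerivAt
    have := h3.comp (0 : ι → ℂ) hp
    have e : (ContinuousLinearMap.smulRight (1 : ℂ →L[ℂ] ℂ) (A.K i 0)).comp
        (ContinuousLinearMap.proj (R := ℂ) (φ := fun _ : ι => ℂ) i) =
        (ContinuousLinearMap.proj (R := ℂ) (φ := fun _ : ι => ℂ) i).smulRight (A.K i 0) := by
      ext c j
      simp
    rw [e] at this
    exact this
  have h4 := HasStrictFDerivAt.fun_sum (u := Finset.univ) (fun i _ => h2 i)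
  exact h4

theorem alpha_apply (a : Fin m → ℂ) (i : ι) : A.alpha a i = ∑ k, a k * A.gk i k 0 := by
  simp [ANData.alpha, mul_comm]

end ANHard

open Filter Topology ANHard in
theorem an_hard : Stmt_AN_HARD := by
  intro ι _ m g A ρ1 ρ2 γ hγ hu Hker Hsurj
  -- a right inverse `J` of `A0`
  have hδ : ∀ j : Fin g, ∃ δ : ι → ℂ, A0 A δ = Pi.single j 1 := by
    intro j
    obtain ⟨δ, hδ⟩ := Hsurj (Pi.single j 1)
    exact ⟨δ, by rw [A0_apply, hδ]⟩
  choose δ hδ using hδ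
  let J : (Fin g → ℂ) →L[ℂ] (ι → ℂ) :=
    ∑ j, (ContinuousLinearMap.proj (R := ℂ) (φ := fun _ : Fin g => ℂ) j).smulRight (δ j)
  have hJ : ∀ η, J η = ∑ j, η j • δ j := by
    intro η
    simp [J]
  have hAJ : ∀ η, A0 A (J η) = η := by
    intro η
    rw [hJ, map_sum]
    simp only [map_smul, hδ]
    ext k
    simp [Finset.sum_apply, Pi.single_apply]
  -- the map `S`
  let S : (Fin m → ℂ) × (Fin g → ℂ) → (ι → ℂ) := fun p => γ p.1 + J p.2
  let S' : (Fin m → ℂ) × (Fin g → ℂ) →L[ℂ] (ι → ℂ) :=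
    (-A.alpha).comp (ContinuousLinearMap.fst ℂ _ _) + J.comp (ContinuousLinearMap.snd ℂ _ _)
  have hS : HasStrictFDerivAt S S' (0, 0) := by
    have h1 : HasStrictFDerivAt (fun p : (Fin m → ℂ) × (Fin g → ℂ) => γ p.1)
        ((-A.alpha).comp (ContinuousLinearMap.fst ℂ _ _)) (0, 0) :=
      HasStrictFDerivAt.comp (0, 0) (f := fun p : (Fin m → ℂ) × (Fin g → ℂ) => p.1) hγ.strict
        hasStrictFDerivAt_fst
    have h2 : HasStrictFDerivAt (fun p : (Fin m → ℂ) × (Fin g → ℂ) => J p.2)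
        (J.comp (ContinuousLinearMap.snd ℂ _ _)) (0, 0) :=
      HasStrictFDerivAt.comp (0, 0) (f := fun p : (Fin m → ℂ) × (Fin g → ℂ) => p.2)
        J.hasStrictFDerivAt hasStrictFDerivAt_snd
    exact h1.add h2
  have hsurj : LinearMap.range (S' : (Fin m → ℂ) × (Fin g → ℂ) →ₗ[ℂ] (ι → ℂ)) = ⊤ := by
    rw [LinearMap.range_eq_top]
    intro d
    have hk : ∑ i, (d - J (A0 A d)) i • A.K i 0 = 0 := by
      rw [← A0_apply, map_sub, hAJ, sub_self]
    obtain ⟨a, ha⟩ := Hker _ hk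
    refine ⟨(-a, A0 A d), ?_⟩
    have : A.alpha a = d - J (A0 A d) := by
      ext i
      rw [alpha_apply, ha]
    simp [S', this]
  have hmap := hS.map_nhds_eq_of_surj hsurj
  have hS0 : S (0, 0) = 0 := by simp [S, hγ.zero]
  rw [hS0] at hmap
  -- the good neighbourhood
  have hc0 : (0 : ℝ) < 1 / (2 * (‖J‖ + 1)) := by positivity
  have hlo := (hasStrictFDerivAt_u A).isLittleO.def hc0
  have hΦ : Tendsto (fun p : (Fin m → ℂ) × (Fin g → ℂ) => (γ p.1 + J p.2, γ p.1)) (𝓝 (0, 0))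
      (𝓝 ((0 : ι → ℂ), (0 : ι → ℂ))) := by
    have hγc : ContinuousAt γ 0 := hγ.strict.continuousAt
    have h1 : Tendsto (fun p : (Fin m → ℂ) × (Fin g → ℂ) => γ p.1) (𝓝 (0, 0)) (𝓝 0) := by
      have : Tendsto γ (𝓝 0) (𝓝 0) := by simpa [ContinuousAt, hγ.zero] using hγc
      exact this.comp (continuous_fst.tendsto' _ _ rfl)
    have h2 : Tendsto (fun p : (Fin m → ℂ) × (Fin g → ℂ) => J p.2) (𝓝 (0, 0)) (𝓝 0) :=
      (J.continuous.comp continuous_snd).tendsto' _ _ (by simp)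
    have h3 := h1.add h2
    rw [add_zero] at h3
    exact h3.prodMk_nhds h1
  have hW1 := hΦ.eventually hlo
  have hW2 : ∀ᶠ p : (Fin m → ℂ) × (Fin g → ℂ) in 𝓝 (0, 0), ‖p.1‖ < ρ1 := by
    have : Tendsto (fun p : (Fin m → ℂ) × (Fin g → ℂ) => ‖p.1‖) (𝓝 (0, 0)) (𝓝 0) :=
      (continuous_norm.comp continuous_fst).tendsto' _ _ (by simp)
    exact this.eventually (gt_mem_nhds hγ.ρ1_pos)
  have hW := hW1.and hW2
  have himg : S '' {p | (‖A.u (γ p.1 + J p.2) - A.u (γ p.1) - A0 A (γ p.1 + J p.2 - γ p.1)‖ ≤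
      1 / (2 * (‖J‖ + 1)) * ‖γ p.1 + J p.2 - γ p.1‖) ∧ ‖p.1‖ < ρ1} ∈ 𝓝 (0 : ι → ℂ) := by
    rw [← hmap]
    exact image_mem_map hW
  obtain ⟨ρ, hρ, hball⟩ := Metric.mem_nhds_iff.1 himg
  refine ⟨ρ, hρ, fun c hc huc => ?_⟩
  have hcb : c ∈ Metric.ball (0 : ι → ℂ) ρ := by
    rw [mem_ball_zero_iff]
    exact (pi_norm_lt_iff hρ).2 hc
  obtain ⟨⟨ε, η⟩, ⟨h1, h2⟩, rfl⟩ := hball hcb
  simp only [S] at huc h1 h2 ⊢
  rw [huc, hu ε h2, add_sub_cancel_left, hAJ, sub_zero, zero_sub, norm_neg] at h1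
  have h3 : ‖J η‖ ≤ ‖J‖ * ‖η‖ := J.le_opNorm η
  have h4 : 1 / (2 * (‖J‖ + 1)) * ‖J η‖ ≤ ‖η‖ / 2 := by
    have hJ0 : 0 ≤ ‖J‖ := norm_nonneg _
    have hη0 : 0 ≤ ‖η‖ := norm_nonneg _
    rw [div_mul_eq_mul_div, one_mul, div_le_div_iff₀ (by positivity) (by norm_num)]
    nlinarith
  have h5 : η = 0 := by
    have : ‖η‖ ≤ 0 := by linarith
    exact norm_le_zero_iff.1 this
  refine ⟨ε, h2, ?_⟩
  rw [h5, map_zero, add_zero]

end Fermat.Agent.S27
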