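import Fermat.Agent.S27.LAInterface

/-!
# S27 / AN-IFT : existence of the implicit function `γ`
-/

set_option autoImplicit false

namespace Fermat.Agent.S27

open scoped Topology ContDiff

namespace ANIFT

variable {ι : Type} [Fintype ι] {m g : ℕ} (A : ANData ι m g)

/-- the implicit equation -/
noncomputable def eqn (p : (Fin m → ℂ) × (ι → ℂ)) : ι → ℂ :=
  fun i => p.2 i + ∑ k, p.1 k * A.gk i k (p.2 i)

lemma eqn_apply (ε : Fin m → ℂ) (z : ι → ℂ) (i : ι) : eqn A (ε, z) i = A.Psi i ε (z i) := rfl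

lemma eqn_zero : eqn A (0, 0) = 0 := by
  funext i
  simp [eqn]

lemma contDiffAt_eqn : ContDiffAt ℂ 1 (eqn A) (0, 0) := by
  rw [contDiffAt_pi]
  intro i
  have h2 : ContDiffAt ℂ 1 (fun p : (Fin m → ℂ) × (ι → ℂ) => p.2 i) (0, 0) := by fun_prop
  refine h2.add (ContDiffAt.sum fun k _ => ?_)
  have h1 : ContDiffAt ℂ 1 (fun p : (Fin m → ℂ) × (ι → ℂ) => p.1 k) (0, 0) := by fun_prop
  refine h1.mul ?_
  have h3 : ContDiffAt ℂ 1 (A.gk i k) ((fun p : (Fin m → ℂ) × (ι → ℂ) => p.2 i) (0, 0)) := by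
    have : AnalyticAt ℂ (A.gk i k) 0 := A.gk_an i k 0 (by simpa using A.ρ0_pos)
    exact this.contDiffAt
  exact ContDiffAt.comp (g := A.gk i k) (f := fun p : (Fin m → ℂ) × (ι → ℂ) => p.2 i) (0, 0) h3 h2

/-- the derivative of the implicit equation at the origin -/
noncomputable def eqn' : (Fin m → ℂ) × (ι → ℂ) →L[ℂ] (ι → ℂ) :=
  ContinuousLinearMap.snd ℂ _ _ + A.alpha ∘L ContinuousLinearMap.fst ℂ _ _

lemma hasFDerivAt_eqn : HasFDerivAt (eqn A) (eqn' A) (0, 0) := by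
  rw [hasFDerivAt_pi']
  intro i
  have h2 : HasFDerivAt (fun p : (Fin m → ℂ) × (ι → ℂ) => p.2 i)
      (ContinuousLinearMap.proj (R := ℂ) i ∘L ContinuousLinearMap.snd ℂ (Fin m → ℂ) (ι → ℂ))
      (0, 0) :=
    (ContinuousLinearMap.proj (R := ℂ) i ∘L
      ContinuousLinearMap.snd ℂ (Fin m → ℂ) (ι → ℂ)).hasFDerivAt
  have h1 : ∀ k, HasFDerivAt (fun p : (Fin m → ℂ) × (ι → ℂ) => p.1 k)
      (ContinuousLinearMap.proj (R := ℂ) k ∘L ContinuousLinearMap.fst ℂ (Fin m → ℂ) (ι → ℂ))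
      (0, 0) := fun k =>
    (ContinuousLinearMap.proj (R := ℂ) k ∘L
      ContinuousLinearMap.fst ℂ (Fin m → ℂ) (ι → ℂ)).hasFDerivAt
  have h3 : ∀ k, HasFDerivAt (fun p : (Fin m → ℂ) × (ι → ℂ) => A.gk i k (p.2 i))
      ((deriv (A.gk i k) 0) • (ContinuousLinearMap.proj (R := ℂ) i ∘L
        ContinuousLinearMap.snd ℂ (Fin m → ℂ) (ι → ℂ))) (0, 0) := by
    intro k
    have : AnalyticAt ℂ (A.gk i k) 0 := A.gk_an i k 0 (by simpa using A.ρ0_pos)
    have hd : HasDerivAt (A.gk i k) (deriv (A.gk i k) 0)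
        ((fun p : (Fin m → ℂ) × (ι → ℂ) => p.2 i) (0, 0)) := this.differentiableAt.hasDerivAt
    exact HasDerivAt.comp_hasFDerivAt (h₂ := A.gk i k)
      (f := fun p : (Fin m → ℂ) × (ι → ℂ) => p.2 i) (0, 0) hd h2
  have h4 := h2.add (HasFDerivAt.fun_sum (u := Finset.univ) fun k _ => (h1 k).mul (h3 k))
  refine h4.congr_fderiv ?_
  ext p <;> simp [eqn', ANData.alpha, mul_comm]

lemma fderiv_eqn : fderiv ℂ (eqn A) (0, 0) = eqn' A := (hasFDerivAt_eqn A).fderiv

lemma eqn'_inr : eqn' A ∘L ContinuousLinearMap.inr ℂ (Fin m → ℂ) (ι → ℂ) =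
    ContinuousLinearMap.id ℂ (ι → ℂ) := by
  ext p
  simp [eqn']

lemma eqn'_inl : eqn' A ∘L ContinuousLinearMap.inl ℂ (Fin m → ℂ) (ι → ℂ) = A.alpha := by
  ext p
  simp [eqn']

end ANIFT

open ANIFT in
/-- AN-IFT : existence of the implicit function. -/
theorem an_ift : Stmt_AN_IFT := by
  classical
  intro ι _ m g A
  have cdf := contDiffAt_eqn A
  have pn : (1 : ℕ∞ω) ≠ 0 := one_ne_zero
  have if₂ : (fderiv ℂ (eqn A) (0, 0) ∘L
      ContinuousLinearMap.inr ℂ (Fin m → ℂ) (ι → ℂ)).IsInvertible := by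
    rw [fderiv_eqn, eqn'_inr]
    exact ContinuousLinearMap.isInvertible_equiv (f := ContinuousLinearEquiv.refl ℂ (ι → ℂ))
  set γ := cdf.implicitFunction pn if₂ with hγ
  have hγ0 : γ 0 = 0 := cdf.implicitFunction_apply_self pn if₂
  have hzero : ∀ᶠ x in 𝓝 (0 : Fin m → ℂ), eqn A (x, γ x) = 0 := by
    have := cdf.eventually_apply_implicitFunction pn if₂
    simpa [eqn_zero] using this
  have huniq : ∀ᶠ v in 𝓝 ((0, 0) : (Fin m → ℂ) × (ι → ℂ)), eqn A v = 0 ↔ γ v.1 = v.2 := by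
    have := cdf.eventually_apply_eq_iff_implicitFunction pn if₂
    simpa [eqn_zero] using this
  have hstrict : HasStrictFDerivAt γ (-A.alpha) 0 := by
    have := cdf.hasStrictFDerivAt_implicitFunction pn if₂
    rw [fderiv_eqn, eqn'_inr, eqn'_inl] at this
    simpa using this
  have hdiff : ∀ᶠ x in 𝓝 (0 : Fin m → ℂ), DifferentiableAt ℂ γ x := by
    have h1 : ContDiffAt ℂ 1 γ 0 := cdf.contDiffAt_implicitFunction pn if₂
    have h2 := h1.eventually (by simp)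
    exact h2.mono fun x hx => hx.differentiableAt (by simp)
  obtain ⟨δ, hδ, hδu⟩ := Metric.eventually_nhds_iff.1 huniq
  set ρ2 := min δ A.ρ0 with hρ2
  have hρ2pos : 0 < ρ2 := lt_min hδ A.ρ0_pos
  have hsmall : ∀ᶠ x in 𝓝 (0 : Fin m → ℂ), ‖γ x‖ < ρ2 := by
    have hc : ContinuousAt γ 0 := hstrict.continuousAt
    have : Filter.Tendsto (fun x => ‖γ x‖) (𝓝 0) (𝓝 ‖γ 0‖) := hc.norm
    rw [hγ0, norm_zero] at this
    exact this.eventually (gt_mem_nhds hρ2pos)
  obtain ⟨ρ1', hρ1', hall⟩ := Metric.eventually_nhds_iff.1 (hzero.and (hdiff.and hsmall))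
  refine ⟨min ρ1' δ, ρ2, γ, ?_⟩
  have hall' : ∀ ε : Fin m → ℂ, ‖ε‖ < min ρ1' δ →
      eqn A (ε, γ ε) = 0 ∧ DifferentiableAt ℂ γ ε ∧ ‖γ ε‖ < ρ2 := by
    intro ε hε
    exact hall (by simpa using lt_of_lt_of_le hε (min_le_left _ _))
  refine ⟨lt_min hρ1' hδ, hρ2pos, min_le_right _ _, hγ0, ?_, ?_, ?_, ?_, hstrict⟩
  · intro ε hε i
    exact lt_of_le_of_lt (norm_le_pi_norm _ i) (hall' ε hε).2.2
  · intro ε hε i
    have := congrFun (hall' ε hε).1 i
    simpa [eqn_apply] using this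
  · intro ε hε i z hz hΨ
    have hv : dist ((ε, Function.update (γ ε) i z) : (Fin m → ℂ) × (ι → ℂ)) (0, 0) < δ := by
      rw [Prod.dist_eq, max_lt_iff]
      refine ⟨by simpa using lt_of_lt_of_le hε (min_le_right _ _), ?_⟩
      rw [dist_zero_right, pi_norm_lt_iff hδ]
      intro j
      by_cases hj : j = i
      · subst hj
        simpa using lt_of_lt_of_le hz (min_le_left _ _)
      · show ‖Function.update (γ ε) i z j‖ < δ
        rw [Function.update_of_ne hj]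
        exact lt_of_le_of_lt (norm_le_pi_norm _ j)
          (lt_of_lt_of_le (hall' ε hε).2.2 (min_le_left _ _))
    have h1 := (hδu hv).1 (by
      funext j
      rw [eqn_apply]
      by_cases hj : j = i
      · subst hj
        simpa using hΨ
      · rw [Function.update_of_ne hj]
        have := congrFun (hall' ε hε).1 j
        simpa [eqn_apply] using this)
    have h2 := congrFun h1 i
    simpa using h2.symm
  · intro ε hε
    exact (hall' ε hε).2.1

end Fermat.Agent.S27
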