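import Fermat.Agent.S27.CH3Interface

/-!
# S27, package CH3a : a `ℤ`-valued valuation taking the value `1` is the `ord` of a place
-/

set_option autoImplicit false

namespace Fermat.Agent.S27

open AlgebraicCurve

namespace CH3a

variable {K : Type*} {F : Type*} [Field K] [Field F] [Algebra K F] {V : F → ℤ}

theorem isUnit_of_V_eq_zero (h : S24.IsVal K V) (a : h.valuationSubring) (ha : (a : F) ≠ 0)
    (hV : V (a : F) = 0) : IsUnit a := by
  have hinv : (a : F)⁻¹ ∈ h.valuationSubring := Or.inr (by rw [h.map_inv ha, hV]; simp)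
  refine IsUnit.of_mul_eq_one ⟨(a : F)⁻¹, hinv⟩ ?_
  ext
  simp [ha]

theorem V_nonneg (h : S24.IsVal K V) (a : h.valuationSubring) (ha : (a : F) ≠ 0) :
    0 ≤ V (a : F) := (h.mem_valuationSubring.1 a.2).resolve_left ha

theorem V_unit (h : S24.IsVal K V) (u : (h.valuationSubring)ˣ) :
    V ((u : h.valuationSubring) : F) = 0 := by
  have h1 : ((u : h.valuationSubring) : F) * ((u⁻¹ : (h.valuationSubring)ˣ) : h.valuationSubring)
      = 1 := by
    have h0 := congrArg (Subtype.val) (Units.mul_inv u)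
    exact h0
  have hu : ((u : h.valuationSubring) : F) ≠ 0 := left_ne_zero_of_mul_eq_one h1
  have hu' : (((u⁻¹ : (h.valuationSubring)ˣ) : h.valuationSubring) : F) ≠ 0 :=
    right_ne_zero_of_mul_eq_one h1
  have h2 := h.map_mul _ _ hu hu'
  rw [h1, h.map_one] at h2
  have h3 := V_nonneg h _ hu
  have h4 := V_nonneg h _ hu'
  omega

theorem irreducible_pi (h : S24.IsVal K V) (π : h.valuationSubring) (hπ0 : (π : F) ≠ 0)
    (hπ : V (π : F) = 1) : Irreducible π := by
  constructor
  · intro hu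
    obtain ⟨u, rfl⟩ := hu
    rw [V_unit h u] at hπ
    exact zero_ne_one hπ
  · intro a b hab
    have hab' : (π : F) = (a : F) * (b : F) := by
      have := congrArg (Subtype.val) hab
      simpa using this
    have ha0 : (a : F) ≠ 0 := fun h0 => hπ0 (by rw [hab', h0, zero_mul])
    have hb0 : (b : F) ≠ 0 := fun h0 => hπ0 (by rw [hab', h0, mul_zero])
    have h1 := h.map_mul _ _ ha0 hb0
    rw [← hab', hπ] at h1
    have h2 := V_nonneg h a ha0
    have h3 := V_nonneg h b hb0
    rcases (show V (a : F) = 0 ∨ V (b : F) = 0 by omega) with h4 | h4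
    · exact Or.inl (isUnit_of_V_eq_zero h a ha0 h4)
    · exact Or.inr (isUnit_of_V_eq_zero h b hb0 h4)

theorem hasFactorization (h : S24.IsVal K V) (π : h.valuationSubring) (hπ0 : (π : F) ≠ 0)
    (hπ : V (π : F) = 1) :
    IsDiscreteValuationRing.HasUnitMulPowIrreducibleFactorization h.valuationSubring := by
  refine ⟨π, irreducible_pi h π hπ0 hπ, ?_⟩
  intro x hx
  have hx0 : (x : F) ≠ 0 := fun h0 => hx (Subtype.ext h0)
  have hxV := V_nonneg h x hx0
  refine ⟨(V (x : F)).toNat, ?_⟩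
  have hVu : V ((x : F) * ((π : F) ^ (V (x : F)).toNat)⁻¹) = 0 := by
    rw [h.map_mul _ _ hx0 (inv_ne_zero (pow_ne_zero _ hπ0)), h.map_inv (pow_ne_zero _ hπ0),
      h.map_pow hπ0, hπ, Int.toNat_of_nonneg hxV]
    ring
  have hu0 : (x : F) * ((π : F) ^ (V (x : F)).toNat)⁻¹ ≠ 0 :=
    mul_ne_zero hx0 (inv_ne_zero (pow_ne_zero _ hπ0))
  have hmem : (x : F) * ((π : F) ^ (V (x : F)).toNat)⁻¹ ∈ h.valuationSubring :=
    Or.inr hVu.ge
  obtain ⟨u, hu⟩ := isUnit_of_V_eq_zero h ⟨_, hmem⟩ hu0 hVu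
  refine ⟨u, ?_⟩
  rw [hu]
  ext
  simp only [MulMemClass.coe_mul, SubmonoidClass.coe_pow]
  field_simp

end CH3a

theorem ch3a : Stmt_CH3a := by
  intro K F _ _ _ V h hex
  obtain ⟨π, hπ0, hπ⟩ := hex
  have hπmem : π ∈ h.valuationSubring := Or.inr (by rw [hπ]; exact zero_le_one)
  have hfac := CH3a.hasFactorization h ⟨π, hπmem⟩ hπ0 hπ
  have hdvr : IsDiscreteValuationRing h.valuationSubring :=
    IsDiscreteValuationRing.ofHasUnitMulPowIrreducibleFactorization hfac
  let P : Place K F :=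
    { toValuationSubring := h.valuationSubring
      algebraMap_mem' := fun a => h.algebraMap_mem_subring a
      ne_top' := by
        intro htop
        have h1 : π⁻¹ ∈ h.valuationSubring := by rw [htop]; exact ValuationSubring.mem_top _
        rcases h.mem_valuationSubring.1 h1 with h2 | h2
        · exact inv_ne_zero hπ0 h2
        · rw [h.map_inv hπ0, hπ] at h2
          omega
      isPrincipalIdealRing' := hdvr.toIsPrincipalIdealRing }
  refine ⟨P, fun f hf => ?_⟩
  have hirr : Irreducible (⟨π, hπmem⟩ : P.toValuationSubring) :=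
    CH3a.irreducible_pi h ⟨π, hπmem⟩ hπ0 hπ
  obtain ⟨u, hu⟩ := P.exists_unit_mul_zpow hf hirr
  have hu0 : ((u : P.toValuationSubring) : F) ≠ 0 := by
    intro h0
    rw [h0, zero_mul] at hu
    exact hf hu
  have h1 : V f = V ((u : P.toValuationSubring) : F) + V (π ^ P.ord f) := by
    conv_lhs => rw [hu]
    exact h.map_mul _ _ hu0 (zpow_ne_zero _ hπ0)
  rw [h.map_zpow hπ0, hπ, mul_one, CH3a.V_unit h u, zero_add] at h1
  exact h1.symm

end Fermat.Agent.S27
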