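import Fermat.Agent.S27.CH3Interface

/-!
# S27, package CH3b: algebra of a plane model
-/

set_option autoImplicit false

namespace Fermat.Agent.S27

open AlgebraicCurve IntermediateField Polynomial Filter Topology
open scoped Polynomial.Bivariate

universe u v

namespace CH3b

variable {K : Type u} {F : Type v} [Field K] [Field F] [Algebra K F]

/-- the coefficient hom `K[X] → F`, `X ↦ t`. -/
noncomputable def phi (t : F) : K[X] →+* F := (Polynomial.aeval t : K[X] →ₐ[K] F).toRingHom

/-- the evaluation hom `K[X][Y] → F`, `X ↦ t`, `Y ↦ y`. -/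
noncomputable def theta (t y : F) : K[X][Y] →+* F := Polynomial.eval₂RingHom (phi t) y

theorem evalF_eq_theta (t y : F) (P : K[X][Y]) : evalF P t y = theta t y P := by
  simp [theta, phi, evalF, Polynomial.eval_map]

theorem phi_apply (t : F) (q : K[X]) : phi t q = Polynomial.aeval t q := rfl

theorem theta_C (t y : F) (q : K[X]) : theta t y (C q) = Polynomial.aeval t q := by
  simp [theta, phi]

theorem theta_X (t y : F) : theta (K := K) t y X = y := by
  simp [theta]

theorem theta_comp_C (t y : F) : (theta (K := K) t y).comp C = phi t := by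
  ext q <;> simp [theta, phi]

theorem theta_eval₂ (t y : F) (p : K[X][Y]) (Q : K[X][Y]) :
    theta t y (Q.eval₂ C p) = Q.eval₂ (phi t) (theta t y p) := by
  rw [Polynomial.hom_eval₂, theta_comp_C]

/-- every element in the image of `theta` is killed by a nonzero polynomial over `K[X]`. -/
theorem exists_annihilator (t y : F) (Φ : K[X][Y]) (hΦ : Φ.Monic) (h0 : theta t y Φ = 0)
    (p : K[X][Y]) : ∃ P : K[X][Y], P ≠ 0 ∧ P.eval₂ (phi t) (theta t y p) = 0 := by
  let _ : Algebra K[X] F := (phi t).toAlgebra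
  have hy : IsIntegral K[X] y := ⟨Φ, hΦ, h0⟩
  have hp : IsIntegral K[X] (theta t y p) := by
    have e : theta t y p = Polynomial.aeval y p := rfl
    rw [e, Polynomial.aeval_eq_sum_range]
    refine IsIntegral.sum _ fun i _ => ?_
    rw [Algebra.smul_def]
    exact isIntegral_algebraMap.mul (hy.pow i)
  obtain ⟨P, hP, hP0⟩ := hp
  exact ⟨P, hP.ne_zero, hP0⟩

omit [Algebra K F] in
/-- from a nonzero annihilator of `a ≠ 0` we get one with nonzero constant coefficient. -/
theorem exists_annihilator_coeff_zero (φ : K[X] →+* F) (a : F) (ha : a ≠ 0) :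
    ∀ (n : ℕ) (P : K[X][Y]), P.natDegree ≤ n → P ≠ 0 → P.eval₂ φ a = 0 →
      ∃ P' : K[X][Y], P'.coeff 0 ≠ 0 ∧ P'.eval₂ φ a = 0 := by
  intro n
  induction n with
  | zero =>
    intro P hn hP h0
    refine ⟨P, ?_, h0⟩
    intro hc
    apply hP
    rw [Polynomial.eq_C_of_natDegree_le_zero hn, hc, C_0]
  | succ n ih =>
    intro P hn hP h0
    by_cases hc : P.coeff 0 = 0
    · have e : P = P.divX * X := by
        conv_lhs => rw [← Polynomial.divX_mul_X_add P, hc, C_0, add_zero]
      have hd : P.divX ≠ 0 := by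
        intro h
        apply hP
        rw [e, h, zero_mul]
      have h1 : P.divX.eval₂ φ a = 0 := by
        rw [e, Polynomial.eval₂_mul, Polynomial.eval₂_X] at h0
        exact (mul_eq_zero.mp h0).resolve_right ha
      refine ih P.divX ?_ hd h1
      rw [Polynomial.natDegree_divX_eq_natDegree_tsub_one]
      omega
    · exact ⟨P, hc, h0⟩

/-- the key lemma: nonzero elements of the image of `theta` are invertible up to a denominator
in `K[t]`. -/
theorem exists_inverse (t y : F) (Φ : K[X][Y]) (hΦ : Φ.Monic) (h0 : theta t y Φ = 0)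
    (p : K[X][Y]) (hp : theta t y p ≠ 0) :
    ∃ (G : K[X][Y]) (q : K[X]), q ≠ 0 ∧ theta t y G * theta t y p = Polynomial.aeval t q := by
  obtain ⟨P, hP, hP0⟩ := exists_annihilator t y Φ hΦ h0 p
  obtain ⟨P', hc, hP'⟩ := exists_annihilator_coeff_zero (phi t) _ hp _ P le_rfl hP hP0
  refine ⟨-(P'.divX.eval₂ C p), P'.coeff 0, hc, ?_⟩
  rw [map_neg, theta_eval₂]
  rw [← Polynomial.divX_mul_X_add P', Polynomial.eval₂_add, Polynomial.eval₂_mul,
    Polynomial.eval₂_X, Polynomial.eval₂_C, phi_apply] at hP'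
  linear_combination -hP'

end CH3b

open CH3b in
theorem ch3b : Stmt_CH3b.{u, v} := by
  intro K F _ _ _ t y Φ hΦ h0 hmin hgen
  rw [evalF_eq_theta] at h0
  have hmin' : ∀ Ψ : K[X][Y], Ψ.natDegree < Φ.natDegree → theta t y Ψ = 0 → Ψ = 0 := by
    intro Ψ h1 h2
    exact hmin Ψ h1 (by rw [evalF_eq_theta]; exact h2)
  have hΦ1 : Φ ≠ 1 := by
    rintro rfl
    rw [map_one] at h0
    exact one_ne_zero h0
  have hdeg : 0 < Φ.natDegree := by
    rcases Nat.eq_zero_or_pos Φ.natDegree with h | h
    · exact absurd (hΦ.natDegree_eq_zero.mp h) hΦ1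
    · exact h
  have h2 : ∀ q : K[X], q ≠ 0 → Polynomial.aeval t q ≠ 0 := by
    intro q hq h
    apply hq
    have := hmin' (C q) (by rw [natDegree_C]; exact hdeg) (by rw [theta_C]; exact h)
    exact C_eq_zero.mp this
  refine ⟨?_, h2, ?_⟩
  · intro Ψ hΨ
    rw [evalF_eq_theta] at hΨ
    rw [← Polynomial.modByMonic_eq_zero_iff_dvd hΦ]
    apply hmin' _ (Polynomial.natDegree_modByMonic_lt Ψ hΦ hΦ1)
    have e := Polynomial.modByMonic_add_div Ψ Φ
    have e2 := congrArg (theta t y) e
    rw [map_add, map_mul, h0, zero_mul, add_zero, hΨ] at e2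
    exact e2
  · intro f
    have hf : f ∈ IntermediateField.adjoin K {t, y} := by
      rw [hgen]; exact IntermediateField.mem_top
    simp only [evalF_eq_theta]
    induction hf using IntermediateField.adjoin_induction with
    | mem x hx =>
      rcases hx with rfl | hx
      · exact ⟨C X, 1, one_ne_zero, by rw [theta_C]; simp⟩
      · rw [Set.mem_singleton_iff] at hx
        subst hx
        exact ⟨X, 1, one_ne_zero, by rw [theta_X]; simp⟩
    | algebraMap a =>
      exact ⟨C (C a), 1, one_ne_zero, by rw [theta_C]; simp⟩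
    | add f g _ _ ihf ihg =>
      obtain ⟨p1, q1, hq1, e1⟩ := ihf
      obtain ⟨p2, q2, hq2, e2⟩ := ihg
      refine ⟨p1 * C q2 + p2 * C q1, q1 * q2, mul_ne_zero hq1 hq2, ?_⟩
      rw [map_add, map_mul, map_mul, map_mul, theta_C, theta_C, ← e1, ← e2]
      ring
    | inv f _ ihf =>
      obtain ⟨p1, q1, hq1, e1⟩ := ihf
      by_cases hf0 : f = 0
      · exact ⟨0, 1, one_ne_zero, by simp [hf0]⟩
      · have ha : theta t y p1 ≠ 0 := by
          rw [← e1]
          exact mul_ne_zero hf0 (h2 q1 hq1)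
        obtain ⟨G, q, hq, e⟩ := exists_inverse t y Φ hΦ h0 p1 ha
        refine ⟨C q1 * G, q, hq, ?_⟩
        rw [map_mul, theta_C, ← e, ← e1]
        field_simp
    | mul f g _ _ ihf ihg =>
      obtain ⟨p1, q1, hq1, e1⟩ := ihf
      obtain ⟨p2, q2, hq2, e2⟩ := ihg
      refine ⟨p1 * p2, q1 * q2, mul_ne_zero hq1 hq2, ?_⟩
      rw [map_mul, map_mul, ← e1, ← e2]
      ring

end Fermat.Agent.S27

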