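import Fermat.Agent.S27.CH3Interface
import Fermat.Agent.S27.EvalAt

/-!
# S27 : CH3d, assembly `Stmt_CH3b → Stmt_CH3c → Stmt_UNIQ → Stmt_CH3`
-/

set_option autoImplicit false

namespace Fermat.Agent.S27

open AlgebraicCurve IntermediateField Polynomial Filter Topology
open scoped Polynomial.Bivariate

universe u

namespace CH3d

section evalF

variable {K F : Type*} [Field K] [Field F] [Algebra K F] (t y : F)

lemma evalF_add (Ψ₁ Ψ₂ : K[X][Y]) : evalF (Ψ₁ + Ψ₂) t y = evalF Ψ₁ t y + evalF Ψ₂ t y := by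
  simp [evalF]

lemma evalF_sub (Ψ₁ Ψ₂ : K[X][Y]) : evalF (Ψ₁ - Ψ₂) t y = evalF Ψ₁ t y - evalF Ψ₂ t y := by
  simp [evalF]

lemma evalF_mul (Ψ₁ Ψ₂ : K[X][Y]) : evalF (Ψ₁ * Ψ₂) t y = evalF Ψ₁ t y * evalF Ψ₂ t y := by
  simp [evalF]

lemma evalF_C (q : K[X]) : evalF (C q) t y = Polynomial.aeval t q := by
  simp [evalF]

lemma evalF_X : evalF (X : K[X][Y]) t y = y := by
  simp [evalF]

end evalF

/-- Lemma A. -/
lemma analyticAt_evalEval (Ψ : ℂ[X][Y]) {Yf : ℂ → ℂ} {c : ℂ} (h : AnalyticAt ℂ Yf c) :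
    AnalyticAt ℂ (fun z => Ψ.evalEval z (Yf z)) c := by
  induction Ψ using Polynomial.induction_on with
  | C a =>
    simp only [evalEval_C]
    exact (Polynomial.differentiable a).analyticAt c
  | add p q hp hq =>
    simp only [evalEval_add]
    exact hp.add hq
  | monomial n a _ =>
    simp only [evalEval_mul, evalEval_C, evalEval_pow, evalEval_X]
    exact ((Polynomial.differentiable a).analyticAt c).mul (h.pow _)

lemma eventually_eval_ne_zero {q : ℂ[X]} (hq : q ≠ 0) (c : ℂ) :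
    ∀ᶠ z in 𝓝[≠] c, q.eval z ≠ 0 := by
  have hfin : ({z | q.IsRoot z} \ {c}).Finite := (Polynomial.finite_setOfPred_isRoot hq).subset
    Set.sdiff_subset
  have hmem : ({z | q.IsRoot z} \ {c})ᶜ ∈ 𝓝 c :=
    hfin.isClosed.isOpen_compl.mem_nhds (by simp)
  rw [eventually_nhdsWithin_iff]
  filter_upwards [hmem] with z hz hzc hroot
  exact hz ⟨hroot, hzc⟩

lemma eventually_norm_lt {r : ℝ} {c : ℂ} (hc : ‖c‖ < r) : ∀ᶠ z in 𝓝[≠] c, ‖z‖ < r :=
  nhdsWithin_le_nhds ((isOpen_lt continuous_norm continuous_const).mem_nhds hc)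

section Main

variable {F : Type u} [Field F] [Algebra ℂ F] {t y : F} {Φ : ℂ[X][Y]} {r : ℝ} {Yf : ℂ → ℂ}

/-- Lemma B. -/
lemma evalEval_eq_zero (hdvd : ∀ Ψ : ℂ[X][Y], evalF Ψ t y = 0 → Φ ∣ Ψ)
    (hY : ∀ c : ℂ, ‖c‖ < r → Φ.evalEval c (Yf c) = 0) {Ψ : ℂ[X][Y]} (hΨ : evalF Ψ t y = 0)
    {z : ℂ} (hz : ‖z‖ < r) : Ψ.evalEval z (Yf z) = 0 := by
  obtain ⟨Θ, rfl⟩ := hdvd Ψ hΨ
  rw [evalEval_mul, hY z hz, zero_mul]

/-- Lemma C, symmetric form: two representations of the same element give the same function. -/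
lemma rep_unique (hdvd : ∀ Ψ : ℂ[X][Y], evalF Ψ t y = 0 → Φ ∣ Ψ)
    (hY : ∀ c : ℂ, ‖c‖ < r → Φ.evalEval c (Yf c) = 0) {f : F} {p p' : ℂ[X][Y]} {q q' : ℂ[X]}
    (h : f * Polynomial.aeval t q = evalF p t y) (h' : f * Polynomial.aeval t q' = evalF p' t y)
    {z : ℂ} (hz : ‖z‖ < r) (hq : q.eval z ≠ 0) (hq' : q'.eval z ≠ 0) :
    p.evalEval z (Yf z) / q.eval z = p'.evalEval z (Yf z) / q'.eval z := by
  have h0 : evalF (p * C q' - p' * C q) t y = 0 := by
    rw [evalF_sub, evalF_mul, evalF_mul, evalF_C, evalF_C, ← h, ← h']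
    ring
  have h1 := evalEval_eq_zero hdvd hY h0 hz
  rw [evalEval_sub, evalEval_mul, evalEval_mul, evalEval_C, evalEval_C, sub_eq_zero] at h1
  rw [div_eq_div_iff hq hq', h1]

end Main

end CH3d

open CH3d in
/-- **CH3d**: a plane model and a holomorphic branch give a chart. -/
theorem ch3 (hb : Stmt_CH3b.{0, u}) (hc : Stmt_CH3c.{u}) (hU : Stmt_UNIQ.{0, u}) :
    Stmt_CH3.{u} := by
  intro F _ _ hF Q t y Φ hM r Yf hr hY0 hY
  obtain ⟨hdvd, -, hrep⟩ := hb ℂ F t y Φ hM.monic hM.root hM.minimal hM.gen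
  choose pf qf hqf hpq using hrep
  have hYΦ : ∀ c : ℂ, ‖c‖ < r → Φ.evalEval c (Yf c) = 0 := fun c hc => (hY c hc).2.1
  set ev : F → ℂ → ℂ := fun f z => (pf f).evalEval z (Yf z) / (qf f).eval z with hev
  -- Lemma C
  have key : ∀ (f : F) (p : ℂ[X][Y]) (q : ℂ[X]), q ≠ 0 →
      f * Polynomial.aeval t q = evalF p t y → ∀ c : ℂ, ‖c‖ < r →
      ev f =ᶠ[𝓝[≠] c] fun z => p.evalEval z (Yf z) / q.eval z := by
    intro f p q hq h c hc
    filter_upwards [eventually_norm_lt hc, eventually_eval_ne_zero hq c,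
      eventually_eval_ne_zero (hqf f) c] with z hz h1 h2
    exact rep_unique hdvd hYΦ (hpq f) h hz h2 h1
  have hmodel : IsAnModel r t ev := by
    refine ⟨fun f c hc => ?_, fun f g c hc => ?_, fun f g c hc => ?_, fun a c hc => ?_,
      fun c hc => ?_⟩
    · exact (analyticAt_evalEval (pf f) (hY c hc).1).meromorphicAt.div
        ((Polynomial.differentiable (qf f)).analyticAt c).meromorphicAt
    · have h1 := key (f + g) (pf f * C (qf g) + pf g * C (qf f)) (qf f * qf g)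
        (mul_ne_zero (hqf f) (hqf g)) (by
          rw [evalF_add, evalF_mul, evalF_mul, evalF_C, evalF_C, ← hpq f, ← hpq g, map_mul]
          ring) c hc
      filter_upwards [h1, eventually_eval_ne_zero (hqf f) c,
        eventually_eval_ne_zero (hqf g) c] with z hz h2 h3
      rw [hz]
      simp only [hev, evalEval_add, evalEval_mul, evalEval_C, eval_mul]
      field_simp
    · have h1 := key (f * g) (pf f * pf g) (qf f * qf g)
        (mul_ne_zero (hqf f) (hqf g)) (by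
          rw [evalF_mul, ← hpq f, ← hpq g, map_mul]
          ring) c hc
      filter_upwards [h1, eventually_eval_ne_zero (hqf f) c,
        eventually_eval_ne_zero (hqf g) c] with z hz h2 h3
      rw [hz]
      simp only [hev, evalEval_mul, eval_mul]
      field_simp
    · have h1 := key (algebraMap ℂ F a) (C (C a)) 1 one_ne_zero (by
          rw [evalF_C, map_one, mul_one, Polynomial.aeval_C]) c hc
      filter_upwards [h1] with z hz
      rw [hz]
      simp
    · have h1 := key t (C X) 1 one_ne_zero (by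
          rw [evalF_C, map_one, mul_one, Polynomial.aeval_X]) c hc
      filter_upwards [h1] with z hz
      rw [hz, evalEval_C]
      simp
  obtain ⟨P, hP, hlim⟩ := hc F hF r t ev hr hmodel
  have hvan : ∀ c : ℂ, ‖c‖ < r → VanishesAt (P c) (y - algebraMap ℂ F (Yf c)) := by
    intro c hc
    refine hlim y c (Yf c) hc ?_
    have h1 := key y X 1 one_ne_zero (by rw [evalF_X, map_one, mul_one]) c hc
    have h2 : Tendsto Yf (𝓝[≠] c) (𝓝 (Yf c)) :=
      (hY c hc).1.continuousAt.tendsto.mono_left nhdsWithin_le_nhds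
    refine h2.congr' ?_
    filter_upwards [h1] with z hz
    rw [hz]
    simp
  have h0 : ‖(0 : ℂ)‖ < r := by simpa using hr
  refine ⟨P, hP, ?_, fun c hc => evalAt_unique _ _ _ (hvan c hc)⟩
  refine hU ℂ F hF t y Φ hM.monic hM.root hM.gen 0 (evalAt Q y) hM.simple (P 0) Q
    (hP.vanishesAt_t h0) ?_ ?_ (evalAt_spec hF hM.regular)
  · rw [← hY0]
    exact hvan 0 h0
  · rw [map_zero, sub_zero]
    exact vanishesAt_of_ord_pos (by rw [hM.ord_t]; exact one_pos)

end Fermat.Agent.S27
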