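import Fermat.Agent.S27.CH3Interface
import Fermat.Agent.S27.EvalAt

/-!
# S27 / CH3c : an analytic model gives a chart
-/

set_option autoImplicit false

namespace Fermat.Agent.S27

open AlgebraicCurve Filter Topology

universe u

namespace CH3c

variable {F : Type u} [Field F] [Algebra ℂ F] {r : ℝ} {t : F} {ev : F → ℂ → ℂ}

/-- the order function at `c` -/
noncomputable def V (ev : F → ℂ → ℂ) (c : ℂ) (f : F) : ℤ := (meromorphicOrderAt (ev f) c).untop₀

theorem ev_one (h : IsAnModel r t ev) {c : ℂ} (hc : ‖c‖ < r) : ev 1 =ᶠ[𝓝[≠] c] fun _ => 1 := by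
  have := h.const 1 c hc
  rwa [map_one] at this

theorem order_ne_top (h : IsAnModel r t ev) {c : ℂ} (hc : ‖c‖ < r) {f : F} (hf : f ≠ 0) :
    meromorphicOrderAt (ev f) c ≠ ⊤ := by
  intro htop
  have h1 : ev (f * f⁻¹) =ᶠ[𝓝[≠] c] fun z => ev f z * ev f⁻¹ z := h.mul f f⁻¹ c hc
  rw [mul_inv_cancel₀ hf] at h1
  have h2 := ev_one h hc
  rw [meromorphicOrderAt_eq_top_iff] at htop
  have h3 : ∀ᶠ _z in 𝓝[≠] c, False := by
    filter_upwards [h1, h2, htop] with z a b d
    rw [b, d] at a
    simp at a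
  obtain ⟨_, hz⟩ := h3.exists
  exact hz

theorem coe_V (h : IsAnModel r t ev) {c : ℂ} (hc : ‖c‖ < r) {f : F} (hf : f ≠ 0) :
    ((V ev c f : ℤ) : WithTop ℤ) = meromorphicOrderAt (ev f) c :=
  WithTop.coe_untop₀_of_ne_top (order_ne_top h hc hf)

theorem order_mul (h : IsAnModel r t ev) {c : ℂ} (hc : ‖c‖ < r) (f g : F) :
    meromorphicOrderAt (ev (f * g)) c
      = meromorphicOrderAt (ev f) c + meromorphicOrderAt (ev g) c := by
  rw [meromorphicOrderAt_congr (h.mul f g c hc)]
  exact meromorphicOrderAt_mul (h.mero f c hc) (h.mero g c hc)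

theorem order_add (h : IsAnModel r t ev) {c : ℂ} (hc : ‖c‖ < r) (f g : F) :
    min (meromorphicOrderAt (ev f) c) (meromorphicOrderAt (ev g) c)
      ≤ meromorphicOrderAt (ev (f + g)) c := by
  rw [meromorphicOrderAt_congr (h.add f g c hc)]
  exact meromorphicOrderAt_add (h.mero f c hc) (h.mero g c hc)

theorem order_const (h : IsAnModel r t ev) {c : ℂ} (hc : ‖c‖ < r) {a : ℂ} (ha : a ≠ 0) :
    meromorphicOrderAt (ev (algebraMap ℂ F a)) c = 0 := by
  classical
  rw [meromorphicOrderAt_congr (h.const a c hc), meromorphicOrderAt_const, if_neg ha]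

theorem isVal (h : IsAnModel r t ev) {c : ℂ} (hc : ‖c‖ < r) : S24.IsVal ℂ (V ev c) where
  map_mul a b ha hb := by
    have := order_mul h hc a b
    rw [← coe_V h hc ha, ← coe_V h hc hb, ← coe_V h hc (mul_ne_zero ha hb)] at this
    exact_mod_cast this
  map_add a b ha hb hab := by
    have := order_add h hc a b
    rw [← coe_V h hc ha, ← coe_V h hc hb, ← coe_V h hc hab] at this
    exact_mod_cast this
  map_const a ha := by
    have := order_const h hc ha
    rw [← coe_V h hc (by simpa using ha)] at this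
    exact_mod_cast this

theorem ev_sub_const (h : IsAnModel r t ev) {c : ℂ} (hc : ‖c‖ < r) (f : F) (a : ℂ) :
    ev (f - algebraMap ℂ F a) =ᶠ[𝓝[≠] c] fun z => ev f z - a := by
  have h1 := h.add f (algebraMap ℂ F (-a)) c hc
  have h2 := h.const (-a) c hc
  have h3 : f - algebraMap ℂ F a = f + algebraMap ℂ F (-a) := by
    rw [map_neg, sub_eq_add_neg]
  rw [h3]
  filter_upwards [h1, h2] with z a1 a2
  rw [a1, a2, sub_eq_add_neg]

theorem order_coord (h : IsAnModel r t ev) {c : ℂ} (hc : ‖c‖ < r) :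
    meromorphicOrderAt (ev (t - algebraMap ℂ F c)) c = 1 := by
  have h1 : ev (t - algebraMap ℂ F c) =ᶠ[𝓝[≠] c] fun z => z - c := by
    filter_upwards [ev_sub_const h hc t c, h.coord c hc] with z a1 a2
    rw [a1, a2]
  rw [meromorphicOrderAt_congr h1]
  have h2 : MeromorphicAt (fun z : ℂ => z - c) c := by fun_prop
  have : meromorphicOrderAt (fun z : ℂ => z - c) c = ((1 : ℤ) : WithTop ℤ) := by
    rw [meromorphicOrderAt_eq_int_iff h2]
    exact ⟨fun _ => 1, analyticAt_const, one_ne_zero, by simp⟩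
  simp [this]

theorem coord_ne_zero (h : IsAnModel r t ev) {c : ℂ} (hc : ‖c‖ < r) :
    t - algebraMap ℂ F c ≠ 0 := by
  intro h0
  have h1 := order_coord h hc
  rw [h0] at h1
  have h2 : ev (0 : F) =ᶠ[𝓝[≠] c] fun _ => 0 := by
    have := h.const 0 c hc
    rwa [map_zero] at this
  rw [meromorphicOrderAt_congr h2, meromorphicOrderAt_const, if_pos rfl] at h1
  exact absurd h1 (by simp)

theorem V_coord (h : IsAnModel r t ev) {c : ℂ} (hc : ‖c‖ < r) :
    V ev c (t - algebraMap ℂ F c) = 1 := by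
  have := order_coord h hc
  rw [← coe_V h hc (coord_ne_zero h hc)] at this
  exact_mod_cast this

end CH3c

open CH3c in
theorem ch3c (ha : Stmt_CH3a.{0, u}) : Stmt_CH3c.{u} := by
  intro F _ _ hF r t ev hr h
  have hex : ∀ c : ℂ, ‖c‖ < r → ∃ P : Place ℂ F, ∀ f : F, f ≠ 0 → P.ord f = V ev c f :=
    fun c hc => ha ℂ F (V ev c) (isVal h hc) ⟨_, coord_ne_zero h hc, V_coord h hc⟩
  have h0 : ‖(0 : ℂ)‖ < r := by simpa using hr
  classical
  let P : ℂ → Place ℂ F := fun c =>
    if hc : ‖c‖ < r then (hex c hc).choose else (hex 0 h0).choose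
  have hP : ∀ c : ℂ, ‖c‖ < r → ∀ f : F, f ≠ 0 →
      (((P c).ord f : ℤ) : WithTop ℤ) = meromorphicOrderAt (ev f) c := by
    intro c hc f hf
    have : (P c).ord f = V ev c f := by
      simp only [P, dif_pos hc]
      exact (hex c hc).choose_spec f hf
    rw [this, coe_V h hc hf]
  -- values = limits
  have hlim : ∀ (f : F) (c a : ℂ), ‖c‖ < r → Tendsto (ev f) (𝓝[≠] c) (𝓝 a) →
      VanishesAt (P c) (f - algebraMap ℂ F a) := by
    intro f c a hc hta
    by_cases hfa : f - algebraMap ℂ F a = 0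
    · exact Or.inl hfa
    refine Or.inr ?_
    have h1 : Tendsto (ev (f - algebraMap ℂ F a)) (𝓝[≠] c) (𝓝 0) := by
      have h2 : Tendsto (fun z => ev f z - a) (𝓝[≠] c) (𝓝 (a - a)) := hta.sub_const a
      rw [sub_self] at h2
      exact h2.congr' (ev_sub_const h hc f a).symm
    rw [tendsto_zero_iff_meromorphicOrderAt_pos (h.mero _ c hc), ← hP c hc _ hfa] at h1
    exact_mod_cast h1
  -- the chart function agrees with the model off a discrete set
  have hball : ∀ c : ℂ, ‖c‖ < r → ∀ᶠ z in 𝓝[≠] c, ‖z‖ < r := by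
    intro c hc
    apply eventually_nhdsWithin_of_eventually_nhds
    exact (continuous_norm.continuousAt.eventually_lt continuousAt_const hc)
  have hagree : ∀ (f : F) (c : ℂ), ‖c‖ < r →
      (fun z => evalAt (P z) f) =ᶠ[𝓝[≠] c] ev f := by
    intro f c hc
    filter_upwards [(h.mero f c hc).eventually_analyticAt, hball c hc] with z hz hzr
    refine evalAt_unique _ _ _ (hlim f z _ hzr ?_)
    exact hz.continuousAt.continuousWithinAt.tendsto
  refine ⟨P, ⟨hr, ?_, ?_, ?_, ?_⟩, hlim⟩
  · intro c hc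
    have := hP c hc _ (coord_ne_zero h hc)
    rw [order_coord h hc] at this
    exact_mod_cast this
  · intro f c hc
    exact (h.mero f c hc).congr (hagree f c hc).symm
  · intro f hf c hc
    rw [meromorphicOrderAt_congr (hagree f c hc), hP c hc f hf]
  · intro f c hc hreg
    have hm : MeromorphicAt (fun z => evalAt (P z) f) c :=
      (h.mero f c hc).congr (hagree f c hc).symm
    refine hm.analyticAt ?_
    rw [continuousAt_iff_punctured_nhds]
    -- the model has a limit
    have hord : 0 ≤ meromorphicOrderAt (ev f) c := by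
      by_cases hf : f = 0
      · subst hf
        have h2 : ev (0 : F) =ᶠ[𝓝[≠] c] fun _ => 0 := by
          have := h.const 0 c hc
          rwa [map_zero] at this
        rw [meromorphicOrderAt_congr h2]
        exact (analyticAt_const (𝕜 := ℂ) (v := (0 : ℂ)) (x := c)).meromorphicOrderAt_nonneg
      · rw [← hP c hc f hf]
        exact_mod_cast hreg.ord_nonneg
    obtain ⟨a, hta⟩ := tendsto_nhds_of_meromorphicOrderAt_nonneg (h.mero f c hc) hord
    rw [evalAt_unique _ _ _ (hlim f c a hc hta)]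
    exact hta.congr' (hagree f c hc).symm

end Fermat.Agent.S27
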