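import Fermat.Agent.S27.Interface2
import Fermat.Agent.S27.EvalAt

/-!
# S27 / UNIQ : a point of the plane model with `Φ_Y ≠ 0` carries exactly one place
-/

set_option autoImplicit false

namespace Fermat.Agent.S27

open AlgebraicCurve IntermediateField Polynomial
open scoped Polynomial.Bivariate

universe u v

namespace Uniq

variable {K : Type u} {F : Type v} [Field K] [Field F] [Algebra K F]

/-- `evalF` as a ring homomorphism. -/
noncomputable def evalFHom (t y : F) : K[X][Y] →+* F :=
  Polynomial.eval₂RingHom (Polynomial.aeval t : K[X] →ₐ[K] F).toRingHom y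

theorem evalF_eq (t y : F) (P : K[X][Y]) : evalF P t y = evalFHom t y P := by
  simp [evalFHom, evalF, Polynomial.eval_map]

theorem evalFHom_C (t y : F) (p : K[X]) : evalFHom t y (C p) = aeval t p := by
  simp [evalFHom]

theorem evalFHom_X (t y : F) : evalFHom (K := K) t y X = y := by
  simp [evalFHom]

/-- Taylor expansion to first order at `(a, b)`. -/
theorem decomp (P : K[X][Y]) (a b : K) : ∃ (A0 : K[X]) (B1 : K[X][Y]),
    P = C (C (P.evalEval a b)) + C ((X - C a) * A0) + (X - C (C b)) * B1 ∧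
      B1.evalEval a b = (derivative P).evalEval a b := by
  obtain ⟨B1, hB1⟩ := X_sub_C_dvd_sub_C_eval (a := (C b : K[X])) (p := P)
  obtain ⟨A0, hA0⟩ := X_sub_C_dvd_sub_C_eval (a := a) (p := P.eval (C b))
  have hP : P = C (P.eval (C b)) + (X - C (C b)) * B1 := by
    rw [← hB1]; ring
  refine ⟨A0, B1, ?_, ?_⟩
  · have h1 : P.eval (C b) = C (P.evalEval a b) + (X - C a) * A0 := by
      rw [← hA0]; ring
    conv_lhs => rw [hP, h1]
    rw [C_add]
  · have hd : derivative P = B1 + (X - C (C b)) * derivative B1 := by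
      conv_lhs => rw [hP]
      simp
    rw [hd]
    simp [evalEval]

theorem evalFHom_decomp (t y : F) (P : K[X][Y]) (a b : K) : ∃ (A0 : K[X]) (B1 : K[X][Y]),
    evalFHom t y P = algebraMap K F (P.evalEval a b) + (t - algebraMap K F a) * aeval t A0
      + (y - algebraMap K F b) * evalFHom t y B1 ∧
      B1.evalEval a b = (derivative P).evalEval a b := by
  obtain ⟨A0, B1, h1, h2⟩ := decomp P a b
  refine ⟨A0, B1, ?_, h2⟩
  conv_lhs => rw [h1]
  simp only [map_add, map_mul, map_sub, evalFHom_C, evalFHom_X, aeval_C, aeval_X]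

theorem regularAt_evalFHom {v : Place K F} {t y : F} (ht : RegularAt v t) (hy : RegularAt v y)
    (P : K[X][Y]) : RegularAt v (evalFHom t y P) := by
  have : evalFHom t y P = ∑ i ∈ Finset.range (P.natDegree + 1), aeval t (P.coeff i) * y ^ i := by
    simp [evalFHom, eval₂_eq_sum_range]
  rw [this]
  exact regularAt_sum _ _ fun i _ => regularAt_mul (regularAt_aeval ht _) (regularAt_pow hy i)

section Point

variable {v : Place K F} {t y : F} {a b : K}

theorem regularAt_of_vanishesAt_sub {f : F} {c : K} (h : VanishesAt v (f - algebraMap K F c)) :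
    RegularAt v f := by
  have := regularAt_add h.regularAt (regularAt_algebraMap v c)
  rwa [sub_add_cancel] at this

theorem vanishesAt_sub_value (ht : VanishesAt v (t - algebraMap K F a))
    (hy : VanishesAt v (y - algebraMap K F b)) (P : K[X][Y]) :
    VanishesAt v (evalFHom t y P - algebraMap K F (P.evalEval a b)) := by
  obtain ⟨A0, B1, h1, -⟩ := evalFHom_decomp t y P a b
  have ht' := regularAt_of_vanishesAt_sub ht
  have hy' := regularAt_of_vanishesAt_sub hy
  have : evalFHom t y P - algebraMap K F (P.evalEval a b)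
      = (t - algebraMap K F a) * aeval t A0 + (y - algebraMap K F b) * evalFHom t y B1 := by
    rw [h1]; ring
  rw [this]
  exact vanishesAt_add (vanishesAt_mul_right ht (regularAt_aeval ht' _))
    (vanishesAt_mul_right hy (regularAt_evalFHom ht' hy' _))

theorem vanishesAt_iff_value (ht : VanishesAt v (t - algebraMap K F a))
    (hy : VanishesAt v (y - algebraMap K F b)) (P : K[X][Y]) :
    VanishesAt v (evalFHom t y P) ↔ P.evalEval a b = 0 := by
  have h := vanishesAt_sub_value ht hy P
  constructor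
  · intro h1
    have := vanishesAt_sub h1 h
    rw [sub_sub_cancel] at this
    exact vanishesAt_algebraMap_iff.mp this
  · intro h1
    rwa [h1, map_zero, sub_zero] at h

theorem ord_eq_zero_of_value_ne (ht : VanishesAt v (t - algebraMap K F a))
    (hy : VanishesAt v (y - algebraMap K F b)) (P : K[X][Y]) (hP : P.evalEval a b ≠ 0) :
    evalFHom t y P ≠ 0 ∧ v.ord (evalFHom t y P) = 0 := by
  have h1 : ¬ VanishesAt v (evalFHom t y P) := fun h => hP ((vanishesAt_iff_value ht hy P).mp h)
  have h2 : RegularAt v (evalFHom t y P) :=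
    regularAt_evalFHom (regularAt_of_vanishesAt_sub ht) (regularAt_of_vanishesAt_sub hy) P
  have h3 : evalFHom t y P ≠ 0 := fun h => h1 (Or.inl h)
  refine ⟨h3, ?_⟩
  have h4 := h2.ord_nonneg
  have h5 : ¬ 0 < v.ord (evalFHom t y P) := fun h => h1 (Or.inr h)
  omega

end Point

/-- `f` is a unit at both places. -/
def Good (v w : Place K F) (f : F) : Prop := f ≠ 0 ∧ v.ord f = 0 ∧ w.ord f = 0

theorem Good.mul {v w : Place K F} {f g : F} (hf : Good v w f) (hg : Good v w g) :
    Good v w (f * g) := by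
  refine ⟨mul_ne_zero hf.1 hg.1, ?_, ?_⟩
  · rw [v.ord_mul hf.1 hg.1, hf.2.1, hg.2.1, add_zero]
  · rw [w.ord_mul hf.1 hg.1, hf.2.2, hg.2.2, add_zero]

theorem good_one (v w : Place K F) : Good v w (1 : F) := ⟨one_ne_zero, by simp, by simp⟩

section Key

variable {v w : Place K F} {t y : F} {a b : K} {Φ : K[X][Y]}

theorem key (hΦ : evalFHom t y Φ = 0) (hd : (derivative Φ).evalEval a b ≠ 0)
    (hvt : VanishesAt v (t - algebraMap K F a)) (hvy : VanishesAt v (y - algebraMap K F b))
    (hwt : VanishesAt w (t - algebraMap K F a)) (hwy : VanishesAt w (y - algebraMap K F b)) :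
    ∀ (n : ℕ) (P : K[X][Y]), evalFHom t y P ≠ 0 → v.ord (evalFHom t y P) ≤ n →
      ∃ (k : ℕ) (u s : F), Good v w u ∧ Good v w s ∧
        evalFHom t y P * s = (t - algebraMap K F a) ^ k * u := by
  obtain ⟨α, B, hΦ1, hB⟩ := evalFHom_decomp t y Φ a b
  have hΦab : Φ.evalEval a b = 0 := (vanishesAt_iff_value hvt hvy Φ).mp (hΦ ▸ Or.inl rfl)
  rw [hΦ, hΦab, map_zero, zero_add] at hΦ1
  have hBne : B.evalEval a b ≠ 0 := hB ▸ hd
  have hβ : Good v w (evalFHom t y B) :=
    ⟨(ord_eq_zero_of_value_ne hvt hvy B hBne).1, (ord_eq_zero_of_value_ne hvt hvy B hBne).2,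
      (ord_eq_zero_of_value_ne hwt hwy B hBne).2⟩
  intro n
  induction n with
  | zero =>
    intro P hP0 hPn
    by_cases hPab : P.evalEval a b = 0
    · exfalso
      have := ((vanishesAt_iff_value hvt hvy P).mpr hPab).ord_pos hP0
      simp only [Nat.cast_zero] at hPn
      omega
    · exact ⟨0, evalFHom t y P, 1,
        ⟨hP0, (ord_eq_zero_of_value_ne hvt hvy P hPab).2, (ord_eq_zero_of_value_ne hwt hwy P hPab).2⟩,
        good_one v w, by simp⟩
  | succ n ih =>
    intro P hP0 hPn
    by_cases hPab : P.evalEval a b = 0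
    · obtain ⟨A0, B1, hP1, -⟩ := evalFHom_decomp t y P a b
      rw [hPab, map_zero, zero_add] at hP1
      have hrel : evalFHom t y P * evalFHom t y B
          = (t - algebraMap K F a) * evalFHom t y (C A0 * B - C α * B1) := by
        simp only [map_sub, map_mul, evalFHom_C]
        rw [hP1]
        linear_combination (-(evalFHom t y B1)) * hΦ1
      have hne : evalFHom t y P * evalFHom t y B ≠ 0 := mul_ne_zero hP0 hβ.1
      rw [hrel] at hne
      have hT0 : t - algebraMap K F a ≠ 0 := left_ne_zero_of_mul hne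
      have hP10 : evalFHom t y (C A0 * B - C α * B1) ≠ 0 := right_ne_zero_of_mul hne
      have hord := congrArg v.ord hrel
      rw [v.ord_mul hP0 hβ.1, v.ord_mul hT0 hP10, hβ.2.1] at hord
      have hTpos := hvt.ord_pos hT0
      obtain ⟨k, u, s, hu, hs, hrel2⟩ := ih (C A0 * B - C α * B1) hP10 (by push_cast at hPn; omega)
      refine ⟨k + 1, u, evalFHom t y B * s, hu, hβ.mul hs, ?_⟩
      rw [← mul_assoc, hrel, mul_assoc, hrel2, pow_succ]
      ring
    · exact ⟨0, evalFHom t y P, 1,
        ⟨hP0, (ord_eq_zero_of_value_ne hvt hvy P hPab).2, (ord_eq_zero_of_value_ne hwt hwy P hPab).2⟩,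
        good_one v w, by simp⟩

theorem exists_mul (hΦ : evalFHom t y Φ = 0) (hd : (derivative Φ).evalEval a b ≠ 0)
    (hvt : VanishesAt v (t - algebraMap K F a)) (hvy : VanishesAt v (y - algebraMap K F b))
    (hwt : VanishesAt w (t - algebraMap K F a)) (hwy : VanishesAt w (y - algebraMap K F b))
    (P : K[X][Y]) (hP : evalFHom t y P ≠ 0) :
    ∃ k : ℕ, v.ord (evalFHom t y P) = k * v.ord (t - algebraMap K F a) ∧
      w.ord (evalFHom t y P) = k * w.ord (t - algebraMap K F a) := by
  obtain ⟨k, u, s, hu, hs, hrel⟩ := key hΦ hd hvt hvy hwt hwy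
    (v.ord (evalFHom t y P)).toNat P hP (Int.self_le_toNat _)
  have hne : evalFHom t y P * s ≠ 0 := mul_ne_zero hP hs.1
  have hTk : (t - algebraMap K F a) ^ k ≠ 0 := by
    rw [hrel] at hne
    exact left_ne_zero_of_mul hne
  refine ⟨k, ?_, ?_⟩
  · have h := congrArg v.ord hrel
    rw [v.ord_mul hP hs.1, v.ord_mul hTk hu.1, hs.2.1, hu.2.1, ← zpow_natCast, v.ord_zpow] at h
    simpa using h
  · have h := congrArg w.ord hrel
    rw [w.ord_mul hP hs.1, w.ord_mul hTk hu.1, hs.2.2, hu.2.2, ← zpow_natCast, w.ord_zpow] at h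
    simpa using h

end Key

theorem mem_adjoin_pair_iff_evalFHom (t y f : F) (hf : f ∈ Algebra.adjoin K ({t, y} : Set F)) :
    ∃ P : K[X][Y], evalFHom t y P = f := by
  induction hf using Algebra.adjoin_induction with
  | mem x hx =>
    rcases hx with rfl | hx
    · exact ⟨C X, by simp [evalFHom_C]⟩
    · rw [Set.mem_singleton_iff] at hx
      subst hx
      exact ⟨X, evalFHom_X _ _⟩
  | algebraMap r => exact ⟨C (C r), by simp [evalFHom_C]⟩
  | add x y' _ _ hx hy =>
    obtain ⟨P, rfl⟩ := hx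
    obtain ⟨Q, rfl⟩ := hy
    exact ⟨P + Q, map_add _ _ _⟩
  | mul x y' _ _ hx hy =>
    obtain ⟨P, rfl⟩ := hx
    obtain ⟨Q, rfl⟩ := hy
    exact ⟨P * Q, map_mul _ _ _⟩

theorem main {t y : F} {Φ : K[X][Y]} (hΦ : evalF Φ t y = 0)
    (hgen : IntermediateField.adjoin K {t, y} = ⊤) {a b : K}
    (hd : (derivative Φ).evalEval a b ≠ 0) {v w : Place K F}
    (hvt : VanishesAt v (t - algebraMap K F a)) (hvy : VanishesAt v (y - algebraMap K F b))
    (hwt : VanishesAt w (t - algebraMap K F a)) (hwy : VanishesAt w (y - algebraMap K F b)) :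
    v = w := by
  rw [evalF_eq] at hΦ
  have hsign : (v.ord (t - algebraMap K F a) = 0 ∧ w.ord (t - algebraMap K F a) = 0) ∨
      (0 < v.ord (t - algebraMap K F a) ∧ 0 < w.ord (t - algebraMap K F a)) := by
    rcases eq_or_ne (t - algebraMap K F a) 0 with h | h
    · left; rw [h]; simp
    · right; exact ⟨hvt.ord_pos h, hwt.ord_pos h⟩
  have hiff : ∀ f : F, f ≠ 0 → (0 ≤ v.ord f ↔ 0 ≤ w.ord f) := by
    intro f hf
    have hfmem : f ∈ IntermediateField.adjoin K ({t, y} : Set F) := by rw [hgen]; trivial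
    obtain ⟨p, hp, q, hq, rfl⟩ := IntermediateField.mem_adjoin_iff_div.mp hfmem
    obtain ⟨P, rfl⟩ := mem_adjoin_pair_iff_evalFHom t y p hp
    obtain ⟨Q, rfl⟩ := mem_adjoin_pair_iff_evalFHom t y q hq
    have hP0 : evalFHom t y P ≠ 0 := fun h => hf (by rw [h, zero_div])
    have hQ0 : evalFHom t y Q ≠ 0 := fun h => hf (by rw [h, div_zero])
    obtain ⟨k, hk1, hk2⟩ := exists_mul hΦ hd hvt hvy hwt hwy P hP0
    obtain ⟨m, hm1, hm2⟩ := exists_mul hΦ hd hvt hvy hwt hwy Q hQ0
    rw [div_eq_mul_inv, v.ord_mul hP0 (inv_ne_zero hQ0), w.ord_mul hP0 (inv_ne_zero hQ0),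
      v.ord_inv, w.ord_inv, hk1, hk2, hm1, hm2]
    rcases hsign with ⟨h1, h2⟩ | ⟨h1, h2⟩
    · rw [h1, h2]
    · have e1 : (k : ℤ) * v.ord (t - algebraMap K F a) + -((m : ℤ) * v.ord (t - algebraMap K F a))
          = ((k : ℤ) - m) * v.ord (t - algebraMap K F a) := by ring
      have e2 : (k : ℤ) * w.ord (t - algebraMap K F a) + -((m : ℤ) * w.ord (t - algebraMap K F a))
          = ((k : ℤ) - m) * w.ord (t - algebraMap K F a) := by ring
      rw [e1, e2, mul_nonneg_iff_of_pos_right h1, mul_nonneg_iff_of_pos_right h2]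
  apply Place.ext
  ext f
  rcases eq_or_ne f 0 with rfl | hf
  · simp
  · rw [S24.mem_iff_ord_nonneg v hf, S24.mem_iff_ord_nonneg w hf]
    exact hiff f hf

end Uniq

/-- a point of the plane model with `Φ_Y ≠ 0` carries exactly one place. -/
theorem uniq : Stmt_UNIQ.{u, v} := by
  intro K F _ _ _ _ _ _ t y Φ _ hΦ hgen a b hd v w hvt hvy hwt hwy
  exact Uniq.main hΦ hgen hd hvt hvy hwt hwy

end Fermat.Agent.S27
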