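import Fermat.Agent.S27.CH2
import Fermat.Agent.S27.CH3
import Fermat.Agent.S27.CH3c
import Fermat.Agent.S27.Uniq

/-!
# S27 / CH : existence of charts (assembly)
-/

set_option autoImplicit false

namespace Fermat.Agent.S27

open AlgebraicCurve Polynomial
open scoped Polynomial.Bivariate

universe u

/-- CH from CH1, CH2, CH3. -/
theorem ch_of (h1 : Stmt_CH1.{0, u}) (h2 : Stmt_CH2) (h3 : Stmt_CH3.{u}) : Stmt_CH.{u} := by
  intro F _ _ hF Q
  obtain ⟨t, ht⟩ := S24.exists_ord_eq_one Q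
  obtain ⟨y, Φ, hM⟩ := h1 ℂ F hF Q t ht
  have htv : VanishesAt Q (t - algebraMap ℂ F 0) := by
    rw [map_zero, sub_zero]
    exact vanishesAt_of_ord_pos (by rw [ht]; exact one_pos)
  have hyv : VanishesAt Q (y - algebraMap ℂ F (evalAt Q y)) := evalAt_spec hF hM.regular
  have h0 : Φ.evalEval 0 (evalAt Q y) = 0 := by
    rw [← Uniq.vanishesAt_iff_value htv hyv Φ, ← Uniq.evalF_eq, hM.root]
    exact Or.inl rfl
  obtain ⟨r, hr, Yf, hY0, hY⟩ := h2 Φ (evalAt Q y) h0 hM.simple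
  obtain ⟨P, hP, hPQ, -⟩ := h3 F hF Q t y Φ hM r Yf hr hY0 hY
  exact ⟨r, P, t, hP, hPQ⟩

/-- CH from the remaining open packages CH1, CH3a, CH3b. -/
theorem ch_of' (h1 : Stmt_CH1.{0, u}) (ha : Stmt_CH3a.{0, u}) (hb : Stmt_CH3b.{0, u}) :
    Stmt_CH.{u} :=
  ch_of h1 ch2 (ch3 hb (ch3c ha) uniq)

end Fermat.Agent.S27
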