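import Fermat.Agent.S27.R0

/-!
# S27, package FIN : compactness — finitely many chart discs cover all places
-/

set_option autoImplicit false

namespace Fermat.Agent.S27

open AlgebraicCurve IntermediateField

universe u

namespace FIN

open Fermat.Agent.S24

variable {F : Type u} [Field F] [Algebra ℂ F]

/-- a zero of `x - a`, `a ≠ 0`, is a zero of `x⁻¹ - a⁻¹` -/
theorem ord_inv_sub_pos {x : F} (hx : Transcendental ℂ x) (v : Place ℂ F) (a : ℂ) (ha : a ≠ 0)
    (h : 0 < v.ord (x - algebraMap ℂ F a)) : 0 < v.ord (x⁻¹ - algebraMap ℂ F a⁻¹) := by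
  have hx0 : x ≠ 0 := fun h0 => hx (h0 ▸ isAlgebraic_zero)
  have ha0 : algebraMap ℂ F a ≠ 0 := by
    simpa using ha
  have hxa : x - algebraMap ℂ F a ≠ 0 := fun h0 => by
    rw [h0, Place.ord_zero] at h
    exact lt_irrefl _ h
  have hordx : v.ord x = 0 := by
    have h1 : x = algebraMap ℂ F a + (x - algebraMap ℂ F a) := by ring
    rw [h1, ord_add_eq_of_lt v ha0 hxa (by rw [ord_algebraMap]; exact h), ord_algebraMap]
  have h2 : x⁻¹ - algebraMap ℂ F a⁻¹ =
      (-(x - algebraMap ℂ F a)) * (x⁻¹ * (algebraMap ℂ F a)⁻¹) := by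
    rw [map_inv₀]
    field_simp
    ring
  have hneg : v.ord (-(x - algebraMap ℂ F a)) = v.ord (x - algebraMap ℂ F a) := by
    have h3 : -(x - algebraMap ℂ F a) = algebraMap ℂ F (-1) * (x - algebraMap ℂ F a) := by
      simp
    rw [h3, Place.ord_mul _ (by simp) hxa, ord_algebraMap, zero_add]
  rw [h2, Place.ord_mul _ (neg_ne_zero.mpr hxa) (mul_ne_zero (inv_ne_zero hx0) (inv_ne_zero ha0)),
    Place.ord_mul _ (inv_ne_zero hx0) (inv_ne_zero ha0), Place.ord_inv, Place.ord_inv, hordx,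
    ord_algebraMap, hneg]
  simpa using h

end FIN

open FIN Fermat.Agent.S24 in
theorem fin (hC1 : Stmt_C1.{u}) : Stmt_FIN.{u} := by
  intro F _ _ hF r P t hch
  obtain ⟨x, hx, hfd⟩ := id hF
  have hxi : Transcendental ℂ x⁻¹ := fun h => hx (by simpa using h.inv)
  have hfdi : FiniteDimensional ℂ⟮x⁻¹⟯ F := finiteDimensional_adjoin_simple_of_transcendental x hx _ hxi
  -- neighbourhood of infinity
  obtain ⟨δi, hδi, hinf⟩ := hC1 F x⁻¹ hxi hfdi 0 r P t (fun Q _ => hch Q)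
  -- finite points
  have hfin : ∀ a : ℂ, ∃ δ > 0, ∀ b : ℂ, ‖b - a‖ < δ → ∀ v : Place ℂ F,
      0 < v.ord (x - algebraMap ℂ F b) → ∃ Q : Place ℂ F, 0 < Q.ord (x - algebraMap ℂ F a) ∧
        ∃ c : ℂ, ‖c‖ < r Q ∧ v = P Q c := by
    intro a
    obtain ⟨δ, hδ, h⟩ := hC1 F x hx hfd a r P t (fun Q _ => hch Q)
    refine ⟨δ, hδ, fun b hb v hv => ?_⟩
    obtain ⟨m, hm, -⟩ := h b hb
    exact ⟨m v, (hm v hv).1, (hm v hv).2⟩
  choose δ hδ hδ' using hfin
  -- compactness of the closed disc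
  have hcomp : IsCompact (Metric.closedBall (0 : ℂ) (δi⁻¹ + 1)) := isCompact_closedBall _ _
  obtain ⟨T, -, hT⟩ := hcomp.elim_nhds_subcover (fun a => Metric.ball a (δ a))
    (fun a _ => Metric.ball_mem_nhds a (hδ a))
  classical
  let S : Finset (Place ℂ F) :=
    (R0.finite_zeros hF (x⁻¹ - algebraMap ℂ F 0)).toFinset ∪
      T.biUnion (fun a => (R0.finite_zeros hF (x - algebraMap ℂ F a)).toFinset)
  refine ⟨S, fun v => ?_⟩
  have key_inf : ∀ b : ℂ, ‖b‖ < δi → 0 < v.ord (x⁻¹ - algebraMap ℂ F b) →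
      ∃ Q ∈ S, ∃ c : ℂ, ‖c‖ < r Q ∧ v = P Q c := by
    intro b hb hv
    obtain ⟨m, hm, -⟩ := hinf b (by simpa using hb)
    refine ⟨m v, ?_, (hm v hv).2⟩
    apply Finset.mem_union_left
    simpa using (hm v hv).1
  by_cases hreg : RegularAt v x
  · obtain ⟨a, ha⟩ := R0.exists_value hF v x hreg
    have hxa : x - algebraMap ℂ F a ≠ 0 := fun h0 =>
      hx (by rw [sub_eq_zero.mp h0]; exact isAlgebraic_algebraMap a)
    have hpos : 0 < v.ord (x - algebraMap ℂ F a) := ha.resolve_left hxa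
    by_cases hle : ‖a‖ ≤ δi⁻¹ + 1
    · have hmem : a ∈ Metric.closedBall (0 : ℂ) (δi⁻¹ + 1) := by simpa using hle
      obtain ⟨a₀, ha₀, hball⟩ := Set.mem_iUnion₂.mp (hT hmem)
      obtain ⟨Q, hQ, hc⟩ := hδ' a₀ a (by simpa [dist_eq_norm] using hball) v hpos
      refine ⟨Q, ?_, hc⟩
      apply Finset.mem_union_right
      rw [Finset.mem_biUnion]
      exact ⟨a₀, ha₀, by simpa using hQ⟩
    · push Not at hle
      have hinvpos : 0 < δi⁻¹ := inv_pos.mpr hδi
      have ha0 : a ≠ 0 := by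
        rintro rfl
        simp at hle
        linarith
      apply key_inf a⁻¹ _ (ord_inv_sub_pos hx v a ha0 hpos)
      rw [norm_inv]
      have h1 : δi⁻¹ < ‖a‖ := by linarith
      exact inv_lt_of_inv_lt₀ hδi h1
  · have hneg : v.ord x < 0 := by
      by_contra hcon
      exact hreg (Or.inr (not_lt.mp hcon))
    apply key_inf 0 (by simpa using hδi)
    rw [map_zero, sub_zero, Place.ord_inv]
    omega

end Fermat.Agent.S27
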