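import Fermat.Agent.S27.Interface

/-!
# S27 : interface, part 2 (finer split of the packages CH and KA)
-/

set_option autoImplicit false

namespace Fermat.Agent.S27

open AlgebraicCurve IntermediateField Polynomial
open scoped Polynomial.Bivariate

universe u v

section PlaneModel

variable {K F : Type*} [Field K] [Field F] [Algebra K F]

/-- The value `Φ(t, y) ∈ F` of a bivariate polynomial (`X ↦ t`, `Y ↦ y`). -/
noncomputable def evalF (Φ : K[X][Y]) (t y : F) : F :=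
  (Φ.map (Polynomial.aeval t : K[X] →ₐ[K] F).toRingHom).eval y

/-- A plane model `F = K(t)[y]`, `Φ(t,y) = 0`, adapted to the place `Q` and its uniformiser `t`:
`y` integral over `K[t]`, `Φ` its minimal polynomial, `(0, y(Q))` a point with `Φ_Y ≠ 0`. -/
structure IsPlaneModel (Q : Place K F) (t y : F) (Φ : K[X][Y]) : Prop where
  ord_t : Q.ord t = 1
  monic : Φ.Monic
  root : evalF Φ t y = 0
  minimal : ∀ Ψ : K[X][Y], Ψ.natDegree < Φ.natDegree → evalF Ψ t y = 0 → Ψ = 0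
  gen : IntermediateField.adjoin K {t, y} = ⊤
  regular : RegularAt Q y
  simple : (derivative Φ).evalEval 0 (evalAt Q y) ≠ 0

end PlaneModel

/-- CH1 (algebra): plane models exist, for a GIVEN uniformiser `t`. -/
def Stmt_CH1 : Prop :=
  ∀ (K : Type u) (F : Type v) [Field K] [Field F] [Algebra K F] [IsAlgClosed K] [CharZero K],
    IsFF K F → ∀ (Q : Place K F) (t : F), Q.ord t = 1 →
      ∃ (y : F) (Φ : K[X][Y]), IsPlaneModel Q t y Φ

/-- CH2 (analysis): holomorphic implicit function. -/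
def Stmt_CH2 : Prop :=
  ∀ (Φ : ℂ[X][Y]) (y₀ : ℂ), Φ.evalEval 0 y₀ = 0 → (derivative Φ).evalEval 0 y₀ ≠ 0 →
    ∃ r > 0, ∃ Yf : ℂ → ℂ, Yf 0 = y₀ ∧ ∀ c : ℂ, ‖c‖ < r →
      AnalyticAt ℂ Yf c ∧ Φ.evalEval c (Yf c) = 0 ∧ (derivative Φ).evalEval c (Yf c) ≠ 0

/-- CH3: a plane model and a holomorphic branch give a chart. -/
def Stmt_CH3 : Prop :=
  ∀ (F : Type u) [Field F] [Algebra ℂ F], IsFF ℂ F →
    ∀ (Q : Place ℂ F) (t y : F) (Φ : ℂ[X][Y]), IsPlaneModel Q t y Φ →
    ∀ (r : ℝ) (Yf : ℂ → ℂ), 0 < r → Yf 0 = evalAt Q y →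
      (∀ c : ℂ, ‖c‖ < r →
        AnalyticAt ℂ Yf c ∧ Φ.evalEval c (Yf c) = 0 ∧ (derivative Φ).evalEval c (Yf c) ≠ 0) →
      ∃ P : ℂ → Place ℂ F, IsChart r P t ∧ P 0 = Q ∧ ∀ c : ℂ, ‖c‖ < r → evalAt (P c) y = Yf c

/-- (U) a point of the plane model with `Φ_Y ≠ 0` carries exactly one place (used in KA). -/
def Stmt_UNIQ : Prop :=
  ∀ (K : Type u) (F : Type v) [Field K] [Field F] [Algebra K F] [IsAlgClosed K] [CharZero K],
    IsFF K F → ∀ (t y : F) (Φ : K[X][Y]), Φ.Monic → evalF Φ t y = 0 →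
      IntermediateField.adjoin K {t, y} = ⊤ →
      ∀ (a b : K), (derivative Φ).evalEval a b ≠ 0 → ∀ v w : Place K F,
        VanishesAt v (t - algebraMap K F a) → VanishesAt v (y - algebraMap K F b) →
        VanishesAt w (t - algebraMap K F a) → VanishesAt w (y - algebraMap K F b) → v = w

end Fermat.Agent.S27
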