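import Fermat.Agent.S27.KappaModel
import Fermat.Agent.S27.Interface2

/-!
# S27, package KA : the tangent field `kappa` of a chart is holomorphic
-/

set_option autoImplicit false
set_option linter.unusedSectionVars false

namespace Fermat.Agent.S27

universe u

namespace KA

open AlgebraicCurve IntermediateField Polynomial Finset Filter Topology

variable {F : Type u} [Field F] [Algebra ℂ F]

theorem analyticAt_eval (p : ℂ[X]) (z : ℂ) : AnalyticAt ℂ (fun x => p.eval x) z :=
  (Polynomial.differentiable p).analyticAt z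

theorem core (hF : IsFF ℂ F)
    (ad1 : ∀ (v : Place ℂ F) (f g : F), h1Single v (f + g) = h1Single v f + h1Single v g)
    (ad2 : ∀ (v : Place ℂ F) (a : ℂ) (f : F),
      h1Single v (algebraMap ℂ F a * f) = a • h1Single v f)
    (ad3 : ∀ (v : Place ℂ F) (f : F), RegularAt v f → h1Single v f = 0)
    (ad4 : ∀ (v : Place ℂ F) (s f : F), v.ord s = 1 → RegularAt v (s * f) →
        h1Single v f = evalAt v (s * f) • h1Single v s⁻¹)
    (ad5 : ∀ (S : Finset (Place ℂ F)) (f : F), (∀ v, v ∉ S → RegularAt v f) →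
        ∑ v ∈ S, h1Single v f = 0)
    {r : ℝ} {P : ℂ → Place ℂ F} {t : F} (hch : IsChart r P t)
    (n : ℕ) (φ : ℕ → ℂ[X]) (y : F)
    (hrel : ∑ m ∈ range (n + 1), aeval t (φ m) * y ^ m = 0)
    (hgen : ∀ f : F, ∃ g h : F, g ∈ Algebra.adjoin ℂ {t, y} ∧ h ∈ Algebra.adjoin ℂ {t, y} ∧
      h ≠ 0 ∧ f * h = g)
    (hint : ∀ v : Place ℂ F, RegularAt v t → RegularAt v y)
    (c₀ : ℂ) (hc₀ : ‖c₀‖ < r) (hd : dPhi n φ c₀ (evalAt (P c₀) y) ≠ 0)
    (lam : Module.Dual ℂ (H1 (0 : Divisor ℂ F))) :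
    AnalyticAt ℂ (fun z => lam (kappa P t z)) c₀ := by
  classical
  -- `t` is regular along the chart
  have hregt : ∀ z : ℂ, ‖z‖ < r → RegularAt (P z) t := fun z hz =>
    regularAt_of_vanishesAt_sub (a := z) (vanishesAt_of_ord_pos (by rw [hch.ord_t z hz]; norm_num))
  -- `t` is transcendental
  have httr : Transcendental ℂ t := by
    rcases R0.const_or_transcendental (K := ℂ) t with ⟨a, ha⟩ | h
    · exfalso
      have h1 := hch.ord_t c₀ hc₀
      rw [ha, ← map_sub, S24.ord_algebraMap] at h1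
      exact zero_ne_one h1
    · exact h
  set S : Finset (Place ℂ F) := (R0.finite_poles hF t).toFinset with hS
  have hSmem : ∀ v, v ∈ S ↔ v.ord t < 0 := fun v => by simp [hS]
  -- the functional
  let Λ : F →ₗ[ℂ] ℂ :=
    { toFun := fun f => ∑ v ∈ S, lam (h1Single v f)
      map_add' := fun f g => by
        simp only [ad1, map_add, sum_add_distrib]
      map_smul' := fun a f => by
        simp only [Algebra.smul_def, ad2, map_smul, RingHom.id_apply, mul_sum,
          Algebra.algebraMap_self] }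
  have hΛdef : ∀ f, Λ f = ∑ v ∈ S, lam (h1Single v f) := fun f => rfl
  have hΛ0 : ∀ f : F, (∀ v ∈ S, RegularAt v f) → Λ f = 0 := fun f hf => by
    rw [hΛdef]
    exact sum_eq_zero fun v hv => by rw [ad3 v f (hf v hv), map_zero]
  -- the functions `p i`
  have hp : ∀ i : ℕ, AnalyticAt ℂ (fun z : ℂ => Λ (y ^ i * (t - algebraMap ℂ F z)⁻¹)) c₀ := by
    intro i
    obtain ⟨J, hJ⟩ := functional_expand S t (fun v hv => (hSmem v).1 hv) httr Λ hΛ0 (y ^ i)
    have : (fun z : ℂ => Λ (y ^ i * (t - algebraMap ℂ F z)⁻¹))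
        = fun z : ℂ => ∑ j ∈ range J, z ^ j * Λ (y ^ i * t⁻¹ ^ (j + 1)) := funext hJ
    rw [this]
    exact Finset.analyticAt_fun_sum _ fun j _ => (analyticAt_id.pow j).mul analyticAt_const
  -- `Y`
  have hY : AnalyticAt ℂ (fun z => evalAt (P z) y) c₀ :=
    hch.analytic y c₀ hc₀ (hint _ (hregt c₀ hc₀))
  -- `D`
  have hD : AnalyticAt ℂ (fun z => dPhi n φ z (evalAt (P z) y)) c₀ := by
    unfold dPhi
    exact Finset.analyticAt_fun_sum _ fun m _ => (analyticAt_eval (φ m) c₀).mul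
      (Finset.analyticAt_fun_sum _ fun i _ => (hY.pow i).mul (hY.pow _))
  -- `N`
  have hN : AnalyticAt ℂ (fun z => ∑ m ∈ range (n + 1), ∑ i ∈ range m,
      ((φ m).eval z * evalAt (P z) y ^ (m - 1 - i)) * Λ (y ^ i * (t - algebraMap ℂ F z)⁻¹)) c₀ :=
    Finset.analyticAt_fun_sum _ fun m _ => Finset.analyticAt_fun_sum _ fun i _ =>
      ((analyticAt_eval (φ m) c₀).mul (hY.pow _)).mul (hp i)
  have hfin : AnalyticAt ℂ (fun z => -((dPhi n φ z (evalAt (P z) y))⁻¹ *
      ∑ m ∈ range (n + 1), ∑ i ∈ range m,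
      ((φ m).eval z * evalAt (P z) y ^ (m - 1 - i)) * Λ (y ^ i * (t - algebraMap ℂ F z)⁻¹))) c₀ :=
    ((hD.inv hd).mul hN).neg
  refine hfin.congr ?_
  have hev1 : ∀ᶠ z in 𝓝 c₀, ‖z‖ < r :=
    (continuous_norm.continuousAt (x := c₀)).eventually_lt continuousAt_const hc₀
  have hev2 : ∀ᶠ z in 𝓝 c₀, dPhi n φ z (evalAt (P z) y) ≠ 0 := hD.continuousAt.eventually_ne hd
  filter_upwards [hev1, hev2] with z hz hdz
  set w := P z with hw
  set a := evalAt w y with ha
  have hwt : w.ord (t - algebraMap ℂ F z) = 1 := hch.ord_t z hz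
  have hwy : VanishesAt w (y - algebraMap ℂ F a) := evalAt_spec hF (hint _ (hregt z hz))
  set k := kern n φ t y z a with hk
  obtain ⟨hk1, hk2⟩ := kern_center hF n φ t y z a w hwt hwy hdz
  have hκ : h1Single w k = kappa P t z := by
    rw [ad4 w (t - algebraMap ℂ F z) k hwt hk1, hk2, one_smul]
    rfl
  have hwS : w ∉ S := by
    rw [hSmem]
    have : 0 ≤ w.ord t := (hregt z hz).ord_nonneg
    omega
  have hsum := ad5 (insert w S) k (fun v hv => by
    rw [Finset.mem_insert, not_or, hSmem, not_lt] at hv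
    exact kern_regular hF n φ t y z a w hrel hgen hint hwt hwy hdz v
      (regularAt_of_ord_nonneg hv.2) hv.1)
  rw [Finset.sum_insert hwS, hκ] at hsum
  have hκ2 : lam (kappa P t z) = -Λ k := by
    rw [hΛdef, ← map_sum, eq_neg_of_add_eq_zero_left hsum, map_neg]
  rw [hκ2, hk, kern_eq_sum, map_sum, mul_sum]
  congr 1
  refine sum_congr rfl fun m _ => ?_
  rw [map_sum, mul_sum]
  refine sum_congr rfl fun i _ => ?_
  rw [← Algebra.smul_def, map_smul, smul_eq_mul]
  ring

section Bridge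

open scoped Polynomial.Bivariate

variable {K E : Type*} [Field K] [Field E] [Algebra K E]

/-- integrality: a root of a monic relation is regular wherever `t` is -/
theorem regular_of_monic (n : ℕ) (φ : ℕ → K[X]) (t y : E) (hmon : φ n = 1)
    (hrel : ∑ m ∈ range (n + 1), aeval t (φ m) * y ^ m = 0) (v : Place K E)
    (hvt : RegularAt v t) : RegularAt v y := by
  by_contra hy
  have hu := vanishesAt_inv_of_not_regularAt hy
  have hy0 : y ≠ 0 := by
    rintro rfl
    exact hy (regularAt_zero v)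
  rw [sum_range_succ, hmon, map_one, one_mul] at hrel
  have h1 : (1 : E) = -∑ m ∈ range n, aeval t (φ m) * y⁻¹ ^ (n - m) := by
    have h2 : ∑ m ∈ range n, aeval t (φ m) * y⁻¹ ^ (n - m)
        = (∑ m ∈ range n, aeval t (φ m) * y ^ m) * y⁻¹ ^ n := by
      rw [sum_mul]
      refine sum_congr rfl fun m hm => ?_
      have hmn : m ≤ n := (mem_range.1 hm).le
      have : y⁻¹ ^ n = y⁻¹ ^ (n - m) * y⁻¹ ^ m := by rw [← pow_add, Nat.sub_add_cancel hmn]
      rw [this, mul_assoc, mul_comm (y ^ m), mul_assoc, ← mul_pow, inv_mul_cancel₀ hy0, one_pow,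
        mul_one]
    rw [h2, eq_neg_of_add_eq_zero_left hrel, neg_mul, neg_neg, ← mul_pow, mul_inv_cancel₀ hy0,
      one_pow]
  apply not_vanishesAt_one v
  rw [h1]
  refine vanishesAt_neg (vanishesAt_sum _ _ fun m hm => ?_)
  exact vanishesAt_mul_left (regularAt_aeval hvt _)
    (vanishesAt_pow hu (by have := mem_range.1 hm; omega))

theorem evalF_eq_sum (Φ : K[X][Y]) (t y : E) :
    evalF Φ t y = ∑ m ∈ range (Φ.natDegree + 1), aeval t (Φ.coeff m) * y ^ m := by
  unfold evalF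
  rw [eval_map, eval₂_eq_sum_range]
  rfl

theorem evalEval_derivative (Φ : K[X][Y]) (c a : K) :
    (derivative Φ).evalEval c a
      = ∑ m ∈ range (Φ.natDegree + 1), (Φ.coeff m).eval c * ∑ i ∈ range m, a ^ i * a ^ (m - 1 - i)
      := by
  unfold Polynomial.evalEval
  rw [derivative_eval, Polynomial.sum_over_range _ (by intro n; simp), eval_finsetSum]
  refine sum_congr rfl fun m _ => ?_
  have : ∑ i ∈ range m, a ^ i * a ^ (m - 1 - i) = m * a ^ (m - 1) := by
    rw [sum_congr rfl (g := fun _ => a ^ (m - 1)) fun i hi => by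
      rw [← pow_add]
      congr 1
      have := mem_range.1 hi
      omega]
    simp
  rw [this]
  simp only [eval_mul, eval_natCast, eval_pow, eval_C]
  ring

end Bridge

/-- KA from a plane model at the point `P c₀`. -/
theorem of_planeModel (hF : IsFF ℂ F) (hAD : Stmt_AD.{0, u})
    {r : ℝ} {P : ℂ → Place ℂ F} {t : F} (hch : IsChart r P t)
    (c₀ : ℂ) (hc₀ : ‖c₀‖ < r) (y : F) (Φ : Polynomial ℂ[X])
    (hm : IsPlaneModel (P c₀) (t - algebraMap ℂ F c₀) y Φ)
    (lam : Module.Dual ℂ (H1 (0 : Divisor ℂ F))) :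
    AnalyticAt ℂ (fun z => lam (kappa P t z)) c₀ := by
  obtain ⟨ad1, ad2, ad3, ad4, ad5, -, -⟩ := hAD ℂ F hF
  set φ : ℕ → ℂ[X] := fun m => (Φ.coeff m).comp (X - C c₀) with hφ
  have haev : ∀ m, aeval t (φ m) = aeval (t - algebraMap ℂ F c₀) (Φ.coeff m) := fun m => by
    rw [hφ]
    simp only [aeval_comp, map_sub, aeval_X, aeval_C]
  have hrel : ∑ m ∈ range (Φ.natDegree + 1), aeval t (φ m) * y ^ m = 0 := by
    simp only [haev]
    rw [← evalF_eq_sum]
    exact hm.root
  have hmon : φ Φ.natDegree = 1 := by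
    rw [hφ]
    simp only [coeff_natDegree, hm.monic.leadingCoeff, one_comp]
  have hle : Algebra.adjoin ℂ {t - algebraMap ℂ F c₀, y} ≤ Algebra.adjoin ℂ {t, y} := by
    refine Algebra.adjoin_le ?_
    rintro x (rfl | hx)
    · exact sub_mem (t_mem_adjoin t y) (Subalgebra.algebraMap_mem _ _)
    · rw [Set.mem_singleton_iff] at hx
      subst hx
      exact y_mem_adjoin t x
  have hgen : ∀ f : F, ∃ g h : F, g ∈ Algebra.adjoin ℂ {t, y} ∧ h ∈ Algebra.adjoin ℂ {t, y} ∧
      h ≠ 0 ∧ f * h = g := by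
    intro f
    have hf : f ∈ IntermediateField.adjoin ℂ {t - algebraMap ℂ F c₀, y} := by
      rw [hm.gen]; trivial
    obtain ⟨a, ha, b, hb, rfl⟩ := IntermediateField.mem_adjoin_iff_div.1 hf
    rcases eq_or_ne b 0 with rfl | hb0
    · exact ⟨0, 1, zero_mem _, one_mem _, one_ne_zero, by simp⟩
    · exact ⟨a, b, hle ha, hle hb, hb0, div_mul_cancel₀ a hb0⟩
  refine core hF ad1 ad2 ad3 ad4 ad5 hch Φ.natDegree φ y hrel hgen
    (regular_of_monic _ φ t y hmon hrel) c₀ hc₀ ?_ lam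
  have h1 := hm.simple
  rw [evalEval_derivative] at h1
  unfold dPhi
  convert h1 using 3 with m _
  rw [hφ]
  simp

end KA

/-- **KA**: the tangent field of a chart is holomorphic. -/
theorem ka (hAD : Stmt_AD.{0, u}) (hCH1 : Stmt_CH1.{0, u}) : Stmt_KA.{u} := by
  intro F _ _ hF r P t hch lam c hc
  obtain ⟨y, Φ, hm⟩ := hCH1 ℂ F hF (P c) (t - algebraMap ℂ F c) (hch.ord_t c hc)
  exact KA.of_planeModel hF hAD hch c hc y Φ hm lam

end Fermat.Agent.S27
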