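import Fermat.Agent.S27.Interface
import Fermat.Agent.S24.PlaceCases

/-!
# S27, package L4a : constant field extensions, extension of places (Gauss valuation)
-/

set_option autoImplicit false
set_option linter.unusedSectionVars false

namespace Fermat.Agent.S27.L4a

open AlgebraicCurve IntermediateField Polynomial
open Fermat.Agent.S24

section PartP

variable {F : Type*} [Field F]

/-- A valuation subring such that the valuation of every nonzero element is a power of the
valuation of a fixed nonunit `s` is a principal ideal ring. -/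
theorem isPrincipalIdealRing_of_unif (W : ValuationSubring F) (s : F) (hs0 : s ≠ 0)
    (hs : W.valuation s < 1)
    (h : ∀ z : F, z ≠ 0 → ∃ k : ℤ, W.valuation z = W.valuation s ^ k) :
    IsPrincipalIdealRing W := by
  have hpos : 0 < W.valuation s := zero_lt_iff.mpr ((Valuation.ne_zero_iff _).mpr hs0)
  have hsW : s ∈ W := (W.valuation_le_one_iff s).mp hs.le
  set π : W := ⟨s, hsW⟩ with hπ
  have hfac : ∀ x : W, x ≠ 0 → ∃ n : ℕ, W.valuation (x : F) = W.valuation s ^ n ∧
      Associated (π ^ n) x := by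
    intro x hx
    have hxF : (x : F) ≠ 0 := fun h0 => hx (Subtype.ext h0)
    obtain ⟨k, hk⟩ := h x hxF
    have hk0 : 0 ≤ k := by
      rw [← zpow_le_one_iff_right_of_lt_one₀ hpos hs, ← hk]
      exact W.valuation_le_one x
    obtain ⟨n, rfl⟩ := Int.eq_ofNat_of_zero_le hk0
    rw [zpow_natCast] at hk
    refine ⟨n, hk, ?_⟩
    have hy1 : W.valuation ((x : F) / s ^ n) = 1 := by
      rw [map_div₀, map_pow, hk, div_self (pow_ne_zero _ hpos.ne')]
    have hyW : (x : F) / s ^ n ∈ W := (W.valuation_le_one_iff _).mp hy1.le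
    have hu : IsUnit (⟨(x : F) / s ^ n, hyW⟩ : W) := (W.valuation_eq_one_iff _).mpr hy1
    obtain ⟨u, hu⟩ := hu
    refine ⟨u, ?_⟩
    rw [hu]
    ext
    simp only [hπ, MulMemClass.coe_mul, SubmonoidClass.coe_pow]
    field_simp
  have hirr : Irreducible π := by
    rw [irreducible_iff]
    refine ⟨fun hu => ?_, fun a b hab => ?_⟩
    · have := (W.valuation_eq_one_iff π).mp hu
      exact absurd this hs.ne
    · have hπ0 : π ≠ 0 := fun h0 => hs0 (congrArg Subtype.val h0)
      have ha0 : a ≠ 0 := fun h0 => hπ0 (by rw [hab, h0, zero_mul])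
      have hb0 : b ≠ 0 := fun h0 => hπ0 (by rw [hab, h0, mul_zero])
      obtain ⟨i, hi, -⟩ := hfac a ha0
      obtain ⟨j, hj, -⟩ := hfac b hb0
      have h1 : W.valuation s ^ (1 : ℕ) = W.valuation s ^ (i + j) := by
        rw [pow_one, pow_add, ← hi, ← hj, ← map_mul]
        exact congrArg (fun x : W => W.valuation (x : F)) hab
      have h2 : 1 = i + j := (pow_right_strictAnti₀ hpos hs).injective h1
      rcases Nat.eq_zero_or_pos i with hi0 | hi0
      · left
        rw [W.valuation_eq_one_iff, hi, hi0, pow_zero]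
      · right
        have hj0 : j = 0 := by omega
        rw [W.valuation_eq_one_iff, hj, hj0, pow_zero]
  have : IsDiscreteValuationRing W :=
    IsDiscreteValuationRing.ofHasUnitMulPowIrreducibleFactorization
      ⟨π, hirr, fun {x} hx => (hfac x hx).imp fun _ h => h.2⟩
  infer_instance

end PartP

section PartP2

variable {K F : Type*} [Field K] [Field F] [Algebra K F]

theorem ord_eq_zero_of_valuation_eq_one (w : Place K F) {z : F}
    (hz : w.toValuationSubring.valuation z = 1) : w.ord z = 0 := by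
  have h1 : z ∈ w.toValuationSubring := (w.toValuationSubring.valuation_le_one_iff z).mp hz.le
  have h2 : z⁻¹ ∈ w.toValuationSubring :=
    (w.toValuationSubring.valuation_le_one_iff _).mp (by rw [map_inv₀, hz, inv_one])
  have h3 := ord_nonneg_of_mem w h1
  have h4 := ord_nonneg_of_mem w h2
  rw [w.ord_inv] at h4
  omega

theorem ord_eq_of_valuation (w : Place K F) (s : F) (hs0 : s ≠ 0)
    (hs : w.toValuationSubring.valuation s < 1)
    (h : ∀ z : F, z ≠ 0 → ∃ k : ℤ,
      w.toValuationSubring.valuation z = w.toValuationSubring.valuation s ^ k)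
    {z : F} (hz : z ≠ 0) {k : ℤ}
    (hk : w.toValuationSubring.valuation z = w.toValuationSubring.valuation s ^ k) :
    w.ord z = k := by
  have hv0 : w.toValuationSubring.valuation s ≠ 0 := (Valuation.ne_zero_iff _).mpr hs0
  have key : ∀ (z : F), z ≠ 0 → ∀ k : ℤ,
      w.toValuationSubring.valuation z = w.toValuationSubring.valuation s ^ k →
      w.ord z = k * w.ord s := by
    intro z hz k hk
    have h1 : w.toValuationSubring.valuation (z * (s ^ k)⁻¹) = 1 := by
      rw [map_mul, map_inv₀, map_zpow₀, hk, mul_inv_cancel₀ (zpow_ne_zero _ hv0)]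
    have h2 := ord_eq_zero_of_valuation_eq_one w h1
    rw [w.ord_mul hz (inv_ne_zero (zpow_ne_zero _ hs0)), w.ord_inv, w.ord_zpow] at h2
    omega
  obtain ⟨t, ht⟩ := exists_ord_eq_one w
  have ht0 : t ≠ 0 := by
    rintro rfl
    simp at ht
  obtain ⟨j, hj⟩ := h t ht0
  have h1 := key t ht0 j hj
  rw [ht] at h1
  have h2 : 0 ≤ w.ord s :=
    ord_nonneg_of_mem w ((w.toValuationSubring.valuation_le_one_iff s).mp hs.le)
  have h3 : w.ord s = 1 := by
    have h4 : w.ord s ∣ 1 := ⟨j, by rw [h1]; ring⟩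
    exact Int.eq_one_of_dvd_one h2 h4
  rw [key z hz k hk, h3, mul_one]

end PartP2

section ConstExt

variable {K₁ F₁ K₂ F₂ : Type*} [Field K₁] [Field F₁] [Field K₂] [Field F₂]
  [Algebra K₁ F₁] [Algebra K₂ F₂] [Algebra K₁ K₂] [Algebra F₁ F₂] [Algebra K₁ F₂]
  [IsScalarTower K₁ K₂ F₂] [IsScalarTower K₁ F₁ F₂]

theorem linearIndependent_map (h : IsConstExt K₁ F₁ K₂ F₂) {ι : Type*} (b : ι → F₁)
    (hb : LinearIndependent K₁ b) :
    LinearIndependent K₂ (fun i => algebraMap F₁ F₂ (b i)) := by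
  rw [linearIndependent_iff_finset_linearIndependent]
  intro s
  have e := s.equivFin
  have h1 : LinearIndependent K₁ (fun j : Fin s.card => b (e.symm j)) :=
    hb.comp _ (Subtype.val_injective.comp e.symm.injective)
  have h2 := h.linDisj _ _ h1
  refine (linearIndependent_equiv e.symm).mp ?_
  exact h2

theorem exists_ext (h : IsConstExt K₁ F₁ K₂ F₂) (lam : F₁ →ₗ[K₁] K₁) :
    ∃ lam₂ : F₂ →ₗ[K₂] K₂, ∀ f : F₁, lam₂ (algebraMap F₁ F₂ f) = algebraMap K₁ K₂ (lam f) := by
  let b := Module.Basis.ofVectorSpace K₁ F₁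
  have hb := linearIndependent_map h b b.linearIndependent
  let B := Module.Basis.span hb
  let l0 : Submodule.span K₂ (Set.range fun i => algebraMap F₁ F₂ (b i)) →ₗ[K₂] K₂ :=
    B.constr K₂ (fun i => algebraMap K₁ K₂ (lam (b i)))
  obtain ⟨l, hl⟩ := LinearMap.exists_extend l0
  refine ⟨l, fun f => ?_⟩
  let L1 : F₁ →ₗ[K₁] K₂ := (l.restrictScalars K₁) ∘ₗ (IsScalarTower.toAlgHom K₁ F₁ F₂).toLinearMap
  let L2 : F₁ →ₗ[K₁] K₂ := (Algebra.linearMap K₁ K₂) ∘ₗ lam
  have h12 : L1 = L2 := by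
    refine b.ext fun i => ?_
    show l (algebraMap F₁ F₂ (b i)) = algebraMap K₁ K₂ (lam (b i))
    have h1 : (B i : F₂) = algebraMap F₁ F₂ (b i) :=
      congrArg Subtype.val (Module.Basis.span_apply hb i)
    have h2 : l (B i : F₂) = l0 (B i) := by
      rw [← hl]; rfl
    rw [← h1, h2]
    exact B.constr_basis K₂ _ i
  exact congrArg (fun L : F₁ →ₗ[K₁] K₂ => L f) h12


variable (K₂) in
/-- `W` is a valuation subring of `F₂` over `K₂` extending the place `v` of `F₁`. -/
structure IsExtOf (v : Place K₁ F₁) (W : ValuationSubring F₂) : Prop where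
  const : ∀ c : K₂, algebraMap K₂ F₂ c ∈ W
  reg : ∀ f : F₁, RegularAt v f → algebraMap F₁ F₂ f ∈ W
  van : ∀ f : F₁, VanishesAt v f → W.valuation (algebraMap F₁ F₂ f) < 1

theorem IsExtOf.valuation_const {v : Place K₁ F₁} {W : ValuationSubring F₂} (hW : IsExtOf K₂ v W)
    {c : K₂} (hc : c ≠ 0) : W.valuation (algebraMap K₂ F₂ c) = 1 := by
  have h1 : W.valuation (algebraMap K₂ F₂ c) ≤ 1 := (W.valuation_le_one_iff _).mpr (hW.const c)
  have h2 : W.valuation (algebraMap K₂ F₂ c⁻¹) ≤ 1 := (W.valuation_le_one_iff _).mpr (hW.const c⁻¹)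
  have h0 : W.valuation (algebraMap K₂ F₂ c) ≠ 0 :=
    (Valuation.ne_zero_iff _).mpr (by simpa using hc)
  rw [map_inv₀, map_inv₀, inv_le_one₀ (zero_lt_iff.mpr h0)] at h2
  exact le_antisymm h1 h2

theorem algebraMap_comm (a : K₁) :
    algebraMap F₁ F₂ (algebraMap K₁ F₁ a) = algebraMap K₂ F₂ (algebraMap K₁ K₂ a) := by
  rw [← IsScalarTower.algebraMap_apply K₁ F₁ F₂, ← IsScalarTower.algebraMap_apply K₁ K₂ F₂]

/-- Key lemma (Gauss). -/
theorem IsExtOf.valuation_sum_eq_one {v : Place K₁ F₁} {W : ValuationSubring F₂}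
    (hW : IsExtOf K₂ v W)
    (hres : ∀ f : F₁, RegularAt v f → ∃ a : K₁, VanishesAt v (f - algebraMap K₁ F₁ a))
    {ι : Type*} (c : ι → K₂) (hc : LinearIndependent K₁ c) (S : Finset ι) (g : ι → F₁)
    (hg : ∀ i ∈ S, RegularAt v (g i)) (j : ι) (hj : j ∈ S) (hgj : ¬ VanishesAt v (g j)) :
    W.valuation (∑ i ∈ S, algebraMap K₂ F₂ (c i) * algebraMap F₁ F₂ (g i)) = 1 := by
  classical
  have hex : ∀ i, ∃ a : K₁, i ∈ S → VanishesAt v (g i - algebraMap K₁ F₁ a) := by
    intro i
    by_cases hi : i ∈ S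
    · obtain ⟨a, ha⟩ := hres _ (hg i hi)
      exact ⟨a, fun _ => ha⟩
    · exact ⟨0, fun h => absurd h hi⟩
  choose a ha using hex
  set κ : K₂ := ∑ i ∈ S, a i • c i with hκ
  have hκ0 : κ ≠ 0 := by
    intro h0
    have := linearIndependent_iff'.mp hc S a h0 j hj
    apply hgj
    have h1 := ha j hj
    rwa [this, map_zero, sub_zero] at h1
  have hsplit : ∑ i ∈ S, algebraMap K₂ F₂ (c i) * algebraMap F₁ F₂ (g i) =
      algebraMap K₂ F₂ κ +
        ∑ i ∈ S, algebraMap K₂ F₂ (c i) * algebraMap F₁ F₂ (g i - algebraMap K₁ F₁ (a i)) := by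
    rw [hκ, map_sum, ← Finset.sum_add_distrib]
    refine Finset.sum_congr rfl fun i _ => ?_
    rw [map_sub, algebraMap_comm (K₂ := K₂), Algebra.smul_def, map_mul]
    ring
  have hlt : W.valuation
      (∑ i ∈ S, algebraMap K₂ F₂ (c i) * algebraMap F₁ F₂ (g i - algebraMap K₁ F₁ (a i))) < 1 := by
    refine Valuation.map_sum_lt _ one_ne_zero fun i hi => ?_
    rw [map_mul, mul_comm]
    exact mul_lt_one_of_lt_of_le (hW.van _ (ha i hi)) ((W.valuation_le_one_iff _).mpr (hW.const _))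
  rw [hsplit, Valuation.map_add_eq_of_lt_left _ (by rwa [hW.valuation_const hκ0]),
    hW.valuation_const hκ0]



/-- Gauss formula, with the index `j` where the minimum is attained. -/
theorem IsExtOf.valuation_sum {v : Place K₁ F₁} {W : ValuationSubring F₂}
    (hW : IsExtOf K₂ v W)
    (hres : ∀ f : F₁, RegularAt v f → ∃ a : K₁, VanishesAt v (f - algebraMap K₁ F₁ a))
    (s : F₁) (hs : v.ord s = 1)
    {ι : Type*} (c : ι → K₂) (hc : LinearIndependent K₁ c) (S : Finset ι) (f : ι → F₁)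
    (j : ι) (hj : j ∈ S) (hfj : f j ≠ 0)
    (hmin : ∀ i ∈ S, f i = 0 ∨ v.ord (f j) ≤ v.ord (f i)) :
    W.valuation (∑ i ∈ S, algebraMap K₂ F₂ (c i) * algebraMap F₁ F₂ (f i)) =
      W.valuation (algebraMap F₁ F₂ s) ^ (v.ord (f j)) := by
  have hs0 : s ≠ 0 := by
    rintro rfl
    simp at hs
  set m := v.ord (f j) with hm
  have hsm : s ^ (-m) ≠ 0 := zpow_ne_zero _ hs0
  have hord : ∀ x : F₁, x ≠ 0 → v.ord (x * s ^ (-m)) = v.ord x - m := by
    intro x hx
    rw [v.ord_mul hx hsm, v.ord_zpow, hs]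
    ring
  have h1 := hW.valuation_sum_eq_one hres c hc S (fun i => f i * s ^ (-m))
    (fun i hi => by
      rcases hmin i hi with h0 | h0
      · left; simp [h0]
      · by_cases hfi : f i = 0
        · left; simp [hfi]
        · right
          rw [hord _ hfi]
          omega)
    j hj (by
      rintro (h0 | h0)
      · exact (mul_ne_zero hfj hsm) h0
      · rw [hord _ hfj] at h0
        omega)
  have h2 : ∑ i ∈ S, algebraMap K₂ F₂ (c i) * algebraMap F₁ F₂ (f i) =
      algebraMap F₁ F₂ s ^ m *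
        ∑ i ∈ S, algebraMap K₂ F₂ (c i) * algebraMap F₁ F₂ (f i * s ^ (-m)) := by
    rw [Finset.mul_sum]
    refine Finset.sum_congr rfl fun i _ => ?_
    have hs2 : algebraMap F₁ F₂ s ≠ 0 := by simpa using hs0
    rw [map_mul, map_zpow₀, zpow_neg]
    field_simp
  rw [h2, map_mul, h1, mul_one, map_zpow₀]

/-- Gauss formula, existence of the exponent. -/
theorem exists_exponent {v : Place K₁ F₁}
    (hres : ∀ f : F₁, RegularAt v f → ∃ a : K₁, VanishesAt v (f - algebraMap K₁ F₁ a))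
    (s : F₁) (hs : v.ord s = 1)
    {ι : Type*} (c : ι → K₂) (hc : LinearIndependent K₁ c) (S : Finset ι) (f : ι → F₁)
    (hne : ∃ i ∈ S, f i ≠ 0) :
    ∃ m : ℤ, (∀ i ∈ S, f i = 0 ∨ m ≤ v.ord (f i)) ∧
      ∀ W : ValuationSubring F₂, IsExtOf K₂ v W →
        W.valuation (∑ i ∈ S, algebraMap K₂ F₂ (c i) * algebraMap F₁ F₂ (f i)) =
          W.valuation (algebraMap F₁ F₂ s) ^ m := by
  classical
  obtain ⟨i0, hi0, hfi0⟩ := hne
  obtain ⟨j, hj, hjmin⟩ := Finset.exists_min_image (S.filter fun i => f i ≠ 0)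
    (fun i => v.ord (f i)) ⟨i0, Finset.mem_filter.mpr ⟨hi0, hfi0⟩⟩
  rw [Finset.mem_filter] at hj
  have hmin : ∀ i ∈ S, f i = 0 ∨ v.ord (f j) ≤ v.ord (f i) := by
    intro i hi
    by_cases hfi : f i = 0
    · exact Or.inl hfi
    · exact Or.inr (hjmin i (Finset.mem_filter.mpr ⟨hi, hfi⟩))
  exact ⟨v.ord (f j), hmin, fun W hW => hW.valuation_sum hres s hs c hc S f j hj.1 hj.2 hmin⟩


/-- the additive map `g ↦ ∑ E i * g i`. -/
noncomputable def repMap {ι : Type*} (E : ι → K₂) : (ι →₀ F₁) →+ F₂ :=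
  Finsupp.liftAddHom fun i =>
    (AddMonoidHom.mulLeft (algebraMap K₂ F₂ (E i))).comp (algebraMap F₁ F₂).toAddMonoidHom

theorem repMap_apply {ι : Type*} (E : ι → K₂) (g : ι →₀ F₁) :
    repMap (F₂ := F₂) E g = ∑ i ∈ g.support, algebraMap K₂ F₂ (E i) * algebraMap F₁ F₂ (g i) := by
  simp [repMap, Finsupp.sum]

theorem mul_mem_range_repMap {ι : Type*} (E : Module.Basis ι K₁ K₂) (c : K₂) :
    ∀ x : F₁, algebraMap K₂ F₂ c * algebraMap F₁ F₂ x ∈ (repMap (F₁ := F₁) (F₂ := F₂) E).range := by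
  have hc : c ∈ Submodule.span K₁ (Set.range E) := E.mem_span c
  induction hc using Submodule.span_induction with
  | mem c hc =>
    obtain ⟨i, rfl⟩ := hc
    intro x
    refine ⟨Finsupp.single i x, ?_⟩
    simp [repMap]
  | zero => intro x; simp
  | add c d _ _ hc hd =>
    intro x
    rw [map_add, add_mul]
    exact add_mem (hc x) (hd x)
  | smul r c _ hc =>
    intro x
    have := hc (r • x)
    rw [Algebra.smul_def, map_mul, algebraMap_comm (K₂ := K₂)] at this
    rw [Algebra.smul_def, map_mul]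
    convert this using 1
    ring

theorem adjoin_le_range_repMap {ι : Type*} (E : Module.Basis ι K₁ K₂) (a : F₂)
    (ha : a ∈ Algebra.adjoin K₂ (Set.range (algebraMap F₁ F₂))) :
    a ∈ (repMap (F₁ := F₁) (F₂ := F₂) E).range := by
  have h1 : a ∈ Subalgebra.toSubmodule (Algebra.adjoin K₂ (Set.range (algebraMap F₁ F₂))) := ha
  rw [Algebra.adjoin_eq_span] at h1
  have h2 : (Submonoid.closure (Set.range (algebraMap F₁ F₂)) : Set F₂) =
      Set.range (algebraMap F₁ F₂) := by
    have : Set.range (algebraMap F₁ F₂) =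
        ((MonoidHom.mrange (algebraMap F₁ F₂ : F₁ →* F₂) : Submonoid F₂) : Set F₂) := by
      ext; simp
    rw [this, Submonoid.closure_eq]
  rw [h2, Finsupp.mem_span_range_iff_exists_finsupp] at h1
  obtain ⟨l, rfl⟩ := h1
  refine sum_mem fun x _ => ?_
  show l x • algebraMap F₁ F₂ x ∈ _
  rw [Algebra.smul_def]
  exact mul_mem_range_repMap E _ x


theorem exists_exponent_adjoin {v : Place K₁ F₁}
    (hres : ∀ f : F₁, RegularAt v f → ∃ a : K₁, VanishesAt v (f - algebraMap K₁ F₁ a))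
    (s : F₁) (hs : v.ord s = 1) (a : F₂)
    (ha : a ∈ Algebra.adjoin K₂ (Set.range (algebraMap F₁ F₂))) (ha0 : a ≠ 0) :
    ∃ m : ℤ, ∀ W : ValuationSubring F₂, IsExtOf K₂ v W →
        W.valuation a = W.valuation (algebraMap F₁ F₂ s) ^ m := by
  let E := Module.Basis.ofVectorSpace K₁ K₂
  obtain ⟨g, rfl⟩ := adjoin_le_range_repMap E a ha
  rw [repMap_apply] at ha0 ⊢
  have hne : ∃ i ∈ g.support, g i ≠ 0 := by
    by_contra hcon
    push Not at hcon
    apply ha0
    refine Finset.sum_eq_zero fun i hi => ?_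
    rw [hcon i hi, map_zero, mul_zero]
  obtain ⟨m, -, hm⟩ :=
    exists_exponent (F₂ := F₂) hres s hs E E.linearIndependent g.support g hne
  exact ⟨m, hm⟩

theorem exists_exponent_all (h : IsConstExt K₁ F₁ K₂ F₂) {v : Place K₁ F₁}
    (hres : ∀ f : F₁, RegularAt v f → ∃ a : K₁, VanishesAt v (f - algebraMap K₁ F₁ a))
    (s : F₁) (hs : v.ord s = 1) (z : F₂) (hz : z ≠ 0) :
    ∃ k : ℤ, ∀ W : ValuationSubring F₂, IsExtOf K₂ v W →
        W.valuation z = W.valuation (algebraMap F₁ F₂ s) ^ k := by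
  have hs0 : s ≠ 0 := by
    rintro rfl
    simp at hs
  have hzt : z ∈ IntermediateField.adjoin K₂ (Set.range (algebraMap F₁ F₂)) := by
    rw [h.gen]; trivial
  obtain ⟨a, ha, b, hb, rfl⟩ := IntermediateField.mem_adjoin_iff_div.mp hzt
  have ha0 : a ≠ 0 := fun h0 => hz (by rw [h0, zero_div])
  have hb0 : b ≠ 0 := fun h0 => hz (by rw [h0, div_zero])
  obtain ⟨m, hm⟩ := exists_exponent_adjoin hres s hs a ha ha0
  obtain ⟨n, hn⟩ := exists_exponent_adjoin hres s hs b hb hb0
  refine ⟨m - n, fun W hW => ?_⟩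
  have hx : W.valuation (algebraMap F₁ F₂ s) ≠ 0 :=
    (Valuation.ne_zero_iff _).mpr (by simpa using hs0)
  rw [map_div₀, hm W hW, hn W hW, zpow_sub₀ hx]

theorem IsExtOf.valuation_unif_lt {v : Place K₁ F₁} {W : ValuationSubring F₂}
    (hW : IsExtOf K₂ v W) (s : F₁) (hs : v.ord s = 1) :
    W.valuation (algebraMap F₁ F₂ s) < 1 :=
  hW.van s (Or.inr (by rw [hs]; exact one_pos))

theorem IsExtOf.unique (h : IsConstExt K₁ F₁ K₂ F₂) {v : Place K₁ F₁}
    (hres : ∀ f : F₁, RegularAt v f → ∃ a : K₁, VanishesAt v (f - algebraMap K₁ F₁ a))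
    {W W' : ValuationSubring F₂} (hW : IsExtOf K₂ v W) (hW' : IsExtOf K₂ v W') : W = W' := by
  obtain ⟨s, hs⟩ := exists_ord_eq_one v
  have hs0 : s ≠ 0 := by
    rintro rfl
    simp at hs
  have hs2 : algebraMap F₁ F₂ s ≠ 0 := by simpa using hs0
  refine SetLike.ext fun z => ?_
  rcases eq_or_ne z 0 with rfl | hz
  · simp [zero_mem]
  obtain ⟨k, hk⟩ := exists_exponent_all h hres s hs z hz
  rw [← W.valuation_le_one_iff, ← W'.valuation_le_one_iff, hk W hW, hk W' hW',
    zpow_le_one_iff_right_of_lt_one₀ (zero_lt_iff.mpr ((Valuation.ne_zero_iff _).mpr hs2))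
      (hW.valuation_unif_lt s hs),
    zpow_le_one_iff_right_of_lt_one₀ (zero_lt_iff.mpr ((Valuation.ne_zero_iff _).mpr hs2))
      (hW'.valuation_unif_lt s hs)]


theorem regularAt_iff_mem (v : Place K₁ F₁) (f : F₁) :
    RegularAt v f ↔ f ∈ v.toValuationSubring := by
  rcases eq_or_ne f 0 with rfl | hf
  · simp [RegularAt, zero_mem]
  · rw [mem_iff_ord_nonneg v hf]
    simp [RegularAt, hf]

theorem vanishesAt_iff_valuation_lt (v : Place K₁ F₁) (f : F₁) :
    VanishesAt v f ↔ v.toValuationSubring.valuation f < 1 := by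
  rcases eq_or_ne f 0 with rfl | hf
  · simp [VanishesAt]
  · have h1 : v.toValuationSubring.valuation f < 1 ↔ ¬ f⁻¹ ∈ v.toValuationSubring := by
      rw [← v.toValuationSubring.valuation_le_one_iff, map_inv₀, not_le,
        one_lt_inv₀ (zero_lt_iff.mpr ((Valuation.ne_zero_iff _).mpr hf))]
    rw [h1, mem_iff_ord_nonneg v (inv_ne_zero hf), v.ord_inv]
    simp only [VanishesAt, hf, false_or]
    omega

/-- the maximal ideal of a place as a `K₁`-subspace. -/
def maxSubmodule (v : Place K₁ F₁) : Submodule K₁ F₁ where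
  carrier := {f | VanishesAt v f}
  zero_mem' := Or.inl rfl
  add_mem' := by
    intro a b ha hb
    exact (vanishesAt_iff_valuation_lt v _).mpr (Valuation.map_add_lt _
      ((vanishesAt_iff_valuation_lt v a).mp ha) ((vanishesAt_iff_valuation_lt v b).mp hb))
  smul_mem' := by
    intro c a ha
    refine (vanishesAt_iff_valuation_lt v _).mpr ?_
    rw [Algebra.smul_def, map_mul, mul_comm]
    exact mul_lt_one_of_lt_of_le ((vanishesAt_iff_valuation_lt v a).mp ha)
      ((v.toValuationSubring.valuation_le_one_iff _).mpr (v.algebraMap_mem' c))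

theorem exists_isExtOf (h : IsConstExt K₁ F₁ K₂ F₂) (v : Place K₁ F₁) :
    ∃ W : ValuationSubring F₂, IsExtOf K₂ v W := by
  obtain ⟨s, hs⟩ := exists_ord_eq_one v
  have hs0 : s ≠ 0 := by
    rintro rfl
    simp at hs
  -- the functional
  have h1 : (1 : F₁) ∉ maxSubmodule v := by
    intro h1
    have h2 : VanishesAt v (1 : F₁) := h1
    rw [vanishesAt_iff_valuation_lt, map_one] at h2
    exact lt_irrefl _ h2
  obtain ⟨lam, hlam1, hlam⟩ := Submodule.exists_le_ker_of_notMem h1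
  obtain ⟨lam₂, hlam₂⟩ := exists_ext h lam
  -- the ring
  let A : Subalgebra K₂ F₂ := Algebra.adjoin K₂ (algebraMap F₁ F₂ '' {f | RegularAt v f})
  have hregA : ∀ f : F₁, RegularAt v f → algebraMap F₁ F₂ f ∈ A := fun f hf =>
    Algebra.subset_adjoin ⟨f, hf, rfl⟩
  have hsreg : RegularAt v s := Or.inr (by rw [hs]; exact zero_le_one)
  have hkill : ∀ β ∈ A, lam₂ (algebraMap F₁ F₂ s * β) = 0 := by
    intro β hβ
    have h2 : β ∈ Subalgebra.toSubmodule A := hβ
    rw [Algebra.adjoin_eq_span] at h2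
    have h3 : (Submonoid.closure (algebraMap F₁ F₂ '' {f | RegularAt v f}) : Set F₂) =
        algebraMap F₁ F₂ '' {f | RegularAt v f} := by
      have : algebraMap F₁ F₂ '' {f | RegularAt v f} =
          ((v.toValuationSubring.toSubring.toSubmonoid.map (algebraMap F₁ F₂ : F₁ →* F₂) :
            Submonoid F₂) : Set F₂) := by
        ext x
        simp [regularAt_iff_mem]
      rw [this, Submonoid.closure_eq]
    rw [h3] at h2
    clear hβ
    induction h2 using Submodule.span_induction with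
    | mem x hx =>
      obtain ⟨g, hg, rfl⟩ := hx
      rw [← map_mul, hlam₂]
      have h4 : s * g ∈ maxSubmodule v := by
        show VanishesAt v (s * g)
        rcases eq_or_ne g 0 with rfl | hg0
        · left; simp
        · right
          rw [v.ord_mul hs0 hg0, hs]
          rcases hg with hg | hg
          · exact absurd hg hg0
          · omega
      have h5 : lam (s * g) = 0 := hlam h4
      rw [h5, map_zero]
    | zero => simp
    | add x y _ _ hx hy => rw [mul_add, map_add, hx, hy, add_zero]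
    | smul c x _ hx => rw [mul_smul_comm, map_smul, hx, smul_zero]
  let I : Ideal A.toSubring := Ideal.span {⟨algebraMap F₁ F₂ s, hregA s hsreg⟩}
  have hI : I ≠ ⊤ := by
    intro htop
    have h2 : (1 : A.toSubring) ∈ I := by rw [htop]; trivial
    obtain ⟨β, hβ⟩ := Ideal.mem_span_singleton'.mp h2
    have h3 : algebraMap F₁ F₂ s * (β : F₂) = 1 := by
      have := congrArg Subtype.val hβ
      rw [mul_comm]
      exact this
    have h4 := hkill β β.2
    rw [h3, ← map_one (algebraMap F₁ F₂), hlam₂] at h4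
    exact hlam1 (by simpa using h4)
  obtain ⟨W, hAW, hIW⟩ := Ideal.image_subset_nonunits_valuationSubring I hI
  have hsW : W.valuation (algebraMap F₁ F₂ s) < 1 := by
    rw [← ValuationSubring.mem_nonunits_iff]
    exact hIW ⟨⟨algebraMap F₁ F₂ s, hregA s hsreg⟩, Ideal.subset_span rfl, rfl⟩
  refine ⟨W, ⟨fun c => hAW (A.algebraMap_mem c), fun f hf => hAW (hregA f hf), fun f hf => ?_⟩⟩
  rcases eq_or_ne f 0 with rfl | hf0
  · simp
  · have hford : 0 < v.ord f := by
      rcases hf with hf | hf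
      · exact absurd hf hf0
      · exact hf
    have h2 : RegularAt v (f * s⁻¹) := by
      right
      rw [v.ord_mul hf0 (inv_ne_zero hs0), v.ord_inv, hs]
      omega
    have h3 : f = s * (f * s⁻¹) := by field_simp
    rw [h3, map_mul, map_mul]
    exact mul_lt_one_of_lt_of_le hsW ((W.valuation_le_one_iff _).mpr (hAW (hregA _ h2)))


theorem IsExtOf.valuation_algebraMap {v : Place K₁ F₁} {W : ValuationSubring F₂}
    (hW : IsExtOf K₂ v W) (s : F₁) (hs : v.ord s = 1) (f : F₁) (hf : f ≠ 0) :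
    W.valuation (algebraMap F₁ F₂ f) = W.valuation (algebraMap F₁ F₂ s) ^ (v.ord f) := by
  have hs0 : s ≠ 0 := by
    rintro rfl
    simp at hs
  have hs2 : algebraMap F₁ F₂ s ≠ 0 := by simpa using hs0
  set m := v.ord f with hm
  have hsm : s ^ (-m) ≠ 0 := zpow_ne_zero _ hs0
  have hu : v.ord (f * s ^ (-m)) = 0 := by
    rw [v.ord_mul hf hsm, v.ord_zpow, hs]
    ring
  have h1 : W.valuation (algebraMap F₁ F₂ (f * s ^ (-m))) ≤ 1 :=
    (W.valuation_le_one_iff _).mpr (hW.reg _ (Or.inr hu.ge))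
  have h2 : W.valuation (algebraMap F₁ F₂ (f * s ^ (-m))⁻¹) ≤ 1 :=
    (W.valuation_le_one_iff _).mpr (hW.reg _ (Or.inr (by rw [v.ord_inv, hu]; simp)))
  have h0 : W.valuation (algebraMap F₁ F₂ (f * s ^ (-m))) ≠ 0 :=
    (Valuation.ne_zero_iff _).mpr
      ((map_ne_zero (algebraMap F₁ F₂)).mpr (mul_ne_zero hf hsm))
  rw [map_inv₀, map_inv₀, inv_le_one₀ (zero_lt_iff.mpr h0)] at h2
  have h3 := le_antisymm h1 h2
  have h4 : algebraMap F₁ F₂ f = algebraMap F₁ F₂ s ^ m * algebraMap F₁ F₂ (f * s ^ (-m)) := by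
    rw [map_mul, map_zpow₀, zpow_neg]
    field_simp
  rw [h4, map_mul, h3, mul_one, map_zpow₀]

theorem exists_place_ext (h : IsConstExt K₁ F₁ K₂ F₂) (v : Place K₁ F₁)
    (hres : ∀ f : F₁, RegularAt v f → ∃ a : K₁, VanishesAt v (f - algebraMap K₁ F₁ a)) :
    ∃ w : Place K₂ F₂, IsExtOf K₂ v w.toValuationSubring := by
  obtain ⟨W, hW⟩ := exists_isExtOf h v
  obtain ⟨s, hs⟩ := exists_ord_eq_one v
  have hs0 : s ≠ 0 := by
    rintro rfl
    simp at hs
  have hs2 : algebraMap F₁ F₂ s ≠ 0 := by simpa using hs0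
  have hlt := hW.valuation_unif_lt s hs
  refine ⟨⟨W, hW.const, ?_, ?_⟩, hW⟩
  · intro htop
    have h1 : (algebraMap F₁ F₂ s)⁻¹ ∈ W := by rw [htop]; trivial
    rw [← W.valuation_le_one_iff, map_inv₀,
      inv_le_one₀ (zero_lt_iff.mpr ((Valuation.ne_zero_iff _).mpr hs2))] at h1
    exact absurd hlt (not_lt.mpr h1)
  · refine isPrincipalIdealRing_of_unif W (algebraMap F₁ F₂ s) hs2 hlt fun z hz => ?_
    obtain ⟨k, hk⟩ := exists_exponent_all h hres s hs z hz
    exact ⟨k, hk W hW⟩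

/-- the order at an extension is computed by the valuation. -/
theorem ord_eq_of_isExtOf (h : IsConstExt K₁ F₁ K₂ F₂) {v : Place K₁ F₁}
    (hres : ∀ f : F₁, RegularAt v f → ∃ a : K₁, VanishesAt v (f - algebraMap K₁ F₁ a))
    {w : Place K₂ F₂} (hw : IsExtOf K₂ v w.toValuationSubring) (s : F₁) (hs : v.ord s = 1)
    {z : F₂} (hz : z ≠ 0) {k : ℤ}
    (hk : w.toValuationSubring.valuation z =
      w.toValuationSubring.valuation (algebraMap F₁ F₂ s) ^ k) : w.ord z = k := by
  have hs0 : s ≠ 0 := by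
    rintro rfl
    simp at hs
  have hs2 : algebraMap F₁ F₂ s ≠ 0 := by simpa using hs0
  refine ord_eq_of_valuation w (algebraMap F₁ F₂ s) hs2 (hw.valuation_unif_lt s hs)
    (fun z hz => ?_) hz hk
  obtain ⟨k, hk⟩ := exists_exponent_all h hres s hs z hz
  exact ⟨k, hk _ hw⟩

theorem ord_algebraMap_of_isExtOf (h : IsConstExt K₁ F₁ K₂ F₂) {v : Place K₁ F₁}
    (hres : ∀ f : F₁, RegularAt v f → ∃ a : K₁, VanishesAt v (f - algebraMap K₁ F₁ a))
    {w : Place K₂ F₂} (hw : IsExtOf K₂ v w.toValuationSubring) (f : F₁) :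
    w.ord (algebraMap F₁ F₂ f) = v.ord f := by
  rcases eq_or_ne f 0 with rfl | hf
  · simp
  obtain ⟨s, hs⟩ := exists_ord_eq_one v
  exact ord_eq_of_isExtOf h hres hw s hs (by simpa using hf) (hw.valuation_algebraMap s hs f hf)

/-- Gauss formula, lower bound (no independence needed). -/
theorem gauss_ge {v : Place K₁ F₁} {w : Place K₂ F₂}
    (hord : ∀ f : F₁, w.ord (algebraMap F₁ F₂ f) = v.ord f)
    {ι : Type*} (c : ι → K₂) (S : Finset ι) (f : ι → F₁) (k : ℤ)
    (hf : ∀ i ∈ S, f i = 0 ∨ k ≤ v.ord (f i)) :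
    ∑ i ∈ S, algebraMap K₂ F₂ (c i) * algebraMap F₁ F₂ (f i) = 0 ∨
      k ≤ w.ord (∑ i ∈ S, algebraMap K₂ F₂ (c i) * algebraMap F₁ F₂ (f i)) := by
  classical
  induction S using Finset.induction_on with
  | empty => left; simp
  | insert a S ha ih =>
    rw [Finset.sum_insert ha]
    have ih' := ih fun i hi => hf i (Finset.mem_insert_of_mem hi)
    have hterm : algebraMap K₂ F₂ (c a) * algebraMap F₁ F₂ (f a) = 0 ∨
        k ≤ w.ord (algebraMap K₂ F₂ (c a) * algebraMap F₁ F₂ (f a)) := by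
      by_cases hc : c a = 0
      · left; simp [hc]
      rcases hf a (Finset.mem_insert_self a S) with h0 | h0
      · left; simp [h0]
      by_cases hfa : f a = 0
      · left; simp [hfa]
      right
      rw [w.ord_mul (by simpa using hc) (by simpa using hfa), ord_algebraMap, hord, zero_add]
      exact h0
    rcases hterm with h1 | h1
    · rw [h1, zero_add]; exact ih'
    rcases ih' with h2 | h2
    · rw [h2, add_zero]; exact Or.inr h1
    by_cases h3 : algebraMap K₂ F₂ (c a) * algebraMap F₁ F₂ (f a) +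
        ∑ i ∈ S, algebraMap K₂ F₂ (c i) * algebraMap F₁ F₂ (f i) = 0
    · exact Or.inl h3
    right
    by_cases h4 : algebraMap K₂ F₂ (c a) * algebraMap F₁ F₂ (f a) = 0
    · rw [h4, zero_add]; exact h2
    by_cases h5 : ∑ i ∈ S, algebraMap K₂ F₂ (c i) * algebraMap F₁ F₂ (f i) = 0
    · rw [h5, add_zero]; exact h1
    exact le_trans (le_min h1 h2) (ord_add_ge w h4 h5 h3)

/-- Gauss formula, upper bound. -/
theorem gauss_le (h : IsConstExt K₁ F₁ K₂ F₂) {v : Place K₁ F₁}
    (hres : ∀ f : F₁, RegularAt v f → ∃ a : K₁, VanishesAt v (f - algebraMap K₁ F₁ a))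
    {w : Place K₂ F₂} (hw : IsExtOf K₂ v w.toValuationSubring)
    {ι : Type*} (c : ι → K₂) (hc : LinearIndependent K₁ c) (S : Finset ι) (f : ι → F₁) (k : ℤ)
    (hk : ∑ i ∈ S, algebraMap K₂ F₂ (c i) * algebraMap F₁ F₂ (f i) = 0 ∨
      k ≤ w.ord (∑ i ∈ S, algebraMap K₂ F₂ (c i) * algebraMap F₁ F₂ (f i))) :
    ∀ i ∈ S, f i = 0 ∨ k ≤ v.ord (f i) := by
  by_cases hne : ∃ i ∈ S, f i ≠ 0
  · obtain ⟨s, hs⟩ := exists_ord_eq_one v
    have hs0 : s ≠ 0 := by
      rintro rfl
      simp at hs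
    have hs2 : algebraMap F₁ F₂ s ≠ 0 := by simpa using hs0
    obtain ⟨m, hm, hval⟩ := exists_exponent (F₂ := F₂) hres s hs c hc S f hne
    have hval' := hval _ hw
    have hz : ∑ i ∈ S, algebraMap K₂ F₂ (c i) * algebraMap F₁ F₂ (f i) ≠ 0 := by
      rw [← Valuation.ne_zero_iff w.toValuationSubring.valuation, hval']
      exact zpow_ne_zero _ ((Valuation.ne_zero_iff _).mpr hs2)
    have hord := ord_eq_of_isExtOf h hres hw s hs hz hval'
    rcases hk with hk | hk
    · exact absurd hk hz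
    intro i hi
    rcases hm i hi with h0 | h0
    · exact Or.inl h0
    · right; omega
  · push Not at hne
    exact fun i hi => Or.inl (hne i hi)


theorem valuation_lt_one_iff_inv_notMem {L : Type*} [Field L] (A : ValuationSubring L) {x : L}
    (hx : x ≠ 0) : A.valuation x < 1 ↔ x⁻¹ ∉ A := by
  rw [← A.valuation_le_one_iff, map_inv₀, not_le,
    one_lt_inv₀ (zero_lt_iff.mpr ((Valuation.ne_zero_iff _).mpr hx))]

theorem valuation_eq_one_of_mem_of_inv_mem {L : Type*} [Field L] (A : ValuationSubring L) {x : L}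
    (hx : x ≠ 0) (h1 : x ∈ A) (h2 : x⁻¹ ∈ A) : A.valuation x = 1 := by
  rw [← A.valuation_le_one_iff] at h1 h2
  rw [map_inv₀, inv_le_one₀ (zero_lt_iff.mpr ((Valuation.ne_zero_iff _).mpr hx))] at h2
  exact le_antisymm h1 h2

theorem exists_restrict (w : Place K₂ F₂) (hw : ∃ f : F₁, w.ord (algebraMap F₁ F₂ f) ≠ 0) :
    ∃ v : Place K₁ F₁, IsExtOf K₂ v w.toValuationSubring := by
  classical
  set V : ValuationSubring F₁ := w.toValuationSubring.comap (algebraMap F₁ F₂) with hV
  have hmemV : ∀ x : F₁, x ∈ V ↔ algebraMap F₁ F₂ x ∈ w.toValuationSubring := fun x => Iff.rfl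
  have hmap0 : ∀ x : F₁, x ≠ 0 → algebraMap F₁ F₂ x ≠ 0 := fun x hx =>
    (map_ne_zero (algebraMap F₁ F₂)).mpr hx
  have hmem : ∀ x : F₁, x ≠ 0 → (x ∈ V ↔ 0 ≤ w.ord (algebraMap F₁ F₂ x)) := fun x hx => by
    rw [hmemV, mem_iff_ord_nonneg w (hmap0 x hx)]
  have hone : ∀ x : F₁, x ≠ 0 → w.ord (algebraMap F₁ F₂ x) = 0 → V.valuation x = 1 := by
    intro x hx h0
    refine valuation_eq_one_of_mem_of_inv_mem V hx ((hmem x hx).mpr h0.ge) ?_
    rw [hmem _ (inv_ne_zero hx), map_inv₀, w.ord_inv, h0]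
    simp
  -- a positive value
  have hpos : ∃ n : ℕ, 0 < n ∧ ∃ x : F₁, x ≠ 0 ∧ w.ord (algebraMap F₁ F₂ x) = n := by
    obtain ⟨f, hf⟩ := hw
    have hf0 : f ≠ 0 := by
      rintro rfl
      simp at hf
    rcases lt_or_gt_of_ne hf with h1 | h1
    · refine ⟨(-(w.ord (algebraMap F₁ F₂ f))).toNat, by omega, f⁻¹, inv_ne_zero hf0, ?_⟩
      rw [map_inv₀, w.ord_inv]
      omega
    · exact ⟨(w.ord (algebraMap F₁ F₂ f)).toNat, by omega, f, hf0, by omega⟩
  obtain ⟨he0, t, ht0, ht⟩ := Nat.find_spec hpos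
  set e := Nat.find hpos with he
  have hmin : ∀ x : F₁, x ≠ 0 → 0 < w.ord (algebraMap F₁ F₂ x) →
      (e : ℤ) ≤ w.ord (algebraMap F₁ F₂ x) := by
    intro x hx hpx
    have := Nat.find_min' hpos (m := (w.ord (algebraMap F₁ F₂ x)).toNat)
      ⟨by omega, x, hx, by omega⟩
    omega
  have htlt : V.valuation t < 1 := by
    rw [valuation_lt_one_iff_inv_notMem V ht0, hmem _ (inv_ne_zero ht0), map_inv₀, w.ord_inv, ht]
    omega
  have hfac : ∀ z : F₁, z ≠ 0 → ∃ k : ℤ, V.valuation z = V.valuation t ^ k := by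
    intro z hz
    set d := w.ord (algebraMap F₁ F₂ z) with hd
    refine ⟨d / e, ?_⟩
    have htq : t ^ (-(d / e)) ≠ 0 := zpow_ne_zero _ ht0
    have hx0 : z * t ^ (-(d / e)) ≠ 0 := mul_ne_zero hz htq
    have hordx : w.ord (algebraMap F₁ F₂ (z * t ^ (-(d / e)))) = d % e := by
      rw [map_mul, w.ord_mul (hmap0 z hz) (hmap0 _ htq), map_zpow₀, w.ord_zpow, ht, ← hd]
      have := Int.emod_add_mul_ediv d e
      linarith
    have hr0 : d % e = 0 := by
      by_contra hr
      have h1 : 0 ≤ d % e := Int.emod_nonneg _ (by omega)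
      have h2 : d % e < e := Int.emod_lt_of_pos _ (by omega)
      have h3 := hmin _ hx0 (by rw [hordx]; omega)
      rw [hordx] at h3
      omega
    have h1 := hone _ hx0 (by rw [hordx, hr0])
    have hvt : V.valuation t ≠ 0 := (Valuation.ne_zero_iff _).mpr ht0
    rw [map_mul, map_zpow₀, zpow_neg] at h1
    exact eq_of_mul_inv_eq_one h1 |>.trans rfl
  let v : Place K₁ F₁ :=
    ⟨V, fun a => by
        rw [hmemV, algebraMap_comm (K₂ := K₂)]
        exact w.algebraMap_mem' _,
      fun htop => by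
        have h1 : t⁻¹ ∈ V := by rw [htop]; trivial
        exact (valuation_lt_one_iff_inv_notMem V ht0).mp htlt h1,
      isPrincipalIdealRing_of_unif V t ht0 htlt hfac⟩
  refine ⟨v, ⟨w.algebraMap_mem', fun f hf => ?_, fun f hf => ?_⟩⟩
  · exact (hmemV f).mp ((regularAt_iff_mem v f).mp hf)
  · rcases eq_or_ne f 0 with rfl | hf0
    · simp
    · have h1 : V.valuation f < 1 := (vanishesAt_iff_valuation_lt v f).mp hf
      rw [valuation_lt_one_iff_inv_notMem V hf0, hmemV, map_inv₀] at h1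
      exact (valuation_lt_one_iff_inv_notMem _ (hmap0 f hf0)).mpr h1


theorem linearIndependent_pow_of_transcendental {K A : Type*} [Field K] [Field A] [Algebra K A]
    {x : A} (hx : Transcendental K x) : LinearIndependent K (fun n : ℕ => x ^ n) := by
  classical
  rw [linearIndependent_iff']
  intro s g hg i hi
  have h1 : aeval x (∑ i ∈ s, monomial i (g i)) = 0 := by
    rw [map_sum, ← hg]
    refine Finset.sum_congr rfl fun i _ => ?_
    rw [aeval_monomial, Algebra.smul_def]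
  have h2 := (transcendental_iff.mp hx) _ h1
  have h3 := congrArg (fun p : K[X] => p.coeff i) h2
  simp only [finsetSum_coeff, coeff_monomial, coeff_zero] at h3
  rw [Finset.sum_ite_eq' s i] at h3
  simpa [hi] using h3

theorem transcendental_of_linearIndependent_pow {K A : Type*} [Field K] [Field A] [Algebra K A]
    {x : A} (hx : LinearIndependent K (fun n : ℕ => x ^ n)) : Transcendental K x := by
  rw [transcendental_iff]
  intro p hp
  rw [aeval_eq_sum_range] at hp
  have h1 := linearIndependent_iff'.mp hx _ (fun i => p.coeff i) hp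
  ext i
  by_cases hi : i ∈ Finset.range (p.natDegree + 1)
  · rw [h1 i hi, coeff_zero]
  · rw [coeff_zero]
    refine coeff_eq_zero_of_natDegree_lt ?_
    rw [Finset.mem_range] at hi
    omega

theorem algebraMap_aeval (x : F₁) (p : K₁[X]) :
    algebraMap F₁ F₂ (aeval x p) =
      aeval (algebraMap F₁ F₂ x) (p.map (algebraMap K₁ K₂)) := by
  rw [aeval_map_algebraMap, aeval_algebraMap_apply]

theorem transcendental_ext (h : IsConstExt K₁ F₁ K₂ F₂) {x : F₁} (hx : Transcendental K₁ x) :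
    Transcendental K₂ (algebraMap F₁ F₂ x) := by
  refine transcendental_of_linearIndependent_pow ?_
  have := linearIndependent_map h _ (linearIndependent_pow_of_transcendental hx)
  simpa only [map_pow] using this

theorem algebraMap_mem_adjoin_simple (x : F₁) (r : F₁) (hr : r ∈ K₁⟮x⟯) :
    algebraMap F₁ F₂ r ∈ K₂⟮algebraMap F₁ F₂ x⟯ := by
  obtain ⟨p, q, rfl⟩ := (mem_adjoin_simple_iff K₁ r).mp hr
  rw [mem_adjoin_simple_iff]
  exact ⟨p.map (algebraMap K₁ K₂), q.map (algebraMap K₁ K₂), by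
    rw [map_div₀, algebraMap_aeval (K₂ := K₂), algebraMap_aeval (K₂ := K₂)]⟩

theorem isAlgebraic_ext (h : IsConstExt K₁ F₁ K₂ F₂) {x : F₁} (hx : Transcendental K₁ x)
    [FiniteDimensional K₁⟮x⟯ F₁] (f : F₁) :
    IsAlgebraic K₂⟮algebraMap F₁ F₂ x⟯ (algebraMap F₁ F₂ f) := by
  obtain ⟨⟨p, hp0, hp⟩, -⟩ := exists_polynomial_relation x hx f
  have hX := transcendental_ext h hx
  set X := algebraMap F₁ F₂ x with hXdef
  let ψ : K₁[X] →+* K₂⟮X⟯ :=
    ((aeval (AdjoinSimple.gen K₂ X) : K₂[X] →ₐ[K₂] K₂⟮X⟯) : K₂[X] →+* K₂⟮X⟯).comp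
      (mapRingHom (algebraMap K₁ K₂))
  have hψ : ∀ r : K₁[X], ((ψ r : K₂⟮X⟯) : F₂) = algebraMap F₁ F₂ (aeval x r) := by
    intro r
    rw [algebraMap_aeval (K₂ := K₂)]
    have := Polynomial.aeval_algebraMap_apply F₂ (AdjoinSimple.gen K₂ X)
      (r.map (algebraMap K₁ K₂))
    rw [AdjoinSimple.algebraMap_gen] at this
    exact this.symm
  have hinj : Function.Injective ψ := by
    rw [injective_iff_map_eq_zero]
    intro r hr
    have h1 : algebraMap F₁ F₂ (aeval x r) = 0 := by rw [← hψ, hr]; rfl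
    have h2 : aeval x r = 0 := by simpa using h1
    exact transcendental_iff.mp hx r h2
  refine ⟨p.map ψ, (Polynomial.map_ne_zero_iff hinj).mpr hp0, ?_⟩
  rw [aeval_def, eval₂_map]
  have h3 : (algebraMap K₂⟮X⟯ F₂).comp ψ =
      (algebraMap F₁ F₂).comp ((aeval x : K₁[X] →ₐ[K₁] F₁) : K₁[X] →+* F₁) := by
    exact RingHom.ext fun r => hψ r
  rw [h3, ← hom_eval₂, hp, map_zero]

theorem isFF_ext (h : IsConstExt K₁ F₁ K₂ F₂) (hFF : IsFF K₁ F₁) : IsFF K₂ F₂ := by
  obtain ⟨x, hx, hfin⟩ := hFF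
  refine ⟨algebraMap F₁ F₂ x, transcendental_ext h hx, ?_⟩
  set X := algebraMap F₁ F₂ x with hXdef
  let b := Module.finBasis K₁⟮x⟯ F₁
  let T : Set F₂ := Set.range fun j => algebraMap F₁ F₂ (b j)
  have hTfin : Finite T := Set.finite_range _
  have hint : ∀ y ∈ T, IsIntegral K₂⟮X⟯ y := by
    rintro _ ⟨j, rfl⟩
    exact (isAlgebraic_ext h hx (b j)).isIntegral
  have hfd : FiniteDimensional K₂⟮X⟯ (IntermediateField.adjoin K₂⟮X⟯ T) :=
    IntermediateField.finiteDimensional_adjoin hint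
  have htop : IntermediateField.adjoin K₂⟮X⟯ T = ⊤ := by
    rw [eq_top_iff]
    intro z _
    have hz : z ∈ IntermediateField.adjoin K₂ (Set.range (algebraMap F₁ F₂)) := by
      rw [h.gen]; trivial
    have hle : IntermediateField.adjoin K₂ (Set.range (algebraMap F₁ F₂)) ≤
        (IntermediateField.adjoin K₂⟮X⟯ T).restrictScalars K₂ := by
      rw [IntermediateField.adjoin_le_iff]
      rintro _ ⟨f, rfl⟩
      show algebraMap F₁ F₂ f ∈ IntermediateField.adjoin K₂⟮X⟯ T
      rw [← b.sum_repr f, map_sum]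
      refine sum_mem fun j _ => ?_
      rw [Algebra.smul_def, map_mul]
      refine mul_mem ?_ (IntermediateField.subset_adjoin _ _ ⟨j, rfl⟩)
      exact (IntermediateField.adjoin K₂⟮X⟯ T).algebraMap_mem
        ⟨_, algebraMap_mem_adjoin_simple x _ (b.repr f j).2⟩
    exact hle hz
  rw [htop] at hfd
  exact (IntermediateField.topEquiv (F := K₂⟮X⟯) (E := F₂)).toLinearEquiv.finiteDimensional

end ConstExt

end Fermat.Agent.S27.L4a

namespace Fermat.Agent.S27

open AlgebraicCurve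

universe u v w x

/-- Package L4a: constant field extensions: `F₂/K₂` is a function field, every place of `F₁` has a
unique extension, Gauss formula. -/
theorem l4a (hR0 : Stmt_R0.{u, v}) : Stmt_L4a.{u, v, w, x} := by
  intro K₁ F₁ K₂ F₂ _ _ _ _ _ _ _ _ _ _ _ hyp
  haveI := hyp.algClosed₁
  haveI := hyp.charZero
  obtain ⟨-, -, -, -, hres⟩ := hR0 K₁ F₁ hyp.isFF
  have hext := hyp.ext
  refine ⟨L4a.isFF_ext hext hyp.isFF, ?_⟩
  choose φ hφ using fun v => L4a.exists_place_ext hext v (hres v)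
  have hord : ∀ (v : Place K₁ F₁) (f : F₁), (φ v).ord (algebraMap F₁ F₂ f) = v.ord f :=
    fun v f => L4a.ord_algebraMap_of_isExtOf hext (hres v) (hφ v) f
  refine ⟨φ, hord, ?_, ?_, ?_⟩
  · intro w hw
    obtain ⟨v, hv⟩ := L4a.exists_restrict (K₁ := K₁) w hw
    exact ⟨v, Place.ext (L4a.IsExtOf.unique hext (hres v) (hφ v) hv)⟩
  · intro v n c f k _ hf
    exact L4a.gauss_ge (hord v) c Finset.univ f k (fun i _ => hf i)
  · intro v n c f k hc hk i
    exact L4a.gauss_le hext (hres v) (hφ v) c hc Finset.univ f k hk i (Finset.mem_univ i)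

end Fermat.Agent.S27
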