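import Fermat.Agent.S27.Interface

/-!
# S27, package L6 : descent of a function field to a countable algebraically closed subfield
-/

set_option autoImplicit false

namespace Fermat.Agent.S27

namespace L6

open Polynomial IntermediateField TensorProduct

section GenLin

variable {K₁ K F : Type*} [Field K₁] [Field K] [Field F] [Algebra K₁ K] [Algebra K F]
  [Algebra K₁ F] [IsScalarTower K₁ K F]

/-- a linear map sending a basis to a linearly independent family is injective -/
theorem injective_of_basis {R M N ι : Type*} [Ring R] [AddCommGroup M] [AddCommGroup N]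
    [Module R M] [Module R N] (b : Module.Basis ι R M) (f : M →ₗ[R] N)
    (h : LinearIndependent R (fun i => f (b i))) : Function.Injective f := by
  have hf : ∀ x, f x = Finsupp.linearCombination R (fun i => f (b i)) (b.repr x) := by
    intro x
    conv_lhs => rw [← b.linearCombination_repr x]
    rw [Finsupp.linearCombination_apply, Finsupp.linearCombination_apply, map_finsuppSum]
    simp
  intro x y hxy
  rw [hf, hf] at hxy
  exact b.repr.injective (h hxy)

/-- **Linear disjointness, basic form.**  If `e` is `K`-linearly independent, then a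
`K₁`-linearly independent family in the `K₁`-span of `e` is `K`-linearly independent. -/
theorem linearIndependent_of_mem_span {ι κ : Type*} (e : ι → F) (he : LinearIndependent K e)
    (g : κ → F) (hg : ∀ i, g i ∈ Submodule.span K₁ (Set.range e))
    (hind : LinearIndependent K₁ g) : LinearIndependent K g := by
  classical
  choose a ha using fun i => (Finsupp.mem_span_range_iff_exists_finsupp).1 (hg i)
  have ha' : ∀ i, Finsupp.linearCombination K₁ e (a i) = g i := by
    intro i
    rw [Finsupp.linearCombination_apply]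
    exact ha i
  have hind_a : LinearIndependent K₁ a := by
    apply LinearIndependent.of_comp (Finsupp.linearCombination K₁ e)
    have : (Finsupp.linearCombination K₁ e) ∘ a = g := funext ha'
    rw [this]
    exact hind
  have h1 : LinearIndependent K (fun i => (1 : K) ⊗ₜ[K₁] a i) :=
    Module.Flat.linearIndependent_one_tmul hind_a
  let Λ : K ⊗[K₁] (ι →₀ K₁) →ₗ[K] F :=
    LinearMap.liftBaseChange K (Finsupp.linearCombination K₁ e)
  have hΛ : Function.Injective Λ := by
    apply injective_of_basis ((Finsupp.basisSingleOne (R := K₁) (ι := ι)).baseChange K)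
    have : (fun i => Λ (((Finsupp.basisSingleOne (R := K₁) (ι := ι)).baseChange K) i)) = e := by
      funext i
      simp [Λ]
    rw [this]
    exact he
  have h2 := h1.map' Λ (LinearMap.ker_eq_bot.2 hΛ)
  have : (Λ ∘ fun i => (1 : K) ⊗ₜ[K₁] a i) = g := by
    funext i
    simp [Λ, ha']
  rwa [this] at h2

end GenLin

section Indep

variable {K F : Type*} [Field K] [Field F] [Algebra K F]

theorem pow_indep {x : F} (hx : Transcendental K x) : LinearIndependent K (fun j : ℕ => x ^ j) := by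
  have h := (Polynomial.basisMonomials K).linearIndependent.map' (aeval x).toLinearMap
    (LinearMap.ker_eq_bot.2 (transcendental_iff_injective.1 hx))
  have : ((aeval x).toLinearMap ∘ (Polynomial.basisMonomials K)) = fun j : ℕ => x ^ j := by
    funext j
    simp
  rwa [this] at h

theorem e_indep {x y : F} (hx : Transcendental K x) {N : ℕ}
    (hy : LinearIndependent K⟮x⟯ (fun k : Fin N => y ^ (k : ℕ))) :
    LinearIndependent K (fun p : ℕ × Fin N => x ^ p.1 * y ^ (p.2 : ℕ)) := by
  have hb : LinearIndependent K (fun j : ℕ => (AdjoinSimple.gen K x) ^ j) := by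
    apply LinearIndependent.of_comp (K⟮x⟯.val.toLinearMap)
    have : (K⟮x⟯.val.toLinearMap ∘ fun j : ℕ => (AdjoinSimple.gen K x) ^ j) = fun j : ℕ => x ^ j := by
      funext j
      simp
    rw [this]
    exact pow_indep hx
  have h := linearIndependent_smul hb hy
  have : (fun p : ℕ × Fin N => (AdjoinSimple.gen K x) ^ p.1 • y ^ (p.2 : ℕ)) =
      (fun p : ℕ × Fin N => x ^ p.1 * y ^ (p.2 : ℕ)) := by
    funext p
    rw [Algebra.smul_def]
    simp
  rwa [this] at h

end Indep

section Struct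

variable {k F : Type*} [Field k] [Field F] [Algebra k F]

theorem struct (x y : F) (N : ℕ) (c : Fin N → k⟮x⟯)
    (hc : y ^ N = ∑ i : Fin N, (c i : F) * y ^ (i : ℕ)) :
    ∀ f ∈ adjoin k ({x, y} : Set F), ∃ d : Fin N → k⟮x⟯, f = ∑ i : Fin N, (d i : F) * y ^ (i : ℕ) := by
  intro f hf
  set Φ : (k⟮x⟯)[X] := X ^ N - ∑ i : Fin N, C (c i) * X ^ (i : ℕ) with hΦ
  have hmon : Φ.Monic := monic_X_pow_sub (degree_sum_fin_lt c)
  have hroot : aeval y Φ = 0 := by
    rw [hΦ, map_sub, map_pow, aeval_X, hc, map_sum, sub_eq_zero]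
    refine Finset.sum_congr rfl fun i _ => ?_
    rw [map_mul, aeval_C, map_pow, aeval_X]
    rfl
  have hdeg : Φ.degree = N := by
    rw [hΦ, degree_sub_eq_left_of_degree_lt]
    · exact degree_X_pow N
    · rw [degree_X_pow]; exact degree_sum_fin_lt c
  have hint : IsIntegral k⟮x⟯ y := ⟨Φ, hmon, by simpa [aeval_def] using hroot⟩
  have hf1 : f ∈ (k⟮x⟯)⟮y⟯ := by
    have h := adjoin_adjoin_left k ({x} : Set F) ({y} : Set F)
    have h2 : f ∈ ((k⟮x⟯)⟮y⟯).restrictScalars k := by
      rw [h]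
      have : ({x} ∪ {y} : Set F) = {x, y} := rfl
      rw [this]
      exact hf
    exact h2
  have hf2 : f ∈ ((k⟮x⟯)⟮y⟯).toSubalgebra := hf1
  rw [adjoin_simple_toSubalgebra_of_isAlgebraic hint.isAlgebraic,
    Algebra.adjoin_singleton_eq_range_aeval] at hf2
  obtain ⟨P, rfl⟩ := hf2
  have h1 : aeval y P = aeval y (P %ₘ Φ) := (aeval_modByMonic_eq_self_of_root hroot).symm
  have h2 : (P %ₘ Φ).degree < N := by
    rw [← hdeg]; exact degree_modByMonic_lt P hmon
  refine ⟨fun i => (P %ₘ Φ).coeff i, ?_⟩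
  change aeval y P = _
  rw [h1]
  by_cases h0 : P %ₘ Φ = 0
  · simp [h0]
  have h3 : (P %ₘ Φ).natDegree < N := by
    rw [degree_eq_natDegree h0] at h2
    exact_mod_cast h2
  rw [aeval_eq_sum_range' h3, ← Fin.sum_univ_eq_sum_range (fun i => (P %ₘ Φ).coeff i • y ^ i) N]
  refine Finset.sum_congr rfl fun i _ => ?_
  rw [Algebra.smul_def]
  rfl

end Struct

section GoodSec

variable (K₁ : Type*) {F : Type*} [Field K₁] [Field F] [Algebra K₁ F]

/-- the `K₁`-span of the monomials `x^j y^k`, `k < N` -/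
def monoSpan (x y : F) (N : ℕ) : Submodule K₁ F :=
  Submodule.span K₁ (Set.range (fun p : ℕ × Fin N => x ^ p.1 * y ^ (p.2 : ℕ)))

variable {K₁}

theorem pow_mul_mem {x y : F} {N : ℕ} (j : ℕ) {v : F} (hv : v ∈ monoSpan K₁ x y N) :
    x ^ j * v ∈ monoSpan K₁ x y N := by
  unfold monoSpan at hv ⊢
  induction hv using Submodule.span_induction with
  | mem v hv =>
    obtain ⟨p, rfl⟩ := hv
    apply Submodule.subset_span
    exact ⟨(j + p.1, p.2), by simp only [pow_add, mul_assoc]⟩
  | zero => simp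
  | add u v _ _ hu hv => rw [mul_add]; exact add_mem hu hv
  | smul a v _ hv => rw [mul_smul_comm]; exact Submodule.smul_mem _ _ hv

theorem aeval_mul_mem {x y : F} {N : ℕ} (p : K₁[X]) {v : F} (hv : v ∈ monoSpan K₁ x y N) :
    aeval x p * v ∈ monoSpan K₁ x y N := by
  induction p using Polynomial.induction_on' with
  | add p q hp hq => rw [map_add, add_mul]; exact add_mem hp hq
  | monomial n a =>
    rw [aeval_monomial, ← Algebra.smul_def, smul_mul_assoc]
    exact Submodule.smul_mem _ _ (pow_mul_mem n hv)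

theorem ypow_mem {x y : F} {N : ℕ} (k : Fin N) : y ^ (k : ℕ) ∈ monoSpan K₁ x y N :=
  Submodule.subset_span ⟨(0, k), by simp⟩

variable (K₁) in
/-- `z` has a denominator in `K₁[x]` -/
def Good (x y : F) (N : ℕ) (z : F) : Prop :=
  ∃ d : K₁[X], d ≠ 0 ∧ aeval x d * z ∈ monoSpan K₁ x y N

theorem good_zero {x y : F} {N : ℕ} : Good K₁ x y N 0 := ⟨1, one_ne_zero, by simp⟩

theorem Good.add {x y : F} {N : ℕ} {z w : F} (hz : Good K₁ x y N z) (hw : Good K₁ x y N w) :
    Good K₁ x y N (z + w) := by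
  obtain ⟨d, hd, h⟩ := hz
  obtain ⟨d', hd', h'⟩ := hw
  refine ⟨d * d', mul_ne_zero hd hd', ?_⟩
  have : aeval x (d * d') * (z + w) = aeval x d' * (aeval x d * z) + aeval x d * (aeval x d' * w) := by
    rw [map_mul]; ring
  rw [this]
  exact add_mem (aeval_mul_mem _ h) (aeval_mul_mem _ h')

theorem good_sum {x y : F} {N : ℕ} {ι : Type*} (s : Finset ι) (z : ι → F)
    (h : ∀ i ∈ s, Good K₁ x y N (z i)) : Good K₁ x y N (∑ i ∈ s, z i) := by
  classical
  induction s using Finset.induction_on with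
  | empty => simpa using good_zero
  | insert a s ha ih =>
    rw [Finset.sum_insert ha]
    exact (h a (Finset.mem_insert_self _ _)).add (ih fun i hi => h i (Finset.mem_insert_of_mem hi))

theorem good_mul_pow {x y : F} {N : ℕ} (c : F) (hc : c ∈ K₁⟮x⟯) (k : Fin N) :
    Good K₁ x y N (c * y ^ (k : ℕ)) := by
  obtain ⟨r, s, rfl⟩ := (mem_adjoin_simple_iff K₁ c).1 hc
  by_cases hs : aeval x s = 0
  · rw [hs, div_zero, zero_mul]; exact good_zero
  · refine ⟨s, fun h => hs (by rw [h, map_zero]), ?_⟩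
    have : aeval x s * (aeval x r / aeval x s * y ^ (k : ℕ)) = aeval x r * y ^ (k : ℕ) := by
      field_simp
    rw [this]
    exact aeval_mul_mem _ (ypow_mem k)

theorem exists_common {x y : F} {N m : ℕ} (f : Fin m → F) (h : ∀ i, Good K₁ x y N (f i)) :
    ∃ d : K₁[X], d ≠ 0 ∧ ∀ i, aeval x d * f i ∈ monoSpan K₁ x y N := by
  classical
  choose d hd h using h
  refine ⟨∏ i, d i, Finset.prod_ne_zero_iff.2 fun i _ => hd i, fun i => ?_⟩
  rw [← Finset.mul_prod_erase Finset.univ d (Finset.mem_univ i), map_mul, mul_comm (aeval x (d i)),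
    mul_assoc]
  exact aeval_mul_mem _ (h i)

end GoodSec

section Core

variable {K₁ K F : Type*} [Field K₁] [Field K] [Field F] [Algebra K₁ K] [Algebra K F]
  [Algebra K₁ F] [IsScalarTower K₁ K F]

theorem transcendental_base {x : F} (hx : Transcendental K x) : Transcendental K₁ x :=
  hx.restrictScalars (algebraMap K₁ K).injective

theorem linDisj_of_good {x y : F} {N : ℕ} (hx : Transcendental K x)
    (hy : LinearIndependent K⟮x⟯ (fun k : Fin N => y ^ (k : ℕ))) {m : ℕ} (f : Fin m → F)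
    (hgood : ∀ i, Good K₁ x y N (f i)) (hind : LinearIndependent K₁ f) :
    LinearIndependent K f := by
  obtain ⟨d, hd, h⟩ := exists_common f hgood
  have hD : aeval x d ≠ 0 := fun h0 =>
    hd ((transcendental_iff.1 (transcendental_base (K₁ := K₁) hx)) d h0)
  have h1 : LinearIndependent K₁ (fun i => aeval x d * f i) :=
    hind.map' (LinearMap.mulLeft K₁ (aeval x d))
      (LinearMap.ker_eq_bot.2 (mul_right_injective₀ hD))
  have h2 : LinearIndependent K (fun i => aeval x d * f i) :=
    linearIndependent_of_mem_span _ (e_indep hx hy) _ h h1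
  have h3 := h2.map' (LinearMap.mulLeft K (aeval x d)⁻¹)
      (LinearMap.ker_eq_bot.2 (mul_right_injective₀ (inv_ne_zero hD)))
  have : (LinearMap.mulLeft K (aeval x d)⁻¹ ∘ fun i => aeval x d * f i) = f := by
    funext i
    simp [hD]
  rwa [this] at h3

theorem core (x y : F) (N : ℕ) (hx : Transcendental K x)
    (hy : LinearIndependent K⟮x⟯ (fun k : Fin N => y ^ (k : ℕ)))
    (c : Fin N → K₁⟮x⟯) (hc : y ^ N = ∑ i : Fin N, (c i : F) * y ^ (i : ℕ))
    (htop : adjoin K ({x, y} : Set F) = ⊤) :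
    IsFF K₁ (adjoin K₁ ({x, y} : Set F)) ∧ IsConstExt K₁ (adjoin K₁ ({x, y} : Set F)) K F := by
  have hst := struct x y N c hc
  have hxm : x ∈ adjoin K₁ ({x, y} : Set F) := subset_adjoin _ _ (by simp)
  have hym : y ∈ adjoin K₁ ({x, y} : Set F) := subset_adjoin _ _ (by simp)
  refine ⟨⟨⟨x, hxm⟩, ?_, ?_⟩, ⟨?_, ?_⟩⟩
  · -- transcendental
    intro halg
    apply transcendental_base (K₁ := K₁) hx
    have := halg.algHom (adjoin K₁ ({x, y} : Set F)).val
    simpa using this
  · -- finite dimensional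
    set F₁ := adjoin K₁ ({x, y} : Set F) with hF₁
    set x₁ : F₁ := ⟨x, hxm⟩ with hx₁
    set y₁ : F₁ := ⟨y, hym⟩ with hy₁
    have hlift : ∀ z : K₁⟮x⟯, ∃ z' : K₁⟮x₁⟯, (((z' : F₁)) : F) = z := by
      intro z
      obtain ⟨r, s, hz⟩ := (mem_adjoin_simple_iff K₁ (z : F)).1 z.2
      refine ⟨⟨aeval x₁ r / aeval x₁ s, (mem_adjoin_simple_iff K₁ _).2 ⟨r, s, rfl⟩⟩, ?_⟩
      rw [hz]
      have h1 : ∀ p : K₁[X], ((aeval x₁ p : F₁) : F) = aeval x p := by
        intro p
        exact (Polynomial.aeval_algHom_apply F₁.val x₁ p).symm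
      push_cast
      rw [h1, h1]
    refine Module.Finite.of_surjective
      (Fintype.linearCombination K₁⟮x₁⟯ (fun k : Fin N => y₁ ^ (k : ℕ))) ?_
    intro f
    obtain ⟨d, hd⟩ := hst f.1 f.2
    choose d' hd' using hlift
    refine ⟨fun i => d' (d i), ?_⟩
    rw [Fintype.linearCombination_apply]
    apply Subtype.ext
    rw [hd]
    simp only [Algebra.smul_def]
    push_cast
    refine Finset.sum_congr rfl fun i _ => ?_
    rw [← hd']
    rfl
  · -- linear disjointness
    intro m f hf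
    apply linDisj_of_good (K₁ := K₁) hx hy
    · intro i
      obtain ⟨d, hd⟩ := hst (f i).1 (f i).2
      change Good K₁ x y N (f i).1
      rw [hd]
      exact good_sum _ _ fun k _ => good_mul_pow _ (d k).2 k
    · exact hf.map' (adjoin K₁ ({x, y} : Set F)).val.toLinearMap
        (LinearMap.ker_eq_bot.2 (adjoin K₁ ({x, y} : Set F)).val.injective)
  · -- generation
    rw [eq_top_iff, ← htop, adjoin_le_iff]
    intro z hz
    apply subset_adjoin
    rcases hz with rfl | rfl
    · exact ⟨⟨_, hxm⟩, rfl⟩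
    · exact ⟨⟨_, hym⟩, rfl⟩

end Core

section Lift

variable {K₁ K F : Type*} [Field K₁] [Field K] [Field F] [Algebra K₁ K] [Algebra K F]
  [Algebra K₁ F] [IsScalarTower K₁ K F]

theorem exists_lift (x : F) (p : K[X]) (h : ∀ t ∈ p.coeffs, t ∈ Set.range (algebraMap K₁ K)) :
    ∃ p' : K₁[X], aeval x p' = aeval x p := by
  have : p ∈ Polynomial.lifts (algebraMap K₁ K) := by
    rw [Polynomial.lifts_iff_coeff_lifts]
    intro n
    by_cases h0 : p.coeff n = 0
    · exact ⟨0, by rw [h0, map_zero]⟩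
    · exact h _ (Polynomial.coeff_mem_coeffs h0)
  obtain ⟨p', rfl⟩ := this
  exact ⟨p', (aeval_map_algebraMap K x p').symm⟩

theorem mem_of_lift (x : F) (r s : K[X]) (hr : ∀ t ∈ r.coeffs, t ∈ Set.range (algebraMap K₁ K))
    (hs : ∀ t ∈ s.coeffs, t ∈ Set.range (algebraMap K₁ K)) :
    aeval x r / aeval x s ∈ K₁⟮x⟯ := by
  obtain ⟨r', hr'⟩ := exists_lift (K₁ := K₁) x r hr
  obtain ⟨s', hs'⟩ := exists_lift (K₁ := K₁) x s hs
  rw [← hr', ← hs']
  exact (mem_adjoin_simple_iff K₁ _).2 ⟨r', s', rfl⟩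

end Lift

section Count

open Cardinal

universe u

theorem countable_algClosure_adjoin {K : Type u} [Field K] [CharZero K] (T : Finset K) :
    Countable (algebraicClosure (adjoin ℚ (T : Set K)) K) := by
  have h0 : #(adjoin ℚ (T : Set K)) ≤ ℵ₀ := by
    have h := lift_cardinalMk_adjoin_le ℚ (T : Set K)
    rw [Cardinal.lift_uzero, Cardinal.lift_uzero] at h
    refine h.trans ?_
    simp only [sup_le_iff, le_refl, and_true]
    constructor
    · simp
    · exact (Cardinal.lt_aleph0_of_finite _).le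
  have h1 := Algebra.IsAlgebraic.cardinalMk_le_max (adjoin ℚ (T : Set K))
    (algebraicClosure (adjoin ℚ (T : Set K)) K)
  exact Cardinal.mk_le_aleph0_iff.1 (h1.trans (max_le h0 le_rfl))

end Count

end L6

universe u v

open Polynomial IntermediateField L6

theorem l6 : Stmt_L6.{u, v} := by
  classical
  intro K F _ _ _ _ _ hFF S
  obtain ⟨x, hx, hfin⟩ := hFF
  have : CharZero K⟮x⟯ := charZero_of_injective_algebraMap (algebraMap K K⟮x⟯).injective
  obtain ⟨y, hy⟩ := Field.exists_primitive_element K⟮x⟯ F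
  set N := (minpoly K⟮x⟯ y).natDegree with hN
  have hyind : LinearIndependent K⟮x⟯ (fun k : Fin N => y ^ (k : ℕ)) := linearIndependent_pow y
  have hint : IsIntegral K⟮x⟯ y := IsIntegral.of_finite _ _
  set c₀ : Fin N → K⟮x⟯ := fun i => -(minpoly K⟮x⟯ y).coeff i with hc₀def
  have hc₀ : y ^ N = ∑ i : Fin N, (c₀ i : F) * y ^ (i : ℕ) := by
    have h1 := minpoly.aeval K⟮x⟯ y
    rw [(minpoly.monic hint).as_sum, map_add, map_pow, aeval_X, map_sum, ← hN,
      ← Fin.sum_univ_eq_sum_range
        (fun i => aeval y (C ((minpoly K⟮x⟯ y).coeff i) * X ^ i)) N] at h1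
    rw [eq_neg_of_add_eq_zero_left h1, ← Finset.sum_neg_distrib]
    refine Finset.sum_congr rfl fun i _ => ?_
    rw [map_mul, aeval_C, map_pow, aeval_X, hc₀def]
    simp
  have htop : adjoin K ({x, y} : Set F) = ⊤ := by
    have h := adjoin_adjoin_left K ({x} : Set F) ({y} : Set F)
    have h2 : ({x} ∪ {y} : Set F) = {x, y} := rfl
    rw [h2, hy] at h
    rw [← h]
    rfl
  have hstK : ∀ f : F, ∃ d : Fin N → K⟮x⟯, f = ∑ i : Fin N, (d i : F) * y ^ (i : ℕ) := by
    intro f
    exact struct x y N c₀ hc₀ f (by rw [htop]; trivial)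
  choose dS hdS using hstK
  have hrs : ∀ z : K⟮x⟯, ∃ r s : K[X], (z : F) = aeval x r / aeval x s :=
    fun z => (mem_adjoin_simple_iff K (z : F)).1 z.2
  choose r s hrs using hrs
  set T : Finset K := (Finset.univ.biUnion fun i => (r (c₀ i)).coeffs ∪ (s (c₀ i)).coeffs) ∪
    S.biUnion (fun f => Finset.univ.biUnion fun i => (r (dS f i)).coeffs ∪ (s (dS f i)).coeffs)
    with hT
  set K₀ : IntermediateField ℚ K := adjoin ℚ (T : Set K) with hK₀
  set K₁ : IntermediateField K₀ K := algebraicClosure K₀ K with hK₁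
  have hTK : ∀ t ∈ T, t ∈ Set.range (algebraMap K₁ K) := by
    intro t ht
    have h0 : t ∈ K₀ := subset_adjoin ℚ _ ht
    exact ⟨⟨t, K₁.algebraMap_mem (⟨t, h0⟩ : K₀)⟩, rfl⟩
  have hmem : ∀ z : K⟮x⟯, (r z).coeffs ⊆ T → (s z).coeffs ⊆ T → (z : F) ∈ (K₁ : Type u)⟮x⟯ := by
    intro z h1 h2
    rw [hrs z]
    exact mem_of_lift x _ _ (fun t ht => hTK t (h1 ht)) (fun t ht => hTK t (h2 ht))
  have hc₀m : ∀ i, (c₀ i : F) ∈ (K₁ : Type u)⟮x⟯ := by
    intro i
    apply hmem
    · intro t ht
      rw [hT]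
      exact Finset.mem_union_left _ (Finset.mem_biUnion.2 ⟨i, Finset.mem_univ _,
        Finset.mem_union_left _ ht⟩)
    · intro t ht
      rw [hT]
      exact Finset.mem_union_left _ (Finset.mem_biUnion.2 ⟨i, Finset.mem_univ _,
        Finset.mem_union_right _ ht⟩)
  have hdSm : ∀ f ∈ S, ∀ i, (dS f i : F) ∈ (K₁ : Type u)⟮x⟯ := by
    intro f hf i
    apply hmem
    · intro t ht
      rw [hT]
      exact Finset.mem_union_right _ (Finset.mem_biUnion.2 ⟨f, hf, Finset.mem_biUnion.2
        ⟨i, Finset.mem_univ _, Finset.mem_union_left _ ht⟩⟩)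
    · intro t ht
      rw [hT]
      exact Finset.mem_union_right _ (Finset.mem_biUnion.2 ⟨f, hf, Finset.mem_biUnion.2
        ⟨i, Finset.mem_univ _, Finset.mem_union_right _ ht⟩⟩)
  obtain ⟨hFF₁, hCE⟩ := core (K₁ := K₁) x y N hx hyind (fun i => ⟨c₀ i, hc₀m i⟩) hc₀ htop
  refine ⟨K₁, adjoin K₁ ({x, y} : Set F), inferInstance, inferInstance, inferInstance,
    inferInstance, inferInstance, inferInstance, inferInstance, inferInstance, ?_, ?_, hFF₁, hCE, ?_⟩
  · exact IsAlgClosure.isAlgClosed K₀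
  · exact countable_algClosure_adjoin T
  · intro f hf
    refine ⟨⟨f, ?_⟩, rfl⟩
    rw [hdS f]
    refine sum_mem fun i _ => mul_mem ?_ (pow_mem (subset_adjoin _ _ (by simp)) _)
    have hle : (K₁ : Type u)⟮x⟯ ≤ adjoin K₁ ({x, y} : Set F) := adjoin.mono _ _ _ (by simp)
    exact hle (hdSm f hf i)

end Fermat.Agent.S27
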