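import Fermat.Agent.S27.LAInterface

/-!
# S27 / LA : assembly of the local Abel theorem from its parts
-/

set_option autoImplicit false

namespace Fermat.Agent.S27

open AlgebraicCurve

universe u

namespace LAasm

variable {F : Type u} [Field F] [Algebra ℂ F] {g : ℕ}
  {L : H1 (0 : Divisor ℂ F) ≃ₗ[ℂ] (Fin g → ℂ)} {ι : Type} [Fintype ι]

theorem D0_nonneg (B : BaseData F g L ι) (v : Place ℂ F) : 0 ≤ B.D0 v := by
  classical
  unfold BaseData.D0 sumPlaces
  rw [Finsupp.finsetSum_apply]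
  refine Finset.sum_nonneg fun i _ => ?_
  rw [Finsupp.single_apply]
  split_ifs <;> simp

theorem one_mem (B : BaseData F g L ι) : (1 : F) ∈ riemannRochSpace B.D0 := by
  rw [mem_riemannRochSpace_iff]
  intro v
  right
  rw [Place.ord_one]
  have := D0_nonneg B v
  omega

/-- `f ↦ G i f z` as a linear map on `L(D0)` -/
noncomputable def Gl (B : BaseData F g L ι) {ρ : ℝ} (hρ : B.GoodRadius ρ) (i : ι) (z : ℂ)
    (hz : ‖z‖ < ρ) : ↥(riemannRochSpace B.D0) →ₗ[ℂ] ℂ where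
  toFun f := B.G i (f : F) z
  map_add' f f' := hρ.add f f.2 f' f'.2 i z hz
  map_smul' a f := by
    have := hρ.smul a f f.2 i z hz
    simpa [Algebra.smul_def] using this

end LAasm

open LAasm in
theorem la_of_parts (hRA : Stmt_RA.{0, u}) (hKA : Stmt_KA.{u}) (hG : Stmt_LA_G.{u})
    (hDIV : Stmt_LA_DIV.{u}) (hRES : Stmt_LA_RES.{u}) (hLIN : Stmt_LA_LIN.{u})
    (hIFT : Stmt_AN_IFT) (hEASY : Stmt_AN_EASY) (hHARD : Stmt_AN_HARD) (hCONV : Stmt_AN_CONV) :
    Stmt_LA.{u} := by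
  classical
  intro F _ _ hF g L ι _ B
  obtain ⟨ρ0, hρ0⟩ := hG F hF g L ι B
  obtain ⟨hlin1, hlin2, hlin3⟩ := hLIN F hF g L ι B
  have hfin : Module.Finite ℂ (riemannRochSpace B.D0) := (hRA ℂ F hF).1 B.D0
  have h0ρ : ‖(0 : ℂ)‖ < ρ0 := by simpa using hρ0.pos
  -- the polar part map
  let α : ↥(riemannRochSpace B.D0) →ₗ[ℂ] (ι → ℂ) := LinearMap.pi fun i => Gl B hρ0 i 0 h0ρ
  have hα : ∀ f i, α f i = B.G i (f : F) 0 := fun f i => rfl
  let one' : ↥(riemannRochSpace B.D0) := ⟨1, one_mem B⟩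
  have hα1 : α one' = 0 := by
    funext i
    rw [hα]
    exact hρ0.one i 0 h0ρ
  let m := Module.finrank ℂ (LinearMap.range α)
  let e : Module.Basis (Fin m) ℂ (LinearMap.range α) := Module.finBasis ℂ (LinearMap.range α)
  have hb : ∀ k, ∃ f, α f = (e k : ι → ℂ) := fun k => (e k).2
  choose b hbα using hb
  -- the element `a0 + ∑ a_k b_k`
  let fE : ℂ → (Fin m → ℂ) → ↥(riemannRochSpace B.D0) := fun a0 a => a0 • one' + ∑ k, a k • b k
  have hGfE : ∀ (a0 : ℂ) (a : Fin m → ℂ) (i : ι) (z : ℂ), ‖z‖ < ρ0 →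
      B.G i (fE a0 a : F) z = a0 * z + ∑ k, a k * B.G i (b k : F) z := by
    intro a0 a i z hz
    have h1 : B.G i (fE a0 a : F) z = Gl B hρ0 i z hz (fE a0 a) := rfl
    rw [h1]
    simp only [fE, map_add, map_sum, map_smul, smul_eq_mul]
    congr 1
    have : Gl B hρ0 i z hz one' = z := hρ0.one i z hz
    rw [this]
  have hαfE : ∀ (a0 : ℂ) (a : Fin m → ℂ), α (fE a0 a) = ∑ k, a k • (e k : ι → ℂ) := by
    intro a0 a
    simp only [fE, map_add, map_sum, map_smul, hα1, smul_zero, zero_add, hbα]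
  have hindep : ∀ a : Fin m → ℂ, ∑ k, a k • (e k : ι → ℂ) = 0 → a = 0 := by
    intro a ha
    have h2 : ∑ k, a k • e k = 0 := by
      apply Subtype.ext
      simpa using ha
    funext k
    exact (Fintype.linearIndependent_iff.1 e.linearIndependent a h2 k)
  have hfE_ne : ∀ (a0 : ℂ) (a : Fin m → ℂ), (a0 ≠ 0 ∨ a ≠ 0) → (fE a0 a : F) ≠ 0 := by
    intro a0 a h hzero
    have hz' : fE a0 a = 0 := Subtype.ext hzero
    have ha : a = 0 := hindep a (by rw [← hαfE a0 a, hz', map_zero])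
    have ha0 : a0 ≠ 0 := by
      rcases h with h | h
      · exact h
      · exact absurd ha h
    have : (fE a0 a : F) = algebraMap ℂ F a0 := by
      simp [fE, ha, one', Algebra.smul_def]
    rw [this] at hzero
    exact ha0 ((map_eq_zero _).1 hzero)
  have hfE_surj : ∀ f : ↥(riemannRochSpace B.D0), ∃ a0 a, f = fE a0 a := by
    intro f
    let a : Fin m → ℂ := fun k => e.repr ⟨α f, LinearMap.mem_range_self α f⟩ k
    have ha : ∑ k, a k • (e k : ι → ℂ) = α f := by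
      have h2 := e.sum_repr ⟨α f, LinearMap.mem_range_self α f⟩
      have h3 : ((∑ k, e.repr ⟨α f, LinearMap.mem_range_self α f⟩ k • e k :
          LinearMap.range α) : ι → ℂ) = α f := congrArg (Subtype.val) h2
      rw [← h3, Submodule.coe_sum]
      rfl
    have hker : ∀ i, B.G i ((f - ∑ k, a k • b k : ↥(riemannRochSpace B.D0)) : F) 0 = 0 := by
      intro i
      rw [← hα]
      have : α (f - ∑ k, a k • b k) = 0 := by
        simp only [map_sub, map_sum, map_smul, hbα, ha, sub_self]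
      rw [this]; rfl
    obtain ⟨a0, ha0⟩ := hlin1 _ (f - ∑ k, a k • b k : ↥(riemannRochSpace B.D0)).2 hker
    refine ⟨a0, a, ?_⟩
    apply Subtype.ext
    have h4 : ((fE a0 a : ↥(riemannRochSpace B.D0)) : F)
        = algebraMap ℂ F a0 + ((∑ k, a k • b k : ↥(riemannRochSpace B.D0)) : F) := by
      simp [fE, one', Algebra.smul_def]
    rw [h4, ha0]
    simp
  -- the analytic data
  let A : ANData ι m g :=
    { ρ0 := ρ0
      gk := fun i k => B.G i (b k : F)
      U := B.U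
      K := fun i z => L (kappa (B.P i) (B.t i) z)
      ρ0_pos := hρ0.pos
      gk_an := fun i k z hz => hρ0.analytic _ (b k).2 i z hz
      U_zero := fun i => (B.aj i).1
      U_deriv := fun i z hz => (B.aj i).2 z (lt_of_lt_of_le hz (hρ0.le_r i))
      K_cont := fun i z hz => by
        refine continuousAt_pi.2 fun j => ?_
        exact (hKA F hF (B.r i) (B.P i) (B.t i) (B.chart i)
          ((LinearMap.proj j : (Fin g → ℂ) →ₗ[ℂ] ℂ) ∘ₗ L.toLinearMap) z
          (lt_of_lt_of_le hz (hρ0.le_r i))).continuousAt }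
  have hPsi : ∀ (i : ι) (ε : Fin m → ℂ) (z : ℂ), ‖z‖ < ρ0 →
      A.Psi i ε z = B.G i (fE 1 ε : F) z := by
    intro i ε z hz
    rw [hGfE 1 ε i z hz, one_mul]
    rfl
  have hu : ∀ c, A.u c = B.u c := fun c => rfl
  have hres : A.Hres := by
    intro ε c hc hzero huniq
    have hne : (fE 1 ε : F) ≠ 0 := hfE_ne 1 ε (Or.inl one_ne_zero)
    have hdiv := (hDIV F hF g L ι B ρ0 hρ0 (fE 1 ε : F) hne c hc).1 (fE 1 ε).2
      (fun i => by rw [← hPsi i ε (c i) (hc i)]; exact hzero i)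
      (fun i h => huniq i (by rw [hPsi i ε 0 h0ρ]; exact h))
    obtain ⟨hd, hsum⟩ := hRES F hF g L ι B ρ0 hρ0 (fE 1 ε : F) hne c hc hdiv
    have hderiv : ∀ i, deriv (A.Psi i ε) (c i) = deriv (B.G i (fE 1 ε : F)) (c i) := by
      intro i
      apply Filter.EventuallyEq.deriv_eq
      have hopen : Metric.ball (0 : ℂ) ρ0 ∈ nhds (c i) :=
        Metric.isOpen_ball.mem_nhds (by simpa using hc i)
      filter_upwards [hopen] with z hz
      exact hPsi i ε z (by simpa using hz)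
    refine ⟨fun i => by rw [hderiv i]; exact hd i, fun η => ?_⟩
    have h5 := hsum (fE 0 η : F) (fE 0 η).2
    have h6 := congrArg L h5
    rw [map_sum, map_zero] at h6
    rw [← h6]
    refine Finset.sum_congr rfl fun i _ => ?_
    rw [map_smul, hderiv i, hGfE 0 η i (c i) (hc i), zero_mul, zero_add]
  have hinj : A.Hinj := by
    intro a ha
    apply hindep
    funext i
    have : (∑ k, a k • (e k : ι → ℂ)) i = ∑ k, a k * B.G i (b k : F) 0 := by
      rw [Finset.sum_apply]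
      refine Finset.sum_congr rfl fun k _ => ?_
      rw [Pi.smul_apply, smul_eq_mul, ← hbα k, hα]
    rw [this]
    exact ha i
  have hker : A.Hker := by
    intro δ hδ
    have h1 : L (∑ i, δ i • kappa (B.P i) (B.t i) 0) = 0 := by
      rw [map_sum, ← hδ]
      exact Finset.sum_congr rfl fun i _ => by rw [map_smul]
    have h2 : ∑ i, δ i • kappa (B.P i) (B.t i) 0 = 0 :=
      (LinearEquiv.map_eq_zero_iff L).1 h1
    obtain ⟨f, hf, hfδ⟩ := hlin2 δ h2
    obtain ⟨a0, a, hfa⟩ := hfE_surj ⟨f, hf⟩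
    refine ⟨a, fun i => ?_⟩
    have h3 : B.G i f 0 = a0 * 0 + ∑ k, a k * B.G i (b k : F) 0 := by
      rw [← hGfE a0 a i 0 h0ρ, ← hfa]
    rw [← hfδ i, h3]
    simp
    rfl
  have hsurj : A.Hsurj := by
    intro w
    obtain ⟨δ, hδ⟩ := hlin3 (L.symm w)
    refine ⟨δ, ?_⟩
    have := congrArg L hδ
    rw [map_sum, LinearEquiv.apply_symm_apply] at this
    rw [← this]
    exact Finset.sum_congr rfl fun i _ => by rw [map_smul]
  obtain ⟨ρ1, ρ2, γ, hγ⟩ := hIFT ι m g A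
  have hE := hEASY ι m g A ρ1 ρ2 γ hγ hres
  obtain ⟨ρa, hρa, hHa⟩ := hHARD ι m g A ρ1 ρ2 γ hγ hE hker hsurj
  obtain ⟨ρb, hρb, hCb⟩ := hCONV ι m g A ρ1 ρ2 γ hγ hinj
  refine ⟨min ρ0 (min ρa ρb), lt_min hρ0.pos (lt_min hρa hρb), fun c hc => ?_⟩
  have hc0 : ∀ i, ‖c i‖ < ρ0 := fun i => lt_of_lt_of_le (hc i) (min_le_left _ _)
  have hca : ∀ i, ‖c i‖ < ρa :=
    fun i => lt_of_lt_of_le (hc i) ((min_le_right _ _).trans (min_le_left _ _))
  have hcb : ∀ i, ‖c i‖ < ρb :=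
    fun i => lt_of_lt_of_le (hc i) ((min_le_right _ _).trans (min_le_right _ _))
  constructor
  · intro huc
    obtain ⟨ε, hε, rfl⟩ := hHa c hca huc
    have hne : (fE 1 ε : F) ≠ 0 := hfE_ne 1 ε (Or.inl one_ne_zero)
    refine ⟨(fE 1 ε : F), hne, ?_⟩
    refine (hDIV F hF g L ι B ρ0 hρ0 (fE 1 ε : F) hne (γ ε) hc0).1 (fE 1 ε).2
      (fun i => by rw [← hPsi i ε _ (hc0 i)]; exact hγ.isZero ε hε i)
      (fun i h => ?_)
    have := hγ.unique ε hε i 0 (by simpa using hγ.ρ2_pos) (by rw [hPsi i ε 0 h0ρ]; exact h)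
    exact this.symm
  · rintro ⟨f, hf0, hdiv⟩
    obtain ⟨hfm, hfz⟩ := (hDIV F hF g L ι B ρ0 hρ0 f hf0 c hc0).2 hdiv
    obtain ⟨a0, a, hfa⟩ := hfE_surj ⟨f, hfm⟩
    have hfa' : f = (fE a0 a : F) := congrArg Subtype.val hfa
    have hne : a0 ≠ 0 ∨ a ≠ 0 := by
      by_contra hcon
      push Not at hcon
      apply hf0
      rw [hfa', hcon.1, hcon.2]
      simp [fE]
    obtain ⟨ε, hε, rfl⟩ := hCb c hcb a0 a hne (fun i => by
      have := hfz i
      rw [hfa', hGfE a0 a i _ (hc0 i)] at this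
      exact this)
    exact hE ε hε

end Fermat.Agent.S27
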