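import Fermat.Agent.S27.LAInterface
import Fermat.Agent.S27.EvalAt

/-!
# S27 / LA-DIV : the divisor of `f ∈ L(D0)` from the zeros of the `G i f`, and conversely
-/

set_option autoImplicit false

namespace Fermat.Agent.S27

open AlgebraicCurve

universe u

namespace LADIV

section General

variable {K : Type*} {F : Type*} [Field K] [Field F] [Algebra K F]

theorem degree_eq_sum' (hdeg : ∀ v : Place K F, v.deg = 1) (D : Divisor K F) :
    Divisor.degree D = D.sum fun _ n => n := by
  induction D using Finsupp.induction_linear with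
  | zero => simp
  | add f g hf hg =>
    rw [map_add, hf, hg, Finsupp.sum_add_index' (fun _ => rfl) (fun _ _ _ => rfl)]
  | single v n => simp [hdeg v]

theorem eq_zero_of_nonneg_of_degree' (hdeg : ∀ v : Place K F, v.deg = 1) (G : Divisor K F)
    (h0 : ∀ v, 0 ≤ G v) (hG : Divisor.degree G = 0) : G = 0 := by
  rw [degree_eq_sum' hdeg, Finsupp.sum] at hG
  have h := (Finset.sum_eq_zero_iff_of_nonneg (fun v _ => h0 v)).mp hG
  ext v
  by_cases hv : v ∈ G.support
  · exact h v hv
  · simpa using hv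

end General

variable {F : Type u} [Field F] [Algebra ℂ F] {g : ℕ}
  {L : H1 (0 : Divisor ℂ F) ≃ₗ[ℂ] (Fin g → ℂ)} {ι : Type} [Fintype ι]

open Classical in
theorem div_apply (B : BaseData F g L ι) (c : ι → ℂ) (v : Place ℂ F) :
    B.div c v = ∑ i, ((if B.P i (c i) = v then (1 : ℤ) else 0) - (if B.P i 0 = v then 1 else 0)) := by
  rw [BaseData.div, Finsupp.finsetSum_apply]
  refine Finset.sum_congr rfl fun i _ => ?_
  rw [Finsupp.sub_apply, Finsupp.single_apply, Finsupp.single_apply]

open Classical in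
theorem D0_apply (B : BaseData F g L ι) (v : Place ℂ F) :
    B.D0 v = ∑ i, (if B.P i 0 = v then (1 : ℤ) else 0) := by
  rw [BaseData.D0, sumPlaces, Finsupp.finsetSum_apply]
  refine Finset.sum_congr rfl fun i _ => ?_
  rw [Finsupp.single_apply]

theorem degree_div (B : BaseData F g L ι) (hdeg : ∀ v : Place ℂ F, v.deg = 1) (c : ι → ℂ) :
    Divisor.degree (B.div c) = 0 := by
  rw [BaseData.div, map_sum]
  refine Finset.sum_eq_zero fun i _ => ?_
  rw [map_sub, Divisor.degree_single, Divisor.degree_single, hdeg, hdeg]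
  simp

theorem neg_D0_le_div (B : BaseData F g L ι) (c : ι → ℂ) (v : Place ℂ F) :
    -B.D0 v ≤ B.div c v := by
  classical
  rw [div_apply, D0_apply, ← Finset.sum_neg_distrib]
  refine Finset.sum_le_sum fun i _ => ?_
  split_ifs <;> simp

/-- no index touches `v` -/
theorem div_apply_of_not_touch (B : BaseData F g L ι) (c : ι → ℂ) (v : Place ℂ F)
    (h1 : ∀ i, B.P i (c i) ≠ v) (h2 : ∀ i, B.P i 0 ≠ v) : B.div c v = 0 ∧ B.D0 v = 0 := by
  classical
  rw [div_apply, D0_apply]
  constructor
  · refine Finset.sum_eq_zero fun i _ => ?_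
    rw [if_neg (h1 i), if_neg (h2 i)]
    simp
  · refine Finset.sum_eq_zero fun i _ => ?_
    rw [if_neg (h2 i)]

variable {B : BaseData F g L ι} {ρ : ℝ}

theorem div_apply_center_zero (hρ : B.GoodRadius ρ) {c : ι → ℂ} (hc : ∀ i, ‖c i‖ < ρ) (i : ι)
    (hci : c i = 0) : B.div c (B.P i 0) = 0 := by
  classical
  have h0 : ‖(0 : ℂ)‖ < ρ := by simpa using hρ.pos
  rw [div_apply]
  refine Finset.sum_eq_zero fun j _ => ?_
  by_cases hj : j = i
  · subst hj
    rw [hci]
    simp
  · rw [if_neg (fun h => hj (hρ.inj j i _ _ (hc j) h0 h).1),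
      if_neg (fun h => hj (hρ.inj j i _ _ h0 h0 h).1)]
    simp

theorem div_apply_center_ne (hρ : B.GoodRadius ρ) {c : ι → ℂ} (hc : ∀ i, ‖c i‖ < ρ) (i : ι)
    (hci : c i ≠ 0) : B.div c (B.P i 0) = -1 := by
  classical
  have h0 : ‖(0 : ℂ)‖ < ρ := by simpa using hρ.pos
  rw [div_apply, Finset.sum_eq_single i]
  · rw [if_neg (fun h => hci (hρ.inj i i _ _ (hc i) h0 h).2), if_pos rfl]
    simp
  · intro j _ hj
    rw [if_neg (fun h => hj (hρ.inj j i _ _ (hc j) h0 h).1),
      if_neg (fun h => hj (hρ.inj j i _ _ h0 h0 h).1)]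
    simp
  · intro h
    exact absurd (Finset.mem_univ i) h

theorem div_apply_point_ne (hρ : B.GoodRadius ρ) {c : ι → ℂ} (hc : ∀ i, ‖c i‖ < ρ) (i : ι)
    (hci : c i ≠ 0) : B.div c (B.P i (c i)) = 1 := by
  classical
  have h0 : ‖(0 : ℂ)‖ < ρ := by simpa using hρ.pos
  rw [div_apply, Finset.sum_eq_single i]
  · rw [if_pos rfl, if_neg (fun h => hci (hρ.inj i i _ _ h0 (hc i) h).2.symm)]
    simp
  · intro j _ hj
    rw [if_neg (fun h => hj (hρ.inj j i _ _ (hc j) (hc i) h).1),
      if_neg (fun h => hj (hρ.inj j i _ _ h0 (hc i) h).1)]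
    simp
  · intro h
    exact absurd (Finset.mem_univ i) h

theorem t_ne_zero (B : BaseData F g L ι) (i : ι) : B.t i ≠ 0 := by
  intro h
  have h1 := (B.chart i).ord_t 0 (by simpa using (B.chart i).r_pos)
  rw [h] at h1
  simp at h1

theorem ord_t_center (B : BaseData F g L ι) (i : ι) : (B.P i 0).ord (B.t i) = 1 := by
  have h1 := (B.chart i).ord_t 0 (by simpa using (B.chart i).r_pos)
  simpa using h1

theorem ord_t_point (hF : IsFF ℂ F) (B : BaseData F g L ι) (i : ι) {z : ℂ} (hz : ‖z‖ < B.r i)
    (hz0 : z ≠ 0) : (B.P i z).ord (B.t i) = 0 := by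
  rw [ord_eq_zero_iff hF (t_ne_zero B i)]
  exact ⟨(B.chart i).regularAt_t hz, by rw [(B.chart i).evalAt_t hz]; exact hz0⟩

end LADIV

open LADIV in
theorem la_div (hR0 : Stmt_R0.{0, u}) : Stmt_LA_DIV.{u} := by
  intro F _ _ hF g L ι _ B ρ hρ f hf c hc
  obtain ⟨hPD, hdeg, -, -, -⟩ := hR0 ℂ F hF
  have h0 : ‖(0 : ℂ)‖ < ρ := by simpa using hρ.pos
  have hcr : ∀ i, ‖c i‖ < B.r i := fun i => (hc i).trans_le (hρ.le_r i)
  constructor
  · intro hfL hG _
    have hfL' := mem_riemannRochSpace_iff.mp hfL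
    -- `t_i f` vanishes at `P_i (c_i)`
    have hvan : ∀ i, 0 < (B.P i (c i)).ord (B.t i) + (B.P i (c i)).ord f := by
      intro i
      have h1 : VanishesAt (B.P i (c i)) (B.t i * f) :=
        (evalAt_eq_zero_iff hF (hρ.regular f hfL i (c i) (hc i))).mp (hG i)
      have h2 := h1.ord_pos (mul_ne_zero (t_ne_zero B i) hf)
      rwa [Place.ord_mul _ (t_ne_zero B i) hf] at h2
    have hle : ∀ v : Place ℂ F, B.div c v ≤ v.ord f := by
      intro v
      by_cases h1 : ∃ i, B.P i (c i) = v
      · obtain ⟨i, rfl⟩ := h1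
        by_cases hci : c i = 0
        · have h3 := hvan i
          rw [hci] at h3 ⊢
          rw [div_apply_center_zero hρ hc i hci]
          rw [ord_t_center] at h3
          omega
        · have h3 := hvan i
          rw [div_apply_point_ne hρ hc i hci]
          rw [ord_t_point hF B i (hcr i) hci] at h3
          omega
      · by_cases h2 : ∃ i, B.P i 0 = v
        · obtain ⟨i, rfl⟩ := h2
          have hci : c i ≠ 0 := fun h => h1 ⟨i, by rw [h]⟩
          have h4 := (hfL' (B.P i 0)).resolve_left hf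
          have h5 : B.D0 (B.P i 0) = 1 := by
            classical
            rw [D0_apply, Finset.sum_eq_single i]
            · simp
            · intro j _ hj
              rw [if_neg (fun h => hj (hρ.inj j i _ _ h0 h0 h).1)]
            · intro h
              exact absurd (Finset.mem_univ i) h
          rw [div_apply_center_ne hρ hc i hci]
          omega
        · push Not at h1 h2
          obtain ⟨e1, e2⟩ := div_apply_of_not_touch B c v h1 h2
          have h4 := (hfL' v).resolve_left hf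
          rw [e1]
          omega
    obtain ⟨E, hE, hEdeg⟩ := hPD.exists_divisor f hf
    have hzero : E - B.div c = 0 := by
      refine eq_zero_of_nonneg_of_degree' hdeg _ (fun v => ?_)
        (by rw [map_sub, hEdeg, degree_div B hdeg]; simp)
      rw [Finsupp.sub_apply, hE v]
      exact sub_nonneg.mpr (hle v)
    intro v
    rw [← hE v, ← sub_eq_zero.mp hzero]
  · intro hdiv
    have hfL : f ∈ riemannRochSpace B.D0 := by
      rw [mem_riemannRochSpace_iff]
      intro v
      right
      rw [← hdiv v]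
      exact neg_D0_le_div B c v
    refine ⟨hfL, fun i => ?_⟩
    refine evalAt_eq_zero_of_vanishesAt (vanishesAt_of_ord_pos ?_)
    rw [Place.ord_mul _ (t_ne_zero B i) hf, ← hdiv]
    by_cases hci : c i = 0
    · rw [hci, div_apply_center_zero hρ hc i hci, ord_t_center]
      norm_num
    · rw [div_apply_point_ne hρ hc i hci, ord_t_point hF B i (hcr i) hci]
      norm_num

end Fermat.Agent.S27
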