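import Fermat.Agent.S27.LAInterface
import Fermat.Agent.S27.EvalAt

/-!
# S27 / LA-G : chart facts, existence of a `GoodRadius`
-/

set_option autoImplicit false

namespace Fermat.Agent.S27

open AlgebraicCurve

universe u

namespace LAG

/-- a finite family of positive reals has a positive lower bound -/
theorem exists_pos_le {α : Type*} [Finite α] (f : α → ℝ) (hf : ∀ a, 0 < f a) :
    ∃ ρ > 0, ∀ a, ρ ≤ f a := by
  cases nonempty_fintype α
  rcases isEmpty_or_nonempty α with h | h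
  · exact ⟨1, one_pos, fun a => isEmptyElim a⟩
  · exact ⟨Finset.univ.inf' Finset.univ_nonempty f,
      (Finset.lt_inf'_iff _).2 fun a _ => hf a, fun a => Finset.inf'_le _ (Finset.mem_univ a)⟩

end LAG

namespace BaseData

variable {F : Type u} [Field F] [Algebra ℂ F] {g : ℕ}
  {L : H1 (0 : Divisor ℂ F) ≃ₗ[ℂ] (Fin g → ℂ)} {ι : Type} [Fintype ι]

theorem D0_apply (B : BaseData F g L ι) (v : Place ℂ F) :
    B.D0 v = ∑ i, (Finsupp.single (B.P i 0) (1 : ℤ)) v := by
  unfold D0 sumPlaces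
  rw [Finsupp.finsetSum_apply]

theorem D0_apply_center (B : BaseData F g L ι) (i : ι) : B.D0 (B.P i 0) = 1 := by
  classical
  rw [D0_apply, Finset.sum_eq_single i]
  · simp
  · intro j _ hj
    exact Finsupp.single_eq_of_ne fun h => hj (B.inj h.symm)
  · intro h
    exact absurd (Finset.mem_univ i) h

theorem D0_apply_of_ne (B : BaseData F g L ι) {v : Place ℂ F} (h : ∀ i, v ≠ B.P i 0) :
    B.D0 v = 0 := by
  classical
  rw [D0_apply]
  exact Finset.sum_eq_zero fun i _ => Finsupp.single_eq_of_ne (h i)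

theorem D0_nonneg (B : BaseData F g L ι) (v : Place ℂ F) : 0 ≤ B.D0 v := by
  classical
  rw [D0_apply]
  refine Finset.sum_nonneg fun i _ => ?_
  rw [Finsupp.single_apply]
  split_ifs <;> simp

theorem GoodRadius.mono {B : BaseData F g L ι} {ρ ρ' : ℝ} (h : B.GoodRadius ρ) (hpos : 0 < ρ')
    (hle : ρ' ≤ ρ) : B.GoodRadius ρ' where
  pos := hpos
  le_r i := hle.trans (h.le_r i)
  inj i j c c' hc hc' := h.inj i j c c' (hc.trans_le hle) (hc'.trans_le hle)
  regular f hf i z hz := h.regular f hf i z (hz.trans_le hle)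
  analytic f hf i z hz := h.analytic f hf i z (hz.trans_le hle)
  add f hf f' hf' i z hz := h.add f hf f' hf' i z (hz.trans_le hle)
  smul a f hf i z hz := h.smul a f hf i z (hz.trans_le hle)
  one i z hz := h.one i z (hz.trans_le hle)

/-- the chart facts follow from joint injectivity -/
theorem goodRadius_of_inj (hF : IsFF ℂ F) (B : BaseData F g L ι) {ρ : ℝ} (hpos : 0 < ρ)
    (hle : ∀ i, ρ ≤ B.r i)
    (hinj : ∀ (i j : ι) (c c' : ℂ), ‖c‖ < ρ → ‖c'‖ < ρ → B.P i c = B.P j c' → i = j ∧ c = c') :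
    B.GoodRadius ρ := by
  have hreg : ∀ f ∈ riemannRochSpace B.D0, ∀ (i : ι) (z : ℂ), ‖z‖ < ρ →
      RegularAt (B.P i z) (B.t i * f) := by
    intro f hf i z hz
    have hzr : ‖z‖ < B.r i := hz.trans_le (hle i)
    rcases eq_or_ne f 0 with rfl | hf0
    · rw [mul_zero]; exact regularAt_zero _
    have hord := (mem_riemannRochSpace_iff.mp hf (B.P i z)).resolve_left hf0
    rcases eq_or_ne z 0 with rfl | hz0
    · have ht : (B.P i 0).ord (B.t i) = 1 := by
        have := (B.chart i).ord_t 0 hzr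
        rwa [map_zero, sub_zero] at this
      have ht0 : B.t i ≠ 0 := by
        intro h0
        rw [h0, Place.ord_zero] at ht
        exact zero_ne_one ht
      refine regularAt_of_ord_nonneg ?_
      rw [Place.ord_mul _ ht0 hf0, ht]
      rw [D0_apply_center] at hord
      omega
    · have hD : B.D0 (B.P i z) = 0 := B.D0_apply_of_ne fun j h =>
        hz0 (hinj i j z 0 hz (by simpa using hpos) h).2
      rw [hD] at hord
      exact regularAt_mul ((B.chart i).regularAt_t hzr)
        (regularAt_of_ord_nonneg (by omega))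
  refine ⟨hpos, hle, hinj, hreg, ?_, ?_, ?_, ?_⟩
  · intro f hf i z hz
    exact (B.chart i).analytic (B.t i * f) z (hz.trans_le (hle i)) (hreg f hf i z hz)
  · intro f hf f' hf' i z hz
    unfold G
    rw [mul_add, evalAt_add hF (hreg f hf i z hz) (hreg f' hf' i z hz)]
  · intro a f hf i z hz
    unfold G
    rw [mul_left_comm, evalAt_mul hF (regularAt_algebraMap _ a) (hreg f hf i z hz),
      evalAt_algebraMap]
  · intro i z hz
    unfold G
    rw [mul_one, (B.chart i).evalAt_t (hz.trans_le (hle i))]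

end BaseData

/-- LA-G : chart facts. -/
theorem la_g (hSEP : Stmt_SEP.{u}) (_hR0 : Stmt_R0.{0, u}) : Stmt_LA_G.{u} := by
  intro F _ _ hF g L ι _ B
  have hsep : ∀ p : ι × ι, ∃ σ > 0, p.1 ≠ p.2 →
      ∀ c c' : ℂ, ‖c‖ < σ → ‖c'‖ < σ → B.P p.1 c ≠ B.P p.2 c' := by
    rintro ⟨i, j⟩
    by_cases hij : i = j
    · exact ⟨1, one_pos, fun h => absurd hij h⟩
    · obtain ⟨σ, hσ, h⟩ := hSEP F hF (B.r i) (B.r j) (B.P i) (B.P j) (B.t i) (B.t j)
        (B.chart i) (B.chart j) (fun h => hij (B.inj h))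
      exact ⟨σ, hσ, fun _ => h⟩
  choose σ hσ hσ' using hsep
  obtain ⟨ρ, hρ, hρle⟩ := LAG.exists_pos_le (α := ι ⊕ ι × ι) (Sum.elim B.r σ) (by
    rintro (i | p)
    · exact (B.chart i).r_pos
    · exact hσ p)
  refine ⟨ρ, B.goodRadius_of_inj hF hρ (fun i => hρle (Sum.inl i)) ?_⟩
  intro i j c c' hc hc' h
  by_cases hij : i = j
  · subst hij
    exact ⟨rfl, (B.chart i).eq_of_eq (hc.trans_le (hρle (Sum.inl i)))
      (hc'.trans_le (hρle (Sum.inl i))) h⟩
  · exact absurd h (hσ' (i, j) hij c c' (hc.trans_le (hρle (Sum.inr (i, j))))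
      (hc'.trans_le (hρle (Sum.inr (i, j)))))

end Fermat.Agent.S27
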