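import Fermat.Agent.S27.Interface

/-!
# S27, package AD : adele algebra in `H¹(0)` ("residue theorem for free")

`theorem ad : Stmt_R0 → Stmt_AD`.
-/

set_option autoImplicit false

namespace Fermat.Agent.S27

open AlgebraicCurve IntermediateField

namespace AD

variable {K F : Type*} [Field K] [Field F] [Algebra K F]

theorem regularAt_iff (v : Place K F) (f : F) : RegularAt v f ↔ v.adicValuation f ≤ 1 :=
  v.adicValuation_le_one_iff.symm

theorem vanishesAt_iff (v : Place K F) (f : F) : VanishesAt v f ↔ v.adicValuation f < 1 := by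
  unfold VanishesAt
  rcases eq_or_ne f 0 with rfl | hf
  · simp
  · rw [v.adicValuation_eq_exp_neg_ord hf, ← WithZero.exp_zero, WithZero.exp_lt_exp,
      or_iff_right hf]
    omega

theorem val_algebraMap (v : Place K F) {a : K} (ha : a ≠ 0) :
    v.adicValuation (algebraMap K F a) = 1 := by
  have h1 := v.adicValuation_algebraMap_le_one a
  have h2 := v.adicValuation_algebraMap_le_one a⁻¹
  rw [map_inv₀, map_inv₀] at h2
  have h0 : v.adicValuation (algebraMap K F a) ≠ 0 :=
    v.adicValuation_ne_zero (by simpa using ha)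
  refine le_antisymm h1 ?_
  exact (inv_le_one₀ (zero_lt_iff.mpr h0)).mp h2

theorem evalAt_unique (v : Place K F) (f : F) (a : K)
    (h : VanishesAt v (f - algebraMap K F a)) : evalAt v f = a := by
  have hex : ∃ a : K, VanishesAt v (f - algebraMap K F a) := ⟨a, h⟩
  unfold evalAt
  rw [dif_pos hex]
  have h' := hex.choose_spec
  set b := hex.choose
  by_contra hne
  rw [vanishesAt_iff] at h h'
  have hsub : algebraMap K F (b - a) = (f - algebraMap K F a) - (f - algebraMap K F b) := by
    rw [map_sub]; ring
  have h1 : v.adicValuation (algebraMap K F (b - a)) = 1 := val_algebraMap v (sub_ne_zero.mpr hne)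
  rw [hsub] at h1
  have h2 := Valuation.map_sub v.adicValuation (f - algebraMap K F a) (f - algebraMap K F b)
  rw [h1] at h2
  exact absurd h2 (not_le.mpr (max_lt h h'))

theorem val_of_ord_eq_one (v : Place K F) {s : F} (hs : v.ord s = 1) :
    s ≠ 0 ∧ v.adicValuation s = WithZero.exp (-1 : ℤ) := by
  have hs0 : s ≠ 0 := by
    rintro rfl
    simp at hs
  exact ⟨hs0, by rw [v.adicValuation_eq_exp_neg_ord hs0, hs]⟩

/-- `x < 1 ↔ x ≤ exp (-1)` in `ℤᵐ⁰`. -/
theorem lt_one_iff_le_exp (x : WithZero (Multiplicative ℤ)) :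
    x < 1 ↔ x ≤ WithZero.exp (-1 : ℤ) := by
  rcases eq_or_ne x 0 with rfl | hx
  · simp
  · obtain ⟨n, rfl⟩ : ∃ n : ℤ, x = WithZero.exp n := ⟨WithZero.log x, (WithZero.exp_log hx).symm⟩
    rw [← WithZero.exp_zero, WithZero.exp_lt_exp, WithZero.exp_le_exp]
    omega

/-- if `s` is a uniformiser at `v` and `g` vanishes at `v` then `s⁻¹ g` is regular at `v` -/
theorem regularAt_inv_mul (v : Place K F) {s g : F} (hs : v.ord s = 1) (hg : VanishesAt v g) :
    RegularAt v (s⁻¹ * g) := by
  obtain ⟨_, hv⟩ := val_of_ord_eq_one v hs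
  rw [regularAt_iff, map_mul, map_inv₀, hv]
  rw [vanishesAt_iff, lt_one_iff_le_exp] at hg
  calc (WithZero.exp (-1 : ℤ))⁻¹ * v.adicValuation g
      ≤ (WithZero.exp (-1 : ℤ))⁻¹ * WithZero.exp (-1 : ℤ) := by gcongr
    _ = 1 := inv_mul_cancel₀ WithZero.exp_ne_zero

/-- if `s` is a uniformiser at `v` and `g` is regular at `v` then `s g` vanishes at `v` -/
theorem vanishesAt_mul (v : Place K F) {s g : F} (hs : v.ord s = 1) (hg : RegularAt v g) :
    VanishesAt v (s * g) := by
  obtain ⟨_, hv⟩ := val_of_ord_eq_one v hs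
  rw [vanishesAt_iff, lt_one_iff_le_exp, map_mul, hv]
  rw [regularAt_iff] at hg
  exact mul_le_of_le_one_right' hg

/-- if `s` is a uniformiser at `v` and `ord g ≥ -1` then `s g` is regular at `v` -/
theorem regularAt_mul_of_le (v : Place K F) {s g : F} (hs : v.ord s = 1)
    (hg : v.adicValuation g ≤ WithZero.exp (1 : ℤ)) : RegularAt v (s * g) := by
  obtain ⟨_, hv⟩ := val_of_ord_eq_one v hs
  rw [regularAt_iff, map_mul, hv]
  calc WithZero.exp (-1 : ℤ) * v.adicValuation g
      ≤ WithZero.exp (-1 : ℤ) * WithZero.exp (1 : ℤ) := by gcongr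
    _ = 1 := by rw [← WithZero.exp_add]; simp

open Classical in
theorem adeleSingle_apply (v w : Place K F) (f : F) :
    ((adeleSingle v f : ↥(repartitions K F)) : Place K F → F) w = if w = v then f else 0 := rfl

theorem adeleSingle_add (v : Place K F) (f g : F) :
    adeleSingle v (f + g) = adeleSingle v f + adeleSingle v g := by
  apply Subtype.ext
  funext w
  rw [Subalgebra.coe_add, Pi.add_apply, adeleSingle_apply, adeleSingle_apply, adeleSingle_apply]
  split_ifs <;> simp

theorem adeleSingle_smul (v : Place K F) (a : K) (f : F) :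
    adeleSingle v (algebraMap K F a * f) = a • adeleSingle v f := by
  apply Subtype.ext
  funext w
  have : ((a • adeleSingle v f : ↥(repartitions K F)) : Place K F → F) w
      = a • ((adeleSingle v f : ↥(repartitions K F)) : Place K F → F) w := rfl
  rw [this, adeleSingle_apply, adeleSingle_apply, Algebra.smul_def]
  split_ifs <;> simp

theorem h1Single_add (v : Place K F) (f g : F) :
    h1Single v (f + g) = h1Single v f + h1Single v g := by
  unfold h1Single
  rw [adeleSingle_add, Submodule.Quotient.mk_add]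

theorem h1Single_smul (v : Place K F) (a : K) (f : F) :
    h1Single v (algebraMap K F a * f) = a • h1Single v f := by
  unfold h1Single
  rw [adeleSingle_smul, Submodule.Quotient.mk_smul]

theorem mk_eq_zero_of_mem_zero {α : ↥(repartitions K F)}
    (h : ∀ w : Place K F, RegularAt w ((α : Place K F → F) w)) :
    (Submodule.Quotient.mk α : H1 (0 : Divisor K F)) = 0 := by
  rw [Submodule.Quotient.mk_eq_zero]
  refine Submodule.mem_sup_left ?_
  rw [mem_repartitionsOf_iff]
  intro w
  simpa [RegularAt] using h w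

theorem h1Single_of_regularAt (v : Place K F) (f : F) (h : RegularAt v f) :
    h1Single v f = 0 := by
  unfold h1Single
  apply mk_eq_zero_of_mem_zero
  intro w
  rw [adeleSingle_apply]
  split_ifs with hw
  · rw [hw]; exact h
  · exact Or.inl rfl

theorem h1Single_neg (v : Place K F) (f : F) : h1Single v (-f) = - h1Single v f := by
  have h := h1Single_add v f (-f)
  rw [add_neg_cancel, h1Single_of_regularAt v 0 (Or.inl rfl)] at h
  exact (neg_eq_of_add_eq_zero_right h.symm).symm

/-- simple poles -/
theorem h1Single_simple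
    (hval : ∀ (v : Place K F) (f : F), RegularAt v f → ∃ a : K, VanishesAt v (f - algebraMap K F a))
    (v : Place K F) (s f : F) (hs : v.ord s = 1) (hreg : RegularAt v (s * f)) :
    h1Single v f = evalAt v (s * f) • h1Single v s⁻¹ := by
  obtain ⟨a, ha⟩ := hval v _ hreg
  rw [evalAt_unique v _ a ha]
  obtain ⟨hs0, _⟩ := val_of_ord_eq_one v hs
  have h1 := h1Single_of_regularAt v _ (regularAt_inv_mul v hs ha)
  have h2 : f = s⁻¹ * (s * f - algebraMap K F a) + algebraMap K F a * s⁻¹ := by
    field_simp
    ring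
  rw [← h1Single_smul]
  conv_lhs => rw [h2]
  rw [h1Single_add, h1, zero_add]

open Classical in
theorem sum_adeleSingle_apply (S : Finset (Place K F)) (f : Place K F → F) (w : Place K F) :
    ((∑ v ∈ S, adeleSingle v (f v) : ↥(repartitions K F)) : Place K F → F) w
      = if w ∈ S then f w else 0 := by
  have h1 : ((∑ v ∈ S, adeleSingle v (f v) : ↥(repartitions K F)) : Place K F → F)
      = ∑ v ∈ S, ((adeleSingle v (f v) : ↥(repartitions K F)) : Place K F → F) := by
    exact map_sum (repartitions K F).val _ _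
  rw [h1, Finset.sum_apply]
  simp only [adeleSingle_apply]
  rw [Finset.sum_ite_eq]

theorem mk_principal_eq_zero (D : Divisor K F) (f : F) :
    (Submodule.Quotient.mk (algebraMap F ↥(repartitions K F) f) : H1 D) = 0 := by
  rw [Submodule.Quotient.mk_eq_zero]
  refine Submodule.mem_sup_right ?_
  rw [mem_principalRepartitions_iff]
  exact ⟨f, rfl⟩

/-- principal adeles vanish -/
theorem sum_h1Single_eq_zero (S : Finset (Place K F)) (f : F)
    (h : ∀ v, v ∉ S → RegularAt v f) : ∑ v ∈ S, h1Single v f = 0 := by
  classical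
  unfold h1Single
  have hsum : (∑ v ∈ S, (Submodule.Quotient.mk (adeleSingle v f) : H1 (0 : Divisor K F)))
      = Submodule.Quotient.mk (∑ v ∈ S, adeleSingle v f) :=
    (map_sum (Submodule.mkQ _) _ _).symm
  rw [hsum]
  have h0 := mk_principal_eq_zero (0 : Divisor K F) f
  have key : (Submodule.Quotient.mk
      (∑ v ∈ S, adeleSingle v f - algebraMap F ↥(repartitions K F) f) :
        H1 (0 : Divisor K F)) = 0 := by
    apply mk_eq_zero_of_mem_zero
    intro w
    have hw : ((∑ v ∈ S, adeleSingle v f - algebraMap F ↥(repartitions K F) f :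
        ↥(repartitions K F)) : Place K F → F) w
        = ((∑ v ∈ S, adeleSingle v f : ↥(repartitions K F)) : Place K F → F) w - f := rfl
    rw [hw, sum_adeleSingle_apply S (fun _ => f) w]
    split_ifs with hS
    · left; simp
    · have := h w hS
      rw [regularAt_iff] at this ⊢
      simpa using this
  rw [Submodule.Quotient.mk_sub, h0, sub_zero] at key
  exact key

/-- decomposition of an element of `A(0) + F` -/
theorem exists_of_mk_eq_zero (D : Divisor K F) {α : ↥(repartitions K F)}
    (h : (Submodule.Quotient.mk α : H1 D) = 0) :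
    ∃ f : F, ∀ w : Place K F,
      w.adicValuation ((α : Place K F → F) w - f) ≤ WithZero.exp (D w) := by
  rw [Submodule.Quotient.mk_eq_zero, Submodule.mem_sup] at h
  obtain ⟨β, hβ, γ, hγ, hsum⟩ := h
  rw [mem_principalRepartitions_iff] at hγ
  obtain ⟨f, hf⟩ := hγ
  refine ⟨f, fun w => ?_⟩
  have h1 : (α : Place K F → F) w = (β : Place K F → F) w + (γ : Place K F → F) w := by
    rw [← hsum]; rfl
  rw [h1, hf, add_sub_cancel_right]
  exact hβ w

open Classical in
theorem sum_smul_adeleSingle_apply {ι : Type*} [Fintype ι] (v : ι → Place K F) (f : ι → F)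
    (w : Place K F) :
    ((∑ i, adeleSingle (v i) (f i) : ↥(repartitions K F)) : Place K F → F) w
      = ∑ i, if w = v i then f i else 0 := by
  have h1 : ((∑ i, adeleSingle (v i) (f i) : ↥(repartitions K F)) : Place K F → F)
      = ∑ i, ((adeleSingle (v i) (f i) : ↥(repartitions K F)) : Place K F → F) := by
    exact map_sum (repartitions K F).val _ _
  rw [h1, Finset.sum_apply]
  simp only [adeleSingle_apply]

theorem sum_adeleSingle_apply_self {ι : Type*} [Fintype ι] (v : ι → Place K F) (f : ι → F)
    (hv : Function.Injective v) (i : ι) :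
    ((∑ i, adeleSingle (v i) (f i) : ↥(repartitions K F)) : Place K F → F) (v i) = f i := by
  classical
  rw [sum_smul_adeleSingle_apply v f, Finset.sum_eq_single i]
  · simp
  · intro j _ hj
    rw [if_neg]
    exact fun h => hj (hv h).symm
  · simp

theorem sum_adeleSingle_apply_of_notMem {ι : Type*} [Fintype ι] (v : ι → Place K F) (f : ι → F)
    (w : Place K F) (hw : w ∉ Set.range v) :
    ((∑ i, adeleSingle (v i) (f i) : ↥(repartitions K F)) : Place K F → F) w = 0 := by
  classical
  rw [sum_smul_adeleSingle_apply v f]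
  apply Finset.sum_eq_zero
  intro j _
  rw [if_neg]
  exact fun h => hw ⟨j, h.symm⟩

/-- converse -/
theorem exists_of_sum_eq_zero {ι : Type*} [Fintype ι] (v : ι → Place K F) (s : ι → F) (δ : ι → K)
    (hv : Function.Injective v) (hs : ∀ i, (v i).ord (s i) = 1)
    (h : ∑ i, δ i • h1Single (v i) (s i)⁻¹ = 0) :
    ∃ f : F, (∀ w, w ∉ Set.range v → RegularAt w f) ∧
      ∀ i, RegularAt (v i) (s i * f) ∧ evalAt (v i) (s i * f) = δ i := by
  have h1 : (∑ i, δ i • h1Single (v i) (s i)⁻¹)
      = (Submodule.Quotient.mk (∑ i, adeleSingle (v i) (algebraMap K F (δ i) * (s i)⁻¹)) :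
          H1 (0 : Divisor K F)) := by
    have := (map_sum (Submodule.mkQ (repartitionsOf (0 : Divisor K F) ⊔ principalRepartitions K F))
      (fun i => adeleSingle (v i) (algebraMap K F (δ i) * (s i)⁻¹)) Finset.univ)
    rw [Submodule.mkQ_apply] at this
    rw [this]
    refine Finset.sum_congr rfl fun i _ => ?_
    rw [← h1Single_smul]
    rfl
  rw [h1] at h
  obtain ⟨f, hf⟩ := exists_of_mk_eq_zero _ h
  refine ⟨f, fun w hw => ?_, fun i => ?_⟩
  · have := hf w
    rw [sum_adeleSingle_apply_of_notMem v _ w hw] at this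
    rw [regularAt_iff]
    simpa using this
  · have := hf (v i)
    rw [sum_adeleSingle_apply_self v _ hv i] at this
    obtain ⟨hs0, _⟩ := val_of_ord_eq_one (v i) (hs i)
    have hreg : RegularAt (v i) (algebraMap K F (δ i) * (s i)⁻¹ - f) := by
      rw [regularAt_iff]; simpa using this
    have hvan := vanishesAt_mul (v i) (hs i) hreg
    have heq : s i * (algebraMap K F (δ i) * (s i)⁻¹ - f) = -(s i * f - algebraMap K F (δ i)) := by
      field_simp
      ring
    rw [heq] at hvan
    have hvan' : VanishesAt (v i) (s i * f - algebraMap K F (δ i)) := by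
      rw [vanishesAt_iff] at hvan ⊢
      rwa [Valuation.map_neg] at hvan
    refine ⟨?_, evalAt_unique _ _ _ hvan'⟩
    rw [vanishesAt_iff] at hvan'
    rw [regularAt_iff]
    have h3 : s i * f = (s i * f - algebraMap K F (δ i)) + algebraMap K F (δ i) := by ring
    rw [h3]
    exact (Valuation.map_add _ _ _).trans
      (max_le hvan'.le ((v i).adicValuation_algebraMap_le_one _))

theorem sumPlaces_apply_self {ι : Type*} [Fintype ι] (v : ι → Place K F)
    (hv : Function.Injective v) (i : ι) : sumPlaces v (v i) = 1 := by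
  classical
  unfold sumPlaces
  rw [Finsupp.finsetSum_apply, Finset.sum_eq_single i]
  · simp
  · intro j _ hj
    rw [Finsupp.single_apply, if_neg]
    exact fun h => hj (hv h)
  · simp

theorem sumPlaces_apply_of_notMem {ι : Type*} [Fintype ι] (v : ι → Place K F)
    (w : Place K F) (hw : w ∉ Set.range v) : sumPlaces v w = 0 := by
  classical
  unfold sumPlaces
  rw [Finsupp.finsetSum_apply]
  apply Finset.sum_eq_zero
  intro j _
  rw [Finsupp.single_apply, if_neg]
  exact fun h => hw ⟨j, h⟩

/-- generation -/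
theorem span_eq_top
    (hval : ∀ (v : Place K F) (f : F), RegularAt v f → ∃ a : K, VanishesAt v (f - algebraMap K F a))
    {ι : Type*} [Fintype ι] (v : ι → Place K F) (s : ι → F)
    (hv : Function.Injective v) (hs : ∀ i, (v i).ord (s i) = 1)
    (hH : Subsingleton (H1 (sumPlaces v))) :
    Submodule.span K (Set.range fun i => h1Single (v i) (s i)⁻¹) = ⊤ := by
  rw [eq_top_iff]
  rintro x -
  obtain ⟨α, rfl⟩ := Submodule.Quotient.mk_surjective _ x
  obtain ⟨f, hf⟩ := exists_of_mk_eq_zero (sumPlaces v) (α := α) (Subsingleton.elim _ _)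
  -- `β = α - f`
  set β : Place K F → F := fun w => (α : Place K F → F) w - f with hβ
  have key : (Submodule.Quotient.mk
      (α - algebraMap F ↥(repartitions K F) f - ∑ i, adeleSingle (v i) (β (v i))) :
        H1 (0 : Divisor K F)) = 0 := by
    apply mk_eq_zero_of_mem_zero
    intro w
    have hw : ((α - algebraMap F ↥(repartitions K F) f - ∑ i, adeleSingle (v i) (β (v i)) :
        ↥(repartitions K F)) : Place K F → F) w
        = β w - ((∑ i, adeleSingle (v i) (β (v i)) : ↥(repartitions K F)) : Place K F → F) w := rfl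
    rw [hw]
    by_cases hwv : w ∈ Set.range v
    · obtain ⟨i, rfl⟩ := hwv
      rw [sum_adeleSingle_apply_self v _ hv i]
      left; simp
    · rw [sum_adeleSingle_apply_of_notMem v _ w hwv, sub_zero, regularAt_iff]
      have := hf w
      rw [sumPlaces_apply_of_notMem v w hwv] at this
      simpa using this
  rw [Submodule.Quotient.mk_sub, Submodule.Quotient.mk_sub, mk_principal_eq_zero, sub_zero,
    sub_eq_zero] at key
  rw [key]
  have h2 : (Submodule.Quotient.mk (∑ i, adeleSingle (v i) (β (v i))) : H1 (0 : Divisor K F))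
      = ∑ i, h1Single (v i) (β (v i)) :=
    map_sum (Submodule.mkQ (repartitionsOf (0 : Divisor K F) ⊔ principalRepartitions K F)) _ _
  rw [h2]
  refine Submodule.sum_mem _ fun i _ => ?_
  have hreg : RegularAt (v i) (s i * β (v i)) := by
    apply regularAt_mul_of_le (v i) (hs i)
    have := hf (v i)
    rwa [sumPlaces_apply_self v hv i] at this
  rw [h1Single_simple hval (v i) (s i) _ (hs i) hreg]
  exact Submodule.smul_mem _ _ (Submodule.subset_span ⟨i, rfl⟩)

end AD

universe u v

theorem ad (hR0 : Stmt_R0.{u, v}) : Stmt_AD.{u, v} := by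
  intro K F _ _ _ _ _ hF
  obtain ⟨_, _, _, _, hval⟩ := hR0 K F hF
  exact ⟨AD.h1Single_add, AD.h1Single_smul, AD.h1Single_of_regularAt, AD.h1Single_simple hval,
    AD.sum_h1Single_eq_zero,
    fun ι _ v s δ hv hs h => AD.exists_of_sum_eq_zero v s δ hv hs h,
    fun ι _ v s hv hs hH => AD.span_eq_top hval v s hv hs hH⟩

end Fermat.Agent.S27
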