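import Fermat.Agent.S27.LAInterface
import Fermat.Agent.S27.EvalAt
import Fermat.Agent.S27.AD

/-!
# S27 / LA-LIN : kernel and image of the polar part map
-/

set_option autoImplicit false

namespace Fermat.Agent.S27

open AlgebraicCurve

universe u

namespace LALIN

variable {F : Type u} [Field F] [Algebra ℂ F] {g : ℕ}
  {L : H1 (0 : Divisor ℂ F) ≃ₗ[ℂ] (Fin g → ℂ)} {ι : Type} [Fintype ι]

theorem ord_t (B : BaseData F g L ι) (i : ι) : (B.P i 0).ord (B.t i) = 1 := by
  have h := (B.chart i).ord_t 0 (by simpa using (B.chart i).r_pos)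
  simpa using h

theorem t_ne_zero (B : BaseData F g L ι) (i : ι) : B.t i ≠ 0 := by
  intro h
  have := ord_t B i
  rw [h] at this
  simp at this

theorem kappa_zero (B : BaseData F g L ι) (i : ι) :
    kappa (B.P i) (B.t i) 0 = h1Single (B.P i 0) (B.t i)⁻¹ := by
  unfold kappa
  rw [map_zero, sub_zero]

theorem D0_apply_self (B : BaseData F g L ι) (i : ι) : B.D0 (B.P i 0) = 1 :=
  AD.sumPlaces_apply_self (fun i => B.P i 0) B.inj i

theorem D0_apply_of_notMem (B : BaseData F g L ι) (w : Place ℂ F)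
    (hw : w ∉ Set.range fun i => B.P i 0) : B.D0 w = 0 :=
  AD.sumPlaces_apply_of_notMem (fun i => B.P i 0) w hw

/-- for `f ≠ 0`: `t_i f` regular at `Q_i` iff `-1 ≤ ord f`. -/
theorem regularAt_t_mul_iff (B : BaseData F g L ι) (i : ι) {f : F} (hf : f ≠ 0) :
    RegularAt (B.P i 0) (B.t i * f) ↔ -1 ≤ (B.P i 0).ord f := by
  rw [regularAt_iff_ord_nonneg, (B.P i 0).ord_mul (t_ne_zero B i) hf, ord_t B i]
  omega

theorem vanishesAt_t_mul_iff (B : BaseData F g L ι) (i : ι) {f : F} (hf : f ≠ 0) :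
    VanishesAt (B.P i 0) (B.t i * f) ↔ 0 ≤ (B.P i 0).ord f := by
  rw [vanishesAt_iff_ord_pos (mul_ne_zero (t_ne_zero B i) hf),
    (B.P i 0).ord_mul (t_ne_zero B i) hf, ord_t B i]
  omega

end LALIN

open LALIN in
theorem la_lin (_hR0 : Stmt_R0.{0, u}) (hRA : Stmt_RA.{0, u}) (hAD : Stmt_AD.{0, u}) :
    Stmt_LA_LIN.{u} := by
  intro F _ _ hFF g L ι _ B
  obtain ⟨-, -, hL0, -⟩ := hRA ℂ F hFF
  obtain ⟨-, -, -, -, -, hconv, hgen⟩ := hAD ℂ F hFF
  refine ⟨?_, ?_, ?_⟩
  · intro f hf hG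
    rw [← hL0 f, mem_riemannRochSpace_iff]
    rw [mem_riemannRochSpace_iff] at hf
    intro v
    rcases eq_or_ne f 0 with h0 | h0
    · exact Or.inl h0
    refine Or.inr ?_
    rw [Finsupp.zero_apply, neg_zero]
    by_cases hv : v ∈ Set.range fun i => B.P i 0
    · obtain ⟨i, rfl⟩ := hv
      have h1 : -1 ≤ (B.P i 0).ord f := by
        have := (hf (B.P i 0)).resolve_left h0
        rwa [D0_apply_self] at this
      have hreg := (regularAt_t_mul_iff B i h0).2 h1
      exact (vanishesAt_t_mul_iff B i h0).1 ((evalAt_eq_zero_iff hFF hreg).1 (hG i))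
    · have := (hf v).resolve_left h0
      rwa [D0_apply_of_notMem B v hv, neg_zero] at this
  · intro δ hδ
    simp only [kappa_zero] at hδ
    obtain ⟨f, hf1, hf2⟩ := hconv ι (fun i => B.P i 0) B.t δ B.inj (ord_t B) hδ
    refine ⟨f, ?_, fun i => (hf2 i).2⟩
    rw [mem_riemannRochSpace_iff]
    intro v
    rcases eq_or_ne f 0 with h0 | h0
    · exact Or.inl h0
    refine Or.inr ?_
    by_cases hv : v ∈ Set.range fun i => B.P i 0
    · obtain ⟨i, rfl⟩ := hv
      rw [D0_apply_self]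
      exact (regularAt_t_mul_iff B i h0).1 (hf2 i).1
    · rw [D0_apply_of_notMem B v hv, neg_zero]
      exact (hf1 v hv).ord_nonneg
  · intro w
    have hspan := hgen ι (fun i => B.P i 0) B.t B.inj (ord_t B) B.h1
    have hw : w ∈ Submodule.span ℂ (Set.range fun i => h1Single (B.P i 0) (B.t i)⁻¹) := by
      rw [hspan]; exact Submodule.mem_top
    obtain ⟨δ, hδ⟩ := (Submodule.mem_span_range_iff_exists_fun ℂ).1 hw
    exact ⟨δ, by simpa only [kappa_zero] using hδ⟩

end Fermat.Agent.S27
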