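import Fermat.Agent.S27.LAInterface
import Fermat.Agent.S27.EvalAt

/-!
# S27 / LA-RES : the residue identity

`∑ i, (G_i(h)(c_i) / G_i(f)'(c_i)) • κ_i(c_i) = 0` for `div f = B.div c`, `h ∈ L(D0)`.
-/

set_option autoImplicit false

namespace Fermat.Agent.S27

open AlgebraicCurve

universe u

namespace LARES

variable {F : Type u} [Field F] [Algebra ℂ F] {g : ℕ}
  {L : H1 (0 : Divisor ℂ F) ≃ₗ[ℂ] (Fin g → ℂ)} {ι : Type} [Fintype ι]

/-- value of `B.div c` at one of the moving places -/
theorem div_apply_self (B : BaseData F g L ι) {ρ : ℝ} (hρ : B.GoodRadius ρ) (c : ι → ℂ)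
    (hc : ∀ i, ‖c i‖ < ρ) (i : ι) :
    B.div c (B.P i (c i)) = 1 - (if c i = 0 then 1 else 0) := by
  classical
  have h0 : ‖(0 : ℂ)‖ < ρ := by simpa using hρ.pos
  unfold BaseData.div
  rw [Finsupp.finsetSum_apply]
  rw [Finset.sum_eq_single i]
  · rw [Finsupp.sub_apply, Finsupp.single_eq_same]
    congr 1
    by_cases hci : c i = 0
    · rw [if_pos hci, hci, Finsupp.single_eq_same]
    · rw [if_neg hci, Finsupp.single_apply, if_neg]
      intro h
      exact hci (hρ.inj i i 0 (c i) h0 (hc i) h).2.symm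
  · intro j _ hji
    rw [Finsupp.sub_apply, Finsupp.single_apply, Finsupp.single_apply, if_neg, if_neg, sub_zero]
    · intro h
      exact hji (hρ.inj j i 0 (c i) h0 (hc i) h).1
    · intro h
      exact hji (hρ.inj j i (c j) (c i) (hc j) (hc i) h).1
  · intro h
    exact absurd (Finset.mem_univ i) h

/-- value of `B.div c` away from the moving places -/
theorem div_apply_of_ne (B : BaseData F g L ι) (c : ι → ℂ) (v : Place ℂ F)
    (hv : ∀ i, v ≠ B.P i (c i)) : B.div c v = - B.D0 v := by
  classical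
  unfold BaseData.div BaseData.D0 sumPlaces
  rw [Finsupp.finsetSum_apply, Finsupp.finsetSum_apply, ← Finset.sum_neg_distrib]
  refine Finset.sum_congr rfl fun j _ => ?_
  rw [Finsupp.sub_apply, Finsupp.single_apply (a := B.P j (c j)), if_neg (fun h => hv j h.symm),
    zero_sub]

end LARES

open LARES in
theorem la_res (_hR0 : Stmt_R0.{0, u}) (hAD : Stmt_AD.{0, u}) : Stmt_LA_RES.{u} := by
  classical
  intro F _ _ hF g L ι _ B ρ hρ f hf c hc hdiv
  obtain ⟨-, -, -, hAD4, hAD5, -, -⟩ := hAD ℂ F hF
  have hcr : ∀ i, ‖c i‖ < B.r i := fun i => (hc i).trans_le (hρ.le_r i)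
  -- notation
  set v : ι → Place ℂ F := fun i => B.P i (c i) with hv
  set s : ι → F := fun i => B.t i - algebraMap ℂ F (c i) with hs
  have hords : ∀ i, (v i).ord (s i) = 1 := fun i => (B.chart i).ord_t (c i) (hcr i)
  have hs0 : ∀ i, s i ≠ 0 := by
    intro i h
    have := hords i
    rw [h, Place.ord_zero] at this
    exact zero_ne_one this
  have ht0 : ∀ i, B.t i ≠ 0 := by
    intro i h
    have h1 := (B.chart i).ord_t 0 (by simpa using (B.chart i).r_pos)
    rw [h, map_zero, sub_zero, Place.ord_zero] at h1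
    exact zero_ne_one h1
  have hvinj : Function.Injective v := by
    intro i j hij
    exact (hρ.inj i j (c i) (c j) (hc i) (hc j) hij).1
  -- `ord (t_i f) = 1` at `v_i`
  have hordtf : ∀ i, (v i).ord (B.t i * f) = 1 := by
    intro i
    rw [Place.ord_mul _ (ht0 i) hf, ← hdiv (v i), div_apply_self B hρ c hc i]
    by_cases hci : c i = 0
    · have h1 := hords i
      simp only [hs, hci, map_zero, sub_zero] at h1
      rw [if_pos hci, h1]; norm_num
    · have h1 : (v i).ord (B.t i) = 0 := by
        rw [ord_eq_zero_iff hF (ht0 i)]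
        refine ⟨(B.chart i).regularAt_t (hcr i), ?_⟩
        rw [(B.chart i).evalAt_t (hcr i)]
        exact hci
      rw [if_neg hci, h1]; norm_num
  -- the unit `w_i`
  set w : ι → F := fun i => B.t i * f / s i with hw
  have hw0 : ∀ i, w i ≠ 0 := fun i => div_ne_zero (mul_ne_zero (ht0 i) hf) (hs0 i)
  have hordw : ∀ i, (v i).ord (w i) = 0 := by
    intro i
    simp only [hw, div_eq_mul_inv]
    rw [Place.ord_mul _ (mul_ne_zero (ht0 i) hf) (inv_ne_zero (hs0 i)), Place.ord_inv, hordtf,
      hords]
    norm_num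
  have hwreg : ∀ i, RegularAt (v i) (w i) ∧ evalAt (v i) (w i) ≠ 0 := fun i =>
    (ord_eq_zero_iff hF (hw0 i)).1 (hordw i)
  -- the derivative
  have hderiv : ∀ i, deriv (B.G i f) (c i) = evalAt (v i) (w i) := by
    intro i
    have hch := B.chart i
    set W : ℂ → ℂ := fun z => evalAt (B.P i z) (w i) with hW
    have hWan : AnalyticAt ℂ W (c i) := hch.analytic (w i) (c i) (hcr i) (hwreg i).1
    have hnear : ∀ᶠ z in nhds (c i), ‖z‖ < B.r i :=
      (continuous_norm.continuousAt (x := c i)).eventually (gt_mem_nhds (hcr i))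
    have hev : B.G i f =ᶠ[nhds (c i)] fun z => W z * (z - c i) := by
      filter_upwards [hWan.eventually_analyticAt, hnear] with z hz hzr
      have h1 : (0 : WithTop ℤ) ≤ meromorphicOrderAt W z := hz.meromorphicOrderAt_nonneg
      rw [hW, hch.order (w i) (hw0 i) z hzr] at h1
      have h2 : RegularAt (B.P i z) (w i) := regularAt_of_ord_nonneg (by exact_mod_cast h1)
      have h3 : RegularAt (B.P i z) (s i) :=
        regularAt_sub (hch.regularAt_t hzr) (regularAt_algebraMap _ _)
      have h4 : B.t i * f = w i * s i := by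
        simp only [hw]
        field_simp [hs0 i]
      unfold BaseData.G
      rw [h4, evalAt_mul hF h2 h3]
      congr 1
      simp only [hs]
      rw [evalAt_sub hF (hch.regularAt_t hzr) (regularAt_algebraMap _ _), hch.evalAt_t hzr,
        evalAt_algebraMap]
    rw [hev.deriv_eq]
    have hd : HasDerivAt (fun z => W z * (z - c i))
        (deriv W (c i) * (c i - c i) + W (c i) * 1) (c i) :=
      hWan.differentiableAt.hasDerivAt.mul ((hasDerivAt_id (c i)).sub_const (c i))
    rw [hd.deriv]
    simp [hW, hv]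
  refine ⟨fun i => by rw [hderiv i]; exact (hwreg i).2, ?_⟩
  intro h hh
  set φ : F := h / f with hφ
  -- regularity of `φ` away from the `v i`
  have hreg : ∀ x, x ∉ Finset.univ.image v → RegularAt x φ := by
    intro x hx
    have hx' : ∀ i, x ≠ B.P i (c i) := by
      intro i hxi
      exact hx (Finset.mem_image.2 ⟨i, Finset.mem_univ i, hxi.symm⟩)
    rcases eq_or_ne h 0 with rfl | hh0
    · left; simp [hφ]
    · right
      have h1 := (mem_riemannRochSpace_iff.1 hh x).resolve_left hh0
      have h2 := hdiv x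
      rw [div_apply_of_ne B c x hx'] at h2
      rw [hφ, div_eq_mul_inv, Place.ord_mul _ hh0 (inv_ne_zero hf), Place.ord_inv]
      omega
  have hsum := hAD5 (Finset.univ.image v) φ hreg
  rw [Finset.sum_image (fun i _ j _ hij => hvinj hij)] at hsum
  rw [← hsum]
  refine Finset.sum_congr rfl fun i _ => ?_
  have hth : RegularAt (v i) (B.t i * h) := hρ.regular h hh i (c i) (hc i)
  have hsφ : s i * φ = B.t i * h / w i := by
    simp only [hφ, hw]
    field_simp [hs0 i, ht0 i, hf]
  obtain ⟨h5, h6⟩ := evalAt_div hF hth (hwreg i).1 (hwreg i).2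
  rw [hAD4 (v i) (s i) φ (hords i) (by rw [hsφ]; exact h5), hsφ, h6, hderiv i]
  rfl

end Fermat.Agent.S27
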