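import Fermat.Agent.S27.Interface
import Fermat.Agent.S27.EvalAt

/-!
# S27, package SEP : charts with distinct centres are disjoint near the centres
-/

set_option autoImplicit false

namespace Fermat.Agent.S27

open AlgebraicCurve IntermediateField

universe u

theorem sep : Stmt_SEP.{u} := by
  intro F _ _ hF r r' P P' t t' hP hP' hne
  obtain ⟨f, hf, hf', h0, h1⟩ := exists_separating hF hne
  have hc : ContinuousAt (fun z => evalAt (P z) f) 0 :=
    (hP.analytic f 0 (by simpa using hP.r_pos) hf).continuousAt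
  have hc' : ContinuousAt (fun z => evalAt (P' z) f) 0 :=
    (hP'.analytic f 0 (by simpa using hP'.r_pos) hf').continuousAt
  rw [Metric.continuousAt_iff] at hc hc'
  obtain ⟨δ, hδ, h⟩ := hc (1 / 2) (by norm_num)
  obtain ⟨δ', hδ', h'⟩ := hc' (1 / 2) (by norm_num)
  refine ⟨min δ δ', lt_min hδ hδ', fun c c' hcn hcn' heq => ?_⟩
  have e1 := h (x := c) (by simpa using lt_of_lt_of_le hcn (min_le_left _ _))
  have e2 := h' (x := c') (by simpa using lt_of_lt_of_le hcn' (min_le_right _ _))
  simp only [h0, h1] at e1 e2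
  rw [heq] at e1
  have e3 : dist (0 : ℂ) 1 < 1 := by
    calc dist (0 : ℂ) 1 ≤ dist (0 : ℂ) (evalAt (P' c') f) + dist (evalAt (P' c') f) 1 :=
          dist_triangle _ _ _
      _ < 1 / 2 + 1 / 2 := by
          rw [dist_comm (0 : ℂ)]
          exact add_lt_add e1 e2
      _ = 1 := by norm_num
  simp at e3

end Fermat.Agent.S27
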