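import Fermat.Agent.S27.Assembly
import Fermat.Agent.S27.Sep
import Fermat.Agent.S27.CH1
import Fermat.Agent.S27.CH3a
import Fermat.Agent.S27.CH3b
import Fermat.Agent.S27.Chart
import Fermat.Agent.S27.Kappa
import Fermat.Agent.S27.Fin
import Fermat.Agent.S27.LA
import Fermat.Agent.S27.LAG
import Fermat.Agent.S27.LADiv
import Fermat.Agent.S27.LARes
import Fermat.Agent.S27.LALin
import Fermat.Agent.S27.ANIft
import Fermat.Agent.S27.ANEasy
import Fermat.Agent.S27.ANHard
import Fermat.Agent.S27.ANConv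
import Fermat.Agent.S27.L4a
import Fermat.Agent.S27.L6

/-!
# S27 : second assembly: everything except `L4b`
-/

set_option autoImplicit false

namespace Fermat.Agent.S27

universe u v

/-- the theorem over `ℂ`, unconditionally -/
theorem complex_final : Stmt_COMPLEX.{v} := by
  have hR0 : Stmt_R0.{0, v} := r0
  have hRA : Stmt_RA.{0, v} := ra hR0
  have hAD : Stmt_AD.{0, v} := ad hR0
  have hKA : Stmt_KA.{v} := ka hAD ch1
  have hCH : Stmt_CH.{v} := ch_of' ch1 ch3a ch3b
  have hLA : Stmt_LA.{v} :=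
    la_of_parts hRA hKA (la_g sep hR0) (la_div hR0) (la_res hR0 hAD) (la_lin hR0 hRA hAD)
      an_ift an_easy an_hard an_conv
  exact complex_of_parts sep hCH hKA (fin (c1 sep)) hLA

/-- the general theorem from `L4b` -/
theorem main_of_l4b (hL4b₀ : Stmt_L4b.{u, v, 0, v}) (hL4b : Stmt_L4b.{u, v, u, v}) :
    Stmt_MAIN.{u, v} := by
  have hR0 : Stmt_R0.{0, v} := r0
  have hRA : Stmt_RA.{0, v} := ra hR0
  have hAD : Stmt_AD.{0, v} := ad hR0
  have hKA : Stmt_KA.{v} := ka hAD ch1
  have hCH : Stmt_CH.{v} := ch_of' ch1 ch3a ch3b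
  have hLA : Stmt_LA.{v} :=
    la_of_parts hRA hKA (la_g sep hR0) (la_div hR0) (la_res hR0 hAD) (la_lin hR0 hRA hAD)
      an_ift an_easy an_hard an_conv
  exact main_of_parts sep hCH hKA (fin (c1 sep)) hLA (l4a r0) hL4b₀ (l4a r0) hL4b l6

end Fermat.Agent.S27
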