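import Fermat.Agent.S27.Interface
import Fermat.Agent.S24.PlaceBasic

/-!
# S27, package L4 : constant field extensions, summary (`IsPlaceExt`, equality of genera)
-/

set_option autoImplicit false

namespace Fermat.Agent.S27

open AlgebraicCurve

universe u v w x

namespace L4

section OneField

variable {K : Type u} {F : Type v} [Field K] [Field F] [Algebra K F]

theorem place_ext_of_ord {v v' : Place K F} (h : ∀ f : F, v.ord f = v'.ord f) : v = v' := by
  ext1
  refine SetLike.ext fun f => ?_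
  rcases eq_or_ne f 0 with rfl | hf
  · simp only [zero_mem]
  · rw [S24.mem_iff_ord_nonneg v hf, S24.mem_iff_ord_nonneg v' hf, h f]

theorem degree_eq_sum (hdeg : ∀ v : Place K F, v.deg = 1) (D : Divisor K F) :
    Divisor.degree D = D.sum fun _ n => n := by
  induction D using Finsupp.induction_linear with
  | zero => simp
  | add f g hf hg =>
    rw [map_add, hf, hg, Finsupp.sum_add_index' (fun _ => rfl) (fun _ _ _ => rfl)]
  | single v n => simp [hdeg v]

theorem eq_zero_of_nonneg_of_degree (hdeg : ∀ v : Place K F, v.deg = 1) (G : Divisor K F)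
    (h0 : ∀ v, 0 ≤ G v) (hG : Divisor.degree G = 0) : G = 0 := by
  rw [degree_eq_sum hdeg, Finsupp.sum] at hG
  have h := (Finset.sum_eq_zero_iff_of_nonneg (fun v _ => h0 v)).mp hG
  ext v
  by_cases hv : v ∈ G.support
  · exact h v hv
  · simpa using hv

end OneField

variable {K₁ : Type u} {F₁ : Type v} {K₂ : Type w} {F₂ : Type x} [Field K₁] [Field F₁]
  [Field K₂] [Field F₂] [Algebra K₁ F₁] [Algebra K₂ F₂] [Algebra F₁ F₂]

theorem injective_of_ord_eq (φ : Place K₁ F₁ → Place K₂ F₂)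
    (hord : ∀ (v : Place K₁ F₁) (f : F₁), (φ v).ord (algebraMap F₁ F₂ f) = v.ord f) :
    Function.Injective φ := by
  intro v v' h
  refine place_ext_of_ord fun f => ?_
  rw [← hord v f, ← hord v' f, h]

omit [Algebra F₁ F₂] in
theorem degree_mapDomain (φ : Place K₁ F₁ → Place K₂ F₂)
    (h₁ : ∀ v : Place K₁ F₁, v.deg = 1) (h₂ : ∀ v : Place K₂ F₂, v.deg = 1)
    (D : Divisor K₁ F₁) : Divisor.degree (D.mapDomain φ) = Divisor.degree D := by
  induction D using Finsupp.induction_linear with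
  | zero => simp
  | add f g hf hg => rw [Finsupp.mapDomain_add, map_add, map_add, hf, hg]
  | single v n => simp [Finsupp.mapDomain_single, h₁ v, h₂ (φ v)]

omit [Algebra F₁ F₂] in
theorem mapDomain_neg' (φ : Place K₁ F₁ → Place K₂ F₂) (D : Divisor K₁ F₁) :
    (-D).mapDomain φ = -(D.mapDomain φ) :=
  (Finsupp.mapDomain.addMonoidHom (M := ℤ) φ).map_neg D

end L4

open L4 in
theorem l4 (hR0₁ : Stmt_R0.{u, v}) (hR0₂ : Stmt_R0.{w, x}) (hRD₁ : Stmt_RD.{u, v})
    (hRD₂ : Stmt_RD.{w, x}) (h4a : Stmt_L4a.{u, v, w, x}) (h4b : Stmt_L4b.{u, v, w, x}) :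
    Stmt_L4.{u, v, w, x} := by
  intro K₁ F₁ K₂ F₂ _ _ _ _ _ _ _ _ _ _ _ hyp
  have := hyp.algClosed₁
  have := hyp.algClosed₂
  have := hyp.charZero
  have : CharZero K₂ := charZero_of_injective_algebraMap (algebraMap K₁ K₂).injective
  obtain ⟨hFF₂, φ, hord, hne, -, -⟩ := h4a K₁ F₁ K₂ F₂ hyp
  have hb := h4b K₁ F₁ K₂ F₂ hyp φ hord
  obtain ⟨hPD₁, hdeg₁, hinf₁, -, -⟩ := hR0₁ K₁ F₁ hyp.isFF
  obtain ⟨hPD₂, hdeg₂, -, -, -⟩ := hR0₂ K₂ F₂ hFF₂
  obtain ⟨-, hrr₁, ⟨c₁, hc₁⟩, -⟩ := hRD₁ K₁ F₁ hyp.isFF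
  obtain ⟨-, hrr₂, ⟨c₂, hc₂⟩, -⟩ := hRD₂ K₂ F₂ hFF₂
  have hinj : Function.Injective φ := injective_of_ord_eq φ hord
  have hdegree := degree_mapDomain φ hdeg₁ hdeg₂
  refine ⟨hFF₂, ?_, φ, hord, hinj, hne, hdegree, ?_⟩
  · -- genus
    obtain ⟨v₀⟩ : Nonempty (Place K₁ F₁) := inferInstance
    set m : ℤ := max c₁ c₂ with hm
    set D : Divisor K₁ F₁ := Finsupp.single v₀ m with hD
    have hdD : Divisor.degree D = m := by simp [hD, hdeg₁ v₀]
    have e₁ := hrr₁ D
    have e₂ := hrr₂ (D.mapDomain φ)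
    have := hc₁ D (by rw [hdD]; exact le_max_left _ _)
    have := hc₂ (D.mapDomain φ) (by rw [hdegree, hdD]; exact le_max_right _ _)
    rw [Module.finrank_zero_of_subsingleton (M := H1 D)] at e₁
    rw [Module.finrank_zero_of_subsingleton (M := H1 (D.mapDomain φ))] at e₂
    rw [(hb D).2, hdegree] at e₂
    have : (genusFF K₂ F₂ : ℤ) = genusFF K₁ F₁ := by linarith
    exact_mod_cast this
  · -- principal_iff
    intro D
    constructor
    · rintro ⟨z, hz0, hz⟩
      -- `z ∈ L(φ_*(-D))`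
      have hzL : z ∈ riemannRochSpace ((-D).mapDomain φ) := by
        rw [mem_riemannRochSpace_iff]
        intro w
        right
        rw [mapDomain_neg', Finsupp.neg_apply, neg_neg, hz w]
      have hne' : riemannRochSpace (-D) ≠ ⊥ := by
        intro hbot
        rw [(hb (-D)).1, hbot] at hzL
        have : (algebraMap F₁ F₂) '' ((⊥ : Submodule K₁ F₁) : Set F₁) = {0} := by
          simp
        rw [this, Submodule.span_zero_singleton, Submodule.mem_bot] at hzL
        exact hz0 hzL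
      obtain ⟨f, hfL, hf0⟩ := (Submodule.ne_bot_iff _).mp hne'
      rw [mem_riemannRochSpace_iff] at hfL
      have hfD : ∀ v : Place K₁ F₁, D v ≤ v.ord f := by
        intro v
        have := (hfL v).resolve_left hf0
        simpa using this
      obtain ⟨E, hE, hEdeg⟩ := hPD₁.exists_divisor f hf0
      obtain ⟨E₂, hE₂, hE₂deg⟩ := hPD₂.exists_divisor z hz0
      have hE₂' : E₂ = D.mapDomain φ := by
        ext w
        rw [hE₂ w, hz w]
      have hDdeg : Divisor.degree D = 0 := by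
        rw [← hdegree, ← hE₂', hE₂deg]
      have hzero : E - D = 0 := by
        refine eq_zero_of_nonneg_of_degree hdeg₁ _ (fun v => ?_) (by rw [map_sub, hEdeg, hDdeg]; simp)
        rw [Finsupp.sub_apply, hE v]
        exact sub_nonneg.mpr (hfD v)
      refine ⟨f, hf0, fun v => ?_⟩
      rw [← hE v, ← sub_eq_zero.mp hzero]
    · rintro ⟨f, hf0, hf⟩
      refine ⟨algebraMap F₁ F₂ f, by simpa using hf0, fun w => ?_⟩
      by_cases hw : w ∈ Set.range φ
      · obtain ⟨v, rfl⟩ := hw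
        rw [Finsupp.mapDomain_apply hinj, hord, hf v]
      · rw [Finsupp.mapDomain_of_notMem_range _ _ hw]
        by_contra hne0
        exact hw (hne w ⟨f, fun h => hne0 h.symm⟩)

end Fermat.Agent.S27
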