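import Fermat.Agent.S27.L4bField
import Fermat.Agent.S27.R0
import Fermat.Agent.S27.RA
import Fermat.Agent.S27.L4

/-!
# S27, package L4b : base change of Riemann–Roch spaces in a constant field extension
-/

set_option autoImplicit false
set_option linter.unusedSectionVars false

namespace Fermat.Agent.S27

open AlgebraicCurve IntermediateField Module Polynomial TensorProduct
open scoped IntermediateField.algebraAdjoinAdjoin

universe u v w x

namespace L4b

section OneField

variable {K : Type u} {F : Type v} [Field K] [Field F] [Algebra K F]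

/-- an element which is regular at all places where `t` is regular is integral over `K[t]` -/
theorem isIntegral_of_regular [CharZero K] {t : F} (ht : Transcendental K t)
    [FiniteDimensional K⟮t⟯ F] (z : F)
    (hz : ∀ w : Place K F, 0 ≤ w.ord t → z = 0 ∨ 0 ≤ w.ord z) :
    IsIntegral (S24.polyRing K t) z := by
  have := S24.intRing_isDedekindDomain ht
  have := S24.intRing_isFractionRing (K := K) t
  rcases eq_or_ne z 0 with rfl | hz0
  · exact isIntegral_zero
  have hmem : z ∈ (algebraMap (S24.intRing K t) F).range := by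
    apply IsDedekindDomain.HeightOneSpectrum.mem_integers_of_valuation_le_one
    intro P
    rw [← S24.ord_ofHeightOneSpectrum_nonneg_iff (K := K) P z hz0]
    refine (hz _ ?_).resolve_left hz0
    have htint : t ∈ S24.intRing K t :=
      (isIntegral_algebraMap (R := S24.polyRing K t) (A := F) (x := S24.xPoly K t))
    exact S24.ord_algebraMap_nonneg (K := K) (F := F) P ⟨t, htint⟩
  obtain ⟨c, rfl⟩ := hmem
  exact c.2

/-- a common denominator at the places where `t` is regular -/
theorem exists_denominator [IsAlgClosed K] {t : F} (ht : Transcendental K t)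
    [FiniteDimensional K⟮t⟯ F] (D : Place K F → ℤ) (s : Finset (Place K F)) :
    ∃ d : F, d ≠ 0 ∧ (∀ v : Place K F, 0 ≤ v.ord t → 0 ≤ v.ord d) ∧
      ∀ v ∈ s, 0 ≤ v.ord t → D v ≤ v.ord d := by
  classical
  have ht0 : t ≠ 0 := fun h => ht (h ▸ isAlgebraic_zero)
  induction s using Finset.induction_on with
  | empty => exact ⟨1, one_ne_zero, fun v _ => by rw [v.ord_one], by simp⟩
  | insert v₀ s _ ih =>
    obtain ⟨d, hd0, hd1, hd2⟩ := ih
    by_cases h0 : 0 ≤ v₀.ord t
    · obtain ⟨a, ha⟩ := S24.exists_ord_sub_pos t ht v₀ (S24.mem_of_ord_nonneg v₀ ht0 h0)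
      have hne : t - algebraMap K F a ≠ 0 := fun h =>
        ht (sub_eq_zero.mp h ▸ isAlgebraic_algebraMap a)
      have hreg : ∀ v : Place K F, 0 ≤ v.ord t → 0 ≤ v.ord (t - algebraMap K F a) := fun v hv =>
        S24.ord_nonneg_of_mem v (sub_mem (S24.mem_of_ord_nonneg v ht0 hv) (v.algebraMap_mem' a))
      have hord : ∀ v : Place K F, v.ord (d * (t - algebraMap K F a) ^ (D v₀).toNat)
          = v.ord d + ((D v₀).toNat : ℤ) * v.ord (t - algebraMap K F a) := fun v => by
        rw [v.ord_mul hd0 (pow_ne_zero _ hne), ← zpow_natCast, v.ord_zpow]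
      refine ⟨d * (t - algebraMap K F a) ^ (D v₀).toNat, mul_ne_zero hd0 (pow_ne_zero _ hne),
        fun v hv => ?_, fun v hv hvt => ?_⟩
      · rw [hord]
        have := mul_nonneg (Int.natCast_nonneg (D v₀).toNat) (hreg v hv)
        have := hd1 v hv
        omega
      · rw [hord]
        have h1 := mul_nonneg (Int.natCast_nonneg (D v₀).toNat) (hreg v hvt)
        rcases Finset.mem_insert.mp hv with rfl | hvs
        · have h2 := hd1 v hvt
          have h3 : ((D v).toNat : ℤ) * 1 ≤ ((D v).toNat : ℤ) * v.ord (t - algebraMap K F a) :=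
            mul_le_mul_of_nonneg_left (by omega) (Int.natCast_nonneg _)
          have h4 := Int.self_le_toNat (D v)
          omega
        · have := hd2 v hvs hvt
          omega
    · refine ⟨d, hd0, hd1, fun v hv hvt => ?_⟩
      rcases Finset.mem_insert.mp hv with rfl | hvs
      · exact absurd hvt h0
      · exact hd2 v hvs hvt

end OneField

variable {K₁ : Type u} {F₁ : Type v} {K₂ : Type w} {F₂ : Type x} [Field K₁] [Field F₁] [Field K₂]
  [Field F₂] [Algebra K₁ F₁] [Algebra K₂ F₂] [Algebra K₁ K₂] [Algebra F₁ F₂] [Algebra K₁ F₂]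
  [IsScalarTower K₁ K₂ F₂] [IsScalarTower K₁ F₁ F₂]

theorem map_mem_polyRing {t : F₁} {t₂ : F₂} (e : algebraMap F₁ F₂ t = t₂) (r : F₁)
    (hr : r ∈ S24.polyRing K₁ t) : algebraMap F₁ F₂ r ∈ S24.polyRing K₂ t₂ := by
  have h1 : S24.polyRing K₁ t ≤ ((S24.polyRing K₂ t₂).restrictScalars K₁).comap
      (IsScalarTower.toAlgHom K₁ F₁ F₂) := by
    refine Algebra.adjoin_le ?_
    intro y hy
    rw [Set.mem_singleton_iff] at hy
    subst hy
    show algebraMap F₁ F₂ y ∈ S24.polyRing K₂ t₂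
    rw [e]
    exact Algebra.self_mem_adjoin_singleton K₂ t₂
  exact h1 hr

theorem isIntegral_map {t : F₁} {t₂ : F₂} (e : algebraMap F₁ F₂ t = t₂) {y : F₁}
    (hy : IsIntegral (S24.polyRing K₁ t) y) :
    IsIntegral (S24.polyRing K₂ t₂) (algebraMap F₁ F₂ y) := by
  let ψ : S24.polyRing K₁ t →+* S24.polyRing K₂ t₂ :=
    ((algebraMap F₁ F₂).comp (algebraMap (S24.polyRing K₁ t) F₁)).codRestrict (S24.polyRing K₂ t₂)
      (fun r => map_mem_polyRing e r r.2)
  exact IsIntegral.map_of_comp_eq ψ (algebraMap F₁ F₂) rfl hy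

theorem algebraMap_mem_range_mu (f : F₁) : algebraMap F₁ F₂ f ∈ (L5.mu K₁ F₁ K₂ F₂).range :=
  ⟨1 ⊗ₜ f, by simp⟩

/-- Step 1: elements of `L(φ_* D)` lie in `K₂ · F₁`. -/
theorem mem_range_mu (hyp : ConstExtHyp K₁ F₁ K₂ F₂) (φ : Place K₁ F₁ → Place K₂ F₂)
    (hord : ∀ (v : Place K₁ F₁) (f : F₁), (φ v).ord (algebraMap F₁ F₂ f) = v.ord f)
    (hnew : ∀ w : Place K₂ F₂, w ∉ Set.range φ → ∀ f : F₁, w.ord (algebraMap F₁ F₂ f) = 0)
    (D : Divisor K₁ F₁) (z : F₂) (hz : z ∈ riemannRochSpace (D.mapDomain φ)) :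
    z ∈ (L5.mu K₁ F₁ K₂ F₂).range := by
  classical
  have := hyp.algClosed₁
  have := hyp.algClosed₂
  have := hyp.charZero
  have : CharZero K₂ := charZero_of_injective_algebraMap (algebraMap K₁ K₂).injective
  have hinj : Function.Injective φ := L4.injective_of_ord_eq φ hord
  obtain ⟨t, ht, hfd⟩ := hyp.isFF
  obtain ⟨t₂, e⟩ : ∃ t₂, algebraMap F₁ F₂ t = t₂ := ⟨_, rfl⟩
  have ht₂ : Transcendental K₂ t₂ := e ▸ transcendental_map hyp.ext ht
  have := finiteDimensional_adjoin hyp.ext ht e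
  obtain ⟨d, hd0, hd1, hd2⟩ := exists_denominator ht D D.support
  have hd0' : algebraMap F₁ F₂ d ≠ 0 := by simpa using hd0
  rw [mem_riemannRochSpace_iff] at hz
  have hu : IsIntegral (S24.polyRing K₂ t₂) (algebraMap F₁ F₂ d * z) := by
    refine isIntegral_of_regular ht₂ _ fun w hw => ?_
    rcases eq_or_ne z 0 with rfl | hz0
    · left; simp
    right
    have hzw := (hz w).resolve_left hz0
    rw [w.ord_mul hd0' hz0]
    by_cases hwφ : w ∈ Set.range φ
    · obtain ⟨v, rfl⟩ := hwφ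
      rw [Finsupp.mapDomain_apply hinj] at hzw
      rw [← e, hord] at hw
      rw [hord]
      by_cases hv : v ∈ D.support
      · have := hd2 v hv hw
        omega
      · have h1 : D v = 0 := by simpa using hv
        have := hd1 v hw
        omega
    · rw [Finsupp.mapDomain_of_notMem_range _ _ hwφ] at hzw
      rw [hnew w hwφ]
      omega
  have := S24.polyRing_isPrincipalIdealRing ht₂
  have := S24.isSeparable_adjoin (K := K₁) t
  obtain ⟨s, b, hb⟩ := FiniteDimensional.exists_is_basis_integral (S24.polyRing K₁ t) K₁⟮t⟯ F₁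
  let _ := kAlg K₁ K₂ e
  have := kTower K₁ K₂ e
  obtain ⟨a, g, hag⟩ := exists_eq_sum_of_isIntegral (A := S24.polyRing K₂ t₂) (k₁ := K₁⟮t⟯)
    (k₂ := K₂⟮t₂⟯) (fun c => exists_basis_lift hyp.ext ht e c) b (fun i => isIntegral_map e (hb i))
    _ hu
  have hpoly : S24.polyRing K₂ t₂ ≤ (L5.mu K₁ F₁ K₂ F₂).range := by
    refine Algebra.adjoin_le ?_
    intro y hy
    rw [Set.mem_singleton_iff] at hy
    rw [hy, ← e]
    exact algebraMap_mem_range_mu t
  have hz' : z = algebraMap F₁ F₂ d⁻¹ * (algebraMap F₁ F₂ d * z) := by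
    rw [map_inv₀, inv_mul_cancel_left₀ hd0']
  rw [hz', hag]
  refine mul_mem (algebraMap_mem_range_mu _) (sum_mem fun i _ => mul_mem (hpoly (a i).2)
    (algebraMap_mem_range_mu _))

omit [Field F₂] [Algebra K₂ F₂] [Algebra F₁ F₂] [Algebra K₁ F₂]
  [IsScalarTower K₁ K₂ F₂] [IsScalarTower K₁ F₁ F₂] in
/-- every tensor is `∑ c i ⊗ f i` with `K₁`-independent `c i` -/
theorem exists_repr (τ : K₂ ⊗[K₁] F₁) : ∃ (n : ℕ) (c : Fin n → K₂) (f : Fin n → F₁),
    LinearIndependent K₁ c ∧ τ = ∑ i, c i ⊗ₜ[K₁] f i := by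
  classical
  let β := Basis.ofVectorSpace K₁ K₂
  obtain ⟨l, hl⟩ := TensorProduct.eq_repr_basis_left β τ
  let eq := l.support.equivFin
  refine ⟨l.support.card, fun k => β (eq.symm k), fun k => l (eq.symm k),
    β.linearIndependent.comp _ (Subtype.val_injective.comp eq.symm.injective), ?_⟩
  rw [← hl, Finsupp.sum, ← Finset.sum_coe_sort]
  exact (Fintype.sum_equiv eq.symm _ _ fun _ => rfl).symm

end L4b

open L4b in
theorem l4b (h4a : Stmt_L4a.{u, v, w, x}) : Stmt_L4b.{u, v, w, x} := by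
  intro K₁ F₁ K₂ F₂ _ _ _ _ _ _ _ _ _ _ _ hyp φ hord D
  have := hyp.algClosed₁
  have := hyp.charZero
  obtain ⟨-, φ₀, hord₀, hne₀, -, hgauss⟩ := h4a K₁ F₁ K₂ F₂ hyp
  have hinj : Function.Injective φ := L4.injective_of_ord_eq φ hord
  -- `φ = φ₀`
  have hφ : φ = φ₀ := by
    funext v
    obtain ⟨π, hπ⟩ := S24.exists_ord_eq_one v
    obtain ⟨v', hv'⟩ := hne₀ (φ v) ⟨π, by rw [hord, hπ]; exact one_ne_zero⟩
    have : v' = v := L4.place_ext_of_ord fun f => by rw [← hord₀ v' f, hv', hord]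
    rw [← hv', this]
  have hnew : ∀ w : Place K₂ F₂, w ∉ Set.range φ → ∀ f : F₁, w.ord (algebraMap F₁ F₂ f) = 0 := by
    intro w hw f
    by_contra hne
    obtain ⟨v, hv⟩ := hne₀ w ⟨f, hne⟩
    exact hw ⟨v, by rw [hφ, hv]⟩
  have hspace : riemannRochSpace (D.mapDomain φ) =
      Submodule.span K₂ ((algebraMap F₁ F₂) '' (riemannRochSpace D : Set F₁)) := by
    apply le_antisymm
    · intro z hz
      obtain ⟨τ, rfl⟩ := mem_range_mu hyp φ hord hnew D z hz
      obtain ⟨n, c, f, hc, rfl⟩ := exists_repr τ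
      have hsum : L5.mu K₁ F₁ K₂ F₂ (∑ i, c i ⊗ₜ[K₁] f i)
          = ∑ i, algebraMap K₂ F₂ (c i) * algebraMap F₁ F₂ (f i) := by
        rw [map_sum]
        exact Finset.sum_congr rfl fun i _ => L5.mu_tmul _ _
      change L5.mu K₁ F₁ K₂ F₂ (∑ i, c i ⊗ₜ[K₁] f i) ∈ _ at hz
      change L5.mu K₁ F₁ K₂ F₂ (∑ i, c i ⊗ₜ[K₁] f i) ∈ _
      rw [hsum] at hz ⊢
      rw [mem_riemannRochSpace_iff] at hz
      have hf : ∀ i, f i ∈ riemannRochSpace D := by
        intro i
        rw [mem_riemannRochSpace_iff]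
        intro v
        have h1 := hz (φ v)
        rw [Finsupp.mapDomain_apply hinj, hφ] at h1
        exact hgauss v n c f (-D v) hc h1 i
      refine Submodule.sum_mem _ fun i _ => ?_
      rw [← Algebra.smul_def]
      exact Submodule.smul_mem _ _ (Submodule.subset_span ⟨f i, hf i, rfl⟩)
    · rw [Submodule.span_le]
      rintro _ ⟨f, hf, rfl⟩
      rw [SetLike.mem_coe, mem_riemannRochSpace_iff] at hf ⊢
      intro w
      by_cases hw : w ∈ Set.range φ
      · obtain ⟨v, rfl⟩ := hw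
        rw [Finsupp.mapDomain_apply hinj, hord]
        rcases hf v with rfl | h
        · left; simp
        · right; exact h
      · right
        rw [Finsupp.mapDomain_of_notMem_range _ _ hw, hnew w hw]
        simp
  refine ⟨hspace, ?_⟩
  have hfin : Module.Finite K₁ (riemannRochSpace D) := (ra r0 K₁ F₁ hyp.isFF).1 D
  let b := Module.finBasis K₁ (riemannRochSpace D)
  have hli : LinearIndependent K₁ (fun i => (b i : F₁)) :=
    b.linearIndependent.map' (riemannRochSpace D).subtype (Submodule.ker_subtype _)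
  have hli₂ := hyp.ext.linDisj _ _ hli
  have hrange : Submodule.span K₂ ((algebraMap F₁ F₂) '' (riemannRochSpace D : Set F₁))
      = Submodule.span K₂ (Set.range fun i => algebraMap F₁ F₂ (b i : F₁)) := by
    apply le_antisymm
    · rw [Submodule.span_le]
      rintro _ ⟨f, hf, rfl⟩
      have h1 : f = ∑ i, b.repr ⟨f, hf⟩ i • (b i : F₁) := by
        have h0 := congrArg (riemannRochSpace D).subtype (b.sum_repr ⟨f, hf⟩)
        rw [map_sum] at h0
        exact h0.symm
      rw [h1, map_sum]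
      refine Submodule.sum_mem _ fun i _ => ?_
      have h2 : algebraMap F₁ F₂ (b.repr ⟨f, hf⟩ i • (b i : F₁))
          = algebraMap K₁ K₂ (b.repr ⟨f, hf⟩ i) • algebraMap F₁ F₂ (b i : F₁) :=
        map_smul_square _ _
      rw [h2]
      exact Submodule.smul_mem _ _ (Submodule.subset_span ⟨i, rfl⟩)
    · rw [Submodule.span_le]
      rintro _ ⟨i, rfl⟩
      exact Submodule.subset_span ⟨b i, (b i).2, rfl⟩
  rw [hspace, hrange, finrank_span_eq_card hli₂, Fintype.card_fin]

end Fermat.Agent.S27
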