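import Fermat.Agent.S27.LAInterface

/-!
# S27 / LA / AN-CONV : small common zeros of `a0 + ∑ a_k b_k` lie on the image of `γ`
-/

set_option autoImplicit false

namespace Fermat.Agent.S27

namespace ANCONV

variable {ι : Type} [Fintype ι] {m g : ℕ} (A : ANData ι m g)

theorem alpha_apply (a : Fin m → ℂ) (i : ι) : A.alpha a i = ∑ k, a k * A.gk i k 0 := by
  simp [ANData.alpha, mul_comm]

theorem exists_antilipschitz (h : A.Hinj) : ∃ K : ℝ, 0 < K ∧ ∀ a, ‖a‖ ≤ K * ‖A.alpha a‖ := by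
  have hker : LinearMap.ker (A.alpha : (Fin m → ℂ) →ₗ[ℂ] (ι → ℂ)) = ⊥ := by
    rw [LinearMap.ker_eq_bot']
    intro a ha
    apply h a
    intro i
    rw [← alpha_apply]
    have := congrFun ha i
    simpa using this
  obtain ⟨K, hK, hA⟩ := LinearMap.exists_antilipschitzWith _ hker
  refine ⟨K, by exact_mod_cast hK, fun a => ?_⟩
  have := hA.le_mul_dist a 0
  simpa using this

theorem exists_radius {η : ℝ} (hη : 0 < η) :
    ∃ ρ > 0, ∀ z : ℂ, ‖z‖ < ρ → ∀ i k, ‖A.gk i k z - A.gk i k 0‖ < η := by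
  have h1 : ∀ᶠ z in nhds (0 : ℂ), ∀ i k, ‖A.gk i k z - A.gk i k 0‖ < η := by
    rw [Filter.eventually_all]
    intro i
    rw [Filter.eventually_all]
    intro k
    have hc : ContinuousAt (A.gk i k) 0 :=
      (A.gk_an i k 0 (by simpa using A.ρ0_pos)).continuousAt
    have := Metric.continuousAt_iff'.mp hc η hη
    simpa [dist_eq_norm] using this
  obtain ⟨ρ, hρ, h⟩ := Metric.eventually_nhds_iff.mp h1
  exact ⟨ρ, hρ, fun z hz => h (by simpa [dist_eq_norm] using hz)⟩

end ANCONV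

theorem an_conv : Stmt_AN_CONV := by
  intro ι _ m g A ρ1 ρ2 γ hγ hinj
  obtain ⟨K, hK, hanti⟩ := ANCONV.exists_antilipschitz A hinj
  have hη : 0 < 1 / (2 * K * (m + 1)) := by positivity
  obtain ⟨ρ', hρ', hcont⟩ := ANCONV.exists_radius A hη
  refine ⟨min ρ' (min ρ2 (ρ1 / (4 * K))), ?_, ?_⟩
  · have := hγ.ρ1_pos
    have := hγ.ρ2_pos
    positivity
  intro c hc a0 a hne hzero
  set ρ := min ρ' (min ρ2 (ρ1 / (4 * K))) with hρdef
  have hρ1 : ρ ≤ ρ' := min_le_left _ _
  have hρ2 : ρ ≤ ρ2 := (min_le_right _ _).trans (min_le_left _ _)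
  have hρ3 : ρ ≤ ρ1 / (4 * K) := (min_le_right _ _).trans (min_le_right _ _)
  have hρpos : 0 < ρ := by
    have := hγ.ρ1_pos
    have := hγ.ρ2_pos
    rw [hρdef]
    positivity
  -- the main estimate
  have hest : ‖A.alpha a‖ ≤ 1 / (2 * K) * ‖a‖ + ‖a0‖ * ρ := by
    rw [pi_norm_le_iff_of_nonneg (by positivity)]
    intro i
    have e : A.alpha a i = ∑ k, a k * (A.gk i k 0 - A.gk i k (c i)) - a0 * c i := by
      rw [ANCONV.alpha_apply]
      have := hzero i
      simp only [mul_sub, Finset.sum_sub_distrib]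
      linear_combination this
    rw [e]
    have h1 : ‖∑ k, a k * (A.gk i k 0 - A.gk i k (c i))‖ ≤ 1 / (2 * K) * ‖a‖ := by
      calc ‖∑ k, a k * (A.gk i k 0 - A.gk i k (c i))‖
          ≤ ∑ k : Fin m, ‖a k * (A.gk i k 0 - A.gk i k (c i))‖ := norm_sum_le _ _
        _ ≤ ∑ _k : Fin m, ‖a‖ * (1 / (2 * K * (m + 1))) := by
            apply Finset.sum_le_sum
            intro k _
            rw [norm_mul]
            apply mul_le_mul (norm_le_pi_norm a k) _ (norm_nonneg _) (norm_nonneg _)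
            rw [norm_sub_rev]
            exact (hcont (c i) ((hc i).trans_le hρ1) i k).le
        _ = (m : ℝ) * (‖a‖ * (1 / (2 * K * (m + 1)))) := by simp
        _ ≤ 1 / (2 * K) * ‖a‖ := by
            have hm : (m : ℝ) / (m + 1) ≤ 1 := by
              rw [div_le_one (by positivity)]
              linarith
            have e2 : (m : ℝ) * (‖a‖ * (1 / (2 * K * (m + 1))))
                = ((m : ℝ) / (m + 1)) * (1 / (2 * K) * ‖a‖) := by
              field_simp
            rw [e2]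
            have : 0 ≤ 1 / (2 * K) * ‖a‖ := by positivity
            nlinarith
    have h2 : ‖a0 * c i‖ ≤ ‖a0‖ * ρ := by
      rw [norm_mul]
      exact mul_le_mul_of_nonneg_left (hc i).le (norm_nonneg _)
    exact (norm_sub_le _ _).trans (add_le_add h1 h2)
  have hbound : ‖a‖ ≤ 2 * K * ‖a0‖ * ρ := by
    have h1 := hanti a
    have h2 : K * ‖A.alpha a‖ ≤ K * (1 / (2 * K) * ‖a‖ + ‖a0‖ * ρ) :=
      mul_le_mul_of_nonneg_left hest hK.le
    have e : K * (1 / (2 * K) * ‖a‖ + ‖a0‖ * ρ) = ‖a‖ / 2 + K * ‖a0‖ * ρ := by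
      field_simp
    rw [e] at h2
    linarith
  have ha0 : a0 ≠ 0 := by
    intro h0
    rw [h0, norm_zero] at hbound
    have : a = 0 := by
      rw [← norm_le_zero_iff]
      simpa using hbound
    rcases hne with h | h
    · exact h h0
    · exact h this
  have hn0 : 0 < ‖a0‖ := norm_pos_iff.mpr ha0
  refine ⟨a0⁻¹ • a, ?_, ?_⟩
  · rw [norm_smul, norm_inv]
    have h1 : ‖a0‖⁻¹ * ‖a‖ ≤ 2 * K * ρ := by
      rw [inv_mul_le_iff₀ hn0]
      linarith
    have h2 : 2 * K * ρ ≤ ρ1 / 2 := by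
      have : 2 * K * ρ ≤ 2 * K * (ρ1 / (4 * K)) :=
        mul_le_mul_of_nonneg_left hρ3 (by positivity)
      have e : 2 * K * (ρ1 / (4 * K)) = ρ1 / 2 := by
        field_simp
        ring
      linarith
    have := hγ.ρ1_pos
    linarith
  · have hsmall : ‖a0⁻¹ • a‖ < ρ1 := by
      rw [norm_smul, norm_inv]
      have h1 : ‖a0‖⁻¹ * ‖a‖ ≤ 2 * K * ρ := by
        rw [inv_mul_le_iff₀ hn0]
        linarith
      have h2 : 2 * K * ρ ≤ ρ1 / 2 := by
        have : 2 * K * ρ ≤ 2 * K * (ρ1 / (4 * K)) :=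
          mul_le_mul_of_nonneg_left hρ3 (by positivity)
        have e : 2 * K * (ρ1 / (4 * K)) = ρ1 / 2 := by
          field_simp
          ring
        linarith
      have := hγ.ρ1_pos
      linarith
    funext i
    apply hγ.unique _ hsmall i (c i) ((hc i).trans_le hρ2)
    have := hzero i
    unfold ANData.Psi
    have e : c i + ∑ k, (a0⁻¹ • a) k * A.gk i k (c i)
        = a0⁻¹ * (a0 * c i + ∑ k, a k * A.gk i k (c i)) := by
      rw [mul_add, Finset.mul_sum, ← mul_assoc, inv_mul_cancel₀ ha0, one_mul]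
      congr 1
      apply Finset.sum_congr rfl
      intro k _
      simp [mul_assoc]
    rw [e, this, mul_zero]

end Fermat.Agent.S27
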