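import Fermat.Agent.S27.Defs

/-!
# S27 : interface (statements of the work packages, as `def … : Prop`)

Every package `X` proves `theorem x : Stmt_X` (universe polymorphic) in its own file.
-/

set_option autoImplicit false

namespace Fermat.Agent.S27

open AlgebraicCurve IntermediateField

universe u v w x

/-! ## B : from the hypotheses of S27 to `IsFF` -/

def Stmt_B1 : Prop :=
  ∀ (K : Type u) (F : Type v) [Field K] [Field F] [Algebra K F] [IsAlgClosed K] [CharZero K]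
    [IsCurveOver K F] [Algebra.EssFiniteType K F], IsFF K F

/-! ## R : Riemann's theorem in adelic form (any algebraically closed `K` of characteristic 0) -/

/-- basics (mostly S24 wrappers) -/
def Stmt_R0 : Prop :=
  ∀ (K : Type u) (F : Type v) [Field K] [Field F] [Algebra K F] [IsAlgClosed K] [CharZero K],
    IsFF K F →
      HasPrincipalDivisors K F ∧ (∀ v : Place K F, v.deg = 1) ∧ Infinite (Place K F) ∧
      (∀ α : Place K F → F, α ∈ repartitions K F ↔ {v : Place K F | v.ord (α v) < 0}.Finite) ∧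
      (∀ (v : Place K F) (f : F), RegularAt v f → ∃ a : K, VanishesAt v (f - algebraMap K F a))

/-- `L(D)`: finite dimensional, `L(D) = 0` for `deg D < 0`, `L(0) = K`, `l(D + v) ≤ l(D) + 1`. -/
def Stmt_RA : Prop :=
  ∀ (K : Type u) (F : Type v) [Field K] [Field F] [Algebra K F] [IsAlgClosed K] [CharZero K],
    IsFF K F →
      (∀ D : Divisor K F, Module.Finite K (riemannRochSpace D)) ∧
      (∀ D : Divisor K F, Divisor.degree D < 0 → riemannRochSpace D = ⊥) ∧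
      (∀ f : F, f ∈ riemannRochSpace (0 : Divisor K F) ↔ f ∈ Set.range (algebraMap K F)) ∧
      (∀ (D : Divisor K F) (v : Place K F),
        Module.finrank K (riemannRochSpace (D + Finsupp.single v 1)) ≤
          Module.finrank K (riemannRochSpace D) + 1)

/-- `dim A(D')/A(D) = deg D' - deg D` for `D ≤ D'` (`A(D')/A(D)` = image of `A(D')` in `A/A(D)`). -/
def Stmt_RB : Prop :=
  ∀ (K : Type u) (F : Type v) [Field K] [Field F] [Algebra K F] [IsAlgClosed K] [CharZero K],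
    IsFF K F → ∀ D D' : Divisor K F, D ≤ D' →
      Module.Finite K ↥((repartitionsOf D').map (repartitionsOf D).mkQ) ∧
      (Module.finrank K ↥((repartitionsOf D').map (repartitionsOf D).mkQ) : ℤ)
        = Divisor.degree D' - Divisor.degree D

/-- Riemann's bound. -/
def Stmt_RC : Prop :=
  ∀ (K : Type u) (F : Type v) [Field K] [Field F] [Algebra K F] [IsAlgClosed K] [CharZero K],
    IsFF K F → ∃ γ : ℤ, ∀ D : Divisor K F,
      Divisor.degree D - (Module.finrank K (riemannRochSpace D) : ℤ) ≤ γ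

/-- Riemann's theorem with the index of speciality `dim H¹(D)`. -/
def Stmt_RD : Prop :=
  ∀ (K : Type u) (F : Type v) [Field K] [Field F] [Algebra K F] [IsAlgClosed K] [CharZero K],
    IsFF K F →
      (∀ D : Divisor K F, Module.Finite K (H1 D)) ∧
      (∀ D : Divisor K F, (Module.finrank K (riemannRochSpace D) : ℤ) - Module.finrank K (H1 D)
          = Divisor.degree D + 1 - genusFF K F) ∧
      (∃ c : ℤ, ∀ D : Divisor K F, c ≤ Divisor.degree D → Subsingleton (H1 D)) ∧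
      (∀ D D' : Divisor K F, D ≤ D' → Subsingleton (H1 D) → Subsingleton (H1 D'))

/-! ## AD : adele algebra in `H¹(0)` ("residue theorem for free") -/

def Stmt_AD : Prop :=
  ∀ (K : Type u) (F : Type v) [Field K] [Field F] [Algebra K F] [IsAlgClosed K] [CharZero K],
    IsFF K F →
      -- linearity
      (∀ (v : Place K F) (f g : F), h1Single v (f + g) = h1Single v f + h1Single v g) ∧
      (∀ (v : Place K F) (a : K) (f : F), h1Single v (algebraMap K F a * f) = a • h1Single v f) ∧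
      -- regular components are zero
      (∀ (v : Place K F) (f : F), RegularAt v f → h1Single v f = 0) ∧
      -- simple poles
      (∀ (v : Place K F) (s f : F), v.ord s = 1 → RegularAt v (s * f) →
        h1Single v f = evalAt v (s * f) • h1Single v s⁻¹) ∧
      -- principal adeles vanish
      (∀ (S : Finset (Place K F)) (f : F), (∀ v, v ∉ S → RegularAt v f) →
        ∑ v ∈ S, h1Single v f = 0) ∧
      -- converse
      (∀ (ι : Type) [Fintype ι] (v : ι → Place K F) (s : ι → F) (δ : ι → K),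
        Function.Injective v → (∀ i, (v i).ord (s i) = 1) →
        ∑ i, δ i • h1Single (v i) (s i)⁻¹ = 0 →
        ∃ f : F, (∀ w, w ∉ Set.range v → RegularAt w f) ∧
          ∀ i, RegularAt (v i) (s i * f) ∧ evalAt (v i) (s i * f) = δ i) ∧
      -- generation
      (∀ (ι : Type) [Fintype ι] (v : ι → Place K F) (s : ι → F),
        Function.Injective v → (∀ i, (v i).ord (s i) = 1) → Subsingleton (H1 (sumPlaces v)) →
        Submodule.span K (Set.range fun i => h1Single (v i) (s i)⁻¹) = ⊤)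

/-! ## CH : charts over `ℂ` -/

def Stmt_CH : Prop :=
  ∀ (F : Type u) [Field F] [Algebra ℂ F], IsFF ℂ F →
    ∀ Q : Place ℂ F, ∃ (r : ℝ) (P : ℂ → Place ℂ F) (t : F), IsChart r P t ∧ P 0 = Q

/-- charts with distinct centres are disjoint near the centres -/
def Stmt_SEP : Prop :=
  ∀ (F : Type u) [Field F] [Algebra ℂ F], IsFF ℂ F →
    ∀ (r r' : ℝ) (P P' : ℂ → Place ℂ F) (t t' : F), IsChart r P t → IsChart r' P' t' →
      P 0 ≠ P' 0 → ∃ ρ > 0, ∀ c c' : ℂ, ‖c‖ < ρ → ‖c'‖ < ρ → P c ≠ P' c'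

/-- TRICK 1: the tangent vector field of a chart is holomorphic. -/
def Stmt_KA : Prop :=
  ∀ (F : Type u) [Field F] [Algebra ℂ F], IsFF ℂ F →
    ∀ (r : ℝ) (P : ℂ → Place ℂ F) (t : F), IsChart r P t →
      ∀ (lam : Module.Dual ℂ (H1 (0 : Divisor ℂ F))) (c : ℂ), ‖c‖ < r →
        AnalyticAt ℂ (fun z => lam (kappa P t z)) c

/-- existence of the local Abel–Jacobi map -/
def Stmt_PR : Prop :=
  ∀ (F : Type u) [Field F] [Algebra ℂ F], IsFF ℂ F →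
    ∀ (g : ℕ) (L : H1 (0 : Divisor ℂ F) ≃ₗ[ℂ] (Fin g → ℂ)) (r : ℝ) (P : ℂ → Place ℂ F) (t : F),
      IsChart r P t → ∃ U : ℂ → (Fin g → ℂ), IsAJ L r P t U

/-! ## C : compactness and connectedness of the set of places -/

/-- fibre counting near `x = a` -/
def Stmt_C1 : Prop :=
  ∀ (F : Type u) [Field F] [Algebra ℂ F] (x : F), Transcendental ℂ x → FiniteDimensional ℂ⟮x⟯ F →
    ∀ (a : ℂ) (r : Place ℂ F → ℝ) (P : Place ℂ F → ℂ → Place ℂ F) (t : Place ℂ F → F),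
      (∀ Q : Place ℂ F, 0 < Q.ord (x - algebraMap ℂ F a) → IsChart (r Q) (P Q) (t Q) ∧ P Q 0 = Q) →
      ∃ δ > 0, ∀ b : ℂ, ‖b - a‖ < δ → ∃ m : Place ℂ F → Place ℂ F,
        (∀ v : Place ℂ F, 0 < v.ord (x - algebraMap ℂ F b) →
          0 < (m v).ord (x - algebraMap ℂ F a) ∧ ∃ c : ℂ, ‖c‖ < r (m v) ∧ v = P (m v) c) ∧
        ∀ Q : Place ℂ F, 0 < Q.ord (x - algebraMap ℂ F a) →
          ∑ᶠ v ∈ {v : Place ℂ F | 0 < v.ord (x - algebraMap ℂ F b) ∧ m v = Q},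
            v.ord (x - algebraMap ℂ F b) = Q.ord (x - algebraMap ℂ F a)

/-- compactness -/
def Stmt_FIN : Prop :=
  ∀ (F : Type u) [Field F] [Algebra ℂ F], IsFF ℂ F →
    ∀ (r : Place ℂ F → ℝ) (P : Place ℂ F → ℂ → Place ℂ F) (t : Place ℂ F → F),
      (∀ Q : Place ℂ F, IsChart (r Q) (P Q) (t Q) ∧ P Q 0 = Q) →
      ∃ S : Finset (Place ℂ F), ∀ v : Place ℂ F, ∃ Q ∈ S, ∃ c : ℂ, ‖c‖ < r Q ∧ v = P Q c

/-- TRICK 3, first half: a clopen set of places carries degree `0` of every principal divisor -/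
def Stmt_C2 : Prop :=
  ∀ (F : Type u) [Field F] [Algebra ℂ F], IsFF ℂ F →
    ∀ (X : Set (Place ℂ F)) (r : Place ℂ F → ℝ) (P : Place ℂ F → ℂ → Place ℂ F)
      (t : Place ℂ F → F),
      (∀ Q : Place ℂ F, IsChart (r Q) (P Q) (t Q) ∧ P Q 0 = Q) →
      (∀ Q : Place ℂ F, ∀ c : ℂ, ‖c‖ < r Q → (P Q c ∈ X ↔ Q ∈ X)) →
      ∀ f : F, f ≠ 0 → ∑ᶠ v ∈ X, v.ord f = 0

/-- TRICK 3: connectedness -/
def Stmt_CONN : Prop :=
  ∀ (F : Type u) [Field F] [Algebra ℂ F], IsFF ℂ F →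
    ∀ (X : Set (Place ℂ F)) (r : Place ℂ F → ℝ) (P : Place ℂ F → ℂ → Place ℂ F)
      (t : Place ℂ F → F),
      (∀ Q : Place ℂ F, IsChart (r Q) (P Q) (t Q) ∧ P Q 0 = Q) →
      (∀ Q : Place ℂ F, ∀ c : ℂ, ‖c‖ < r Q → (P Q c ∈ X ↔ Q ∈ X)) →
      X.Nonempty → X = Set.univ

/-! ## LA : local Abel theorem -/

/-- Base data: finitely many charts with distinct centres `P i 0` such that `H¹(∑ [P i 0]) = 0`,
with their local Abel–Jacobi maps. -/
structure BaseData (F : Type u) [Field F] [Algebra ℂ F] (g : ℕ)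
    (L : H1 (0 : Divisor ℂ F) ≃ₗ[ℂ] (Fin g → ℂ)) (ι : Type) [Fintype ι] : Type u where
  r : ι → ℝ
  P : ι → ℂ → Place ℂ F
  t : ι → F
  U : ι → ℂ → (Fin g → ℂ)
  chart : ∀ i, IsChart (r i) (P i) (t i)
  aj : ∀ i, IsAJ L (r i) (P i) (t i) (U i)
  inj : Function.Injective (fun i => P i 0)
  h1 : Subsingleton (H1 (sumPlaces fun i => P i 0))

namespace BaseData

variable {F : Type u} [Field F] [Algebra ℂ F] {g : ℕ}
  {L : H1 (0 : Divisor ℂ F) ≃ₗ[ℂ] (Fin g → ℂ)} {ι : Type} [Fintype ι]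

/-- total Abel–Jacobi map -/
noncomputable def u (B : BaseData F g L ι) (c : ι → ℂ) : Fin g → ℂ := ∑ i, B.U i (c i)

/-- the divisor `∑ ([P i (c i)] - [P i 0])` -/
noncomputable def div (B : BaseData F g L ι) (c : ι → ℂ) : Divisor ℂ F :=
  ∑ i, (Finsupp.single (B.P i (c i)) 1 - Finsupp.single (B.P i 0) 1)

end BaseData

/-- local Abel theorem, both directions -/
def Stmt_LA : Prop :=
  ∀ (F : Type u) [Field F] [Algebra ℂ F], IsFF ℂ F →
    ∀ (g : ℕ) (L : H1 (0 : Divisor ℂ F) ≃ₗ[ℂ] (Fin g → ℂ)) (ι : Type) [Fintype ι]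
      (B : BaseData F g L ι),
      ∃ ρ > 0, ∀ c : ι → ℂ, (∀ i, ‖c i‖ < ρ) → (B.u c = 0 ↔ Divisor.IsPrincipal (B.div c))

/-- local surjectivity of the total Abel–Jacobi map -/
def Stmt_SURJ : Prop :=
  ∀ (F : Type u) [Field F] [Algebra ℂ F], IsFF ℂ F →
    ∀ (g : ℕ) (L : H1 (0 : Divisor ℂ F) ≃ₗ[ℂ] (Fin g → ℂ)) (ι : Type) [Fintype ι]
      (B : BaseData F g L ι),
      ∀ ρ > 0, ∃ η > 0, ∀ v : Fin g → ℂ, ‖v‖ < η → ∃ c : ι → ℂ, (∀ i, ‖c i‖ < ρ) ∧ B.u c = v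

/-! ## G : abstract group theory -/

def Stmt_EXT : Prop :=
  ∀ (G : Type u) [AddCommGroup G] (g : ℕ) (e : (Fin g → ℂ) → G) (ρ : ℝ), 0 < ρ →
    (∀ a b : Fin g → ℂ, ‖a‖ < ρ → ‖b‖ < ρ → ‖a + b‖ < ρ → e (a + b) = e a + e b) →
    ∃ E : (Fin g → ℂ) →+ G, ∀ a, ‖a‖ < ρ → E a = e a

def Stmt_LAT : Prop :=
  ∀ (G : Type u) [AddCommGroup G] (g : ℕ) (E : (Fin g → ℂ) →+ G),
    (∃ ρ > 0, ∀ a, E a = 0 → ‖a‖ < ρ → a = 0) → (∃ R : ℝ, ∀ x : G, ∃ a, ‖a‖ ≤ R ∧ E a = x) →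
    ∀ n : ℕ, 0 < n → Nat.card {x : G // n • x = 0} = n ^ (2 * g)

/-! ## ASM : the exponential map and the theorem over `ℂ` -/

/-- TRICK 2: the exponential map `H¹(0) → Pic⁰`. -/
def Stmt_EXP : Prop :=
  ∀ (F : Type u) [Field F] [Algebra ℂ F], IsFF ℂ F →
    ∀ (g : ℕ) (_L : H1 (0 : Divisor ℂ F) ≃ₗ[ℂ] (Fin g → ℂ)),
      ∃ E : (Fin g → ℂ) →+ Pic0 ℂ F,
        (∃ ρ > 0, ∀ a, E a = 0 → ‖a‖ < ρ → a = 0) ∧
        ∀ Q : Place ℂ F, ∃ (r : ℝ) (P : ℂ → Place ℂ F) (t : F), IsChart r P t ∧ P 0 = Q ∧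
          ∃ M : ℝ, ∀ c : ℂ, ‖c‖ < r → ∃ a : Fin g → ℂ, ‖a‖ ≤ M ∧
            ∀ D : Divisor.degZero (K := ℂ) (F := F),
              (D : Divisor ℂ F) = Finsupp.single (P c) 1 - Finsupp.single Q 1 → E a = Pic0.mk D

/-- the theorem over `ℂ` -/
def Stmt_COMPLEX : Prop :=
  ∀ (F : Type u) [Field F] [Algebra ℂ F], IsFF ℂ F →
    ∀ n : ℕ, 0 < n → Nat.card (Pic0.torsion ℂ F n) = n ^ (2 * genusFF ℂ F)

/-! ## L : Lefschetz principle -/

def Stmt_L1 : Prop :=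
  ∀ (K₁ : Type u) [Field K₁] [CharZero K₁] [Countable K₁], Nonempty (K₁ →+* ℂ)

def Stmt_L2 : Prop :=
  ∀ (K₁ : Type u) [Field K₁] [IsAlgClosed K₁] [Countable K₁] [Algebra K₁ ℂ] (z : ℂ),
    (Set.range fun σ : ℂ ≃ₐ[K₁] ℂ => σ z).Finite → z ∈ Set.range (algebraMap K₁ ℂ)

/-- existence of the constant field extension -/
def Stmt_L3 : Prop :=
  ∀ (K₁ : Type u) (F₁ : Type v) (K₂ : Type w) [Field K₁] [Field F₁] [Field K₂] [Algebra K₁ F₁]
    [Algebra K₁ K₂] [IsAlgClosed K₁],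
    ∃ (F₂ : Type (max v w)) (_ : Field F₂) (_ : Algebra K₂ F₂) (_ : Algebra F₁ F₂)
      (_ : Algebra K₁ F₂) (_ : IsScalarTower K₁ K₂ F₂) (_ : IsScalarTower K₁ F₁ F₂),
      IsConstExt K₁ F₁ K₂ F₂

section

variable (K₁ : Type u) (F₁ : Type v) (K₂ : Type w) (F₂ : Type x) [Field K₁] [Field F₁] [Field K₂]
  [Field F₂] [Algebra K₁ F₁] [Algebra K₂ F₂] [Algebra K₁ K₂] [Algebra F₁ F₂] [Algebra K₁ F₂]
  [IsScalarTower K₁ K₂ F₂] [IsScalarTower K₁ F₁ F₂]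

/-- hypotheses common to the `L4`, `L5` packages -/
structure ConstExtHyp : Prop where
  algClosed₁ : IsAlgClosed K₁
  algClosed₂ : IsAlgClosed K₂
  charZero : CharZero K₁
  isFF : IsFF K₁ F₁
  ext : IsConstExt K₁ F₁ K₂ F₂

/-- L4a: `F₂/K₂` is a function field; every place of `F₁` has a unique extension; the places of
`F₂` which are nontrivial on `F₁` are these extensions. -/
def Stmt_L4a_at : Prop :=
  ConstExtHyp K₁ F₁ K₂ F₂ → IsFF K₂ F₂ ∧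
    ∃ φ : Place K₁ F₁ → Place K₂ F₂,
      (∀ (v : Place K₁ F₁) (f : F₁), (φ v).ord (algebraMap F₁ F₂ f) = v.ord f) ∧
      (∀ w : Place K₂ F₂, (∃ f : F₁, w.ord (algebraMap F₁ F₂ f) ≠ 0) → ∃ v, φ v = w) ∧
      -- Gauss formula
      (∀ (v : Place K₁ F₁) (n : ℕ) (c : Fin n → K₂) (f : Fin n → F₁) (k : ℤ),
        LinearIndependent K₁ c → (∀ i, f i = 0 ∨ k ≤ v.ord (f i)) →
        (∑ i, algebraMap K₂ F₂ (c i) * algebraMap F₁ F₂ (f i) = 0 ∨
          k ≤ (φ v).ord (∑ i, algebraMap K₂ F₂ (c i) * algebraMap F₁ F₂ (f i)))) ∧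
      (∀ (v : Place K₁ F₁) (n : ℕ) (c : Fin n → K₂) (f : Fin n → F₁) (k : ℤ),
        LinearIndependent K₁ c →
        (∑ i, algebraMap K₂ F₂ (c i) * algebraMap F₁ F₂ (f i) = 0 ∨
          k ≤ (φ v).ord (∑ i, algebraMap K₂ F₂ (c i) * algebraMap F₁ F₂ (f i))) →
        ∀ i, f i = 0 ∨ k ≤ v.ord (f i))

/-- L4b: base change of Riemann–Roch spaces. -/
def Stmt_L4b_at : Prop :=
  ConstExtHyp K₁ F₁ K₂ F₂ → ∀ φ : Place K₁ F₁ → Place K₂ F₂,
    (∀ (v : Place K₁ F₁) (f : F₁), (φ v).ord (algebraMap F₁ F₂ f) = v.ord f) →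
    ∀ D : Divisor K₁ F₁,
      riemannRochSpace (D.mapDomain φ) =
        Submodule.span K₂ ((algebraMap F₁ F₂) '' (riemannRochSpace D : Set F₁)) ∧
      Module.finrank K₂ (riemannRochSpace (D.mapDomain φ)) =
        Module.finrank K₁ (riemannRochSpace D)

/-- L4: summary. -/
def Stmt_L4_at : Prop :=
  ConstExtHyp K₁ F₁ K₂ F₂ → IsFF K₂ F₂ ∧ genusFF K₂ F₂ = genusFF K₁ F₁ ∧
    ∃ φ : Place K₁ F₁ → Place K₂ F₂, IsPlaceExt φ

end

def Stmt_L4a : Prop :=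
  ∀ (K₁ : Type u) (F₁ : Type v) (K₂ : Type w) (F₂ : Type x) [Field K₁] [Field F₁]
    [Field K₂] [Field F₂] [Algebra K₁ F₁] [Algebra K₂ F₂] [Algebra K₁ K₂] [Algebra F₁ F₂]
    [Algebra K₁ F₂] [IsScalarTower K₁ K₂ F₂] [IsScalarTower K₁ F₁ F₂], Stmt_L4a_at K₁ F₁ K₂ F₂

def Stmt_L4b : Prop :=
  ∀ (K₁ : Type u) (F₁ : Type v) (K₂ : Type w) (F₂ : Type x) [Field K₁] [Field F₁]
    [Field K₂] [Field F₂] [Algebra K₁ F₁] [Algebra K₂ F₂] [Algebra K₁ K₂] [Algebra F₁ F₂]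
    [Algebra K₁ F₂] [IsScalarTower K₁ K₂ F₂] [IsScalarTower K₁ F₁ F₂], Stmt_L4b_at K₁ F₁ K₂ F₂

def Stmt_L4 : Prop :=
  ∀ (K₁ : Type u) (F₁ : Type v) (K₂ : Type w) (F₂ : Type x) [Field K₁] [Field F₁]
    [Field K₂] [Field F₂] [Algebra K₁ F₁] [Algebra K₂ F₂] [Algebra K₁ K₂] [Algebra F₁ F₂]
    [Algebra K₁ F₂] [IsScalarTower K₁ K₂ F₂] [IsScalarTower K₁ F₁ F₂], Stmt_L4_at K₁ F₁ K₂ F₂

/-- L5: torsion classes over `ℂ` descend to `K₁` (uses `Aut(ℂ/K₁)`). -/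
def Stmt_L5 : Prop :=
  ∀ (K₁ : Type u) (F₁ : Type v) (F₂ : Type v) [Field K₁] [Field F₁] [Field F₂]
    [Algebra K₁ F₁] [Algebra ℂ F₂] [Algebra K₁ ℂ] [Algebra F₁ F₂] [Algebra K₁ F₂]
    [IsScalarTower K₁ ℂ F₂] [IsScalarTower K₁ F₁ F₂] [Countable K₁],
    ConstExtHyp K₁ F₁ ℂ F₂ → ∀ φ : Place K₁ F₁ → Place ℂ F₂, IsPlaceExt φ →
    ∀ n : ℕ, 0 < n → Finite (Pic0.torsion ℂ F₂ n) →
    ∀ D₂ : Divisor ℂ F₂, Divisor.degree D₂ = 0 → Divisor.IsPrincipal (n • D₂) →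
      ∃ D₁ : Divisor K₁ F₁, Divisor.degree D₁ = 0 ∧ Divisor.IsPrincipal (D₂ - D₁.mapDomain φ)

/-- L6: descent of the function field to a countable algebraically closed subfield, containing
finitely many prescribed elements of `F`. -/
def Stmt_L6 : Prop :=
  ∀ (K : Type u) (F : Type v) [Field K] [Field F] [Algebra K F] [IsAlgClosed K] [CharZero K],
    IsFF K F → ∀ S : Finset F,
    ∃ (K₁ : Type u) (F₁ : Type v) (_ : Field K₁) (_ : Field F₁) (_ : Algebra K₁ F₁)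
      (_ : Algebra K₁ K) (_ : Algebra F₁ F) (_ : Algebra K₁ F) (_ : IsScalarTower K₁ K F)
      (_ : IsScalarTower K₁ F₁ F),
      IsAlgClosed K₁ ∧ Countable K₁ ∧ IsFF K₁ F₁ ∧ IsConstExt K₁ F₁ K F ∧
        ∀ s ∈ S, s ∈ Set.range (algebraMap F₁ F)

/-- PT: transport of torsion along a place extension. -/
def Stmt_PT : Prop :=
  ∀ (K₁ : Type u) (F₁ : Type v) (K₂ : Type w) (F₂ : Type x) [Field K₁] [Field F₁]
    [Field K₂] [Field F₂] [Algebra K₁ F₁] [Algebra K₂ F₂] [Algebra F₁ F₂]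
    (φ : Place K₁ F₁ → Place K₂ F₂), IsPlaceExt φ → ∀ n : ℕ,
    ∃ Ψ : Pic0.torsion K₁ F₁ n → Pic0.torsion K₂ F₂ n, Function.Injective Ψ ∧
      ∀ (z : Pic0.torsion K₂ F₂ n) (D₂ : Divisor.degZero (K := K₂) (F := F₂)),
        (z : Pic0 K₂ F₂) = Pic0.mk D₂ →
        (∃ D₁ : Divisor K₁ F₁, Divisor.degree D₁ = 0 ∧
          Divisor.IsPrincipal ((D₂ : Divisor K₂ F₂) - D₁.mapDomain φ)) →
        z ∈ Set.range Ψ

/-- the theorem for countable fields -/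
def Stmt_COUNTABLE : Prop :=
  ∀ (K₁ : Type u) (F₁ : Type v) [Field K₁] [Field F₁] [Algebra K₁ F₁] [IsAlgClosed K₁]
    [CharZero K₁] [Countable K₁], IsFF K₁ F₁ →
    ∀ n : ℕ, 0 < n → Nat.card (Pic0.torsion K₁ F₁ n) = n ^ (2 * genusFF K₁ F₁)

/-- the theorem in general -/
def Stmt_MAIN : Prop :=
  ∀ (K : Type u) (F : Type v) [Field K] [Field F] [Algebra K F] [IsAlgClosed K] [CharZero K],
    IsFF K F → ∀ n : ℕ, 0 < n → Nat.card (Pic0.torsion K F n) = n ^ (2 * genusFF K F)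

end Fermat.Agent.S27
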