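/-
S27 package C1 (helper65): fibre counting near `x = a` (local mapping degree + `∑ e = n`).
-/
import Fermat.Agent.S27.Interface
import Fermat.Agent.S24.FundId
import Fermat.Agent.S24.PlaceCases

set_option autoImplicit false

universe u

namespace Fermat.Agent.S27
namespace C1

open Filter Topology

/-- `e` distinct `e`-th roots of a nonzero complex number, all of the same small modulus. -/
lemma exists_roots (e : ℕ) (he : e ≠ 0) (w : ℂ) (hw : w ≠ 0) :
    ∃ s : Finset ℂ, s.card = e ∧ ∀ y ∈ s, y ^ e = w := by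
  classical
  obtain ⟨w0, hw0⟩ := IsAlgClosed.exists_pow_nat_eq w (Nat.pos_of_ne_zero he)
  have hw00 : w0 ≠ 0 := by
    rintro rfl
    rw [zero_pow he] at hw0
    exact hw hw0.symm
  have hζ := Complex.isPrimitiveRoot_exp e he
  set ζ := Complex.exp (2 * Real.pi * Complex.I / e) with hζdef
  refine ⟨(Finset.range e).image (fun k => ζ ^ k * w0), ?_, ?_⟩
  · rw [Finset.card_image_of_injOn, Finset.card_range]
    intro i hi j hj hij
    have h1 : ζ ^ i = ζ ^ j := mul_right_cancel₀ hw00 hij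
    exact hζ.pow_inj (Finset.mem_range.mp hi) (Finset.mem_range.mp hj) h1
  · intro y hy
    obtain ⟨k, -, rfl⟩ := Finset.mem_image.mp hy
    rw [mul_pow, ← pow_mul, mul_comm k e, pow_mul, hζ.pow_eq_one, one_pow, one_mul, hw0]

/-- Local `e`-th root: an analytic function of order `e ≥ 1` at `0` is the `e`-th power of an
analytic function with nonzero derivative. -/
lemma exists_local_root {φ : ℂ → ℂ} {e : ℕ} (hφ : AnalyticAt ℂ φ 0)
    (he : analyticOrderAt φ 0 = e) (he0 : e ≠ 0) :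
    ∃ (ψ : ℂ → ℂ) (c : ℂ), c ≠ 0 ∧ HasStrictDerivAt ψ c 0 ∧ ψ 0 = 0 ∧
      ∀ᶠ z in 𝓝 (0 : ℂ), ψ z ^ e = φ z := by
  obtain ⟨g, hg, hg0, hgφ⟩ := (hφ.analyticOrderAt_eq_natCast).mp he
  obtain ⟨c, hc⟩ := IsAlgClosed.exists_pow_nat_eq (g 0) (Nat.pos_of_ne_zero he0)
  have hc0 : c ≠ 0 := by
    rintro rfl
    rw [zero_pow he0] at hc
    exact hg0 hc.symm
  -- `u z = exp (log (g z / g 0) / e)`
  set u : ℂ → ℂ := fun z => Complex.exp (Complex.log (g z / g 0) / e) with hu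
  have hq : AnalyticAt ℂ (fun z => g z / g 0) 0 := hg.div analyticAt_const hg0
  have hq0 : g 0 / g 0 ∈ Complex.slitPlane := by
    rw [div_self hg0]; exact Complex.one_mem_slitPlane
  have hlog : AnalyticAt ℂ (fun z => Complex.log (g z / g 0)) 0 := hq.clog hq0
  have hua : AnalyticAt ℂ u 0 := (hlog.div analyticAt_const (by exact_mod_cast he0)).cexp
  have hu0 : u 0 = 1 := by simp [hu, div_self hg0]
  have hue : ∀ᶠ z in 𝓝 (0 : ℂ), u z ^ e = g z / g 0 := by
    have hne : ∀ᶠ z in 𝓝 (0 : ℂ), g z / g 0 ≠ 0 := by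
      have := hq.continuousAt.eventually_ne (by rw [div_self hg0]; exact one_ne_zero)
      exact this
    filter_upwards [hne] with z hz
    simp only [hu]
    rw [← Complex.exp_nat_mul, mul_div_cancel₀ _ (by exact_mod_cast he0), Complex.exp_log hz]
  refine ⟨fun z => c * z * u z, c, hc0, ?_, by simp, ?_⟩
  · have h1 : AnalyticAt ℂ (fun z => c * z * u z) 0 :=
      (analyticAt_const.mul analyticAt_id).mul hua
    have h2 : HasDerivAt (fun z => c * z * u z) c 0 := by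
      have hd1 : HasDerivAt (fun z : ℂ => c * z) c 0 := by
        simpa using (hasDerivAt_id (0 : ℂ)).const_mul c
      have hd2 := hd1.mul hua.differentiableAt.hasDerivAt
      have e1 : c * u 0 + c * 0 * deriv u 0 = c := by rw [hu0]; ring
      rw [e1] at hd2
      exact hd2
    have h3 := h1.hasStrictDerivAt
    rwa [h2.deriv] at h3
  · filter_upwards [hue, hgφ] with z h1 h2
    rw [h2, mul_pow, mul_pow, h1, hc]
    simp only [sub_zero, smul_eq_mul]
    field_simp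

/-- Local mapping degree (lower bound): an analytic function of order `e ≥ 1` at `0` takes every
small nonzero value at least `e` times in any given neighbourhood of `0`. -/
theorem exists_preimages {φ : ℂ → ℂ} {e : ℕ} (hφ : AnalyticAt ℂ φ 0)
    (he : analyticOrderAt φ 0 = e) (he0 : e ≠ 0) (ρ : ℝ) (hρ : 0 < ρ) :
    ∃ δ > 0, ∀ w : ℂ, w ≠ 0 → ‖w‖ < δ →
      ∃ s : Finset ℂ, s.card = e ∧ ∀ z ∈ s, ‖z‖ < ρ ∧ φ z = w := by
  classical
  obtain ⟨ψ, c, hc0, hψ, hψ0, hψe⟩ := exists_local_root hφ he he0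
  have hmap : map ψ (𝓝 0) = 𝓝 0 := by
    have := hψ.map_nhds_eq hc0
    rwa [hψ0] at this
  -- the good set
  have hgood : {z : ℂ | ‖z‖ < ρ ∧ ψ z ^ e = φ z} ∈ 𝓝 (0 : ℂ) := by
    have h1 : ∀ᶠ z in 𝓝 (0 : ℂ), ‖z‖ < ρ := by
      have := Metric.ball_mem_nhds (0 : ℂ) hρ
      filter_upwards [this] with z hz
      simpa using hz
    exact h1.and hψe
  have himg : ψ '' {z : ℂ | ‖z‖ < ρ ∧ ψ z ^ e = φ z} ∈ 𝓝 (0 : ℂ) := by
    rw [← hmap]
    exact image_mem_map hgood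
  obtain ⟨η, hη, hball⟩ := Metric.mem_nhds_iff.mp himg
  refine ⟨η ^ e, pow_pos hη e, fun w hw hwη => ?_⟩
  obtain ⟨s, hs, hsw⟩ := exists_roots e he0 w hw
  have hpre : ∀ y ∈ s, ∃ z : ℂ, (‖z‖ < ρ ∧ ψ z ^ e = φ z) ∧ ψ z = y := by
    intro y hy
    have hy1 : ‖y‖ < η := by
      have h1 : ‖y‖ ^ e < η ^ e := by rw [← norm_pow, hsw y hy]; exact hwη
      exact lt_of_pow_lt_pow_left₀ e hη.le h1
    have hy2 : y ∈ Metric.ball (0 : ℂ) η := by simpa using hy1
    exact hball hy2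
  choose! f hf using hpre
  refine ⟨s.image f, ?_, ?_⟩
  · rw [Finset.card_image_of_injOn, hs]
    intro y hy y' hy' hyy
    have h1 := (hf y hy).2
    have h2 := (hf y' hy').2
    have hyy' : f y = f y' := hyy
    rw [← h1, ← h2, hyy']
  · intro z hz
    obtain ⟨y, hy, rfl⟩ := Finset.mem_image.mp hz
    obtain ⟨⟨h1, h2⟩, h3⟩ := hf y hy
    exact ⟨h1, by rw [← h2, h3, hsw y hy]⟩


open AlgebraicCurve IntermediateField Fermat.Agent.S24

variable {F : Type u} [Field F] [Algebra ℂ F]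

lemma adjoin_sub (x : F) (a : ℂ) : ℂ⟮x - algebraMap ℂ F a⟯ = ℂ⟮x⟯ := by
  apply le_antisymm
  · rw [adjoin_simple_le_iff]
    exact sub_mem (mem_adjoin_simple_self ℂ x) (IntermediateField.algebraMap_mem _ a)
  · rw [adjoin_simple_le_iff]
    have h1 : (x - algebraMap ℂ F a) + algebraMap ℂ F a ∈ ℂ⟮x - algebraMap ℂ F a⟯ :=
      add_mem (mem_adjoin_simple_self ℂ _) (IntermediateField.algebraMap_mem _ a)
    simpa using h1

lemma transcendental_sub {x : F} (hx : Transcendental ℂ x) (a : ℂ) :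
    Transcendental ℂ (x - algebraMap ℂ F a) := by
  intro h
  apply hx
  have h1 : x = (x - algebraMap ℂ F a) + algebraMap ℂ F a := by ring
  rw [h1]
  exact h.add (isAlgebraic_algebraMap a)

lemma sub_ne {x : F} (hx : Transcendental ℂ x) (a : ℂ) : x - algebraMap ℂ F a ≠ 0 := fun h =>
  transcendental_sub hx a (h ▸ isAlgebraic_zero)

lemma finiteDimensional_sub (x : F) [h : FiniteDimensional ℂ⟮x⟯ F] (a : ℂ) :
    FiniteDimensional ℂ⟮x - algebraMap ℂ F a⟯ F := by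
  rw [adjoin_sub]; exact h

lemma sum_ord (x : F) (hx : Transcendental ℂ x) [FiniteDimensional ℂ⟮x⟯ F] (b : ℂ) :
    ∃ hfin : (zeroPlaces (K := ℂ) (x - algebraMap ℂ F b)).Finite,
      ∑ v ∈ hfin.toFinset, v.ord (x - algebraMap ℂ F b) = (Module.finrank ℂ⟮x⟯ F : ℤ) := by
  have := finiteDimensional_sub x b
  obtain ⟨hfin, h⟩ := exists_sum_ord_zeroPlaces (K := ℂ) (x - algebraMap ℂ F b)
    (transcendental_sub hx b)
  refine ⟨hfin, ?_⟩
  rw [h, adjoin_sub]

lemma ord_pos_of_evalAt {x : F} (hx : Transcendental ℂ x) [FiniteDimensional ℂ⟮x⟯ F]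
    (v : Place ℂ F) (a w : ℂ) (hreg : RegularAt v (x - algebraMap ℂ F a))
    (hw : evalAt v (x - algebraMap ℂ F a) = w) : 0 < v.ord (x - algebraMap ℂ F (a + w)) := by
  have := finiteDimensional_sub x a
  have hy0 := sub_ne hx a
  have hmem : x - algebraMap ℂ F a ∈ v.toValuationSubring :=
    mem_of_ord_nonneg v hy0 (hreg.resolve_left hy0)
  obtain ⟨c, hc⟩ := exists_ord_sub_pos (x - algebraMap ℂ F a) (transcendental_sub hx a) v hmem
  have hex : ∃ a' : ℂ, VanishesAt v (x - algebraMap ℂ F a - algebraMap ℂ F a') := ⟨c, Or.inr hc⟩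
  have hspec := hex.choose_spec
  have hev : evalAt v (x - algebraMap ℂ F a) = hex.choose := by
    unfold evalAt
    rw [dif_pos hex]
  rw [← hev, hw] at hspec
  have e1 : x - algebraMap ℂ F a - algebraMap ℂ F w = x - algebraMap ℂ F (a + w) := by
    rw [map_add]; ring
  rw [e1] at hspec
  exact hspec.resolve_left (sub_ne hx _)

lemma chart_inj {r : ℝ} {P : ℂ → Place ℂ F} {t : F} (h : IsChart r P t) {c c' : ℂ}
    (hc : ‖c‖ < r) (hc' : ‖c'‖ < r) (hP : P c = P c') : c = c' := by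
  by_contra hne
  have h1 := h.ord_t c hc
  have h2 := h.ord_t c' hc'
  rw [← hP] at h2
  have hf : t - algebraMap ℂ F c ≠ 0 := by
    intro h0; rw [h0, Place.ord_zero] at h1; omega
  have hg : t - algebraMap ℂ F c' ≠ 0 := by
    intro h0; rw [h0, Place.ord_zero] at h2; omega
  have hd : algebraMap ℂ F (c' - c) ≠ 0 := by
    have : c' - c ≠ 0 := sub_ne_zero.mpr (Ne.symm hne)
    exact (map_ne_zero (algebraMap ℂ F)).mpr this
  have hsum : (t - algebraMap ℂ F c) + -(t - algebraMap ℂ F c') = algebraMap ℂ F (c' - c) := by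
    rw [map_sub]; ring
  have h3 := ord_add_ge (P c) hf (neg_ne_zero.mpr hg) (by rw [hsum]; exact hd)
  rw [hsum, ord_algebraMap, place_ord_neg, h1, h2] at h3
  simp at h3

lemma eventually_regular {r : ℝ} {P : ℂ → Place ℂ F} {t : F} (h : IsChart r P t) (f : F)
    (hf : f ≠ 0) (h0 : RegularAt (P 0) f) : ∀ᶠ z in 𝓝 (0 : ℂ), RegularAt (P z) f := by
  have hA : AnalyticAt ℂ (fun z => evalAt (P z) f) 0 :=
    h.analytic f 0 (by simpa using h.r_pos) h0
  have h1 : ∀ᶠ z in 𝓝 (0 : ℂ), ‖z‖ < r := by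
    filter_upwards [Metric.ball_mem_nhds (0 : ℂ) h.r_pos] with z hz
    simpa using hz
  filter_upwards [hA.eventually_analyticAt, h1] with z hz1 hz2
  have h2 := h.order f hf z hz2
  have h3 := hz1.meromorphicOrderAt_nonneg
  rw [h2] at h3
  exact Or.inr (by exact_mod_cast h3)

lemma analyticOrder_eq {r : ℝ} {P : ℂ → Place ℂ F} {t : F} (h : IsChart r P t) (f : F)
    (hf : f ≠ 0) (hpos : 0 < (P 0).ord f) :
    AnalyticAt ℂ (fun z => evalAt (P z) f) 0 ∧
    analyticOrderAt (fun z => evalAt (P z) f) 0 = (((P 0).ord f).toNat : ℕ) := by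
  have hA : AnalyticAt ℂ (fun z => evalAt (P z) f) 0 :=
    h.analytic f 0 (by simpa using h.r_pos) (Or.inr hpos.le)
  refine ⟨hA, ?_⟩
  have h2 := h.order f hf 0 (by simpa using h.r_pos)
  rw [hA.meromorphicOrderAt_eq] at h2
  cases hn : analyticOrderAt (fun z => evalAt (P z) f) 0 with
  | top => rw [hn] at h2; simp at h2
  | coe n =>
    rw [hn] at h2
    have h3 : ((n : ℤ) : WithTop ℤ) = (((P 0).ord f : ℤ) : WithTop ℤ) := by simpa using h2
    have h4 : (n : ℤ) = (P 0).ord f := by exact_mod_cast h3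
    have h5 : n = ((P 0).ord f).toNat := by omega
    rw [h5]

lemma exists_pos_le {α : Type*} (s : Finset α) (f : α → ℝ) (hf : ∀ a ∈ s, 0 < f a) :
    ∃ ε > 0, ∀ a ∈ s, ε ≤ f a := by
  classical
  induction s using Finset.induction with
  | empty => exact ⟨1, one_pos, by simp⟩
  | insert a s _ ih =>
    obtain ⟨ε, hε, h⟩ := ih fun b hb => hf b (Finset.mem_insert_of_mem hb)
    refine ⟨min ε (f a), lt_min hε (hf a (Finset.mem_insert_self _ _)), fun b hb => ?_⟩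
    rcases Finset.mem_insert.mp hb with rfl | hb
    · exact min_le_right _ _
    · exact (min_le_left _ _).trans (h b hb)


lemma exists_uniform {α : Type*} (s : Finset α) (p : α → ℝ → Prop)
    (hmono : ∀ a ρ ρ', ρ' ≤ ρ → p a ρ → p a ρ') (h : ∀ a ∈ s, ∃ ρ > 0, p a ρ) :
    ∃ ρ > 0, ∀ a ∈ s, p a ρ := by
  classical
  induction s using Finset.induction with
  | empty => exact ⟨1, one_pos, by simp⟩
  | insert a s _ ih =>
    obtain ⟨ε, hε, h1⟩ := ih fun b hb => h b (Finset.mem_insert_of_mem hb)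
    obtain ⟨ε', hε', h2⟩ := h a (Finset.mem_insert_self _ _)
    refine ⟨min ε ε', lt_min hε hε', fun b hb => ?_⟩
    rcases Finset.mem_insert.mp hb with rfl | hb
    · exact hmono _ _ _ (min_le_right _ _) h2
    · exact hmono _ _ _ (min_le_left _ _) (h1 b hb)

end C1

open C1 AlgebraicCurve IntermediateField Fermat.Agent.S24 Filter Topology in
theorem c1 (hSEP : Stmt_SEP.{u}) : Stmt_C1.{u} := by
  classical
  intro F _ _ x hx hfd a r P t hch
  have hFF : IsFF ℂ F := ⟨x, hx, hfd⟩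
  obtain ⟨hfinA, hsumA⟩ := sum_ord x hx a
  set ZA := hfinA.toFinset with hZA
  have memZA : ∀ Q, Q ∈ ZA ↔ 0 < Q.ord (x - algebraMap ℂ F a) := by
    intro Q
    rw [hZA, Set.Finite.mem_toFinset]
    rfl
  have hfa0 : x - algebraMap ℂ F a ≠ 0 := sub_ne hx a
  have hchart : ∀ Q ∈ ZA, IsChart (r Q) (P Q) (t Q) := fun Q hQ => (hch Q ((memZA Q).mp hQ)).1
  have hP0 : ∀ Q ∈ ZA, P Q 0 = Q := fun Q hQ => (hch Q ((memZA Q).mp hQ)).2
  -- separation radius
  obtain ⟨ρ1, hρ1, hsep⟩ : ∃ ρ > 0, ∀ QQ ∈ ZA ×ˢ ZA, (QQ.1 ≠ QQ.2 →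
      ∀ c c' : ℂ, ‖c‖ < ρ → ‖c'‖ < ρ → P QQ.1 c ≠ P QQ.2 c') := by
    apply exists_uniform
    · intro QQ ρ ρ' hρ h hne c c' hc hc'
      exact h hne c c' (lt_of_lt_of_le hc hρ) (lt_of_lt_of_le hc' hρ)
    · intro QQ hQQ
      obtain ⟨h1, h2⟩ := Finset.mem_product.mp hQQ
      by_cases hne : QQ.1 = QQ.2
      · exact ⟨1, one_pos, fun h => absurd hne h⟩
      · obtain ⟨ρ, hρ, h⟩ := hSEP F hFF _ _ _ _ _ _ (hchart _ h1) (hchart _ h2)
          (by rw [hP0 _ h1, hP0 _ h2]; exact hne)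
        exact ⟨ρ, hρ, fun _ => h⟩
  -- regularity radius
  obtain ⟨ρ2, hρ2, hreg⟩ : ∃ ρ > 0, ∀ Q ∈ ZA, (ρ ≤ r Q ∧
      ∀ z : ℂ, ‖z‖ < ρ → RegularAt (P Q z) (x - algebraMap ℂ F a)) := by
    apply exists_uniform
    · intro Q ρ ρ' hρ h
      exact ⟨hρ.trans h.1, fun z hz => h.2 z (lt_of_lt_of_le hz hρ)⟩
    · intro Q hQ
      have h0 : RegularAt (P Q 0) (x - algebraMap ℂ F a) := by
        rw [hP0 Q hQ]; exact Or.inr ((memZA Q).mp hQ).le
      obtain ⟨ε, hε, h⟩ := Metric.eventually_nhds_iff.mp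
        (eventually_regular (hchart Q hQ) _ hfa0 h0)
      refine ⟨min ε (r Q), lt_min hε (hchart Q hQ).r_pos, min_le_right _ _, fun z hz => ?_⟩
      exact h (by simpa using lt_of_lt_of_le hz (min_le_left _ _))
  set ρ := min ρ1 ρ2 with hρdef
  have hρ : 0 < ρ := lt_min hρ1 hρ2
  -- the local mapping degree
  obtain ⟨δ, hδ, hpre⟩ : ∃ δ > 0, ∀ Q ∈ ZA, (∀ w : ℂ, w ≠ 0 → ‖w‖ < δ →
      ∃ s : Finset ℂ, s.card = (Q.ord (x - algebraMap ℂ F a)).toNat ∧
        ∀ z ∈ s, ‖z‖ < ρ ∧ evalAt (P Q z) (x - algebraMap ℂ F a) = w) := by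
    apply exists_uniform
    · intro Q δ δ' hδ h w hw hwδ
      exact h w hw (lt_of_lt_of_le hwδ hδ)
    · intro Q hQ
      have hpos : 0 < (P Q 0).ord (x - algebraMap ℂ F a) := by
        rw [hP0 Q hQ]; exact (memZA Q).mp hQ
      obtain ⟨hA, hord⟩ := analyticOrder_eq (hchart Q hQ) _ hfa0 hpos
      have he0 : ((P Q 0).ord (x - algebraMap ℂ F a)).toNat ≠ 0 := by omega
      obtain ⟨δ, hδ, h⟩ := exists_preimages hA hord he0 ρ hρ
      refine ⟨δ, hδ, ?_⟩
      rw [hP0 Q hQ] at h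
      exact h
  refine ⟨δ, hδ, fun b hb => ?_⟩
  by_cases hba : b = a
  · subst hba
    refine ⟨id, fun v hv => ⟨hv, 0, ?_, ?_⟩, fun Q hQ => ?_⟩
    · simpa using (hch v hv).1.r_pos
    · exact (hch v hv).2.symm
    · have hset : {v : Place ℂ F | 0 < v.ord (x - algebraMap ℂ F b) ∧ id v = Q} = {Q} := by
        ext v
        simp only [Set.mem_ofPred_eq, id, Set.mem_singleton_iff]
        constructor
        · exact fun h => h.2
        · rintro rfl; exact ⟨hQ, rfl⟩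
      rw [hset, finsum_mem_singleton]
  -- the case `b ≠ a`
  set w := b - a with hw
  have hw0 : w ≠ 0 := sub_ne_zero.mpr hba
  have haw : a + w = b := by rw [hw]; ring
  have hex : ∀ Q ∈ ZA, ∃ s : Finset ℂ, s.card = (Q.ord (x - algebraMap ℂ F a)).toNat ∧
      ∀ z ∈ s, ‖z‖ < ρ ∧ evalAt (P Q z) (x - algebraMap ℂ F a) = w :=
    fun Q hQ => hpre Q hQ w hw0 hb
  choose! s hs using hex
  set T : Place ℂ F → Finset (Place ℂ F) := fun Q => (s Q).image (P Q) with hT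
  obtain ⟨hfinB, hsumB⟩ := sum_ord x hx b
  set ZB := hfinB.toFinset with hZB
  have memZB : ∀ v, v ∈ ZB ↔ 0 < v.ord (x - algebraMap ℂ F b) := by
    intro v
    rw [hZB, Set.Finite.mem_toFinset]
    rfl
  have hTcard : ∀ Q ∈ ZA, (T Q).card = (Q.ord (x - algebraMap ℂ F a)).toNat := by
    intro Q hQ
    rw [hT]
    simp only
    rw [Finset.card_image_of_injOn, (hs Q hQ).1]
    intro z hz z' hz' hzz
    have h1 := ((hs Q hQ).2 z hz).1
    have h2 := ((hs Q hQ).2 z' hz').1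
    have hr : ρ ≤ r Q := (min_le_right _ _).trans (hreg Q hQ).1
    exact chart_inj (hchart Q hQ) (lt_of_lt_of_le h1 hr) (lt_of_lt_of_le h2 hr) hzz
  have hTsub : ∀ Q ∈ ZA, T Q ⊆ ZB := by
    intro Q hQ v hv
    obtain ⟨z, hz, rfl⟩ := Finset.mem_image.mp hv
    obtain ⟨h1, h2⟩ := (hs Q hQ).2 z hz
    rw [memZB, ← haw]
    exact ord_pos_of_evalAt hx _ a w ((hreg Q hQ).2 z (lt_of_lt_of_le h1 (min_le_right _ _))) h2
  have hTdisj : ∀ Q ∈ ZA, ∀ Q' ∈ ZA, Q ≠ Q' → Disjoint (T Q) (T Q') := by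
    intro Q hQ Q' hQ' hne
    rw [Finset.disjoint_left]
    intro v hv hv'
    obtain ⟨z, hz, rfl⟩ := Finset.mem_image.mp hv
    obtain ⟨z', hz', hzz⟩ := Finset.mem_image.mp hv'
    have h1 := ((hs Q hQ).2 z hz).1
    have h2 := ((hs Q' hQ').2 z' hz').1
    exact hsep (Q, Q') (Finset.mem_product.mpr ⟨hQ, hQ'⟩) hne z z'
      (lt_of_lt_of_le h1 (min_le_left _ _)) (lt_of_lt_of_le h2 (min_le_left _ _)) hzz.symm
  set U := ZA.biUnion T with hU
  have hUcard : ((U.card : ℕ) : ℤ) = (Module.finrank ℂ⟮x⟯ F : ℤ) := by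
    rw [hU, Finset.card_biUnion (fun Q hQ Q' hQ' hne => hTdisj Q hQ Q' hQ' hne), ← hsumA]
    push_cast
    refine Finset.sum_congr rfl fun Q hQ => ?_
    rw [hTcard Q hQ]
    have := (memZA Q).mp hQ
    omega
  have hUsub : U ⊆ ZB := by
    intro v hv
    obtain ⟨Q, hQ, hvQ⟩ := Finset.mem_biUnion.mp hv
    exact hTsub Q hQ hvQ
  have hge1 : ∀ v ∈ ZB, 1 ≤ v.ord (x - algebraMap ℂ F b) := fun v hv => (memZB v).mp hv
  have hsplit := Finset.sum_sdiff (f := fun v : Place ℂ F => v.ord (x - algebraMap ℂ F b)) hUsub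
  have hlow1 : ((ZB \ U).card : ℤ) ≤ ∑ v ∈ ZB \ U, v.ord (x - algebraMap ℂ F b) := by
    have := Finset.card_nsmul_le_sum (ZB \ U) (fun v : Place ℂ F => v.ord (x - algebraMap ℂ F b)) 1
      (fun v hv => hge1 v (Finset.mem_sdiff.mp hv).1)
    simpa using this
  have hlow2 : (U.card : ℤ) ≤ ∑ v ∈ U, v.ord (x - algebraMap ℂ F b) := by
    have := Finset.card_nsmul_le_sum U (fun v : Place ℂ F => v.ord (x - algebraMap ℂ F b)) 1
      (fun v hv => hge1 v (hUsub hv))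
    simpa using this
  have hZBU : ZB \ U = ∅ := by
    rw [← Finset.card_eq_zero]
    have : ((ZB \ U).card : ℤ) ≤ 0 := by linarith
    omega
  have hZBeq : ZB = U := by
    apply Finset.Subset.antisymm _ hUsub
    exact Finset.sdiff_eq_empty_iff_subset.mp hZBU
  have hone : ∀ v ∈ U, v.ord (x - algebraMap ℂ F b) = 1 := by
    have hsum0 : ∑ v ∈ U, (v.ord (x - algebraMap ℂ F b) - 1) = 0 := by
      rw [Finset.sum_sub_distrib]
      rw [hZBU, Finset.sum_empty, zero_add] at hsplit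
      simp only [Finset.sum_const, nsmul_eq_mul, mul_one]
      linarith
    intro v hv
    have := (Finset.sum_eq_zero_iff_of_nonneg (fun v hv => by
      have := hge1 v (hUsub hv); omega)).mp hsum0 v hv
    omega
  -- the map `m`
  let m : Place ℂ F → Place ℂ F := fun v => if h : ∃ Q ∈ ZA, v ∈ T Q then h.choose else v
  have hm : ∀ v, (h : ∃ Q ∈ ZA, v ∈ T Q) → m v ∈ ZA ∧ v ∈ T (m v) := by
    intro v h
    have : m v = h.choose := dif_pos h
    rw [this]
    exact h.choose_spec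
  have hmuniq : ∀ Q ∈ ZA, ∀ v ∈ T Q, m v = Q := by
    intro Q hQ v hv
    obtain ⟨h1, h2⟩ := hm v ⟨Q, hQ, hv⟩
    by_contra hne
    exact Finset.disjoint_left.mp (hTdisj _ h1 Q hQ hne) h2 hv
  refine ⟨m, fun v hv => ?_, fun Q hQ => ?_⟩
  · have hvU : v ∈ U := hZBeq ▸ (memZB v).mpr hv
    obtain ⟨Q, hQ, hvQ⟩ := Finset.mem_biUnion.mp hvU
    obtain ⟨h1, h2⟩ := hm v ⟨Q, hQ, hvQ⟩
    refine ⟨(memZA _).mp h1, ?_⟩
    obtain ⟨z, hz, hzv⟩ := Finset.mem_image.mp h2
    refine ⟨z, ?_, hzv.symm⟩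
    exact lt_of_lt_of_le ((hs _ h1).2 z hz).1 ((min_le_right _ _).trans (hreg _ h1).1)
  · have hQA : Q ∈ ZA := (memZA Q).mpr hQ
    have hset : {v : Place ℂ F | 0 < v.ord (x - algebraMap ℂ F b) ∧ m v = Q} = ↑(T Q) := by
      ext v
      simp only [Set.mem_ofPred_eq, Finset.mem_coe]
      constructor
      · rintro ⟨h1, h2⟩
        have hvU : v ∈ U := hZBeq ▸ (memZB v).mpr h1
        obtain ⟨Q', hQ', hvQ'⟩ := Finset.mem_biUnion.mp hvU
        have := (hm v ⟨Q', hQ', hvQ'⟩).2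
        rwa [h2] at this
      · intro hv
        exact ⟨(memZB v).mp (hTsub Q hQA hv), hmuniq Q hQA v hv⟩
    rw [hset, finsum_mem_coe_finset,
      Finset.sum_congr rfl fun v hv => hone v (Finset.mem_biUnion.mpr ⟨Q, hQA, hv⟩)]
    simp only [Finset.sum_const, nsmul_eq_mul, mul_one]
    rw [hTcard Q hQA]
    omega

end Fermat.Agent.S27
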