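import Fermat.Agent.S27.Interface
import Fermat.Agent.S24.FundId
import Fermat.Agent.S24.DegPrincipalCore
import Fermat.Agent.S24.PlaceCases

/-!
# S27 / C2 : a clopen set of places carries degree `0` of every principal divisor
-/

set_option autoImplicit false

namespace Fermat.Agent.S27

open AlgebraicCurve IntermediateField

universe u

namespace C2

variable {F : Type u} [Field F] [Algebra ℂ F]

/-- number of zeros of `x - b` in `X`, with multiplicities -/
noncomputable def cnt (X : Set (Place ℂ F)) (x : F) (b : ℂ) : ℤ :=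
  ∑ᶠ v ∈ {v : Place ℂ F | v ∈ X ∧ 0 < v.ord (x - algebraMap ℂ F b)},
    v.ord (x - algebraMap ℂ F b)

theorem transcendental_sub {x : F} (hx : Transcendental ℂ x) (b : ℂ) :
    Transcendental ℂ (x - algebraMap ℂ F b) := by
  intro h
  apply hx
  have := h.add (isAlgebraic_algebraMap (A := F) b)
  simpa using this

theorem zeros_finite {x : F} (hx : Transcendental ℂ x) [FiniteDimensional ℂ⟮x⟯ F] (b : ℂ) :
    {v : Place ℂ F | 0 < v.ord (x - algebraMap ℂ F b)}.Finite := by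
  have h1 := transcendental_sub hx b
  have := S24.finiteDimensional_adjoin_simple_of_transcendental x hx _ h1
  exact S24.zeroPlaces_finite (K := ℂ) (x - algebraMap ℂ F b) h1

theorem cnt_locally (hC1 : Stmt_C1.{u}) {x : F} (hx : Transcendental ℂ x)
    [hfd : FiniteDimensional ℂ⟮x⟯ F]
    (X : Set (Place ℂ F)) (r : Place ℂ F → ℝ) (P : Place ℂ F → ℂ → Place ℂ F)
    (t : Place ℂ F → F)
    (hch : ∀ Q : Place ℂ F, IsChart (r Q) (P Q) (t Q) ∧ P Q 0 = Q)
    (hX : ∀ Q : Place ℂ F, ∀ c : ℂ, ‖c‖ < r Q → (P Q c ∈ X ↔ Q ∈ X)) (a : ℂ) :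
    ∃ δ > 0, ∀ b : ℂ, ‖b - a‖ < δ → cnt X x b = cnt X x a := by
  classical
  obtain ⟨δ, hδ, H⟩ := hC1 F x hx hfd a r P t (fun Q _ => hch Q)
  refine ⟨δ, hδ, fun b hb => ?_⟩
  obtain ⟨m, hm1, hm2⟩ := H b hb
  have hZb := zeros_finite hx b
  have hZa := zeros_finite hx a
  have hSb : {v : Place ℂ F | v ∈ X ∧ 0 < v.ord (x - algebraMap ℂ F b)}.Finite :=
    hZb.subset fun v hv => hv.2
  have hSa : {v : Place ℂ F | v ∈ X ∧ 0 < v.ord (x - algebraMap ℂ F a)}.Finite :=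
    hZa.subset fun v hv => hv.2
  unfold cnt
  rw [finsum_mem_eq_finite_toFinset_sum _ hSb, finsum_mem_eq_finite_toFinset_sum _ hSa]
  have hXm : ∀ v : Place ℂ F, 0 < v.ord (x - algebraMap ℂ F b) → (v ∈ X ↔ m v ∈ X) := by
    intro v hv
    obtain ⟨_, c, hc, hvc⟩ := hm1 v hv
    have := hX (m v) c hc
    rw [← hvc] at this
    exact this
  rw [← Finset.sum_fiberwise_of_maps_to (s := hSb.toFinset) (t := hSa.toFinset) (g := m)]
  · refine Finset.sum_congr rfl fun Q hQ => ?_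
    rw [Set.Finite.mem_toFinset] at hQ
    rw [← hm2 Q hQ.2]
    have hfin : {v : Place ℂ F | 0 < v.ord (x - algebraMap ℂ F b) ∧ m v = Q}.Finite :=
      hZb.subset fun v hv => hv.1
    rw [finsum_mem_eq_finite_toFinset_sum _ hfin]
    refine Finset.sum_congr ?_ fun _ _ => rfl
    ext v
    simp only [Finset.mem_filter, Set.Finite.mem_toFinset, Set.mem_ofPred_eq]
    constructor
    · rintro ⟨⟨_, h2⟩, h3⟩
      exact ⟨h2, h3⟩
    · rintro ⟨h2, h3⟩
      exact ⟨⟨(hXm v h2).2 (h3 ▸ hQ.1), h2⟩, h3⟩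
  · intro v hv
    rw [Set.Finite.mem_toFinset] at hv ⊢
    exact ⟨(hXm v hv.2).1 hv.1, (hm1 v hv.2).1⟩

theorem cnt_const (hC1 : Stmt_C1.{u}) {x : F} (hx : Transcendental ℂ x)
    [hfd : FiniteDimensional ℂ⟮x⟯ F]
    (X : Set (Place ℂ F)) (r : Place ℂ F → ℝ) (P : Place ℂ F → ℂ → Place ℂ F)
    (t : Place ℂ F → F)
    (hch : ∀ Q : Place ℂ F, IsChart (r Q) (P Q) (t Q) ∧ P Q 0 = Q)
    (hX : ∀ Q : Place ℂ F, ∀ c : ℂ, ‖c‖ < r Q → (P Q c ∈ X ↔ Q ∈ X)) (a b : ℂ) :
    cnt X x a = cnt X x b := by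
  have hlc : IsLocallyConstant (cnt X x) := by
    rw [IsLocallyConstant.iff_eventually_eq]
    intro a
    obtain ⟨δ, hδ, H⟩ := cnt_locally hC1 hx X r P t hch hX a
    rw [Metric.eventually_nhds_iff]
    exact ⟨δ, hδ, fun y hy => H y (by rwa [← dist_eq_norm])⟩
  exact hlc.apply_eq_of_preconnectedSpace a b

/-- at a zero of `x - c`, `c ≠ 0`, the function `x⁻¹ - c⁻¹` vanishes to the same order -/
theorem ord_inv_sub (v : Place ℂ F) {x : F} (hx0 : x ≠ 0) {c : ℂ} (hc : c ≠ 0)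
    (hxc : x - algebraMap ℂ F c ≠ 0) (h : 0 < v.ord (x - algebraMap ℂ F c)) :
    v.ord (x⁻¹ - algebraMap ℂ F c⁻¹) = v.ord (x - algebraMap ℂ F c) := by
  have hcF : algebraMap ℂ F c ≠ 0 := by simpa using hc
  have h0 : v.ord x = 0 := by
    have h1 : v.ord (algebraMap ℂ F c + (x - algebraMap ℂ F c)) = v.ord (algebraMap ℂ F c) :=
      S24.ord_add_eq_of_lt v hcF hxc (by rw [S24.ord_algebraMap]; exact h)
    rw [S24.ord_algebraMap] at h1
    simpa using h1
  have e : x⁻¹ - algebraMap ℂ F c⁻¹ =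
      -((x - algebraMap ℂ F c) * (x⁻¹ * (algebraMap ℂ F c)⁻¹)) := by
    rw [map_inv₀]
    field_simp
    ring
  rw [e, S24.place_ord_neg, v.ord_mul hxc (mul_ne_zero (inv_ne_zero hx0) (inv_ne_zero hcF)),
    v.ord_mul (inv_ne_zero hx0) (inv_ne_zero hcF), v.ord_inv, v.ord_inv, h0, S24.ord_algebraMap]
  ring

theorem cnt_inv (X : Set (Place ℂ F)) {x : F} (hx : Transcendental ℂ x) {c : ℂ} (hc : c ≠ 0) :
    cnt X x⁻¹ c⁻¹ = cnt X x c := by
  have hx0 : x ≠ 0 := fun h => hx (h ▸ isAlgebraic_zero)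
  have hxi := S24.transcendental_inv_of_transcendental hx
  have h1 : x - algebraMap ℂ F c ≠ 0 := fun h => transcendental_sub hx c (h ▸ isAlgebraic_zero)
  have h2 : x⁻¹ - algebraMap ℂ F c⁻¹ ≠ 0 :=
    fun h => transcendental_sub hxi c⁻¹ (h ▸ isAlgebraic_zero)
  have key : ∀ v : Place ℂ F, 0 < v.ord (x⁻¹ - algebraMap ℂ F c⁻¹) →
      v.ord (x - algebraMap ℂ F c) = v.ord (x⁻¹ - algebraMap ℂ F c⁻¹) := by
    intro v hv
    have := ord_inv_sub v (inv_ne_zero hx0) (inv_ne_zero hc) h2 hv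
    simpa using this
  unfold cnt
  have hset : {v : Place ℂ F | v ∈ X ∧ 0 < v.ord (x⁻¹ - algebraMap ℂ F c⁻¹)} =
      {v : Place ℂ F | v ∈ X ∧ 0 < v.ord (x - algebraMap ℂ F c)} := by
    ext v
    simp only [Set.mem_ofPred_eq]
    constructor
    · rintro ⟨hvX, hv⟩
      exact ⟨hvX, by rw [key v hv]; exact hv⟩
    · rintro ⟨hvX, hv⟩
      exact ⟨hvX, by rw [ord_inv_sub v hx0 hc h1 hv]; exact hv⟩
  rw [hset]
  exact finsum_mem_congr rfl fun v hv => ord_inv_sub v hx0 hc h1 hv.2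

end C2

open C2 in
/-- **C2**: a clopen set of places carries degree `0` of every principal divisor. -/
theorem c2 (hC1 : Stmt_C1.{u}) : Stmt_C2.{u} := by
  intro F _ _ hFF X r P t hch hX f hf
  by_cases hfa : IsAlgebraic ℂ f
  · -- constants
    obtain ⟨a, rfl⟩ : ∃ a : ℂ, algebraMap ℂ F a = f := by
      have hint : IsIntegral ℂ f := hfa.isIntegral
      have h1 : (minpoly ℂ f).degree = 1 :=
        IsAlgClosed.degree_eq_one_of_irreducible ℂ (minpoly.irreducible hint)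
      have h2 := minpoly.mem_range_of_degree_eq_one ℂ f h1
      exact h2
    simp [S24.ord_algebraMap]
  · have hft : Transcendental ℂ f := hfa
    obtain ⟨x, hx, hfd⟩ := hFF
    have hfdf : FiniteDimensional ℂ⟮f⟯ F :=
      S24.finiteDimensional_adjoin_simple_of_transcendental x hx f hft
    have hfi := S24.transcendental_inv_of_transcendental hft
    have hfdi : FiniteDimensional ℂ⟮f⁻¹⟯ F :=
      S24.finiteDimensional_adjoin_simple_of_transcendental x hx f⁻¹ hfi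
    -- the two counts agree
    have e1 : cnt X f 0 = cnt X f 1 := cnt_const hC1 hft X r P t hch hX 0 1
    have e2 : cnt X f⁻¹ 0 = cnt X f⁻¹ 1 := cnt_const hC1 hfi X r P t hch hX 0 1
    have e3 : cnt X f⁻¹ 1 = cnt X f 1 := by
      have := cnt_inv X hft (c := 1) one_ne_zero
      simpa using this
    have hA : {v : Place ℂ F | v ∈ X ∧ 0 < v.ord f}.Finite := by
      have := zeros_finite hft 0
      simp only [map_zero, sub_zero] at this
      exact this.subset fun v hv => hv.2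
    have hB : {v : Place ℂ F | v ∈ X ∧ 0 < v.ord f⁻¹}.Finite := by
      have := zeros_finite hfi 0
      simp only [map_zero, sub_zero] at this
      exact this.subset fun v hv => hv.2
    have hsplit : X ∩ Function.support (fun v : Place ℂ F => v.ord f) =
        {v : Place ℂ F | v ∈ X ∧ 0 < v.ord f} ∪ {v : Place ℂ F | v ∈ X ∧ 0 < v.ord f⁻¹} := by
      ext v
      simp only [Set.mem_inter_iff, Function.mem_support, Set.mem_union, Set.mem_ofPred_eq,
        Place.ord_inv]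
      constructor
      · rintro ⟨h1, h2⟩
        rcases lt_or_gt_of_ne h2 with h | h
        · exact Or.inr ⟨h1, by omega⟩
        · exact Or.inl ⟨h1, h⟩
      · rintro (⟨h1, h2⟩ | ⟨h1, h2⟩)
        · exact ⟨h1, by omega⟩
        · exact ⟨h1, by omega⟩
    have hdisj : Disjoint {v : Place ℂ F | v ∈ X ∧ 0 < v.ord f}
        {v : Place ℂ F | v ∈ X ∧ 0 < v.ord f⁻¹} := by
      rw [Set.disjoint_left]
      rintro v ⟨_, h1⟩ ⟨_, h2⟩
      rw [Place.ord_inv] at h2
      omega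
    rw [← finsum_mem_inter_support, hsplit, finsum_mem_union hdisj hA hB]
    have c0 : cnt X f 0 = ∑ᶠ v ∈ {v : Place ℂ F | v ∈ X ∧ 0 < v.ord f}, v.ord f := by
      simp [cnt]
    have c1 : cnt X f⁻¹ 0 = ∑ᶠ v ∈ {v : Place ℂ F | v ∈ X ∧ 0 < v.ord f⁻¹}, v.ord f⁻¹ := by
      simp only [cnt, map_zero, sub_zero]
    have c2' : ∑ᶠ v ∈ {v : Place ℂ F | v ∈ X ∧ 0 < v.ord f⁻¹}, v.ord f =
        - ∑ᶠ v ∈ {v : Place ℂ F | v ∈ X ∧ 0 < v.ord f⁻¹}, v.ord f⁻¹ := by
      rw [← finsum_mem_neg_distrib _ hB]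
      exact finsum_mem_congr rfl fun v _ => by rw [Place.ord_inv, neg_neg]
    rw [c2', ← c0, ← c1, e1, e2, e3, add_neg_cancel]

end Fermat.Agent.S27
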