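import Fermat.Agent.S27.Interface

/-!
# S27 : package COMPLEX

`Stmt_R0 → Stmt_RD → Stmt_EXP → Stmt_FIN → Stmt_CONN → Stmt_LAT → Stmt_COMPLEX` : the theorem over
`ℂ`, assembled from the exponential map, compactness, connectedness and the lattice count.
-/

set_option autoImplicit false

namespace Fermat.Agent.S27

open AlgebraicCurve IntermediateField

universe u

namespace COMPLEX

variable {F : Type u} [Field F] [Algebra ℂ F]

/-- degree of a divisor when all places have degree one -/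
theorem degree_eq_sum (hdeg : ∀ v : Place ℂ F, v.deg = 1) (D : Divisor ℂ F) :
    Divisor.degree D = ∑ v ∈ D.support, D v := by
  simp [Divisor.degree, Finsupp.sum, hdeg]

/-- projection of divisors to degree zero divisors, `D ↦ D - deg D • [Q₀]`. -/
noncomputable def proj (hdeg : ∀ v : Place ℂ F, v.deg = 1) (Q₀ : Place ℂ F) :
    Divisor ℂ F →+ Divisor.degZero (K := ℂ) (F := F) where
  toFun D := ⟨D - Divisor.degree D • Finsupp.single Q₀ 1, by
    rw [Divisor.mem_degZero, map_sub, map_zsmul, Divisor.degree_single, hdeg]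
    simp⟩
  map_zero' := by
    apply Subtype.ext
    simp
  map_add' D E := by
    apply Subtype.ext
    simp only [map_add, add_smul, AddSubgroup.coe_add]
    abel

theorem coe_proj (hdeg : ∀ v : Place ℂ F, v.deg = 1) (Q₀ : Place ℂ F) (D : Divisor ℂ F) :
    (proj hdeg Q₀ D : Divisor ℂ F) = D - Divisor.degree D • Finsupp.single Q₀ 1 := rfl

theorem coe_proj_single (hdeg : ∀ v : Place ℂ F, v.deg = 1) (Q₀ v : Place ℂ F) :
    (proj hdeg Q₀ (Finsupp.single v 1) : Divisor ℂ F)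
      = Finsupp.single v 1 - Finsupp.single Q₀ 1 := by
  rw [coe_proj, Divisor.degree_single, hdeg]
  simp

/-- the class map `D ↦ [D - deg D • Q₀]`. -/
noncomputable def cls (hdeg : ∀ v : Place ℂ F, v.deg = 1) (Q₀ : Place ℂ F) :
    Divisor ℂ F →+ Pic0 ℂ F :=
  (QuotientAddGroup.mk' _).comp (proj hdeg Q₀)

theorem cls_apply (hdeg : ∀ v : Place ℂ F, v.deg = 1) (Q₀ : Place ℂ F) (D : Divisor ℂ F) :
    cls hdeg Q₀ D = Pic0.mk (proj hdeg Q₀ D) := rfl

/-- equality of classes -/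
theorem mk_eq_mk_of_principal (D E : Divisor.degZero (K := ℂ) (F := F))
    (h : Divisor.IsPrincipal ((E : Divisor ℂ F) - (D : Divisor ℂ F))) :
    Pic0.mk D = Pic0.mk E := by
  refine (QuotientAddGroup.eq).mpr ?_
  rw [AddSubgroup.mem_addSubgroupOf, Divisor.mem_principal]
  have : ((-D + E : Divisor.degZero (K := ℂ) (F := F)) : Divisor ℂ F)
      = (E : Divisor ℂ F) - (D : Divisor ℂ F) := by
    simp only [AddSubgroup.coe_add, AddSubgroup.coe_neg]
    abel
  rw [this]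
  exact h

/-- abstract: a hom `E` hitting the generators `Φ (single v 1)` with bounded preimages hits the
image of any `D` with a preimage of norm `≤ (∑ |D v|) M`. -/
theorem exists_preimage {g : ℕ} {G : Type u} [AddCommGroup G] {ι : Type u}
    (E : (Fin g → ℂ) →+ G) (Φ : (ι →₀ ℤ) →+ G) (M : ℝ)
    (h : ∀ v : ι, ∃ a, ‖a‖ ≤ M ∧ E a = Φ (Finsupp.single v 1)) (D : ι →₀ ℤ) :
    ∃ a, ‖a‖ ≤ ((∑ v ∈ D.support, |D v| : ℤ) : ℝ) * M ∧ E a = Φ D := by
  choose b hb hEb using h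
  refine ⟨∑ v ∈ D.support, D v • b v, ?_, ?_⟩
  · push_cast
    rw [Finset.sum_mul]
    refine (norm_sum_le _ _).trans (Finset.sum_le_sum fun v _ => ?_)
    rw [norm_zsmul ℂ]
    have : ‖(D v : ℂ)‖ = |(D v : ℝ)| := by
      rw [← Complex.ofReal_intCast, Complex.norm_real, Real.norm_eq_abs]
    rw [this]
    exact mul_le_mul_of_nonneg_left (hb v) (abs_nonneg _)
  · rw [map_sum]
    conv_rhs => rw [← Finsupp.sum_single D]
    rw [Finsupp.sum, map_sum]
    refine Finset.sum_congr rfl fun v _ => ?_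
    rw [map_zsmul, hEb, ← map_zsmul]
    simp

/-- every degree zero divisor is equivalent to `D' - g • [Q₀]` with `D' ≥ 0` of degree `g`. -/
theorem exists_effective (hPD : HasPrincipalDivisors ℂ F) (hdeg : ∀ v : Place ℂ F, v.deg = 1)
    (hRR : ∀ D : Divisor ℂ F,
      (Module.finrank ℂ (riemannRochSpace D) : ℤ) - Module.finrank ℂ (H1 D)
          = Divisor.degree D + 1 - genusFF ℂ F)
    (Q₀ : Place ℂ F) (D : Divisor ℂ F) (hD : Divisor.degree D = 0) :
    ∃ D' : Divisor ℂ F, (∀ v, 0 ≤ D' v) ∧ Divisor.degree D' = genusFF ℂ F ∧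
      Divisor.IsPrincipal (D' - (genusFF ℂ F : ℤ) • Finsupp.single Q₀ 1 - D) := by
  set D1 : Divisor ℂ F := D + (genusFF ℂ F : ℤ) • Finsupp.single Q₀ 1 with hD1
  have hdegD1 : Divisor.degree D1 = genusFF ℂ F := by
    rw [hD1, map_add, hD, map_zsmul, Divisor.degree_single, hdeg]
    simp
  have hne : riemannRochSpace D1 ≠ ⊥ := by
    intro hbot
    have h := hRR D1
    rw [hbot, finrank_bot, hdegD1] at h
    have : (0 : ℤ) ≤ (Module.finrank ℂ (H1 D1) : ℤ) := Int.natCast_nonneg _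
    push_cast at h
    omega
  obtain ⟨f, hfmem, hf⟩ := Submodule.exists_mem_ne_zero_of_ne_bot hne
  obtain ⟨Df, hDf, hDf0⟩ := hPD.exists_divisor f hf
  refine ⟨D1 + Df, fun v => ?_, ?_, ⟨f, hf, fun v => ?_⟩⟩
  · have := (mem_riemannRochSpace_iff.mp hfmem v).resolve_left hf
    rw [Finsupp.add_apply, hDf]
    omega
  · rw [map_add, hdegD1, hDf0, add_zero]
  · rw [← hDf, hD1]
    congr 1
    abel

end COMPLEX

open COMPLEX in
/-- Package COMPLEX. -/
theorem complex (hR0 : Stmt_R0.{0, u}) (hRD : Stmt_RD.{0, u}) (hEXP : Stmt_EXP.{u})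
    (hFIN : Stmt_FIN.{u}) (hCONN : Stmt_CONN.{u}) (hLAT : Stmt_LAT.{u}) : Stmt_COMPLEX.{u} := by
  intro F _ _ hFF n hn
  obtain ⟨hPD, hdeg, hInf, -, -⟩ := hR0 ℂ F hFF
  obtain ⟨hfin, hRR, -, -⟩ := hRD ℂ F hFF
  have := hfin 0
  set g := genusFF ℂ F with hg
  let L : H1 (0 : Divisor ℂ F) ≃ₗ[ℂ] (Fin g → ℂ) :=
    (Module.finBasisOfFinrankEq ℂ (H1 (0 : Divisor ℂ F)) rfl).equivFun
  obtain ⟨E, hdisc, hch⟩ := hEXP F hFF g L
  choose r P t hchart hP0 M hM using hch
  obtain ⟨Q₀⟩ : Nonempty (Place ℂ F) := inferInstance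
  -- the key relation along a chart
  have hstep : ∀ (Q : Place ℂ F) (c : ℂ), ‖c‖ < r Q → ∃ a, ‖a‖ ≤ M Q ∧
      cls hdeg Q₀ (Finsupp.single (P Q c) 1) = E a + cls hdeg Q₀ (Finsupp.single Q 1) := by
    intro Q c hc
    obtain ⟨a, ha, hEa⟩ := hM Q c hc
    refine ⟨a, ha, ?_⟩
    rw [hEa (proj hdeg Q₀ (Finsupp.single (P Q c) 1) - proj hdeg Q₀ (Finsupp.single Q 1)) (by
      rw [AddSubgroup.coe_sub, coe_proj_single, coe_proj_single]
      abel)]
    rw [cls_apply, cls_apply, ← Pic0.mk_add, sub_add_cancel]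
  -- connectedness
  have hX : {v : Place ℂ F | cls hdeg Q₀ (Finsupp.single v 1) ∈ E.range} = Set.univ := by
    refine hCONN F hFF _ r P t (fun Q => ⟨hchart Q, hP0 Q⟩) ?_ ⟨Q₀, ?_⟩
    · intro Q c hc
      obtain ⟨a, -, ha⟩ := hstep Q c hc
      simp only [Set.mem_ofPred_eq]
      rw [ha]
      exact E.range.add_mem_cancel_left ⟨a, rfl⟩
    · simp only [Set.mem_ofPred_eq]
      have : cls hdeg Q₀ (Finsupp.single Q₀ 1) = 0 := by
        rw [cls_apply]
        have : proj hdeg Q₀ (Finsupp.single Q₀ 1) = 0 := by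
          apply Subtype.ext
          rw [coe_proj_single, sub_self]
          rfl
        rw [this, Pic0.mk_zero]
      rw [this]
      exact E.range.zero_mem
  have hall : ∀ Q : Place ℂ F, ∃ a, E a = cls hdeg Q₀ (Finsupp.single Q 1) := by
    intro Q
    have : Q ∈ {v : Place ℂ F | cls hdeg Q₀ (Finsupp.single v 1) ∈ E.range} := by
      rw [hX]; exact Set.mem_univ _
    exact this
  choose aQ haQ using hall
  -- compactness
  obtain ⟨S, hS⟩ := hFIN F hFF r P t (fun Q => ⟨hchart Q, hP0 Q⟩)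
  set M' : ℝ := ∑ Q ∈ S, (|M Q| + ‖aQ Q‖) with hM'
  have hbd : ∀ v : Place ℂ F, ∃ a, ‖a‖ ≤ M' ∧ E a = cls hdeg Q₀ (Finsupp.single v 1) := by
    intro v
    obtain ⟨Q, hQS, c, hc, rfl⟩ := hS v
    obtain ⟨a, ha, hEa⟩ := hstep Q c hc
    refine ⟨a + aQ Q, ?_, ?_⟩
    · calc ‖a + aQ Q‖ ≤ ‖a‖ + ‖aQ Q‖ := norm_add_le _ _
        _ ≤ |M Q| + ‖aQ Q‖ := by
          have := le_abs_self (M Q)
          linarith
        _ ≤ M' := Finset.single_le_sum (f := fun Q => |M Q| + ‖aQ Q‖)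
          (fun Q _ => add_nonneg (abs_nonneg _) (norm_nonneg _)) hQS
    · rw [map_add, haQ, hEa]
  -- bounded surjectivity
  have hsurj : ∃ R : ℝ, ∀ x : Pic0 ℂ F, ∃ a, ‖a‖ ≤ R ∧ E a = x := by
    refine ⟨(g : ℝ) * M', fun x => ?_⟩
    obtain ⟨D, rfl⟩ := Pic0.mk_surjective x
    obtain ⟨D', hpos, hdegD', hprin⟩ := exists_effective hPD hdeg hRR Q₀ (D : Divisor ℂ F) D.2
    obtain ⟨a, ha, hEa⟩ := exists_preimage E (cls hdeg Q₀) M' hbd D'
    refine ⟨a, ?_, ?_⟩
    · have : (∑ v ∈ D'.support, |D' v| : ℤ) = g := by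
        rw [← hdegD', degree_eq_sum hdeg]
        exact Finset.sum_congr rfl fun v _ => abs_of_nonneg (hpos v)
      rw [this] at ha
      exact_mod_cast ha
    · rw [hEa, cls_apply]
      refine (mk_eq_mk_of_principal _ _ ?_).symm
      rw [coe_proj, hdegD']
      exact hprin
  rw [← hLAT (Pic0 ℂ F) g E hdisc hsurj n hn]
  refine Nat.card_congr (Equiv.subtypeEquivRight fun x => ?_)
  rw [Pic0.mem_torsion, natCast_zsmul]

end Fermat.Agent.S27
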