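import Fermat.Agent.S27.Interface

/-!
# S27 / CONN : connectedness of the set of places (TRICK 3, second half)

Given a "clopen" set `X` of places with `Q₁ ∈ X`, `Q₂ ∉ X`, put `D = (g+1)[Q₁] - [Q₂]`
(degree `g`).  Riemann's theorem gives `f ≠ 0` in `L(D)`; `D' = D + div f ≥ 0` has degree `g`,
so its `X`-part has degree in `[0, g]`; but by `C2` the `X`-part of `div f` has degree `0` and the
`X`-part of `D` has degree `g + 1`.
-/

set_option autoImplicit false

namespace Fermat.Agent.S27

open AlgebraicCurve IntermediateField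

universe u

namespace CONN

variable {K : Type*} {F : Type*} [Field K] [Field F] [Algebra K F]

/-- the degree of a divisor when all places have degree one -/
theorem degree_eq_sum (hdeg : ∀ v : Place K F, v.deg = 1) (D : Divisor K F) :
    Divisor.degree D = D.sum fun _ n => n := by
  induction D using Finsupp.induction_linear with
  | zero => simp
  | add D E hD hE =>
    rw [map_add, hD, hE, Finsupp.sum_add_index' (fun _ => rfl) (fun _ _ _ => rfl)]
  | single v n => simp [hdeg v]

open Classical in
/-- the `X`-part of the degree -/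
noncomputable def chi (X : Set (Place K F)) (D : Divisor K F) : ℤ :=
  D.sum fun v n => if v ∈ X then n else 0

theorem chi_add (X : Set (Place K F)) (D E : Divisor K F) :
    chi X (D + E) = chi X D + chi X E := by
  classical
  unfold chi
  rw [Finsupp.sum_add_index' (fun _ => by simp) (fun v a b => by split_ifs <;> simp)]

theorem chi_single (X : Set (Place K F)) (v : Place K F) (n : ℤ) :
    chi X (Finsupp.single v n) = by classical exact if v ∈ X then n else 0 := by
  classical
  unfold chi
  rw [Finsupp.sum_single_index (by simp)]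

theorem chi_le_degree (hdeg : ∀ v : Place K F, v.deg = 1) (X : Set (Place K F))
    (D : Divisor K F) (hD : ∀ v, 0 ≤ D v) : chi X D ≤ Divisor.degree D := by
  classical
  rw [degree_eq_sum hdeg]
  unfold chi Finsupp.sum
  refine Finset.sum_le_sum fun v _ => ?_
  show (if v ∈ X then D v else 0) ≤ D v
  split_ifs
  · exact le_rfl
  · exact hD v

theorem chi_eq_finsum (X : Set (Place K F)) (D : Divisor K F) :
    chi X D = ∑ᶠ v ∈ X, D v := by
  classical
  unfold chi Finsupp.sum
  rw [finsum_mem_def]
  rw [finsum_eq_sum_of_support_subset (s := D.support)]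
  · refine Finset.sum_congr rfl fun v _ => ?_
    by_cases hv : v ∈ X <;> simp [hv, Set.indicator]
  · intro v hv
    rw [Function.mem_support] at hv
    rw [Finset.mem_coe, Finsupp.mem_support_iff]
    intro h0
    apply hv
    by_cases hv' : v ∈ X <;> simp [hv', Set.indicator, h0]

end CONN

open CONN in
theorem conn (hC2 : Stmt_C2.{u}) (hR0 : Stmt_R0.{0, u}) (hRD : Stmt_RD.{0, u}) :
    Stmt_CONN.{u} := by
  classical
  intro F _ _ hFF X r P t hch hX hne
  obtain ⟨hPD, hdeg, -, -, -⟩ := hR0 ℂ F hFF
  obtain ⟨hfin, hRR, -, -⟩ := hRD ℂ F hFF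
  have hC := hC2 F hFF X r P t hch hX
  obtain ⟨Q1, hQ1⟩ := hne
  by_contra hne'
  obtain ⟨Q2, hQ2⟩ : ∃ Q2, Q2 ∉ X := by
    by_contra h
    push Not at h
    exact hne' (Set.eq_univ_of_forall h)
  set g : ℕ := genusFF ℂ F with hg
  set D : Divisor ℂ F := Finsupp.single Q1 ((g : ℤ) + 1) + Finsupp.single Q2 (-1) with hD
  have hdegD : Divisor.degree D = g := by
    rw [hD, map_add, Divisor.degree_single, Divisor.degree_single, hdeg, hdeg]
    push_cast
    ring
  have hchiD : chi X D = (g : ℤ) + 1 := by
    rw [hD, chi_add, chi_single, chi_single]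
    simp [hQ1, hQ2]
  -- a nonzero element of `L(D)`
  have hpos : 0 < Module.finrank ℂ (riemannRochSpace D) := by
    have h := hRR D
    rw [hdegD] at h
    have h2 : (0 : ℤ) ≤ (Module.finrank ℂ (H1 D) : ℤ) := Int.natCast_nonneg _
    have : (0 : ℤ) < (Module.finrank ℂ (riemannRochSpace D) : ℤ) := by
      have : (Module.finrank ℂ (riemannRochSpace D) : ℤ)
          = 1 + (Module.finrank ℂ (H1 D) : ℤ) := by
        linarith
      omega
    exact_mod_cast this
  obtain ⟨⟨f, hfD⟩, hf0⟩ : ∃ y : riemannRochSpace D, y ≠ 0 := by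
    have : Nontrivial (riemannRochSpace D) := Module.nontrivial_of_finrank_pos hpos
    exact exists_ne 0
  have hf : f ≠ 0 := fun h => hf0 (Subtype.ext h)
  rw [mem_riemannRochSpace_iff] at hfD
  obtain ⟨Df, hDf, hDf0⟩ := hPD.exists_divisor f hf
  have hchiDf : chi X Df = 0 := by
    rw [chi_eq_finsum]
    simp only [hDf]
    exact hC f hf
  have hnonneg : ∀ v, 0 ≤ (D + Df) v := by
    intro v
    rw [Finsupp.add_apply, hDf]
    rcases hfD v with h | h
    · exact absurd h hf
    · linarith
  have hle := chi_le_degree hdeg X (D + Df) hnonneg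
  rw [chi_add, map_add, hchiD, hchiDf, hdegD, hDf0] at hle
  omega

end Fermat.Agent.S27
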