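import Fermat.Agent.S27.Interface

/-!
# S27, package COUNTABLE : the theorem for countable fields
-/

set_option autoImplicit false

namespace Fermat.Agent.S27

open AlgebraicCurve IntermediateField

universe u v

namespace COUNTABLE

/-- a divisor of degree zero whose class is killed by `n` has `n • D` principal -/
theorem isPrincipal_nsmul_of_mem_torsion {K F : Type*} [Field K] [Field F] [Algebra K F] {n : ℕ}
    (D : Divisor.degZero (K := K) (F := F)) (h : Pic0.mk D ∈ Pic0.torsion K F n) :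
    Divisor.IsPrincipal (n • (D : Divisor K F)) := by
  rw [Pic0.mem_torsion] at h
  have h1 : Pic0.mk ((n : ℤ) • D) = 0 := by
    rw [← h]
    rfl
  have h2 : ((n : ℤ) • D) ∈ (Divisor.principal (K := K) (F := F)).addSubgroupOf
      (Divisor.degZero (K := K) (F := F)) := (QuotientAddGroup.eq_zero_iff _).mp h1
  rw [AddSubgroup.mem_addSubgroupOf] at h2
  have h3 : (((n : ℤ) • D : Divisor.degZero (K := K) (F := F)) : Divisor K F) =
      n • (D : Divisor K F) := by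
    simp
  rw [h3] at h2
  exact h2

end COUNTABLE

theorem countable (hL1 : Stmt_L1.{u}) (hL3 : Stmt_L3.{u, v, 0}) (hL4 : Stmt_L4.{u, v, 0, v})
    (hL5 : Stmt_L5.{u, v}) (hPT : Stmt_PT.{u, v, 0, v}) (hC : Stmt_COMPLEX.{v}) :
    Stmt_COUNTABLE.{u, v} := by
  intro K₁ F₁ _ _ _ _ _ _ hFF n hn
  obtain ⟨ι⟩ := hL1 K₁
  let _ : Algebra K₁ ℂ := ι.toAlgebra
  obtain ⟨F₂, _, _, _, _, _, _, hext⟩ := hL3 K₁ F₁ ℂ
  have hyp : ConstExtHyp K₁ F₁ ℂ F₂ := ⟨inferInstance, inferInstance, inferInstance, hFF, hext⟩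
  obtain ⟨hFF₂, hgenus, φ, hφ⟩ := hL4 K₁ F₁ ℂ F₂ hyp
  have hcard := hC F₂ hFF₂ n hn
  have hfin : Finite (Pic0.torsion ℂ F₂ n) :=
    Nat.finite_of_card_ne_zero (by rw [hcard]; positivity)
  obtain ⟨Ψ, hinj, hsurj⟩ := hPT K₁ F₁ ℂ F₂ φ hφ n
  have hsurj' : Function.Surjective Ψ := by
    intro z
    obtain ⟨D₂, hD₂⟩ := Pic0.mk_surjective (z : Pic0 ℂ F₂)
    refine hsurj z D₂ hD₂.symm ?_
    exact hL5 K₁ F₁ F₂ hyp φ hφ n hn hfin (D₂ : Divisor ℂ F₂) D₂.2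
      (COUNTABLE.isPrincipal_nsmul_of_mem_torsion D₂ (hD₂ ▸ z.2))
  rw [Nat.card_congr (Equiv.ofBijective Ψ ⟨hinj, hsurj'⟩), hcard, hgenus]

end Fermat.Agent.S27
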