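/-
S27 package EXP, part 1 (helper11): the abstract "TRICK 2".
From a local Abel theorem for finite families of local maps `a Q : ℂ → V`, `ε Q : ℂ → G` one gets a
homomorphism `E : V →+ G` with `E (a Q c) = ε Q c` near `0`.
-/
import Fermat.Agent.S27.Interface

set_option autoImplicit false

universe u

namespace Fermat.Agent.S27

namespace EXP

section Abstract

variable {Pl : Type u} {G : Type u} [AddCommGroup G] {g : ℕ}

/-- total `V`-valued map of a family -/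
def uu (a : Pl → ℂ → (Fin g → ℂ)) {ι : Type} [Fintype ι] (q : ι → Pl) (c : ι → ℂ) : Fin g → ℂ :=
  ∑ i, a (q i) (c i)

/-- total `G`-valued map of a family -/
def ee (ε : Pl → ℂ → G) {ι : Type} [Fintype ι] (q : ι → Pl) (c : ι → ℂ) : G :=
  ∑ i, ε (q i) (c i)

variable (a : Pl → ℂ → (Fin g → ℂ)) (ε : Pl → ℂ → G)

lemma uu_zero (a0 : ∀ Q, a Q 0 = 0) {ι : Type} [Fintype ι] (q : ι → Pl) :
    uu a q (fun _ => 0) = 0 := by
  simp [uu, a0]

lemma ee_zero (ε0 : ∀ Q, ε Q 0 = 0) {ι : Type} [Fintype ι] (q : ι → Pl) :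
    ee ε q (fun _ => 0) = 0 := by
  simp [ee, ε0]

lemma uu_sum {ι κ : Type} [Fintype ι] [Fintype κ] (q : ι → Pl) (q' : κ → Pl) (c : ι → ℂ)
    (c' : κ → ℂ) : uu a (Sum.elim q q') (Sum.elim c c') = uu a q c + uu a q' c' := by
  simp [uu, Fintype.sum_sum_type]

lemma ee_sum {ι κ : Type} [Fintype ι] [Fintype κ] (q : ι → Pl) (q' : κ → Pl) (c : ι → ℂ)
    (c' : κ → ℂ) : ee ε (Sum.elim q q') (Sum.elim c c') = ee ε q c + ee ε q' c' := by
  simp [ee, Fintype.sum_sum_type]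

lemma uu_small (a0 : ∀ Q, a Q 0 = 0) (acont : ∀ Q, ContinuousAt (a Q) 0)
    {ι : Type} [Fintype ι] (q : ι → Pl) {η : ℝ} (hη : 0 < η) :
    ∃ ρ > 0, ∀ c : ι → ℂ, (∀ i, ‖c i‖ < ρ) → ‖uu a q c‖ < η := by
  have hc : ContinuousAt (fun c : ι → ℂ => uu a q c) 0 := by
    unfold uu
    refine tendsto_finsetSum _ fun i _ => ?_
    have h1 : ContinuousAt (fun c : ι → ℂ => c i) 0 := (continuous_apply i).continuousAt
    exact ContinuousAt.comp (f := fun c : ι → ℂ => c i) (g := a (q i)) (acont (q i)) h1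
  rw [Metric.continuousAt_iff] at hc
  obtain ⟨ρ, hρ, h⟩ := hc η hη
  refine ⟨ρ, hρ, fun c hcs => ?_⟩
  have h2 := h (x := c) (by rw [dist_zero_right]; exact (pi_norm_lt_iff hρ).2 hcs)
  have h3 : uu a q (0 : ι → ℂ) = 0 := uu_zero a a0 q
  rw [h3, dist_zero_right] at h2
  exact h2

/-- the local Abel theorem for the family `q` -/
def LAat {ι : Type} [Fintype ι] (q : ι → Pl) : Prop :=
  ∃ ρ > 0, ∀ c : ι → ℂ, (∀ i, ‖c i‖ < ρ) → (uu a q c = 0 ↔ ee ε q c = 0)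

/-- local surjectivity for the family `q` -/
def SURJat {ι : Type} [Fintype ι] (q : ι → Pl) : Prop :=
  ∀ ρ > 0, ∃ η > 0, ∀ v : Fin g → ℂ, ‖v‖ < η → ∃ c : ι → ℂ, (∀ i, ‖c i‖ < ρ) ∧ uu a q c = v

/-- `E` is compatible with the family `q` near `0` -/
def Compat (E : (Fin g → ℂ) →+ G) {ι : Type} [Fintype ι] (q : ι → Pl) : Prop :=
  ∃ ρ > 0, ∀ c : ι → ℂ, (∀ i, ‖c i‖ < ρ) → ee ε q c = E (uu a q c)

lemma compat_transfer (a0 : ∀ Q, a Q 0 = 0) (acont : ∀ Q, ContinuousAt (a Q) 0)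
    (E : (Fin g → ℂ) →+ G) {ι κ : Type} [Fintype ι] [Fintype κ] (qY : ι → Pl) (qX : κ → Pl)
    (hLA : LAat a ε (Sum.elim qY qX)) (hS : SURJat a qY) (hY : Compat a ε E qY) :
    Compat a ε E qX := by
  obtain ⟨ρ1, hρ1, h1⟩ := hLA
  obtain ⟨ρ2, hρ2, h2⟩ := hY
  obtain ⟨η, hη, h3⟩ := hS (min ρ1 ρ2) (lt_min hρ1 hρ2)
  obtain ⟨ρ3, hρ3, h4⟩ := uu_small a a0 acont qX hη
  refine ⟨min ρ1 ρ3, lt_min hρ1 hρ3, fun c hc => ?_⟩
  have hw : ‖-(uu a qX c)‖ < η := by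
    rw [norm_neg]; exact h4 c fun i => (hc i).trans_le (min_le_right _ _)
  obtain ⟨c', hc', hu⟩ := h3 _ hw
  have h5 := h1 (Sum.elim c' c) (by
    rintro (i | i)
    · exact (hc' i).trans_le (min_le_left _ _)
    · exact (hc i).trans_le (min_le_left _ _))
  rw [uu_sum, ee_sum, hu] at h5
  have h6 := h5.1 (by simp)
  have h7 := h2 c' fun i => (hc' i).trans_le (min_le_right _ _)
  rw [hu, map_neg] at h7
  rw [h7] at h6
  exact (neg_add_eq_zero.1 h6).symm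

lemma exists_E (hEXT : Stmt_EXT.{u}) (a0 : ∀ Q, a Q 0 = 0) (ε0 : ∀ Q, ε Q 0 = 0)
    (acont : ∀ Q, ContinuousAt (a Q) 0) {ι : Type} [Fintype ι] (qA qB qC : ι → Pl)
    (hLA : LAat a ε (Sum.elim qA (Sum.elim qB qC)))
    (hSA : SURJat a qA) (hSB : SURJat a qB) (hSC : SURJat a qC) :
    ∃ E : (Fin g → ℂ) →+ G, (∃ ρ > 0, ∀ v, E v = 0 → ‖v‖ < ρ → v = 0) ∧ Compat a ε E qA := by
  classical
  obtain ⟨ρ, hρ, h1⟩ := hLA
  have key : ∀ cA cB cC : ι → ℂ, (∀ i, ‖cA i‖ < ρ) → (∀ i, ‖cB i‖ < ρ) → (∀ i, ‖cC i‖ < ρ) →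
      (uu a qA cA + (uu a qB cB + uu a qC cC) = 0 ↔
        ee ε qA cA + (ee ε qB cB + ee ε qC cC) = 0) := by
    intro cA cB cC hA hB hC
    have := h1 (Sum.elim cA (Sum.elim cB cC)) (by
      rintro (i | i | i)
      · exact hA i
      · exact hB i
      · exact hC i)
    rwa [uu_sum, uu_sum, ee_sum, ee_sum] at this
  have hz : ∀ i : ι, ‖(fun _ : ι => (0 : ℂ)) i‖ < ρ := fun i => by simpa using hρ
  obtain ⟨ηA, hηA, sA⟩ := hSA ρ hρ
  obtain ⟨ηB, hηB, sB⟩ := hSB ρ hρ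
  obtain ⟨ηC, hηC, sC⟩ := hSC ρ hρ
  set η := min ηA (min ηB ηC) with hηdef
  have hη : 0 < η := lt_min hηA (lt_min hηB hηC)
  have leA : η ≤ ηA := min_le_left _ _
  have leB : η ≤ ηB := (min_le_right _ _).trans (min_le_left _ _)
  have leC : η ≤ ηC := (min_le_right _ _).trans (min_le_right _ _)
  -- relation between `A` and `B`, `A` and `C`
  have keyB : ∀ cA cB : ι → ℂ, (∀ i, ‖cA i‖ < ρ) → (∀ i, ‖cB i‖ < ρ) →
      (uu a qA cA + uu a qB cB = 0 ↔ ee ε qA cA + ee ε qB cB = 0) := by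
    intro cA cB hA hB
    have := key cA cB (fun _ => 0) hA hB hz
    rwa [uu_zero a a0, ee_zero ε ε0, add_zero, add_zero] at this
  have keyC : ∀ cA cC : ι → ℂ, (∀ i, ‖cA i‖ < ρ) → (∀ i, ‖cC i‖ < ρ) →
      (uu a qA cA + uu a qC cC = 0 ↔ ee ε qA cA + ee ε qC cC = 0) := by
    intro cA cC hA hC
    have := key cA (fun _ => 0) cC hA hz hC
    rwa [uu_zero a a0, ee_zero ε ε0, zero_add, zero_add] at this
  have keyA : ∀ cA : ι → ℂ, (∀ i, ‖cA i‖ < ρ) → (uu a qA cA = 0 ↔ ee ε qA cA = 0) := by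
    intro cA hA
    have := keyB cA (fun _ => 0) hA hz
    rwa [uu_zero a a0, ee_zero ε ε0, add_zero, add_zero] at this
  -- uniqueness
  have uniq : ∀ c c' : ι → ℂ, (∀ i, ‖c i‖ < ρ) → (∀ i, ‖c' i‖ < ρ) → uu a qA c = uu a qA c' →
      ‖uu a qA c‖ < η → ee ε qA c = ee ε qA c' := by
    intro c c' hc hc' hcc hn
    obtain ⟨cB, hcB, hu⟩ := sB (-(uu a qA c)) (by rw [norm_neg]; exact hn.trans_le leB)
    have e1 := (keyB c cB hc hcB).1 (by rw [hu]; simp)
    have e2 := (keyB c' cB hc' hcB).1 (by rw [hu, hcc]; simp)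
    exact add_right_cancel (e1.trans e2.symm)
  let e0 : (Fin g → ℂ) → G := fun v =>
    if h : ∃ c : ι → ℂ, (∀ i, ‖c i‖ < ρ) ∧ uu a qA c = v then ee ε qA h.choose else 0
  have e0_spec : ∀ c : ι → ℂ, (∀ i, ‖c i‖ < ρ) → ‖uu a qA c‖ < η →
      e0 (uu a qA c) = ee ε qA c := by
    intro c hc hn
    have h : ∃ c' : ι → ℂ, (∀ i, ‖c' i‖ < ρ) ∧ uu a qA c' = uu a qA c := ⟨c, hc, rfl⟩
    have : e0 (uu a qA c) = ee ε qA h.choose := dif_pos h
    rw [this]
    exact uniq _ _ h.choose_spec.1 hc h.choose_spec.2 (by rw [h.choose_spec.2]; exact hn)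
  have negB : ∀ cB : ι → ℂ, (∀ i, ‖cB i‖ < ρ) → ‖uu a qB cB‖ < η →
      ee ε qB cB = - e0 (-(uu a qB cB)) := by
    intro cB hcB hn
    obtain ⟨cA, hcA, hu⟩ := sA (-(uu a qB cB)) (by rw [norm_neg]; exact hn.trans_le leA)
    have e1 := (keyB cA cB hcA hcB).1 (by rw [hu]; simp)
    have e2 := e0_spec cA hcA (by rw [hu, norm_neg]; exact hn)
    rw [hu] at e2
    rw [e2]
    exact (neg_eq_of_add_eq_zero_right e1).symm ▸ (by simp)
  have negC : ∀ cC : ι → ℂ, (∀ i, ‖cC i‖ < ρ) → ‖uu a qC cC‖ < η →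
      ee ε qC cC = - e0 (-(uu a qC cC)) := by
    intro cC hcC hn
    obtain ⟨cA, hcA, hu⟩ := sA (-(uu a qC cC)) (by rw [norm_neg]; exact hn.trans_le leA)
    have e1 := (keyC cA cC hcA hcC).1 (by rw [hu]; simp)
    have e2 := e0_spec cA hcA (by rw [hu, norm_neg]; exact hn)
    rw [hu] at e2
    rw [e2]
    exact (neg_eq_of_add_eq_zero_right e1).symm ▸ (by simp)
  have pre : ∀ v w : Fin g → ℂ, ‖v‖ < η → ‖w‖ < η → ‖v + w‖ < η →
      e0 v + (- e0 (-w) + - e0 (v + w)) = 0 := by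
    intro v w hv hw hvw
    obtain ⟨cA, hcA, huA⟩ := sA v (hv.trans_le leA)
    obtain ⟨cB, hcB, huB⟩ := sB w (hw.trans_le leB)
    obtain ⟨cC, hcC, huC⟩ := sC (-(v + w)) (by rw [norm_neg]; exact hvw.trans_le leC)
    have e1 := (key cA cB cC hcA hcB hcC).1 (by rw [huA, huB, huC]; abel)
    have e2 := e0_spec cA hcA (by rw [huA]; exact hv)
    have e3 := negB cB hcB (by rw [huB]; exact hw)
    have e4 := negC cC hcC (by rw [huC, norm_neg]; exact hvw)
    rw [huA] at e2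
    rw [huB] at e3
    rw [huC, neg_neg] at e4
    rw [← e2, e3, e4] at e1
    exact e1
  have e00 : e0 0 = 0 := by
    have := e0_spec (fun _ => 0) hz (by rw [uu_zero a a0]; simpa using hη)
    rwa [uu_zero a a0, ee_zero ε ε0] at this
  have e0neg : ∀ w : Fin g → ℂ, ‖w‖ < η → e0 (-w) = - e0 w := by
    intro w hw
    have := pre 0 w (by simpa using hη) hw (by simpa using hw)
    rw [e00, zero_add, zero_add] at this
    have h2 : e0 (-w) + e0 w = 0 := by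
      have h3 := congrArg Neg.neg this
      simpa [add_comm] using h3
    exact eq_neg_of_add_eq_zero_left h2
  have e0add : ∀ v w : Fin g → ℂ, ‖v‖ < η → ‖w‖ < η → ‖v + w‖ < η →
      e0 (v + w) = e0 v + e0 w := by
    intro v w hv hw hvw
    have := pre v w hv hw hvw
    rw [e0neg w hw, neg_neg, ← add_assoc] at this
    exact (eq_of_add_neg_eq_zero this).symm
  obtain ⟨E, hE⟩ := hEXT G g e0 η hη e0add
  refine ⟨E, ⟨η, hη, fun v hv hn => ?_⟩, ?_⟩
  · obtain ⟨cA, hcA, huA⟩ := sA v (hn.trans_le leA)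
    have e2 := e0_spec cA hcA (by rw [huA]; exact hn)
    rw [huA, ← hE v hn, hv] at e2
    rw [← huA]
    exact (keyA cA hcA).2 e2.symm
  · obtain ⟨ρ', hρ', h4⟩ := uu_small a a0 acont qA hη
    refine ⟨min ρ ρ', lt_min hρ hρ', fun c hc => ?_⟩
    have hn := h4 c fun i => (hc i).trans_le (min_le_right _ _)
    rw [hE _ hn]
    exact (e0_spec c (fun i => (hc i).trans_le (min_le_left _ _)) hn).symm

/-- The abstract form of TRICK 2. -/
theorem abstract_exp (hEXT : Stmt_EXT.{u}) (a0 : ∀ Q, a Q 0 = 0) (ε0 : ∀ Q, ε Q 0 = 0)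
    (acont : ∀ Q, ContinuousAt (a Q) 0)
    (Good : ∀ (ι : Type) [Fintype ι], (ι → Pl) → Prop)
    (hLA : ∀ (ι : Type) [Fintype ι] (q : ι → Pl), Function.Injective q → Good ι q → LAat a ε q)
    (hSURJ : ∀ (ι : Type) [Fintype ι] (q : ι → Pl), Function.Injective q → Good ι q → SURJat a q)
    (hmono : ∀ (ι κ : Type) [Fintype ι] [Fintype κ] (q : ι → Pl) (q' : κ → Pl),
      Good ι q → Good (ι ⊕ κ) (Sum.elim q q'))
    (ι : Type) [Fintype ι] (q : ι ⊕ (ι ⊕ ι) → Pl) (hq : Function.Injective q)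
    (gA : Good ι (fun i => q (Sum.inl i))) (gB : Good ι (fun i => q (Sum.inr (Sum.inl i))))
    (gC : Good ι (fun i => q (Sum.inr (Sum.inr i)))) :
    ∃ E : (Fin g → ℂ) →+ G, (∃ ρ > 0, ∀ v, E v = 0 → ‖v‖ < ρ → v = 0) ∧
      ∀ Q, ∃ ρ > 0, ∀ c : ℂ, ‖c‖ < ρ → E (a Q c) = ε Q c := by
  set qA : ι → Pl := fun i => q (Sum.inl i) with hqA
  set qB : ι → Pl := fun i => q (Sum.inr (Sum.inl i)) with hqB
  set qC : ι → Pl := fun i => q (Sum.inr (Sum.inr i)) with hqC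
  have hqe : Sum.elim qA (Sum.elim qB qC) = q := by
    funext x
    rcases x with i | i | i <;> rfl
  have iA : Function.Injective qA := fun i j h => Sum.inl_injective (hq h)
  have iB : Function.Injective qB := fun i j h => Sum.inl_injective (Sum.inr_injective (hq h))
  have iC : Function.Injective qC := fun i j h => Sum.inr_injective (Sum.inr_injective (hq h))
  have hAB : ∀ i j, qA i ≠ qB j := fun i j h => by
    have := hq h
    simp at this
  obtain ⟨E, hker, hcA⟩ := exists_E a ε hEXT a0 ε0 acont qA qB qC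
    (hLA _ _ (by rw [hqe]; exact hq) (hmono _ _ _ _ gA))
    (hSURJ _ _ iA gA) (hSURJ _ _ iB gB) (hSURJ _ _ iC gC)
  have iAB : Function.Injective (Sum.elim qA qB) := by
    rintro (i | i) (j | j) h
    · exact congrArg _ (iA h)
    · exact absurd h (hAB i j)
    · exact absurd h.symm (hAB j i)
    · exact congrArg _ (iB h)
  have hcB : Compat a ε E qB := compat_transfer a ε a0 acont E qA qB
    (hLA _ _ iAB (hmono _ _ _ _ gA)) (hSURJ _ _ iA gA) hcA
  refine ⟨E, hker, fun Q => ?_⟩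
  -- a general step
  have step : ∀ qY : ι → Pl, Function.Injective qY → Good ι qY → Compat a ε E qY →
      (∀ i, qY i ≠ Q) → ∃ ρ > 0, ∀ c : ℂ, ‖c‖ < ρ → E (a Q c) = ε Q c := by
    intro qY iY gY hcY hne
    have iYQ : Function.Injective (Sum.elim qY (fun _ : Unit => Q)) := by
      rintro (i | i) (j | j) h
      · exact congrArg _ (iY h)
      · exact absurd h (hne i)
      · exact absurd h.symm (hne j)
      · rfl
    obtain ⟨ρ, hρ, h⟩ := compat_transfer a ε a0 acont E qY (fun _ : Unit => Q)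
      (hLA _ _ iYQ (hmono _ _ _ _ gY)) (hSURJ _ _ iY gY) hcY
    refine ⟨ρ, hρ, fun c hc => ?_⟩
    have := h (fun _ => c) (fun _ => hc)
    simpa [ee, uu] using this.symm
  by_cases hQ : ∃ i, qA i = Q
  · obtain ⟨i, rfl⟩ := hQ
    exact step qB iB gB hcB fun j h => hAB i j h.symm
  · exact step qA iA gA hcA fun i h => hQ ⟨i, h⟩

end Abstract

end EXP

end Fermat.Agent.S27
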