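/-
S27 package EXP, part 2 (helper11): the exponential map `H¹(0) → Pic⁰` (TRICK 2).
-/
import Fermat.Agent.S27.ExpAbstract

set_option autoImplicit false

universe u

namespace Fermat.Agent.S27

namespace EXP

open AlgebraicCurve

variable {F : Type u} [Field F] [Algebra ℂ F]

theorem isChart_mono {r r' : ℝ} {P : ℂ → Place ℂ F} {t : F} (h : IsChart r P t) (h0 : 0 < r')
    (hle : r' ≤ r) : IsChart r' P t where
  r_pos := h0
  ord_t c hc := h.ord_t c (hc.trans_le hle)
  mero f c hc := h.mero f c (hc.trans_le hle)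
  order f hf c hc := h.order f hf c (hc.trans_le hle)
  analytic f c hc := h.analytic f c (hc.trans_le hle)

/-- the degree zero divisor `[v] - [w]` -/
noncomputable def dz (hdeg : ∀ v : Place ℂ F, v.deg = 1) (v w : Place ℂ F) :
    Divisor.degZero (K := ℂ) (F := F) :=
  ⟨Finsupp.single v 1 - Finsupp.single w 1, by
    rw [Divisor.mem_degZero, map_sub, Divisor.degree_single, Divisor.degree_single, hdeg, hdeg]
    simp⟩

lemma mk_sum {ι : Type} [Fintype ι] (D : ι → Divisor.degZero (K := ℂ) (F := F)) :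
    Pic0.mk (∑ i, D i) = ∑ i, Pic0.mk (D i) :=
  map_sum (QuotientAddGroup.mk' ((Divisor.principal (K := ℂ) (F := F)).addSubgroupOf
    (Divisor.degZero (K := ℂ) (F := F)))) D Finset.univ

lemma mk_eq_zero_iff (D : Divisor.degZero (K := ℂ) (F := F)) :
    Pic0.mk D = 0 ↔ Divisor.IsPrincipal (D : Divisor ℂ F) := by
  unfold Pic0.mk
  rw [QuotientAddGroup.eq_zero_iff, AddSubgroup.mem_addSubgroupOf]
  rfl

lemma degree_sumPlaces (hdeg : ∀ v : Place ℂ F, v.deg = 1) {ι : Type} [Fintype ι]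
    (q : ι → Place ℂ F) : Divisor.degree (sumPlaces q) = Fintype.card ι := by
  unfold sumPlaces
  rw [map_sum]
  simp [hdeg]

lemma sumPlaces_sum {ι κ : Type} [Fintype ι] [Fintype κ] (q : ι → Place ℂ F)
    (q' : κ → Place ℂ F) : sumPlaces (Sum.elim q q') = sumPlaces q + sumPlaces q' := by
  simp [sumPlaces, Fintype.sum_sum_type]

lemma sumPlaces_nonneg {ι : Type} [Fintype ι] (q : ι → Place ℂ F) : 0 ≤ sumPlaces q := by
  unfold sumPlaces
  refine Finset.sum_nonneg fun i _ => ?_
  intro v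
  classical
  rw [Finsupp.single_apply]
  split_ifs <;> simp

end EXP

open AlgebraicCurve EXP in
/-- TRICK 2: the exponential map. -/
theorem exp (hR0 : Stmt_R0.{0, u}) (hRD : Stmt_RD.{0, u}) (hCH : Stmt_CH.{u}) (hPR : Stmt_PR.{u})
    (hLA : Stmt_LA.{u}) (hSURJ : Stmt_SURJ.{u}) (hEXT : Stmt_EXT.{u}) : Stmt_EXP.{u} := by
  intro F _ _ hFF g L
  obtain ⟨-, hdeg, hinf, -, -⟩ := hR0 ℂ F hFF
  obtain ⟨-, -, ⟨c0, hc0⟩, hmonoH⟩ := hRD ℂ F hFF
  -- fix a chart and an Abel-Jacobi map at every place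
  have hex : ∀ Q : Place ℂ F, ∃ (r : ℝ) (P : ℂ → Place ℂ F) (t : F) (U : ℂ → (Fin g → ℂ)),
      IsChart r P t ∧ P 0 = Q ∧ IsAJ L r P t U := by
    intro Q
    obtain ⟨r, P, t, h1, h2⟩ := hCH F hFF Q
    obtain ⟨U, hU⟩ := hPR F hFF g L r P t h1
    exact ⟨r, P, t, U, h1, h2, hU⟩
  choose r P t U hchart hcenter haj using hex
  -- the base data of a family
  let mkB : ∀ (ι : Type) [Fintype ι] (q : ι → Place ℂ F), Function.Injective q →
      Subsingleton (H1 (sumPlaces q)) → BaseData F g L ι := fun ι _ q hq h1 =>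
    { r := fun i => r (q i)
      P := fun i => P (q i)
      t := fun i => t (q i)
      U := fun i => U (q i)
      chart := fun i => hchart (q i)
      aj := fun i => haj (q i)
      inj := by simpa only [hcenter] using hq
      h1 := by simpa only [hcenter] using h1 }
  let a : Place ℂ F → ℂ → (Fin g → ℂ) := U
  let ε : Place ℂ F → ℂ → Pic0 ℂ F := fun Q c => Pic0.mk (dz hdeg (P Q c) Q)
  have a0 : ∀ Q, a Q 0 = 0 := fun Q => (haj Q).1
  have ε0 : ∀ Q, ε Q 0 = 0 := fun Q => by
    show Pic0.mk (dz hdeg (P Q 0) Q) = 0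
    rw [mk_eq_zero_iff]
    have : ((dz hdeg (P Q 0) Q : Divisor.degZero (K := ℂ) (F := F)) : Divisor ℂ F) = 0 := by
      simp [dz, hcenter]
    rw [this]
    exact (Divisor.principal (K := ℂ) (F := F)).zero_mem
  have acont : ∀ Q, ContinuousAt (a Q) 0 := fun Q =>
    ((haj Q).2 0 (by simpa using (hchart Q).r_pos)).continuousAt
  let Good : ∀ (ι : Type) [Fintype ι], (ι → Place ℂ F) → Prop :=
    fun ι _ q => Subsingleton (H1 (sumPlaces q))
  have hLA' : ∀ (ι : Type) [Fintype ι] (q : ι → Place ℂ F), Function.Injective q → Good ι q →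
      LAat a ε q := by
    intro ι _ q hq hg
    obtain ⟨ρ, hρ, h⟩ := hLA F hFF g L ι (mkB ι q hq hg)
    refine ⟨ρ, hρ, fun c hc => ?_⟩
    have h1 := h c hc
    have h2 : (mkB ι q hq hg).u c = uu a q c := rfl
    have h3 : ee ε q c = Pic0.mk (∑ i, dz hdeg (P (q i) (c i)) (q i)) := (mk_sum _).symm
    have h4 : ((∑ i, dz hdeg (P (q i) (c i)) (q i) : Divisor.degZero (K := ℂ) (F := F)) :
        Divisor ℂ F) = (mkB ι q hq hg).div c := by
      rw [AddSubgroup.val_finsetSum]
      unfold BaseData.div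
      refine Finset.sum_congr rfl fun i _ => ?_
      show Finsupp.single (P (q i) (c i)) 1 - Finsupp.single (q i) 1
        = Finsupp.single (P (q i) (c i)) 1 - Finsupp.single (P (q i) 0) 1
      rw [hcenter]
    rw [h2] at h1
    rw [h1, h3, mk_eq_zero_iff, h4]
  have hSURJ' : ∀ (ι : Type) [Fintype ι] (q : ι → Place ℂ F), Function.Injective q → Good ι q →
      SURJat a q := by
    intro ι _ q hq hg
    exact hSURJ F hFF g L ι (mkB ι q hq hg)
  have hmono : ∀ (ι κ : Type) [Fintype ι] [Fintype κ] (q : ι → Place ℂ F) (q' : κ → Place ℂ F),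
      Good ι q → Good (ι ⊕ κ) (Sum.elim q q') := by
    intro ι κ _ _ q q' hg
    refine hmonoH _ _ ?_ hg
    rw [sumPlaces_sum]
    exact le_add_of_nonneg_right (sumPlaces_nonneg q')
  -- three disjoint good families
  let ι := Fin c0.toNat
  let emb : ι ⊕ (ι ⊕ ι) → Place ℂ F := fun x =>
    Infinite.natEmbedding (Place ℂ F) (Fintype.equivFin (ι ⊕ (ι ⊕ ι)) x : ℕ)
  have hemb : Function.Injective emb := by
    intro x y h
    have h1 := (Infinite.natEmbedding (Place ℂ F)).injective h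
    exact (Fintype.equivFin _).injective (Fin.val_injective h1)
  have hgood : ∀ q : ι → Place ℂ F, Good ι q := by
    intro q
    refine hc0 _ ?_
    rw [degree_sumPlaces hdeg]
    simp only [ι, Fintype.card_fin]
    exact Int.self_le_toNat c0
  obtain ⟨E, hker, hE⟩ := abstract_exp a ε hEXT a0 ε0 acont Good hLA' hSURJ' hmono ι emb hemb
    (hgood _) (hgood _) (hgood _)
  refine ⟨E, hker, fun Q => ?_⟩
  obtain ⟨ρ, hρ, h⟩ := hE Q
  have hc := acont Q
  rw [Metric.continuousAt_iff] at hc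
  obtain ⟨r1, hr1, h1⟩ := hc 1 one_pos
  refine ⟨min (r Q) (min ρ r1), P Q, t Q,
    isChart_mono (hchart Q) (lt_min (hchart Q).r_pos (lt_min hρ hr1)) (min_le_left _ _),
    hcenter Q, 1, fun c hc => ⟨a Q c, ?_, fun D hD => ?_⟩⟩
  · have h2 := h1 (x := c) (by
      rw [dist_zero_right]
      exact hc.trans_le ((min_le_right _ _).trans (min_le_right _ _)))
    rw [a0 Q, dist_zero_right] at h2
    exact h2.le
  · rw [h c (hc.trans_le ((min_le_right _ _).trans (min_le_left _ _)))]
    show Pic0.mk (dz hdeg (P Q c) Q) = Pic0.mk D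
    congr 1
    exact Subtype.ext hD.symm

end Fermat.Agent.S27
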