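/-
S27 package EXT (helper65): a locally additive map on a ball extends to a homomorphism.
-/
import Fermat.Agent.S27.Interface

set_option autoImplicit false

universe u

namespace Fermat.Agent.S27

namespace EXT

variable {V : Type*} [NormedAddCommGroup V] [NormedSpace ℝ V] {G : Type*} [AddCommGroup G]

lemma norm_inv_smul_le (a : V) {M : ℕ} (k : ℕ) (hk : k ≤ M) (hM : 0 < M) :
    ‖(k : ℝ) • ((M : ℝ)⁻¹ • a)‖ ≤ ‖a‖ := by
  rw [smul_smul, norm_smul]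
  have hM' : (0 : ℝ) < M := by exact_mod_cast hM
  have h1 : ‖(k : ℝ) * (M : ℝ)⁻¹‖ ≤ 1 := by
    rw [Real.norm_of_nonneg (by positivity), ← div_eq_mul_inv, div_le_one hM']
    exact_mod_cast hk
  calc ‖(k : ℝ) * (M : ℝ)⁻¹‖ * ‖a‖ ≤ 1 * ‖a‖ := by gcongr
    _ = ‖a‖ := one_mul _

/-- `e (k • c) = k • e c` as long as we stay in the ball. -/
lemma map_nsmul_small (e : V → G) (ρ : ℝ)
    (he : ∀ a b : V, ‖a‖ < ρ → ‖b‖ < ρ → ‖a + b‖ < ρ → e (a + b) = e a + e b)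
    (a : V) (ha : ‖a‖ < ρ) {M : ℕ} (hM : 0 < M) :
    ∀ k : ℕ, 1 ≤ k → k ≤ M → e ((k : ℝ) • ((M : ℝ)⁻¹ • a)) = k • e ((M : ℝ)⁻¹ • a) := by
  intro k hk1
  induction k, hk1 using Nat.le_induction with
  | base => intro _; simp
  | succ k hk1 ih =>
    intro hk
    have h1 := ih (by omega)
    have e1 : ((k + 1 : ℕ) : ℝ) • ((M : ℝ)⁻¹ • a)
        = (k : ℝ) • ((M : ℝ)⁻¹ • a) + (M : ℝ)⁻¹ • a := by
      push_cast
      rw [add_smul, one_smul]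
    have n1 : ‖(k : ℝ) • ((M : ℝ)⁻¹ • a)‖ < ρ :=
      lt_of_le_of_lt (norm_inv_smul_le a k (by omega) hM) ha
    have n2 : ‖(M : ℝ)⁻¹ • a‖ < ρ := by
      have := norm_inv_smul_le a 1 (by omega) hM
      simp only [Nat.cast_one, one_smul] at this
      exact lt_of_le_of_lt this ha
    have n3 : ‖(k : ℝ) • ((M : ℝ)⁻¹ • a) + (M : ℝ)⁻¹ • a‖ < ρ := by
      rw [← e1]
      exact lt_of_le_of_lt (norm_inv_smul_le a (k + 1) hk hM) ha
    rw [e1, he _ _ n1 n2 n3, h1, succ_nsmul]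

lemma eq_nsmul_div (e : V → G) (ρ : ℝ)
    (he : ∀ a b : V, ‖a‖ < ρ → ‖b‖ < ρ → ‖a + b‖ < ρ → e (a + b) = e a + e b)
    (a : V) (ha : ‖a‖ < ρ) {M : ℕ} (hM : 0 < M) : e a = M • e ((M : ℝ)⁻¹ • a) := by
  have h := map_nsmul_small e ρ he a ha hM M hM le_rfl
  have hM' : (M : ℝ) ≠ 0 := by exact_mod_cast hM.ne'
  rwa [smul_smul, mul_inv_cancel₀ hM', one_smul] at h

lemma well_defined (e : V → G) (ρ : ℝ)
    (he : ∀ a b : V, ‖a‖ < ρ → ‖b‖ < ρ → ‖a + b‖ < ρ → e (a + b) = e a + e b)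
    (a : V) {N N' : ℕ} (hN : 0 < N) (hN' : 0 < N') (h : ‖(N : ℝ)⁻¹ • a‖ < ρ)
    (h' : ‖(N' : ℝ)⁻¹ • a‖ < ρ) :
    N • e ((N : ℝ)⁻¹ • a) = N' • e ((N' : ℝ)⁻¹ • a) := by
  rw [eq_nsmul_div e ρ he _ h hN', eq_nsmul_div e ρ he _ h' hN, smul_smul, smul_smul, smul_smul,
    smul_smul, mul_comm N N', mul_comm (N' : ℝ)⁻¹]

/-- a denominator that brings `a` into the ball -/
noncomputable def den (ρ : ℝ) (a : V) : ℕ := ⌈‖a‖ / ρ⌉₊ + 1

lemma den_pos (ρ : ℝ) (a : V) : 0 < den ρ a := Nat.succ_pos _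

lemma norm_lt_of_den_le {ρ : ℝ} (hρ : 0 < ρ) (a : V) {N : ℕ} (hN : den ρ a ≤ N) :
    ‖(N : ℝ)⁻¹ • a‖ < ρ := by
  have h1 : ‖a‖ / ρ < N := by
    have h2 : ‖a‖ / ρ ≤ ⌈‖a‖ / ρ⌉₊ := Nat.le_ceil _
    have h3 : ((⌈‖a‖ / ρ⌉₊ + 1 : ℕ) : ℝ) ≤ N := by exact_mod_cast hN
    push_cast at h3
    linarith
  have hN0 : (0 : ℝ) < N := lt_of_le_of_lt (by positivity) h1
  rw [norm_smul, Real.norm_of_nonneg (by positivity), inv_mul_lt_iff₀ hN0]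
  rw [div_lt_iff₀ hρ] at h1
  linarith

theorem main (e : V → G) (ρ : ℝ) (hρ : 0 < ρ)
    (he : ∀ a b : V, ‖a‖ < ρ → ‖b‖ < ρ → ‖a + b‖ < ρ → e (a + b) = e a + e b) :
    ∃ E : V →+ G, ∀ a, ‖a‖ < ρ → E a = e a := by
  let E0 : V → G := fun a => den ρ a • e ((den ρ a : ℝ)⁻¹ • a)
  have hE0 : ∀ (a : V) (N : ℕ), den ρ a ≤ N → E0 a = N • e ((N : ℝ)⁻¹ • a) := by
    intro a N hN
    exact well_defined e ρ he a (den_pos ρ a) (lt_of_lt_of_le (den_pos ρ a) hN)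
      (norm_lt_of_den_le hρ a le_rfl) (norm_lt_of_den_le hρ a hN)
  have hadd : ∀ a b, E0 (a + b) = E0 a + E0 b := by
    intro a b
    set N := max (den ρ (a + b)) (max (den ρ a) (den ρ b)) with hN
    have h1 : den ρ (a + b) ≤ N := le_max_left _ _
    have h2 : den ρ a ≤ N := le_trans (le_max_left _ _) (le_max_right _ _)
    have h3 : den ρ b ≤ N := le_trans (le_max_right _ _) (le_max_right _ _)
    rw [hE0 _ N h1, hE0 _ N h2, hE0 _ N h3, smul_add,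
      he _ _ (norm_lt_of_den_le hρ a h2) (norm_lt_of_den_le hρ b h3)
        (by rw [← smul_add]; exact norm_lt_of_den_le hρ (a + b) h1), smul_add]
  refine ⟨AddMonoidHom.mk' E0 hadd, fun a ha => ?_⟩
  exact (eq_nsmul_div e ρ he a ha (den_pos ρ a)).symm

end EXT

theorem ext : Stmt_EXT.{u} := by
  intro G _ g e ρ hρ he
  exact EXT.main e ρ hρ he

end Fermat.Agent.S27
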