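import Fermat.Agent.S27.Interface
import Fermat.Agent.QInt.AutC

/-!
# S27, package L2 : a finite `Aut(ℂ/K₁)`-orbit consists of elements of `K₁`
-/

set_option autoImplicit false

namespace Fermat.Agent.S27

open Polynomial

universe u

namespace L2

/-- For `z` transcendental over a countable field `K₁ ⊆ ℂ` and `m : ℕ` there is a
`K₁`-automorphism of `ℂ` sending `z` to `z + m`. -/
theorem exists_algEquiv_add (K₁ : Type u) [Field K₁] [Countable K₁] [Algebra K₁ ℂ] (z : ℂ)
    (hz : Transcendental K₁ z) (m : ℕ) : ∃ σ : ℂ ≃ₐ[K₁] ℂ, σ z = z + m := by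
  -- replace `K₁` by its image, which lives in `Type`
  let k : Subfield ℂ := (algebraMap K₁ ℂ).fieldRange
  have hk : Countable k := by
    have : Countable (Set.range (algebraMap K₁ ℂ)) := Set.countable_range _ |>.to_subtype
    exact this
  have hkX : Countable k[X] := by
    rw [← Cardinal.mk_le_aleph0_iff]
    exact (Polynomial.cardinalMk_le_max).trans (by simp)
  have key : ∀ w : ℂ, Transcendental K₁ w → Transcendental k w := by
    intro w hw halg
    apply hw
    obtain ⟨p, hp0, hp⟩ := halg
    -- lift the coefficients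
    have hsurj : Function.Surjective (algebraMap K₁ ℂ).rangeRestrictField :=
      (algebraMap K₁ ℂ).rangeRestrictField_bijective.2
    obtain ⟨q, rfl⟩ := Polynomial.map_surjective _ hsurj p
    refine ⟨q, fun h => hp0 (by rw [h, Polynomial.map_zero]), ?_⟩
    rw [aeval_def, eval₂_map] at hp
    rw [aeval_def]
    exact hp
  have hz1 : Transcendental K₁ (z + m) := by
    intro hcon
    apply hz
    have := hcon.sub (isAlgebraic_natCast (R := K₁) (A := ℂ) m)
    simpa using this
  obtain ⟨σ, hσ⟩ := QInt.exists_ringEquiv_of_injective (R := k[X])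
    (aeval z : k[X] →ₐ[k] ℂ).toRingHom (aeval (z + m) : k[X] →ₐ[k] ℂ).toRingHom
    (transcendental_iff_injective.1 (key z hz)) (transcendental_iff_injective.1 (key _ hz1))
  refine ⟨AlgEquiv.ofRingEquiv (f := σ) fun r => ?_, ?_⟩
  · have := hσ (C ⟨algebraMap K₁ ℂ r, r, rfl⟩)
    simp only [AlgHom.toRingHom_eq_coe, RingHom.coe_coe, aeval_C] at this
    exact this
  · have := hσ X
    simp only [AlgHom.toRingHom_eq_coe, RingHom.coe_coe, aeval_X] at this
    exact this

end L2

theorem l2 : Stmt_L2.{u} := by
  intro K₁ _ _ _ _ z hfin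
  by_contra hz
  have htr : Transcendental K₁ z := by
    intro halg
    apply hz
    have hint : IsIntegral K₁ z := halg.isIntegral
    exact minpoly.mem_range_of_degree_eq_one K₁ z
      (IsAlgClosed.degree_eq_one_of_irreducible K₁ (minpoly.irreducible hint))
  have hinf : (Set.range fun m : ℕ => z + (m : ℂ)).Infinite := by
    apply Set.infinite_range_of_injective
    intro a b hab
    simpa using hab
  apply hinf
  apply hfin.subset
  rintro _ ⟨m, rfl⟩
  obtain ⟨σ, hσ⟩ := L2.exists_algEquiv_add K₁ z htr m
  exact ⟨σ, hσ⟩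

end Fermat.Agent.S27
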