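import Fermat.Agent.S27.Interface

/-!
# S27 / L3 : existence of the constant field extension

The tensor product of two fields over an algebraically closed field is a domain
(Nullstellensatz); its fraction field is the constant field extension.
-/

set_option autoImplicit false

namespace Fermat.Agent.S27

universe u v w

namespace L3

open TensorProduct MvPolynomial

variable {K₁ : Type u} {F₁ : Type v} [Field K₁] [Field F₁] [Algebra K₁ F₁]

/-- naturality of the coordinates in a base-changed basis -/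
theorem repr_map {ι : Type*} (e : Module.Basis ι K₁ F₁) {B B' : Type*} [CommRing B] [CommRing B']
    [Algebra K₁ B] [Algebra K₁ B'] (f : B →ₐ[K₁] B') (z : B ⊗[K₁] F₁) (k : ι) :
    (Algebra.TensorProduct.basis B' e).repr
        (Algebra.TensorProduct.map f (AlgHom.id K₁ F₁) z) k
      = f ((Algebra.TensorProduct.basis B e).repr z k) := by
  induction z using TensorProduct.induction_on with
  | zero => simp
  | tmul b m => simp [Algebra.TensorProduct.basis_repr_tmul]
  | add x y hx hy => simp [hx, hy]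

theorem sum_repr_tmul {ι : Type*} (e : Module.Basis ι K₁ F₁) {B : Type*} [CommRing B]
    [Algebra K₁ B] (a : B ⊗[K₁] F₁) :
    ∑ i : ((Algebra.TensorProduct.basis B e).repr a).support,
      ((Algebra.TensorProduct.basis B e).repr a i) ⊗ₜ[K₁] e i = a := by
  have h := (Algebra.TensorProduct.basis B e).linearCombination_repr a
  rw [Finsupp.linearCombination_apply, Finsupp.sum] at h
  rw [← Finset.sum_coe_sort] at h
  simp only [Algebra.TensorProduct.basis_repr_symm_apply'] at h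
  exact h

theorem mul_eq_zero_tensor [IsAlgClosed K₁] (K₂ : Type w) [Field K₂] [Algebra K₁ K₂]
    (a b : K₂ ⊗[K₁] F₁) (hab : a * b = 0) : a = 0 ∨ b = 0 := by
  classical
  by_contra hcon
  push Not at hcon
  obtain ⟨ha, hb⟩ := hcon
  let e := Module.Basis.ofVectorSpace K₁ F₁
  obtain ⟨i₀, hi₀⟩ : ∃ i, (Algebra.TensorProduct.basis K₂ e).repr a i ≠ 0 := by
    by_contra h
    push Not at h
    exact ha ((Algebra.TensorProduct.basis K₂ e).repr.map_eq_zero_iff.1 (Finsupp.ext h))
  obtain ⟨j₀, hj₀⟩ : ∃ j, (Algebra.TensorProduct.basis K₂ e).repr b j ≠ 0 := by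
    by_contra h
    push Not at h
    exact hb ((Algebra.TensorProduct.basis K₂ e).repr.map_eq_zero_iff.1 (Finsupp.ext h))
  set sa := ((Algebra.TensorProduct.basis K₂ e).repr a).support with hsa
  set sb := ((Algebra.TensorProduct.basis K₂ e).repr b).support with hsb
  have hi₀' : i₀ ∈ sa := Finsupp.mem_support_iff.2 hi₀
  have hj₀' : j₀ ∈ sb := Finsupp.mem_support_iff.2 hj₀
  let c : (↥sa ⊕ ↥sb) → K₂ :=
    Sum.elim (fun i => (Algebra.TensorProduct.basis K₂ e).repr a i)
      (fun j => (Algebra.TensorProduct.basis K₂ e).repr b j)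
  let π : MvPolynomial (↥sa ⊕ ↥sb) K₁ →ₐ[K₁] K₂ := aeval c
  let a' : MvPolynomial (↥sa ⊕ ↥sb) K₁ ⊗[K₁] F₁ := ∑ i : sa, X (Sum.inl i) ⊗ₜ[K₁] e i
  let b' : MvPolynomial (↥sa ⊕ ↥sb) K₁ ⊗[K₁] F₁ := ∑ j : sb, X (Sum.inr j) ⊗ₜ[K₁] e j
  have ha' : Algebra.TensorProduct.map π (AlgHom.id K₁ F₁) a' = a := by
    simp only [a', map_sum, Algebra.TensorProduct.map_tmul, π, aeval_X, c, Sum.elim_inl,
      AlgHom.id_apply]
    exact sum_repr_tmul e a
  have hb' : Algebra.TensorProduct.map π (AlgHom.id K₁ F₁) b' = b := by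
    simp only [b', map_sum, Algebra.TensorProduct.map_tmul, π, aeval_X, c, Sum.elim_inr,
      AlgHom.id_apply]
    exact sum_repr_tmul e b
  -- the kernel of `π`
  let I : Ideal (MvPolynomial (↥sa ⊕ ↥sb) K₁) := RingHom.ker π.toRingHom
  have hI : I.IsPrime := RingHom.ker_isPrime _
  have hz : ∀ k, (Algebra.TensorProduct.basis (MvPolynomial (↥sa ⊕ ↥sb) K₁) e).repr (a' * b') k
      ∈ I := by
    intro k
    have := repr_map e π (a' * b') k
    rw [map_mul, ha', hb', hab] at this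
    simp only [map_zero, Finsupp.coe_zero, Pi.zero_apply] at this
    exact this.symm
  have hP : X (Sum.inl ⟨i₀, hi₀'⟩) * X (Sum.inr ⟨j₀, hj₀'⟩) ∉ I := by
    intro h
    have h' : π (X (Sum.inl ⟨i₀, hi₀'⟩) * X (Sum.inr ⟨j₀, hj₀'⟩)) = 0 := h
    simp only [map_mul, π, aeval_X, c, Sum.elim_inl, Sum.elim_inr] at h'
    exact (mul_ne_zero hi₀ hj₀) h'
  rw [← IsPrime.vanishingIdeal_zeroLocus (K := K₁) I, mem_vanishingIdeal_iff] at hP
  push Not at hP
  obtain ⟨x, hx, hxP⟩ := hP
  let ε : MvPolynomial (↥sa ⊕ ↥sb) K₁ →ₐ[K₁] K₁ := aeval x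
  have hε : Algebra.TensorProduct.map ε (AlgHom.id K₁ F₁) (a' * b') = 0 := by
    apply (Algebra.TensorProduct.basis K₁ e).repr.map_eq_zero_iff.1
    ext k
    rw [repr_map e ε (a' * b') k]
    exact hx _ (hz k)
  rw [map_mul] at hε
  have hε' := congrArg (Algebra.TensorProduct.lid K₁ F₁) hε
  rw [map_mul, map_zero] at hε'
  have e1 : Algebra.TensorProduct.lid K₁ F₁ (Algebra.TensorProduct.map ε (AlgHom.id K₁ F₁) a')
      = ∑ i : sa, x (Sum.inl i) • e i := by
    simp [a', map_sum, ε]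
  have e2 : Algebra.TensorProduct.lid K₁ F₁ (Algebra.TensorProduct.map ε (AlgHom.id K₁ F₁) b')
      = ∑ j : sb, x (Sum.inr j) • e j := by
    simp [b', map_sum, ε]
  rw [e1, e2] at hε'
  have hlin : ∀ s : Finset (Module.Basis.ofVectorSpaceIndex K₁ F₁),
      LinearIndependent K₁ (fun i : s => e i) := fun s =>
    e.linearIndependent.comp (fun i : s => (i : Module.Basis.ofVectorSpaceIndex K₁ F₁))
      Subtype.val_injective
  apply hxP
  rw [map_mul, aeval_X, aeval_X]
  rcases mul_eq_zero.1 hε' with h | h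
  · rw [(Fintype.linearIndependent_iff.1 (hlin sa)) _ h ⟨i₀, hi₀'⟩, zero_mul]
  · rw [(Fintype.linearIndependent_iff.1 (hlin sb)) _ h ⟨j₀, hj₀'⟩, mul_zero]

theorem isDomain_tensor [IsAlgClosed K₁] (K₂ : Type w) [Field K₂] [Algebra K₁ K₂] :
    IsDomain (K₂ ⊗[K₁] F₁) := by
  have : Nontrivial (K₂ ⊗[K₁] F₁) := inferInstance
  have : NoZeroDivisors (K₂ ⊗[K₁] F₁) := ⟨fun {a b} h => mul_eq_zero_tensor K₂ a b h⟩
  exact NoZeroDivisors.to_isDomain _

end L3

open TensorProduct in
theorem l3 : Stmt_L3.{u, v, w} := by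
  intro K₁ F₁ K₂ _ _ _ _ _ _
  have hdom : IsDomain (K₂ ⊗[K₁] F₁) := L3.isDomain_tensor K₂
  let iF : F₁ →+* FractionRing (K₂ ⊗[K₁] F₁) :=
    (algebraMap (K₂ ⊗[K₁] F₁) (FractionRing (K₂ ⊗[K₁] F₁))).comp
      (Algebra.TensorProduct.includeRight : F₁ →ₐ[K₁] K₂ ⊗[K₁] F₁).toRingHom
  refine ⟨FractionRing (K₂ ⊗[K₁] F₁), inferInstance, inferInstance, iF.toAlgebra, inferInstance,
    inferInstance, ?_, ?_⟩
  · let _ : Algebra F₁ (FractionRing (K₂ ⊗[K₁] F₁)) := iF.toAlgebra
    refine IsScalarTower.of_algebraMap_eq' ?_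
    ext r
    show algebraMap K₁ (FractionRing (K₂ ⊗[K₁] F₁)) r = iF (algebraMap K₁ F₁ r)
    simp only [iF, RingHom.comp_apply, AlgHom.toRingHom_eq_coe, RingHom.coe_coe, AlgHom.commutes]
    rw [← IsScalarTower.algebraMap_apply]
  · let _ : Algebra F₁ (FractionRing (K₂ ⊗[K₁] F₁)) := iF.toAlgebra
    have hinj : Function.Injective (algebraMap (K₂ ⊗[K₁] F₁) (FractionRing (K₂ ⊗[K₁] F₁))) :=
      IsFractionRing.injective _ _
    refine ⟨fun n f hf => ?_, ?_⟩
    · have h1 : LinearIndependent K₂ (fun i => (1 : K₂) ⊗ₜ[K₁] f i) :=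
        Module.Flat.linearIndependent_one_tmul hf
      have h2 := h1.map' (IsScalarTower.toAlgHom K₂ (K₂ ⊗[K₁] F₁)
        (FractionRing (K₂ ⊗[K₁] F₁))).toLinearMap (LinearMap.ker_eq_bot.2 hinj)
      exact h2
    · rw [eq_top_iff]
      have key : ∀ z : K₂ ⊗[K₁] F₁, algebraMap (K₂ ⊗[K₁] F₁) (FractionRing (K₂ ⊗[K₁] F₁)) z ∈
          IntermediateField.adjoin K₂
            (Set.range (algebraMap F₁ (FractionRing (K₂ ⊗[K₁] F₁)))) := by
        intro z
        induction z using TensorProduct.induction_on with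
        | zero => rw [map_zero]; exact zero_mem _
        | tmul c m =>
          have : c ⊗ₜ[K₁] m = c • ((1 : K₂) ⊗ₜ[K₁] m) := by
            rw [TensorProduct.smul_tmul', smul_eq_mul, mul_one]
          rw [this, Algebra.smul_def, map_mul]
          refine mul_mem ?_ (IntermediateField.subset_adjoin _ _ ⟨m, rfl⟩)
          rw [← IsScalarTower.algebraMap_apply]
          exact IntermediateField.algebraMap_mem _ c
        | add x y hx hy => rw [map_add]; exact add_mem hx hy
      intro z _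
      obtain ⟨x, y, _, rfl⟩ := IsFractionRing.div_surjective (A := K₂ ⊗[K₁] F₁) z
      exact div_mem (key x) (key y)

end Fermat.Agent.S27
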