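import Fermat.Agent.S27.L5Core

/-!
# S27 / L5 : torsion classes over `ℂ` descend to `K₁`
-/

set_option autoImplicit false

namespace Fermat.Agent.S27

open AlgebraicCurve IntermediateField

universe u v

/-- L5 (the extra hypothesis `Stmt_L4a` is only used for `IsFF ℂ F₂`). -/
theorem l5 (hR0₁ : Stmt_R0.{u, v}) (hR0 : Stmt_R0.{0, v}) (hRA : Stmt_RA.{0, v})
    (hRD : Stmt_RD.{0, v}) (hL2 : Stmt_L2.{u}) (hL4a : Stmt_L4a.{u, v, 0, v}) :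
    Stmt_L5.{u, v} := by
  intro K₁ F₁ F₂ _ _ _ _ _ _ _ _ _ _ _ hyp φ hφ n _ hfinT D₂ hD₂ hnD
  have := hyp.algClosed₁
  have := hyp.charZero
  have hFF₂ : IsFF ℂ F₂ := (hL4a K₁ F₁ ℂ F₂ hyp).1
  obtain ⟨x, hx, -⟩ := hyp.isFF
  obtain ⟨-, -, hinf, -, -⟩ := hR0₁ K₁ F₁ hyp.isFF
  obtain ⟨v0⟩ : Nonempty (Place K₁ F₁) := inferInstance
  obtain ⟨hPD, hdeg, -, -, heval⟩ := hR0 ℂ F₂ hFF₂
  obtain ⟨hfin, hneg, -, hstep⟩ := hRA ℂ F₂ hFF₂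
  obtain ⟨-, hRR, -, -⟩ := hRD ℂ F₂ hFF₂
  refine L5.descent_core hyp.ext hφ x hx v0 (fun z hz => hL2 K₁ z hz) hPD hdeg heval hneg hfin hstep
    ⟨genusFF ℂ F₂, fun D hD hbot => ?_⟩ n hfinT D₂ hD₂ hnD
  have h := hRR D
  rw [hbot, finrank_bot] at h
  have h1 : (0 : ℤ) ≤ (Module.finrank ℂ (H1 D) : ℤ) := Int.natCast_nonneg _
  push_cast at h
  omega

end Fermat.Agent.S27
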