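/-
TEAM S27, package LAT: a homomorphism `E : ℂ^g → G` with discrete kernel which is surjective on a
bounded set has exactly `n^(2g)` points killed by `n` in its target.
-/
import Fermat.Agent.S27.Interface

set_option autoImplicit false

namespace Fermat.Agent.S27

universe u

namespace LAT

open Module

/-- abstract counting: `Λ` free of rank `r`, `φ : Λ → G` with kernel `nΛ`. -/
lemma card_range_of_ker {Λ : Type*} [AddCommGroup Λ] [Module.Free ℤ Λ] [Module.Finite ℤ Λ]
    {G : Type*} [AddCommGroup G] (n : ℕ) (φ : Λ →+ G)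
    (hker : ∀ x, φ x = 0 ↔ ∃ y, x = n • y) :
    Nat.card φ.range = n ^ finrank ℤ Λ := by
  classical
  let b := Module.finBasis ℤ Λ
  let ψ : Λ →+ (Fin (finrank ℤ Λ) → ZMod n) :=
    { toFun := fun x i => ((b.repr x i : ℤ) : ZMod n)
      map_zero' := by ext i; simp
      map_add' := fun x y => by ext i; simp }
  have hψ : Function.Surjective ψ := by
    intro f
    refine ⟨b.repr.symm (Finsupp.equivFunOnFinite.symm fun i => ((f i).cast : ℤ)), ?_⟩
    ext i
    simp [ψ]
  have hk : φ.ker = ψ.ker := by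
    ext x
    rw [AddMonoidHom.mem_ker, AddMonoidHom.mem_ker, hker]
    constructor
    · rintro ⟨y, rfl⟩
      ext i
      simp [ψ]
    · intro h
      have h' : ∀ i, (n : ℤ) ∣ b.repr x i := fun i => by
        have := congrFun h i
        simpa [ψ, ZMod.intCast_zmod_eq_zero_iff_dvd] using this
      choose c hc using h'
      refine ⟨b.repr.symm (Finsupp.equivFunOnFinite.symm c), ?_⟩
      apply b.repr.injective
      ext i
      simp [hc i]
  rw [← AddSubgroup.index_ker, hk, AddSubgroup.index_ker,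
    AddMonoidHom.range_eq_top.2 hψ, Nat.card_congr AddSubgroup.topEquiv.toEquiv, Nat.card_fun,
    Nat.card_zmod, Nat.card_eq_fintype_card, Fintype.card_fin]

end LAT

theorem lat : Stmt_LAT.{u} := by
  intro G _ g E ⟨ρ, hρ, hdisc⟩ ⟨R, hR⟩ n hn
  let Λ : Submodule ℤ (Fin g → ℂ) := AddSubgroup.toIntSubmodule E.ker
  have hmem : ∀ a, a ∈ Λ ↔ E a = 0 := fun a => Iff.rfl
  have : DiscreteTopology Λ := by
    apply discreteTopology_of_isOpen_singleton_zero
    rw [Metric.isOpen_singleton_iff]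
    refine ⟨ρ, hρ, fun y hy => ?_⟩
    apply Subtype.ext
    refine hdisc y ((hmem _).1 y.2) ?_
    simpa [Subtype.dist_eq, dist_eq_norm] using hy
  have : IsZLattice ℝ Λ := by
    constructor
    by_contra hne
    obtain ⟨x, hx⟩ : ∃ x : Fin g → ℂ, x ∉ Submodule.span ℝ (Λ : Set (Fin g → ℂ)) := by
      by_contra h
      push Not at h
      exact hne (eq_top_iff.2 fun x _ => h x)
    obtain ⟨x₀, -, hx₀⟩ := riesz_lemma_of_norm_lt (𝕜 := ℝ) (c := 2) (R := 3) (by norm_num)
      (by norm_num) (Submodule.closed_of_finiteDimensional _) ⟨x, hx⟩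
    obtain ⟨a, ha, hEa⟩ := hR (E ((|R| + 1) • x₀))
    have hpos : 0 < |R| + 1 := by positivity
    have h1 : (|R| + 1) • x₀ - a ∈ Submodule.span ℝ (Λ : Set (Fin g → ℂ)) := by
      apply Submodule.subset_span
      change E _ = 0
      rw [map_sub, hEa, sub_self]
    have h2 := hx₀ _ (Submodule.smul_mem _ (|R| + 1)⁻¹ h1)
    have h3 : x₀ - (|R| + 1)⁻¹ • ((|R| + 1) • x₀ - a) = (|R| + 1)⁻¹ • a := by
      rw [smul_sub, smul_smul, inv_mul_cancel₀ hpos.ne', one_smul]
      abel
    rw [h3, norm_smul, norm_inv, Real.norm_of_nonneg hpos.le, inv_mul_eq_div,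
      le_div_iff₀ hpos] at h2
    have := le_abs_self R
    linarith
  have hrank : Module.finrank ℤ Λ = 2 * g := by
    rw [ZLattice.rank ℝ Λ, Module.finrank_pi_fintype]
    simp [Complex.finrank_real_complex, mul_comm]
  have hn0 : (n : ℝ) ≠ 0 := by exact_mod_cast hn.ne'
  let φ : Λ →+ G :=
    { toFun := fun x => E ((n : ℝ)⁻¹ • (x : Fin g → ℂ))
      map_zero' := by simp
      map_add' := fun x y => by simp [smul_add] }
  have hker : ∀ x, φ x = 0 ↔ ∃ y, x = n • y := by
    intro x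
    constructor
    · intro h
      refine ⟨⟨(n : ℝ)⁻¹ • (x : Fin g → ℂ), h⟩, ?_⟩
      apply Subtype.ext
      change (x : Fin g → ℂ) = n • ((n : ℝ)⁻¹ • (x : Fin g → ℂ))
      rw [← Nat.cast_smul_eq_nsmul ℝ, smul_smul, mul_inv_cancel₀ hn0, one_smul]
    · rintro ⟨y, rfl⟩
      change E ((n : ℝ)⁻¹ • (n • (y : Fin g → ℂ))) = 0
      rw [← Nat.cast_smul_eq_nsmul ℝ, smul_smul, inv_mul_cancel₀ hn0, one_smul]
      exact y.2
  have hrange : ∀ x : G, x ∈ φ.range ↔ n • x = 0 := by
    intro x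
    constructor
    · rintro ⟨y, rfl⟩
      change n • E ((n : ℝ)⁻¹ • (y : Fin g → ℂ)) = 0
      rw [← map_nsmul, ← Nat.cast_smul_eq_nsmul ℝ, smul_smul, mul_inv_cancel₀ hn0, one_smul]
      exact y.2
    · intro hx
      obtain ⟨a, -, rfl⟩ := hR x
      refine ⟨⟨n • a, by change E _ = 0; rw [map_nsmul, hx]⟩, ?_⟩
      change E ((n : ℝ)⁻¹ • (n • a)) = E a
      rw [← Nat.cast_smul_eq_nsmul ℝ, smul_smul, inv_mul_cancel₀ hn0, one_smul]
  have := LAT.card_range_of_ker n φ hker
  rw [hrank] at this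
  rw [← this]
  exact Nat.card_congr (Equiv.subtypeEquivRight fun x => (hrange x).symm)

end Fermat.Agent.S27
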