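import Fermat.Agent.S27.Interface

/-!
# S27 : package MAIN

`Stmt_L6 → Stmt_L4 → Stmt_PT → Stmt_COUNTABLE → Stmt_MAIN` (Lefschetz principle, last step), and the
glue theorem from `Stmt_B1`, `Stmt_MAIN` to the frozen statement S27.
-/

set_option autoImplicit false

namespace Fermat.Agent.S27

open AlgebraicCurve IntermediateField

universe u v

namespace MAIN

/-- every place has a function with non-zero order. -/
theorem exists_ord_ne_zero {K : Type u} {F : Type v} [Field K] [Field F] [Algebra K F]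
    (w : Place K F) : ∃ s : F, w.ord s ≠ 0 := by
  obtain ⟨π, hπ⟩ := IsDiscreteValuationRing.exists_irreducible w.toValuationSubring
  exact ⟨(π : F), by rw [w.ord_coe_irreducible hπ]; exact one_ne_zero⟩

/-- The key step: for a finite set `S ⊆ F` there is a set `R` of exactly `n^(2g)` torsion classes
containing every torsion class which has a representative whose support consists of places at which
some element of `S` has non-zero order. -/
theorem exists_range (hL6 : Stmt_L6.{u, v}) (hL4 : Stmt_L4.{u, v, u, v})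
    (hPT : Stmt_PT.{u, v, u, v}) (hC : Stmt_COUNTABLE.{u, v})
    (K : Type u) (F : Type v) [Field K] [Field F] [Algebra K F] [IsAlgClosed K] [CharZero K]
    (hFF : IsFF K F) (n : ℕ) (hn : 0 < n) (S : Finset F) :
    ∃ R : Set (Pic0.torsion K F n), Nat.card R = n ^ (2 * genusFF K F) ∧
      ∀ (z : Pic0.torsion K F n) (D₂ : Divisor.degZero (K := K) (F := F)),
        (z : Pic0 K F) = Pic0.mk D₂ →
        (∀ w ∈ (D₂ : Divisor K F).support, ∃ s ∈ S, w.ord s ≠ 0) → z ∈ R := by
  obtain ⟨K₁, F₁, _, _, _, _, _, _, _, _, hK₁, hcount, hFF₁, hext, hS⟩ := hL6 K F hFF S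
  have : IsAlgClosed K₁ := hK₁
  have : Countable K₁ := hcount
  have : CharZero K₁ := (RingHom.charZero_iff (algebraMap K₁ K).injective).mpr inferInstance
  have hyp : ConstExtHyp K₁ F₁ K F := ⟨hK₁, inferInstance, inferInstance, hFF₁, hext⟩
  obtain ⟨-, hg, φ, hφ⟩ := hL4 K₁ F₁ K F hyp
  obtain ⟨Ψ, hΨ, hΨ'⟩ := hPT K₁ F₁ K F φ hφ n
  refine ⟨Set.range Ψ, ?_, ?_⟩
  · rw [Nat.card_range_of_injective hΨ, hC K₁ F₁ hFF₁ n hn, hg]
  · intro z D₂ hz hsupp
    refine hΨ' z D₂ hz ⟨(D₂ : Divisor K F).comapDomain φ hφ.injective.injOn, ?_, ?_⟩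
    all_goals
      have hmap : ((D₂ : Divisor K F).comapDomain φ hφ.injective.injOn).mapDomain φ
          = (D₂ : Divisor K F) := by
        refine Finsupp.mapDomain_comapDomain φ hφ.injective _ ?_
        intro w hw
        obtain ⟨s, hsS, hs⟩ := hsupp w hw
        obtain ⟨f, rfl⟩ := hS s hsS
        obtain ⟨v, hv⟩ := hφ.exists_of_ne w ⟨f, hs⟩
        exact ⟨v, hv⟩
    · rw [← hφ.degree_eq, hmap]
      exact D₂.2
    · rw [hmap, sub_self]
      exact (Divisor.principal (K := K) (F := F)).zero_mem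

end MAIN

/-- Package MAIN. -/
theorem main (hL6 : Stmt_L6.{u, v}) (hL4 : Stmt_L4.{u, v, u, v})
    (hPT : Stmt_PT.{u, v, u, v}) (hC : Stmt_COUNTABLE.{u, v}) : Stmt_MAIN.{u, v} := by
  classical
  intro K F _ _ _ _ _ hFF n hn
  have hNpos : 0 < n ^ (2 * genusFF K F) := pow_pos hn _
  -- every finite set of torsion classes lies in one of the sets `R`
  have key : ∀ Z : Finset (Pic0.torsion K F n),
      ∃ R : Set (Pic0.torsion K F n), Nat.card R = n ^ (2 * genusFF K F) ∧ (Z : Set _) ⊆ R := by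
    intro Z
    choose rep hrep using fun z : Pic0.torsion K F n => Pic0.mk_surjective (z : Pic0 K F)
    choose s hs using fun w : Place K F => MAIN.exists_ord_ne_zero w
    obtain ⟨R, hR, hR'⟩ := MAIN.exists_range hL6 hL4 hPT hC K F hFF n hn
      ((Z.biUnion fun z => (rep z : Divisor K F).support).image s)
    refine ⟨R, hR, fun z hz => hR' z (rep z) (hrep z).symm fun w hw => ⟨s w, ?_, hs w⟩⟩
    exact Finset.mem_image_of_mem s (Finset.mem_biUnion.mpr ⟨z, hz, hw⟩)
  have hle : ∀ Z : Finset (Pic0.torsion K F n), Z.card ≤ n ^ (2 * genusFF K F) := by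
    intro Z
    obtain ⟨R, hR, hZR⟩ := key Z
    have hfin : R.Finite := by
      have : Finite R := Nat.finite_of_card_ne_zero (by omega)
      exact Set.toFinite R
    calc Z.card = (Z : Set (Pic0.torsion K F n)).ncard := (Set.ncard_coe_finset Z).symm
      _ ≤ R.ncard := Set.ncard_le_ncard hZR hfin
      _ = n ^ (2 * genusFF K F) := by rw [← hR]; rfl
  have hfinT : Finite (Pic0.torsion K F n) := by
    by_contra hinf
    rw [not_finite_iff_infinite] at hinf
    obtain ⟨Z, hZ⟩ := Infinite.exists_subset_card_eq (Pic0.torsion K F n)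
      (n ^ (2 * genusFF K F) + 1)
    have := hle Z
    omega
  have := Fintype.ofFinite (Pic0.torsion K F n)
  obtain ⟨R, hR, hZR⟩ := key Finset.univ
  have hRuniv : R = Set.univ := by
    refine Set.eq_univ_of_forall fun z => hZR ?_
    simp
  rw [← hR, hRuniv, Nat.card_univ]

/-- Glue: the frozen statement S27 from `Stmt_B1` and `Stmt_MAIN`. -/
theorem S27_of_stmts (hB1 : Stmt_B1.{u, v}) (hM : Stmt_MAIN.{u, v})
    (K : Type u) (F : Type v) [Field K] [Field F] [Algebra K F] [IsAlgClosed K] [CharZero K]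
    [IsCurveOver K F] [Algebra.EssFiniteType K F]
    (ℓ : ℕ) [Fact ℓ.Prime] (k : ℕ) :
    Nat.card (Pic0.torsion K F (ℓ ^ k)) = ℓ ^ (2 * genusFF K F * k) := by
  rw [hM K F (hB1 K F) (ℓ ^ k) (pow_pos (Fact.out : ℓ.Prime).pos k), ← pow_mul]
  congr 1
  ring

end Fermat.Agent.S27
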