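import Fermat.Agent.S27.Interface

/-!
# S27, package PT : transport of torsion along a place extension
-/

set_option autoImplicit false

namespace Fermat.Agent.S27

open AlgebraicCurve

universe u v w x

namespace PT

variable {K₁ : Type u} {F₁ : Type v} {K₂ : Type w} {F₂ : Type x} [Field K₁] [Field F₁]
  [Field K₂] [Field F₂] [Algebra K₁ F₁] [Algebra K₂ F₂] [Algebra F₁ F₂]

/-- push-forward of degree zero divisors along a place extension -/
noncomputable def pushDegZero (φ : Place K₁ F₁ → Place K₂ F₂) (hφ : IsPlaceExt φ) :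
    Divisor.degZero (K := K₁) (F := F₁) →+ Divisor.degZero (K := K₂) (F := F₂) :=
  ((Finsupp.mapDomain.addMonoidHom φ).comp
    (Divisor.degZero (K := K₁) (F := F₁)).subtype).codRestrict _ (fun D => by
      rw [Divisor.mem_degZero]
      exact (hφ.degree_eq (D : Divisor K₁ F₁)).trans D.2)

@[simp] theorem coe_pushDegZero (φ : Place K₁ F₁ → Place K₂ F₂) (hφ : IsPlaceExt φ)
    (D : Divisor.degZero (K := K₁) (F := F₁)) :
    (pushDegZero φ hφ D : Divisor K₂ F₂) = (D : Divisor K₁ F₁).mapDomain φ := rfl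

/-- the induced map on `Pic⁰` -/
noncomputable def pushPic (φ : Place K₁ F₁ → Place K₂ F₂) (hφ : IsPlaceExt φ) :
    Pic0 K₁ F₁ →+ Pic0 K₂ F₂ :=
  QuotientAddGroup.map _ _ (pushDegZero φ hφ) (by
    rintro D hD
    simp only [AddSubgroup.mem_comap, AddSubgroup.mem_addSubgroupOf] at hD ⊢
    exact (hφ.principal_iff (D : Divisor K₁ F₁)).mpr hD)

theorem pushPic_mk (φ : Place K₁ F₁ → Place K₂ F₂) (hφ : IsPlaceExt φ)
    (D : Divisor.degZero (K := K₁) (F := F₁)) :
    pushPic φ hφ (Pic0.mk D) = Pic0.mk (pushDegZero φ hφ D) := rfl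

theorem pushPic_injective (φ : Place K₁ F₁ → Place K₂ F₂) (hφ : IsPlaceExt φ) :
    Function.Injective (pushPic φ hφ) := by
  rw [injective_iff_map_eq_zero]
  intro a ha
  obtain ⟨D, rfl⟩ := Pic0.mk_surjective a
  rw [pushPic_mk] at ha
  have h2 : pushDegZero φ hφ D ∈
      (Divisor.principal (K := K₂) (F := F₂)).addSubgroupOf (Divisor.degZero (K := K₂) (F := F₂)) :=
    (QuotientAddGroup.eq_zero_iff _).mp ha
  refine (QuotientAddGroup.eq_zero_iff _).mpr ?_
  rw [AddSubgroup.mem_addSubgroupOf] at h2 ⊢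
  exact (hφ.principal_iff (D : Divisor K₁ F₁)).mp h2

end PT

open PT in
theorem pt : Stmt_PT.{u, v, w, x} := by
  intro K₁ F₁ K₂ F₂ _ _ _ _ _ _ _ φ hφ n
  have hmem : ∀ a : Pic0 K₁ F₁, a ∈ Pic0.torsion K₁ F₁ n ↔
      pushPic φ hφ a ∈ Pic0.torsion K₂ F₂ n := by
    intro a
    rw [Pic0.mem_torsion, Pic0.mem_torsion, ← map_zsmul]
    constructor
    · intro h
      rw [h, map_zero]
    · intro h
      exact pushPic_injective φ hφ (by rw [h, map_zero])
  refine ⟨fun a => ⟨pushPic φ hφ a, (hmem a).mp a.2⟩, ?_, ?_⟩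
  · intro a b hab
    exact Subtype.ext (pushPic_injective φ hφ (congrArg Subtype.val hab))
  · rintro z D₂ hz ⟨D₁, hdeg, hprin⟩
    have key : pushPic φ hφ (Pic0.mk ⟨D₁, hdeg⟩) = (z : Pic0 K₂ F₂) := by
      rw [hz, pushPic_mk]
      symm
      refine (QuotientAddGroup.eq_iff_sub_mem).mpr ?_
      rw [AddSubgroup.mem_addSubgroupOf]
      exact hprin
    refine ⟨⟨Pic0.mk ⟨D₁, hdeg⟩, (hmem _).mpr (key ▸ z.2)⟩, Subtype.ext key⟩

end Fermat.Agent.S27
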