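import Fermat.Agent.S27.Interface

/-!
# S27, package PR : existence of the local Abel–Jacobi map
-/

set_option autoImplicit false

namespace Fermat.Agent.S27

open AlgebraicCurve IntermediateField

universe u

namespace PR

variable {F : Type u} [Field F] [Algebra ℂ F]

/-- the tangent field in coordinates is holomorphic at every point of the disc -/
theorem analyticAt_L_kappa (hKA : Stmt_KA.{u}) (hF : IsFF ℂ F) {g : ℕ}
    (L : H1 (0 : Divisor ℂ F) ≃ₗ[ℂ] (Fin g → ℂ)) {r : ℝ} {P : ℂ → Place ℂ F} {t : F}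
    (hc : IsChart r P t) {c : ℂ} (hcr : ‖c‖ < r) :
    AnalyticAt ℂ (fun z => L (kappa P t z)) c := by
  rw [analyticAt_pi_iff]
  intro i
  exact hKA F hF r P t hc ((LinearMap.proj i : (Fin g → ℂ) →ₗ[ℂ] ℂ) ∘ₗ L.toLinearMap) c hcr

theorem differentiableOn_L_kappa (hKA : Stmt_KA.{u}) (hF : IsFF ℂ F) {g : ℕ}
    (L : H1 (0 : Divisor ℂ F) ≃ₗ[ℂ] (Fin g → ℂ)) {r : ℝ} {P : ℂ → Place ℂ F} {t : F}
    (hc : IsChart r P t) :
    DifferentiableOn ℂ (fun z => L (kappa P t z)) (Metric.ball 0 r) := by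
  intro c hcr
  exact (analyticAt_L_kappa hKA hF L hc
    (by simpa using hcr)).differentiableAt.differentiableWithinAt

end PR

theorem pr (hKA : Stmt_KA.{u}) : Stmt_PR.{u} := by
  intro F _ _ hF g L r P t hc
  obtain ⟨U, hU0, hU⟩ :=
    (PR.differentiableOn_L_kappa hKA hF L hc).isExactOn_ball.with_val_at 0 0
  exact ⟨U, hU0, fun c hcr => hU c (by simpa using hcr)⟩

theorem aj_strict (hKA : Stmt_KA.{u}) (F : Type u) [Field F] [Algebra ℂ F] (hF : IsFF ℂ F)
    (g : ℕ) (L : H1 (0 : Divisor ℂ F) ≃ₗ[ℂ] (Fin g → ℂ)) (r : ℝ) (P : ℂ → Place ℂ F) (t : F)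
    (U : ℂ → (Fin g → ℂ)) (hc : IsChart r P t) (hU : IsAJ L r P t U) (c : ℂ) (hcr : ‖c‖ < r) :
    HasStrictDerivAt U (L (kappa P t c)) c := by
  refine hasStrictDerivAt_of_hasDerivAt_of_continuousAt (f' := fun z => L (kappa P t z)) ?_
    (PR.analyticAt_L_kappa hKA hF L hc hcr).continuousAt
  have hopen : Metric.ball (0 : ℂ) r ∈ nhds c :=
    Metric.isOpen_ball.mem_nhds (by simpa using hcr)
  filter_upwards [hopen] with y hy
  exact hU.2 y (by simpa using hy)

end Fermat.Agent.S27
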