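import Fermat.Agent.S27.Interface

/-!
# S27, package SURJ : local surjectivity of the total Abel–Jacobi map
-/

set_option autoImplicit false

namespace Fermat.Agent.S27

open AlgebraicCurve Filter Topology

universe u

namespace SURJ

/-- A local Abel–Jacobi map is strictly differentiable at every point of the disc (it is complex
differentiable on the open disc, hence analytic). -/
theorem aj_hasStrictDerivAt {F : Type u} [Field F] [Algebra ℂ F] {g : ℕ}
    {L : H1 (0 : Divisor ℂ F) ≃ₗ[ℂ] (Fin g → ℂ)} {r : ℝ} {P : ℂ → Place ℂ F} {t : F}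
    {U : ℂ → (Fin g → ℂ)} (h : IsAJ L r P t U) {c : ℂ} (hc : ‖c‖ < r) :
    HasStrictDerivAt U (L (kappa P t c)) c := by
  have hd : DifferentiableOn ℂ U (Metric.ball 0 r) := fun z hz =>
    (h.2 z (by simpa using hz)).differentiableAt.differentiableWithinAt
  have hmem : Metric.ball (0 : ℂ) r ∈ 𝓝 c := Metric.isOpen_ball.mem_nhds (by simpa using hc)
  have han : AnalyticAt ℂ U c := hd.analyticAt hmem
  have := han.hasStrictDerivAt
  rwa [(h.2 c hc).deriv] at this

end SURJ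

theorem surj_of_ad (hAD : Stmt_AD.{0, u}) : Stmt_SURJ.{u} := by
  intro F _ _ hFF g L ι _ B ρ hρ
  obtain ⟨-, -, -, -, -, -, hgen⟩ := hAD ℂ F hFF
  -- the derivative
  let κ : ι → (Fin g → ℂ) := fun i => L (kappa (B.P i) (B.t i) 0)
  let f' : (ι → ℂ) →L[ℂ] (Fin g → ℂ) :=
    ∑ i, (ContinuousLinearMap.proj (R := ℂ) (φ := fun _ : ι => ℂ) i).smulRight (κ i)
  have hstrict : HasStrictFDerivAt B.u f' 0 := by
    unfold BaseData.u
    apply HasStrictFDerivAt.fun_sum
    intro i _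
    have h1 : HasStrictDerivAt (B.U i) (κ i) ((0 : ι → ℂ) i) :=
      SURJ.aj_hasStrictDerivAt (B.aj i) (by simpa using (B.chart i).r_pos)
    have h2 : HasStrictFDerivAt (fun c : ι → ℂ => c i)
        (ContinuousLinearMap.proj (R := ℂ) (φ := fun _ : ι => ℂ) i) 0 :=
      (ContinuousLinearMap.proj (R := ℂ) (φ := fun _ : ι => ℂ) i).hasStrictFDerivAt
    have h3 := h1.hasStrictFDerivAt.comp (0 : ι → ℂ) h2
    convert h3 using 1
    ext c j
    simp
  have hspan : Submodule.span ℂ (Set.range fun i => kappa (B.P i) (B.t i) 0) = ⊤ :=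
    hgen ι (fun i => B.P i 0) (fun i => B.t i - algebraMap ℂ F 0) B.inj
      (fun i => (B.chart i).ord_t 0 (by simpa using (B.chart i).r_pos)) B.h1
  have hsurj : f'.range = ⊤ := by
    rw [eq_top_iff]
    intro y _
    have hy : L.symm y ∈ Submodule.span ℂ (Set.range fun i => kappa (B.P i) (B.t i) 0) := by
      rw [hspan]; trivial
    obtain ⟨c, hc⟩ := (Submodule.mem_span_range_iff_exists_fun ℂ).1 hy
    refine ⟨c, ?_⟩
    have : L (∑ i, c i • kappa (B.P i) (B.t i) 0) = y := by rw [hc]; simp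
    rw [← this, map_sum]
    simp [f', κ]
  have hmap := hstrict.map_nhds_eq_of_surj hsurj
  have hu0 : B.u 0 = 0 := by
    unfold BaseData.u
    exact Finset.sum_eq_zero fun i _ => (B.aj i).1
  rw [hu0] at hmap
  have hS : {c : ι → ℂ | ∀ i, ‖c i‖ < ρ} ∈ 𝓝 (0 : ι → ℂ) := by
    have : Metric.ball (0 : ι → ℂ) ρ ∈ 𝓝 (0 : ι → ℂ) := Metric.ball_mem_nhds _ hρ
    filter_upwards [this] with c hc i
    have hc' : ‖c‖ < ρ := by simpa using hc
    exact (norm_le_pi_norm c i).trans_lt hc'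
  have himg : B.u '' {c : ι → ℂ | ∀ i, ‖c i‖ < ρ} ∈ 𝓝 (0 : Fin g → ℂ) := by
    rw [← hmap]
    exact image_mem_map hS
  obtain ⟨η, hη, hball⟩ := Metric.mem_nhds_iff.1 himg
  refine ⟨η, hη, fun v hv => ?_⟩
  obtain ⟨c, hc, hcv⟩ := hball (show v ∈ Metric.ball 0 η by simpa using hv)
  exact ⟨c, hc, hcv⟩

theorem surj (_hKA : Stmt_KA.{u}) (hAD : Stmt_AD.{0, u}) : Stmt_SURJ.{u} := surj_of_ad hAD

end Fermat.Agent.S27
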