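import Fermat.Agent.S27.B1
import Fermat.Agent.S27.R0
import Fermat.Agent.S27.RA
import Fermat.Agent.S27.RB
import Fermat.Agent.S27.RC
import Fermat.Agent.S27.RD
import Fermat.Agent.S27.AD
import Fermat.Agent.S27.C1
import Fermat.Agent.S27.C2
import Fermat.Agent.S27.Conn
import Fermat.Agent.S27.Prim
import Fermat.Agent.S27.Surj
import Fermat.Agent.S27.Ext
import Fermat.Agent.S27.Lat
import Fermat.Agent.S27.Exp
import Fermat.Agent.S27.Complex
import Fermat.Agent.S27.L1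
import Fermat.Agent.S27.L2
import Fermat.Agent.S27.L3
import Fermat.Agent.S27.L4
import Fermat.Agent.S27.L5
import Fermat.Agent.S27.PT
import Fermat.Agent.S27.Countable
import Fermat.Agent.S27.Main

/-!
# S27 : assembly of the landed packages

`Stmt_MAIN` from the packages which are still in progress (`SEP`, `CH`, `KA`, `FIN`, `LA`, `L4a`,
`L4b`, `L6`), everything else being discharged by the landed theorems.
-/

set_option autoImplicit false

namespace Fermat.Agent.S27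

universe u v

/-- the theorem over `ℂ` from the analytic packages -/
theorem complex_of_parts (hSEP : Stmt_SEP.{v}) (hCH : Stmt_CH.{v}) (hKA : Stmt_KA.{v})
    (hFIN : Stmt_FIN.{v}) (hLA : Stmt_LA.{v}) : Stmt_COMPLEX.{v} := by
  have hR0 : Stmt_R0.{0, v} := r0
  have hRA : Stmt_RA.{0, v} := ra hR0
  have hRD : Stmt_RD.{0, v} := rd hR0 hRA (rb hR0) (rc hR0 hRA)
  have hAD : Stmt_AD.{0, v} := ad hR0
  have hC2 : Stmt_C2.{v} := c2 (c1 hSEP)
  have hCONN : Stmt_CONN.{v} := conn hC2 hR0 hRD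
  have hEXP : Stmt_EXP.{v} := exp hR0 hRD hCH (pr hKA) hLA (surj hKA hAD) ext
  exact complex hR0 hRD hEXP hFIN hCONN lat

/-- the general theorem from the packages in progress -/
theorem main_of_parts (hSEP : Stmt_SEP.{v}) (hCH : Stmt_CH.{v}) (hKA : Stmt_KA.{v})
    (hFIN : Stmt_FIN.{v}) (hLA : Stmt_LA.{v})
    (hL4a₀ : Stmt_L4a.{u, v, 0, v}) (hL4b₀ : Stmt_L4b.{u, v, 0, v})
    (hL4a : Stmt_L4a.{u, v, u, v}) (hL4b : Stmt_L4b.{u, v, u, v}) (hL6 : Stmt_L6.{u, v}) :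
    Stmt_MAIN.{u, v} := by
  have hC : Stmt_COMPLEX.{v} := complex_of_parts hSEP hCH hKA hFIN hLA
  have hR0 : Stmt_R0.{u, v} := r0
  have hRA : Stmt_RA.{u, v} := ra hR0
  have hRD : Stmt_RD.{u, v} := rd hR0 hRA (rb hR0) (rc hR0 hRA)
  have hR0' : Stmt_R0.{0, v} := r0
  have hRA' : Stmt_RA.{0, v} := ra hR0'
  have hRD' : Stmt_RD.{0, v} := rd hR0' hRA' (rb hR0') (rc hR0' hRA')
  have hL4₀ : Stmt_L4.{u, v, 0, v} := l4 hR0 hR0' hRD hRD' hL4a₀ hL4b₀
  have hL4 : Stmt_L4.{u, v, u, v} := l4 hR0 hR0 hRD hRD hL4a hL4b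
  have hL5 : Stmt_L5.{u, v} := l5 hR0 hR0' hRA' hRD' l2 hL4a₀
  have hCT : Stmt_COUNTABLE.{u, v} := countable l1 l3 hL4₀ hL5 pt hC
  exact main hL6 hL4 pt hCT

end Fermat.Agent.S27
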