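import Fermat.Agent.S27.Interface

/-!
# S27, package B1 : `IsCurveOver` + `EssFiniteType` implies `IsFF`
-/

set_option autoImplicit false

namespace Fermat.Agent.S27

open AlgebraicCurve IntermediateField KaehlerDifferential

universe u v

theorem b1 : Stmt_B1.{u, v} := by
  intro K F _ _ _ _ _ _ _
  -- pick `x` with `D x ≠ 0`
  obtain ⟨x, hx⟩ : ∃ x : F, KaehlerDifferential.D K F x ≠ 0 := by
    by_contra hcon
    simp only [not_exists, not_not] at hcon
    have hspan := KaehlerDifferential.span_range_derivation K F
    have hbot : Submodule.span F (Set.range (KaehlerDifferential.D K F)) = ⊥ := by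
      rw [Submodule.span_eq_bot]
      rintro _ ⟨y, rfl⟩
      exact hcon y
    rw [hbot] at hspan
    have hnt : Nontrivial Ω[F⁄K] := inferInstance
    exact bot_ne_top hspan
  refine ⟨x, ?_, ?_⟩
  · -- transcendental
    intro halg
    have hint : IsIntegral K x := halg.isIntegral
    obtain ⟨a, rfl⟩ := minpoly.mem_range_of_degree_eq_one K x
      (IsAlgClosed.degree_eq_one_of_irreducible K (minpoly.irreducible hint))
    exact hx (Derivation.map_algebraMap _ a)
  · -- finite
    have hsub : Subsingleton Ω[F⁄K⟮x⟯] := by
      have hsurj : Function.Surjective (KaehlerDifferential.map K K⟮x⟯ F F) :=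
        KaehlerDifferential.map_surjective K K⟮x⟯ F
      have hone := (finrank_eq_one_iff_of_nonzero' (KaehlerDifferential.D K F x) hx).1
        (IsCurveOver.finrank_kaehler (K := K) (F := F))
      have hzero : KaehlerDifferential.map K K⟮x⟯ F F (KaehlerDifferential.D K F x) = 0 := by
        rw [KaehlerDifferential.map_D]
        have : (algebraMap F F x) =
            algebraMap K⟮x⟯ F ⟨x, IntermediateField.mem_adjoin_simple_self K x⟩ := rfl
        rw [this]
        exact Derivation.map_algebraMap _ _
      refine ⟨fun a b => ?_⟩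
      have key : ∀ w : Ω[F⁄K⟮x⟯], w = 0 := by
        intro w
        obtain ⟨w', rfl⟩ := hsurj w
        obtain ⟨c, rfl⟩ := hone w'
        rw [map_smul, hzero, smul_zero]
      rw [key a, key b]
    have hunr : Algebra.FormallyUnramified K⟮x⟯ F := ⟨hsub⟩
    have hess : Algebra.EssFiniteType K⟮x⟯ F := Algebra.EssFiniteType.of_comp K K⟮x⟯ F
    exact Algebra.FormallyUnramified.finite_of_free (R := K⟮x⟯) (S := F)

end Fermat.Agent.S27
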