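import Fermat.Agent.S27.CH1AltInterface
import Fermat.Agent.S27.Uniq
import Fermat.Agent.S27.R0
import Fermat.Agent.S27.Kappa

/-!
# S27 / CH1 : assembly of the alternative route
-/

set_option autoImplicit false

namespace Fermat.Agent.S27

open AlgebraicCurve IntermediateField Polynomial
open scoped Polynomial.Bivariate

universe u v

namespace CH1

section

variable {K : Type u} {F : Type v} [Field K] [Field F] [Algebra K F]

theorem evalF_comp (P G : K[X][Y]) (t y : F) :
    evalF (P.comp G) t y = evalF P t (evalF G t y) := by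
  rw [Uniq.evalF_eq, Uniq.evalF_eq, Uniq.evalF_eq, Polynomial.comp, Polynomial.hom_eval₂]
  simp only [Uniq.evalFHom, coe_eval₂RingHom]
  congr 1
  ext p
  · simp
  · simp

theorem evalF_X_add_C (p : K[X]) (t y : F) : evalF (X + C p : K[X][Y]) t y = y + aeval t p := by
  rw [Uniq.evalF_eq, map_add, Uniq.evalFHom_X, Uniq.evalFHom_C]

end

end CH1

open CH1 in
theorem ch1_alt (hA : Stmt_A.{u, v}) (hM : Stmt_M.{u, v}) (hB : Stmt_B.{u, v}) (hE : Stmt_E.{u, v})
    (hD : Stmt_D.{u, v}) (hG : Stmt_G.{u}) : Stmt_CH1.{u, v} := by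
  intro K F _ _ _ _ _ hF Q t ht
  -- `t` is transcendental
  have httr : Transcendental K t := by
    rcases R0.const_or_transcendental (K := K) t with ⟨a, rfl⟩ | h
    · rw [S24.ord_algebraMap] at ht
      exact absurd ht (by norm_num)
    · exact h
  have ht0 : t ≠ 0 := by
    rintro rfl
    simp at ht
  have htreg : RegularAt Q t := regularAt_of_ord_nonneg (by rw [ht]; exact zero_le_one)
  have htv : VanishesAt Q (t - algebraMap K F 0) := by
    rw [map_zero, sub_zero]
    exact vanishesAt_of_ord_pos (by rw [ht]; exact one_pos)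
  have htval : evalAt Q t = 0 := evalAt_unique _ _ _ htv
  obtain ⟨y₀, Φ₀, hmon, hroot, hmin, hgen⟩ := hA K F hF t httr
  set n := Φ₀.natDegree with hn
  have hn1 : 1 ≤ n := by
    by_contra hcon
    have h0 : Φ₀.natDegree = 0 := by omega
    have h1 : Φ₀ = 1 := (Polynomial.Monic.natDegree_eq_zero hmon).mp h0
    rw [h1, Uniq.evalF_eq, map_one] at hroot
    exact one_ne_zero hroot
  -- separability
  have hδ : evalF (derivative Φ₀) t y₀ ≠ 0 := by
    intro h0
    have hne : derivative Φ₀ ≠ 0 := by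
      intro hd
      have := Polynomial.derivative_eq_zero.mp hd
      omega
    have h1 := hmin _ hne h0
    have h2 := natDegree_derivative_lt (p := Φ₀) (by omega)
    omega
  have hy₀reg : RegularAt Q y₀ := by
    refine KA.regular_of_monic n (fun j => Φ₀.coeff j) t y₀ hmon.coeff_natDegree ?_ Q htreg
    rw [← KA.evalF_eq_sum]
    exact hroot
  have hδreg : RegularAt Q (evalF (derivative Φ₀) t y₀) := by
    rw [Uniq.evalF_eq]
    exact Uniq.regularAt_evalFHom htreg hy₀reg _
  obtain ⟨k, hk⟩ : ∃ k : ℕ, Q.ord (evalF (derivative Φ₀) t y₀) = k :=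
    ⟨(Q.ord _).toNat, (Int.toNat_of_nonneg hδreg.ord_nonneg).symm⟩
  set m := k + 1 with hm
  obtain ⟨p₁, hp₁⟩ := hB K F hF Q t ht y₀ hy₀reg (m + 1)
  set p : K[X] := p₁ - X ^ m with hp
  set ε : F := y₀ - aeval t p with hε
  have hε' : ε = (y₀ - aeval t p₁) + t ^ m := by
    rw [hε, hp, map_sub, map_pow, aeval_X]
    ring
  have htm : Q.ord (t ^ m) = m := by
    have := Q.ord_zpow t (m : ℤ)
    rw [zpow_natCast, ht, mul_one] at this
    exact this
  have htm0 : t ^ m ≠ 0 := pow_ne_zero _ ht0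
  have hεord : ε ≠ 0 ∧ Q.ord ε = m := by
    rcases hp₁ with h0 | h1
    · rw [hε', h0, zero_add]
      exact ⟨htm0, htm⟩
    · by_cases h0 : y₀ - aeval t p₁ = 0
      · rw [hε', h0, zero_add]
        exact ⟨htm0, htm⟩
      · have hlt : Q.ord (t ^ m) < Q.ord (y₀ - aeval t p₁) := by
          rw [htm]
          push_cast at h1
          omega
        have hne : t ^ m + (y₀ - aeval t p₁) ≠ 0 := by
          intro hz
          have : y₀ - aeval t p₁ = - t ^ m := by linear_combination hz
          rw [this, S24.place_ord_neg] at hlt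
          exact lt_irrefl _ hlt
        have := S24.ord_add_eq_of_lt Q htm0 h0 hlt
        rw [hε', add_comm]
        exact ⟨hne, by rw [this, htm]⟩
  obtain ⟨hε0, hεm⟩ := hεord
  -- the translated polynomial
  set T : K[X][Y] := Φ₀.comp (X + C p) with hT
  have hTmon : T.Monic := hmon.comp_X_add_C p
  have hTdeg : T.natDegree = n := by
    rw [hT, natDegree_comp, natDegree_X_add_C, mul_one]
  have hyε : ε + aeval t p = y₀ := by
    rw [hε]
    ring
  have hTroot : evalF T t ε = 0 := by
    rw [hT, evalF_comp, evalF_X_add_C, hyε, hroot]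
  have hTder : derivative T = (derivative Φ₀).comp (X + C p) := by
    rw [hT, derivative_comp]
    simp
  have hTδ : evalF (derivative T) t ε = evalF (derivative Φ₀) t y₀ := by
    rw [hTder, evalF_comp, evalF_X_add_C, hyε]
  obtain ⟨l, b, hl0, hb0, hc0, hc1⟩ := hE K F hF Q t ε T k m ht hε0 hεm (by omega) hTroot
    (by rw [hTδ]; exact hδ) (by rw [hTδ]; exact hk)
  -- `l(t)` is a unit at `Q`
  have hlval : evalAt Q (aeval t l) = l.eval 0 := by
    rw [evalAt_aeval hF htreg, htval]
  have hlreg : RegularAt Q (aeval t l) := regularAt_aeval htreg l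
  have hlt0 : aeval t l ≠ 0 := by
    intro h0
    rw [h0, evalAt_zero] at hlval
    exact hl0 hlval.symm
  have hlord : Q.ord (aeval t l) = 0 :=
    (ord_eq_zero_iff hF hlt0).mpr ⟨hlreg, by rw [hlval]; exact hl0⟩
  obtain ⟨Φ, hΦmon, hΦdeg, hΦroot, hΦred⟩ := hD K F t ε T k m l b hTmon (by omega) (by omega)
    hε0 ht0 hlt0 hTroot hc0 hc1
  set y : F := aeval t l * t ^ m / ε with hy
  have hy0 : y ≠ 0 := div_ne_zero (mul_ne_zero hlt0 htm0) hε0
  have hyord : Q.ord y = 0 := by
    rw [hy, div_eq_mul_inv, Q.ord_mul (mul_ne_zero hlt0 htm0) (inv_ne_zero hε0),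
      Q.ord_mul hlt0 htm0, Q.ord_inv, hlord, htm, hεm]
    ring
  obtain ⟨hyreg, hyval⟩ := (ord_eq_zero_iff hF hy0).mp hyord
  have hyv : VanishesAt Q (y - algebraMap K F (evalAt Q y)) := evalAt_spec hF hyreg
  have hΦ0 : Φ.evalEval 0 (evalAt Q y) = 0 := by
    rw [← Uniq.vanishesAt_iff_value htv hyv Φ, ← Uniq.evalF_eq, hΦroot]
    exact Or.inl rfl
  -- minimality
  have hmin1 : MinDeg K t ε n := (hM K F t y₀ n hmin).1 p
  have hmin2 : MinDeg K t ε⁻¹ n := (hM K F t ε n hmin1).2.1 hε0
  have hlm : aeval t (l * X ^ m) = aeval t l * t ^ m := by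
    rw [map_mul, map_pow, aeval_X]
  have hmin3 : MinDeg K t (aeval t (l * X ^ m) * ε⁻¹) n :=
    (hM K F t ε⁻¹ n hmin2).2.2 (l * X ^ m) (by rw [hlm]; exact mul_ne_zero hlt0 htm0)
  have hy' : aeval t (l * X ^ m) * ε⁻¹ = y := by
    rw [hy, hlm, div_eq_mul_inv]
  rw [hy'] at hmin3
  refine ⟨y, Φ, ⟨ht, hΦmon, hΦroot, ?_, ?_, hyreg, ?_⟩⟩
  · intro Ψ hdeg hΨ
    by_contra hne
    have := hmin3 Ψ hne hΨ
    omega
  · have htmem : t ∈ IntermediateField.adjoin K ({t, y} : Set F) :=
      IntermediateField.subset_adjoin _ _ (by simp)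
    have hymem : y ∈ IntermediateField.adjoin K ({t, y} : Set F) :=
      IntermediateField.subset_adjoin _ _ (by simp)
    have hae : ∀ q : K[X], aeval t q ∈ IntermediateField.adjoin K ({t, y} : Set F) := by
      intro q
      rw [aeval_eq_sum_range]
      refine sum_mem fun i _ => ?_
      rw [Algebra.smul_def]
      exact mul_mem (IntermediateField.algebraMap_mem _ _) (pow_mem htmem i)
    rw [eq_top_iff, ← hgen, IntermediateField.adjoin_le_iff]
    rintro x (rfl | rfl)
    · exact htmem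
    · have hx : x = aeval t p + aeval t l * t ^ m / y := by
        rw [hy]
        field_simp
        rw [hε]
        ring
      rw [hx]
      exact add_mem (hae p) (div_mem (mul_mem (hae l) (pow_mem htmem m)) hymem)
  · exact hG K Φ T.natDegree (b.eval 0) _ (by omega) hΦred hyval hΦ0

end Fermat.Agent.S27
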