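import Fermat.Agent.S27.CH1AltInterface
import Fermat.Agent.S24.DegPrincipalCore
import Fermat.Agent.S24.FundId
import Fermat.Agent.S24.PlaceCases

/-!
# S27 / CH1alt-A : an integral primitive element with a monic relation of minimal degree
-/

set_option autoImplicit false

namespace Fermat.Agent.S27

open AlgebraicCurve IntermediateField Polynomial
open scoped Polynomial.Bivariate

universe u v

namespace CH1

section

variable {K : Type u} {F : Type v} [Field K] [Field F] [Algebra K F]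

theorem altA_evalF_eq_eval₂ (Ψ : K[X][Y]) (t y : F) :
    evalF Ψ t y = Ψ.eval₂ ((aeval t : K[X] →ₐ[K] F) : K[X] →+* F) y := by
  rw [evalF, Polynomial.eval_map]
  rfl

theorem altA_aeval_ne_zero {t : F} (ht : Transcendental K t) {a : K[X]} (ha : a ≠ 0) :
    aeval t a ≠ 0 := fun h => ht ⟨a, ha, h⟩

theorem altA_aeval_mem (E : IntermediateField K F) {t : F} (ht : t ∈ E) (a : K[X]) :
    aeval t a ∈ E := by
  rw [aeval_eq_sum_range]
  refine sum_mem fun i _ => ?_
  rw [Algebra.smul_def]
  exact mul_mem (E.algebraMap_mem _) (pow_mem ht i)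

theorem altA_mem_of_mul_mem (E : IntermediateField K F) {c w : F} (hc : c ≠ 0) (hcE : c ∈ E)
    (h : c * w ∈ E) : w ∈ E := by
  have : w = c⁻¹ * (c * w) := by field_simp
  rw [this]
  exact mul_mem (inv_mem hcE) h

end

theorem stmt_A (hM : Stmt_M.{u, v}) : Stmt_A.{u, v} := by
  classical
  rintro K F _ _ _ _ _ ⟨x, hx, hfd⟩ t ht
  have fd : FiniteDimensional K⟮t⟯ F :=
    S24.finiteDimensional_adjoin_simple_of_transcendental x hx t ht
  have sep : Algebra.IsSeparable K⟮t⟯ F := S24.isSeparable_adjoin (K := K) t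
  obtain ⟨z, hz⟩ := Field.exists_primitive_element K⟮t⟯ F
  have hgen : IntermediateField.adjoin K {t, z} = ⊤ := by
    rw [← adjoin_simple_adjoin_simple, hz, restrictScalars_top]
  -- a relation of minimal degree
  have hex : ∃ n : ℕ, ∃ Ψ : K[X][Y], Ψ ≠ 0 ∧ evalF Ψ t z = 0 ∧ Ψ.natDegree = n := by
    obtain ⟨p, hp0, hp⟩ := (S24.exists_polynomial_relation t ht z).1
    exact ⟨p.natDegree, p, hp0, by rw [altA_evalF_eq_eval₂]; exact hp, rfl⟩
  obtain ⟨Ψ0, hΨ0, hroot, hdeg⟩ := Nat.find_spec hex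
  have hmin : MinDeg K t z (Nat.find hex) := fun Ψ h0 h1 => Nat.find_min' hex ⟨Ψ, h0, h1, rfl⟩
  have ha : Ψ0.leadingCoeff ≠ 0 := leadingCoeff_ne_zero.2 hΨ0
  have hat : aeval t Ψ0.leadingCoeff ≠ 0 := altA_aeval_ne_zero ht ha
  refine ⟨aeval t Ψ0.leadingCoeff * z, integralNormalization Ψ0, monic_integralNormalization hΨ0,
    ?_, ?_, ?_⟩
  · rw [altA_evalF_eq_eval₂] at hroot ⊢
    exact integralNormalization_eval₂_eq_zero _ hroot fun a h => by
      by_contra h0
      exact altA_aeval_ne_zero ht h0 h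
  · rw [natDegree_integralNormalization, hdeg]
    exact (hM K F t z _ hmin).2.2 _ hat
  · rw [eq_top_iff, ← hgen, adjoin_le_iff]
    have ht' : t ∈ IntermediateField.adjoin K {t, aeval t Ψ0.leadingCoeff * z} :=
      subset_adjoin K _ (by simp)
    have hy' : aeval t Ψ0.leadingCoeff * z ∈
        IntermediateField.adjoin K {t, aeval t Ψ0.leadingCoeff * z} :=
      subset_adjoin K _ (by simp)
    rintro w (rfl | rfl)
    · exact ht'
    · exact altA_mem_of_mul_mem _ hat (altA_aeval_mem _ ht' _) hy'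

end CH1

end Fermat.Agent.S27
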