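import Fermat.Agent.S27.CH1AltInterface
import Fermat.Agent.S27.EvalAt

/-!
# S27 / CH1 alternative route, package (B) : Taylor polynomials of a regular function at a place
-/

set_option autoImplicit false

namespace Fermat.Agent.S27

open AlgebraicCurve IntermediateField Polynomial

universe u v

namespace CH1

theorem stmt_B : Stmt_B.{u, v} := by
  intro K F _ _ _ _ _ hF Q t ht f hf N
  have ht0 : t ≠ 0 := by
    rintro rfl
    simp at ht
  induction N with
  | zero =>
    refine ⟨0, Or.inr ?_⟩
    simpa using hf.ord_nonneg
  | succ N ih =>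
    obtain ⟨p, hp⟩ := ih
    by_cases h0 : f - aeval t p = 0
    · exact ⟨p, Or.inl h0⟩
    have hN : (N : ℤ) ≤ Q.ord (f - aeval t p) := hp.resolve_left h0
    set g : F := (f - aeval t p) * (t ^ N)⁻¹ with hg
    have htN : t ^ N ≠ 0 := pow_ne_zero N ht0
    have hordtN : Q.ord (t ^ N) = N := by
      have := Q.ord_zpow t (N : ℤ)
      rw [zpow_natCast, ht, mul_one] at this
      exact this
    have hgord : 0 ≤ Q.ord g := by
      rw [hg, Q.ord_mul h0 (inv_ne_zero htN), Q.ord_inv, hordtN]
      omega
    have hgreg : RegularAt Q g := regularAt_of_ord_nonneg hgord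
    have hvan := evalAt_spec hF hgreg
    set a : K := evalAt Q g with ha
    refine ⟨p + C a * X ^ N, ?_⟩
    have hkey : f - aeval t (p + C a * X ^ N) = t ^ N * (g - algebraMap K F a) := by
      rw [hg]
      simp only [map_add, map_mul, aeval_C, map_pow, aeval_X]
      field_simp
      ring
    by_cases h1 : g - algebraMap K F a = 0
    · left
      rw [hkey, h1, mul_zero]
    · right
      rw [hkey, Q.ord_mul htN h1, hordtN]
      have := hvan.ord_pos h1
      push_cast
      omega

end CH1

end Fermat.Agent.S27
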