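import Fermat.Agent.S27.CH1AltInterface

/-!
# S27 / CH1 alternative route, package (D): the new monic polynomial
-/

set_option autoImplicit false

namespace Fermat.Agent.S27

open AlgebraicCurve IntermediateField Polynomial
open scoped Polynomial.Bivariate

universe u v

namespace CH1

namespace AltD

variable {K : Type*} [Field K]

/-- the coefficients of the new polynomial -/
noncomputable def dco (T : K[X][Y]) (k m : ℕ) (l b : K[X]) : ℕ → K[X]
  | 0 => 1
  | 1 => b
  | (j + 2) => T.coeff (j + 2) * l ^ (j + 1) * X ^ (m * (j + 2) - m - k)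

theorem key (T : K[X][Y]) (k m : ℕ) (l b : K[X]) (hkm : k < m)
    (h0 : T.coeff 0 = X ^ (m + k) * l) (h1 : T.coeff 1 = X ^ k * b) (j : ℕ) :
    X ^ (m + k) * l * dco T k m l b j = T.coeff j * (l * X ^ m) ^ j := by
  match j with
  | 0 => simp [dco, h0]
  | 1 =>
    simp only [dco, h1, pow_one]
    ring
  | (j + 2) =>
    simp only [dco]
    have hexp : m * (j + 2) = (m + k) + (m * (j + 2) - m - k) := by
      have : m + k ≤ m * (j + 2) := by nlinarith
      omega
    rw [mul_pow, ← pow_mul, hexp]
    have : (m + k + (m * (j + 2) - m - k)) - m - k = m * (j + 2) - m - k := by omega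
    rw [this]
    ring

theorem eval_dco (T : K[X][Y]) (k m : ℕ) (l b : K[X]) (hkm : k < m) (j : ℕ) :
    (dco T k m l b (j + 2)).eval 0 = 0 := by
  simp only [dco, eval_mul, eval_pow, eval_X]
  have : m * (j + 2) - m - k ≠ 0 := by
    have : m + k < m * (j + 2) := by nlinarith
    omega
  rw [zero_pow this, mul_zero]

/-- the new polynomial -/
noncomputable def newPhi (T : K[X][Y]) (k m : ℕ) (l b : K[X]) : K[X][Y] :=
  X ^ T.natDegree +
    ∑ j ∈ Finset.range T.natDegree, C (dco T k m l b (j + 1)) * X ^ (T.natDegree - 1 - j)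

theorem degree_sum_lt (T : K[X][Y]) (k m : ℕ) (l b : K[X]) (hn : 1 ≤ T.natDegree) :
    (∑ j ∈ Finset.range T.natDegree,
      C (dco T k m l b (j + 1)) * X ^ (T.natDegree - 1 - j) : K[X][Y]).degree < T.natDegree := by
  refine (Polynomial.degree_sum_le _ _).trans_lt
    ((Finset.sup_lt_iff (WithBot.bot_lt_coe T.natDegree)).2 fun j _ => ?_)
  refine (degree_C_mul_X_pow_le _ _).trans_lt ?_
  have : T.natDegree - 1 - j < T.natDegree := by omega
  exact WithBot.coe_lt_coe.2 this

theorem natDegree_newPhi (T : K[X][Y]) (k m : ℕ) (l b : K[X]) (hn : 1 ≤ T.natDegree) :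
    (newPhi T k m l b).natDegree = T.natDegree := by
  unfold newPhi
  rw [natDegree_add_eq_left_of_degree_lt, natDegree_X_pow]
  rw [degree_X_pow]
  exact degree_sum_lt T k m l b hn

end AltD

open AltD in
theorem stmt_D : Stmt_D.{u, v} := by
  intro K F _ _ _ t ε T k m l b hT hn hkm hε ht hl hroot h0 h1
  refine ⟨newPhi T k m l b, monic_X_pow_add (degree_sum_lt T k m l b hn),
    natDegree_newPhi T k m l b hn, ?_, ?_⟩
  · set n := T.natDegree with hndef
    set g : F := aeval t l * t ^ m with hg
    set y : F := g / ε with hy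
    have hgy : g = y * ε := by
      rw [hy]; field_simp
    set A : F := t ^ (m + k) * aeval t l with hA
    have hA0 : A ≠ 0 := mul_ne_zero (pow_ne_zero _ ht) hl
    have hkey : ∀ j, A * aeval t (dco T k m l b j) = aeval t (T.coeff j) * g ^ j := by
      intro j
      have := congrArg (aeval t) (key T k m l b hkm h0 h1 j)
      simpa only [map_mul, map_pow, aeval_X] using this
    have hev : evalF (newPhi T k m l b) t y
        = y ^ n + ∑ j ∈ Finset.range n, aeval t (dco T k m l b (j + 1)) * y ^ (n - 1 - j) := by
      simp only [evalF, newPhi, Polynomial.map_add, Polynomial.map_sum, Polynomial.map_mul,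
        Polynomial.map_pow, Polynomial.map_C, Polynomial.map_X, eval_add, eval_finsetSum,
        eval_mul, eval_pow, eval_C, eval_X]
      rfl
    have hT' : evalF T t ε = ∑ j ∈ Finset.range (n + 1), aeval t (T.coeff j) * ε ^ j := by
      simp only [evalF, eval_map]
      rw [eval₂_eq_sum_range]
      rfl
    have hmain : A * evalF (newPhi T k m l b) t y = y ^ n * evalF T t ε := by
      rw [hev, hT', Finset.sum_range_succ', mul_add, Finset.mul_sum, mul_add, Finset.mul_sum,
        add_comm]
      congr 1
      · refine Finset.sum_congr rfl fun j hj => ?_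
        have hj' : j < n := Finset.mem_range.1 hj
        rw [← mul_assoc, hkey, hgy, mul_pow]
        have : y ^ n = y ^ (j + 1) * y ^ (n - 1 - j) := by
          rw [← pow_add]; congr 1; omega
        rw [this]
        ring
      · have := hkey 0
        simp only [dco, map_one, mul_one, pow_zero] at this
        rw [this]
        ring
    rw [hroot, mul_zero] at hmain
    exact (mul_eq_zero.1 hmain).resolve_left hA0
  · obtain ⟨n, hn'⟩ : ∃ n, T.natDegree = n + 1 := ⟨T.natDegree - 1, by omega⟩
    simp only [newPhi, hn', Polynomial.map_add, Polynomial.map_sum, Polynomial.map_mul,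
      Polynomial.map_pow, Polynomial.map_C, Polynomial.map_X, coe_evalRingHom]
    congr 1
    rw [Finset.sum_range_succ']
    have : ∑ j ∈ Finset.range n, (C (eval 0 (dco T k m l b (j + 1 + 1))) * X ^ (n + 1 - 1 - (j + 1)) : K[X])
        = 0 := by
      refine Finset.sum_eq_zero fun j _ => ?_
      rw [eval_dco T k m l b hkm j, C_0, zero_mul]
    rw [this, zero_add]
    simp [dco]

end CH1

end Fermat.Agent.S27
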