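import Fermat.Agent.S27.CH1AltInterface
import Fermat.Agent.S27.Uniq
import Fermat.Agent.S24.ExistsIndex

/-!
# S27 / CH1alt-E : orders of the two lowest coefficients `c₀`, `c₁` of `T`
-/

set_option autoImplicit false

namespace Fermat.Agent.S27

open AlgebraicCurve IntermediateField Polynomial
open scoped Polynomial.Bivariate

universe u v

namespace CH1

section

variable {K : Type u} {F : Type v} [Field K] [Field F] [Algebra K F]

/-- perturbation by a term of larger order. -/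
theorem E_ord_sub {Q : Place K F} {δ ε x : F} {k m : ℕ} (hδ : δ ≠ 0) (hk : Q.ord δ = k)
    (hε : ε ≠ 0) (hm : Q.ord ε = m) (hkm : k < m) (hx : RegularAt Q x) :
    δ - ε * x ≠ 0 ∧ Q.ord (δ - ε * x) = k := by
  rcases eq_or_ne x 0 with rfl | hx0
  · simpa using ⟨hδ, hk⟩
  have h1 : -(ε * x) ≠ 0 := neg_ne_zero.mpr (mul_ne_zero hε hx0)
  have h2 : Q.ord (-(ε * x)) = m + Q.ord x := by
    rw [(Fermat.Agent.S24.isVal_ord Q).map_neg, Q.ord_mul hε hx0, hm]
  have h3 : 0 ≤ Q.ord x := hx.ord_nonneg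
  have h4 : Q.ord δ < Q.ord (-(ε * x)) := by
    rw [h2, hk]
    have : (k : ℤ) < m := by exact_mod_cast hkm
    omega
  have h5 := Fermat.Agent.S24.ord_add_eq_of_lt Q hδ h1 h4
  rw [← sub_eq_add_neg] at h5
  refine ⟨?_, h5.trans hk⟩
  intro h0
  have : δ = ε * x := sub_eq_zero.mp h0
  rw [this, (Fermat.Agent.S24.isVal_ord Q).map_neg] at h4
  exact lt_irrefl _ h4

/-- a polynomial whose value at the uniformiser `t` has order `r` is `X ^ r * q`, `q(0) ≠ 0`. -/
theorem E_factor {Q : Place K F} {t : F} (ht : Q.ord t = 1) (c : K[X]) (r : ℕ)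
    (hc : aeval t c ≠ 0) (hr : Q.ord (aeval t c) = r) :
    ∃ q : K[X], q.eval 0 ≠ 0 ∧ c = X ^ r * q := by
  have hc0 : c ≠ 0 := by
    rintro rfl
    simp at hc
  have ht0 : t ≠ 0 := by
    rintro rfl
    simp at ht
  obtain ⟨-, h2⟩ := (Fermat.Agent.S24.isVal_ord Q).aeval_of_ne_zero ht0 (by rw [ht]; norm_num) c hc0
  rw [hr, ht, mul_one] at h2
  have h3 : c.rootMultiplicity 0 = r := by exact_mod_cast h2.symm
  obtain ⟨q, hq, hq'⟩ := Polynomial.exists_eq_pow_rootMultiplicity_mul_and_not_dvd c hc0 0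
  rw [h3, C_0, sub_zero] at hq
  refine ⟨q, ?_, hq⟩
  intro h0
  apply hq'
  rw [dvd_iff_isRoot]
  exact h0

end

theorem stmt_E : Stmt_E.{u, v} := by
  intro K F _ _ _ _ _ _ Q t ε T k m ht hε hm hkm hT hδ hk
  rw [Uniq.evalF_eq] at hT hδ hk
  set θ := Uniq.evalFHom (K := K) t ε with hθ
  have htreg : RegularAt Q t := regularAt_of_ord_nonneg (by rw [ht]; norm_num)
  have hεreg : RegularAt Q ε := regularAt_of_ord_nonneg (by rw [hm]; positivity)
  have hreg : ∀ P : K[X][Y], RegularAt Q (θ P) := Uniq.regularAt_evalFHom htreg hεreg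
  -- decompositions
  have e0 : T = divX T * X + C (T.coeff 0) := (divX_mul_X_add T).symm
  have e1 : divX T = divX (divX T) * X + C (T.coeff 1) := by
    have := (divX_mul_X_add (divX T)).symm
    rwa [coeff_divX, zero_add] at this
  have h0 : θ T = θ (divX T) * ε + aeval t (T.coeff 0) := by
    conv_lhs => rw [e0]
    rw [map_add, map_mul, hθ, Uniq.evalFHom_X, Uniq.evalFHom_C]
  have h1 : θ (divX T) = θ (divX (divX T)) * ε + aeval t (T.coeff 1) := by
    conv_lhs => rw [e1]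
    rw [map_add, map_mul, hθ, Uniq.evalFHom_X, Uniq.evalFHom_C]
  have hd : θ (derivative T) = θ (derivative (divX T)) * ε + θ (divX T) := by
    conv_lhs => rw [e0]
    rw [derivative_add, derivative_mul, derivative_X, derivative_C, mul_one, add_zero, map_add,
      map_mul, hθ, Uniq.evalFHom_X]
  -- `c₁(t)`
  have hc1 : aeval t (T.coeff 1) =
      θ (derivative T) - ε * (θ (derivative (divX T)) + θ (divX (divX T))) := by
    rw [hd, h1]; ring
  obtain ⟨c1ne, c1ord⟩ := E_ord_sub hδ hk hε hm hkm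
    (regularAt_add (hreg (derivative (divX T))) (hreg (divX (divX T))))
  rw [← hc1] at c1ne c1ord
  -- `θ (divX T)`
  have hT1 : θ (divX T) = θ (derivative T) - ε * θ (derivative (divX T)) := by
    rw [hd]; ring
  obtain ⟨T1ne, T1ord⟩ := E_ord_sub hδ hk hε hm hkm (hreg (derivative (divX T)))
  rw [← hT1] at T1ne T1ord
  -- `c₀(t)`
  have hc0 : aeval t (T.coeff 0) = -(θ (divX T) * ε) := by
    rw [hT] at h0
    linear_combination -h0
  have c0ne : aeval t (T.coeff 0) ≠ 0 := by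
    rw [hc0]; exact neg_ne_zero.mpr (mul_ne_zero T1ne hε)
  have c0ord : Q.ord (aeval t (T.coeff 0)) = ((m + k : ℕ) : ℤ) := by
    rw [hc0, (Fermat.Agent.S24.isVal_ord Q).map_neg, Q.ord_mul T1ne hε, T1ord, hm]
    push_cast; ring
  obtain ⟨l, hl, hl'⟩ := E_factor ht (T.coeff 0) (m + k) c0ne c0ord
  obtain ⟨b, hb, hb'⟩ := E_factor ht (T.coeff 1) k c1ne c1ord
  exact ⟨l, b, hl, hb, hl', hb'⟩

end CH1

end Fermat.Agent.S27
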