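import Fermat.Agent.S27.CH1AltInterface

/-!
# S27 / CH1alt-G : the nonzero root of `Y^n + b₀ Y^(n-1)` is simple (helper32)
-/

set_option autoImplicit false

namespace Fermat.Agent.S27

open Polynomial
open scoped Polynomial.Bivariate

universe u

namespace CH1

theorem stmt_G : Stmt_G.{u} := by
  intro K _ Φ n b₀ η hn hΦ hη h0
  obtain ⟨m, rfl⟩ : ∃ m, n = m + 1 := ⟨n - 1, by omega⟩
  rw [Nat.add_sub_cancel] at hΦ
  rw [← map_evalRingHom_eval, hΦ] at h0
  rw [← map_evalRingHom_eval, ← derivative_map, hΦ]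
  simp only [eval_add, eval_pow, eval_X, eval_mul, eval_C] at h0
  have h1 : η ^ m * (η + b₀) = 0 := by rw [← h0]; ring
  have h2 : η + b₀ = 0 := by
    rcases mul_eq_zero.1 h1 with h | h
    · exact absurd h (pow_ne_zero _ hη)
    · exact h
  have hb : b₀ = -η := by linear_combination h2
  subst hb
  simp only [derivative_X_pow, derivative_mul, derivative_C, zero_mul, zero_add,
    eval_add, eval_mul, eval_C, eval_pow, eval_X, Nat.add_sub_cancel, eval_natCast, Nat.cast_add,
    Nat.cast_one, map_add, map_natCast, map_one, eval_one]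
  have h3 : ((m : K) + 1) * η ^ m + -η * ((m : K) * η ^ (m - 1)) = η ^ m := by
    rcases Nat.eq_zero_or_pos m with h' | h'
    · subst h'; simp
    · obtain ⟨j, rfl⟩ : ∃ j, m = j + 1 := ⟨m - 1, by omega⟩
      rw [Nat.add_sub_cancel]
      ring
  rw [h3]
  exact pow_ne_zero _ hη

end CH1

end Fermat.Agent.S27
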