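import Fermat.Agent.S27.Interface2

/-!
# S27 / CH1, alternative route (Newton–Hensel + inversion; no CRT, no norms, no Dedekind domains)

`y₀` integral primitive with monic minimal `Φ₀` of degree `n`; `δ := Φ₀_Y(t,y₀) ≠ 0`, `k := ord_Q δ`,
`m := k+1`; `p ∈ K[X]` with `ord_Q (y₀ - p(t)) = m`; `ε := y₀ - p(t)`, `T := Φ₀(Y + p) = ∑ c_j Y^j`.
Then `c₀ = X^(m+k) ℓ`, `c₁ = X^k b`, `ℓ(0), b(0) ≠ 0`, and `y := ℓ(t) t^m / ε` is a root of the monic
`Φ := Y^n + b Y^(n-1) + ∑_{j ≥ 2} c_j ℓ^(j-1) X^(mj-m-k) Y^(n-j)`, with `Φ(0,Y) = Y^(n-1) (Y + b(0))`.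
-/

set_option autoImplicit false

namespace Fermat.Agent.S27

open AlgebraicCurve IntermediateField Polynomial
open scoped Polynomial.Bivariate

universe u v

namespace CH1

/-- Every nonzero polynomial relation between `t` and `y` has `Y`-degree at least `n`. -/
def MinDeg (K : Type*) {F : Type*} [Field K] [Field F] [Algebra K F] (t y : F) (n : ℕ) : Prop :=
  ∀ Ψ : K[X][Y], Ψ ≠ 0 → evalF Ψ t y = 0 → n ≤ Ψ.natDegree

/-- (A) base model: an integral primitive element. -/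
def Stmt_A : Prop :=
  ∀ (K : Type u) (F : Type v) [Field K] [Field F] [Algebra K F] [IsAlgClosed K] [CharZero K],
    IsFF K F → ∀ t : F, Transcendental K t →
      ∃ (y : F) (Φ : K[X][Y]), Φ.Monic ∧ evalF Φ t y = 0 ∧ MinDeg K t y Φ.natDegree ∧
        IntermediateField.adjoin K {t, y} = ⊤

/-- (M) `MinDeg` is invariant under translation, inversion and scaling. -/
def Stmt_M : Prop :=
  ∀ (K : Type u) (F : Type v) [Field K] [Field F] [Algebra K F] (t y : F) (n : ℕ),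
    MinDeg K t y n →
      (∀ p : K[X], MinDeg K t (y - aeval t p) n) ∧
      (y ≠ 0 → MinDeg K t y⁻¹ n) ∧
      (∀ g : K[X], aeval t g ≠ 0 → MinDeg K t (aeval t g * y) n)

/-- (B) Taylor polynomials at a place. -/
def Stmt_B : Prop :=
  ∀ (K : Type u) (F : Type v) [Field K] [Field F] [Algebra K F] [IsAlgClosed K] [CharZero K],
    IsFF K F → ∀ (Q : Place K F) (t : F), Q.ord t = 1 → ∀ f : F, RegularAt Q f → ∀ N : ℕ,
      ∃ p : K[X], f - aeval t p = 0 ∨ (N : ℤ) ≤ Q.ord (f - aeval t p)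

/-- (E) the orders of the two lowest coefficients. -/
def Stmt_E : Prop :=
  ∀ (K : Type u) (F : Type v) [Field K] [Field F] [Algebra K F] [IsAlgClosed K] [CharZero K],
    IsFF K F → ∀ (Q : Place K F) (t ε : F) (T : K[X][Y]) (k m : ℕ), Q.ord t = 1 → ε ≠ 0 →
      Q.ord ε = m → k < m → evalF T t ε = 0 → evalF (derivative T) t ε ≠ 0 →
      Q.ord (evalF (derivative T) t ε) = k →
        ∃ l b : K[X], l.eval 0 ≠ 0 ∧ b.eval 0 ≠ 0 ∧ T.coeff 0 = X ^ (m + k) * l ∧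
          T.coeff 1 = X ^ k * b

/-- (D) the new monic polynomial. -/
def Stmt_D : Prop :=
  ∀ (K : Type u) (F : Type v) [Field K] [Field F] [Algebra K F] (t ε : F) (T : K[X][Y])
    (k m : ℕ) (l b : K[X]), T.Monic → 1 ≤ T.natDegree → k < m → ε ≠ 0 → t ≠ 0 → aeval t l ≠ 0 →
      evalF T t ε = 0 → T.coeff 0 = X ^ (m + k) * l → T.coeff 1 = X ^ k * b →
        ∃ Φ : K[X][Y], Φ.Monic ∧ Φ.natDegree = T.natDegree ∧
          evalF Φ t (aeval t l * t ^ m / ε) = 0 ∧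
          Φ.map (evalRingHom (0 : K)) = X ^ T.natDegree + C (b.eval 0) * X ^ (T.natDegree - 1)

/-- (G) the nonzero root of `Y^n + b₀ Y^(n-1)` is simple. -/
def Stmt_G : Prop :=
  ∀ (K : Type u) [Field K] (Φ : K[X][Y]) (n : ℕ) (b₀ η : K), 1 ≤ n →
    Φ.map (evalRingHom (0 : K)) = X ^ n + C b₀ * X ^ (n - 1) → η ≠ 0 → Φ.evalEval 0 η = 0 →
      (derivative Φ).evalEval 0 η ≠ 0

end CH1

end Fermat.Agent.S27
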