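import Fermat.Agent.S27.CH1AltInterface

/-!
# S27 / CH1 (alternative route), package M : `MinDeg` is invariant under translation, inversion
and scaling
-/

set_option autoImplicit false

namespace Fermat.Agent.S27

open AlgebraicCurve IntermediateField Polynomial
open scoped Polynomial.Bivariate

universe u v

namespace CH1

namespace M

variable {K : Type u} {F : Type v} [Field K] [Field F] [Algebra K F]

theorem evalF_eq_eval₂ (P : K[X][Y]) (t y : F) :
    evalF P t y = P.eval₂ (Polynomial.aeval t : K[X] →ₐ[K] F).toRingHom y := by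
  rw [evalF, Polynomial.eval_map]

theorem evalF_comp (P G : K[X][Y]) (t y : F) :
    evalF (P.comp G) t y = evalF P t (evalF G t y) := by
  simp only [evalF_eq_eval₂, Polynomial.eval₂_comp]

/-- pull back along a substitution of degree one -/
theorem minDeg_of_comp {t y y' : F} {n : ℕ} (h : MinDeg K t y n) (G : K[X][Y])
    (hG : G.natDegree = 1) (hy : evalF G t y = y') : MinDeg K t y' n := by
  intro Ψ hΨ h0
  have h1 : evalF (Ψ.comp G) t y = 0 := by rw [evalF_comp, hy, h0]
  have h2 : Ψ.comp G ≠ 0 := by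
    intro hc
    rcases Polynomial.comp_eq_zero_iff.mp hc with hc | ⟨-, hc⟩
    · exact hΨ hc
    · rw [hc, natDegree_C] at hG
      exact zero_ne_one hG
  have h3 := h _ h2 h1
  rwa [natDegree_comp, hG, mul_one] at h3

end M

theorem stmt_M : Stmt_M.{u, v} := by
  intro K F _ _ _ t y n h
  refine ⟨fun p => ?_, fun hy => ?_, fun g hg => ?_⟩
  · refine M.minDeg_of_comp h (X - C p) (natDegree_X_sub_C p) ?_
    simp [M.evalF_eq_eval₂]
  · intro Ψ hΨ h0
    have h1 : evalF Ψ.reverse t y = 0 := by
      rw [M.evalF_eq_eval₂] at h0 ⊢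
      let _ : Invertible y⁻¹ := invertibleOfNonzero (inv_ne_zero hy)
      have := (Polynomial.eval₂_reverse_eq_zero_iff
        (Polynomial.aeval t : K[X] →ₐ[K] F).toRingHom y⁻¹ Ψ).mpr h0
      rwa [invOf_eq_inv, inv_inv] at this
    have h2 : Ψ.reverse ≠ 0 := fun hc => hΨ (Polynomial.reverse_eq_zero.mp hc)
    exact (h _ h2 h1).trans (Polynomial.reverse_natDegree_le Ψ)
  · have hg0 : g ≠ 0 := fun h0 => hg (by rw [h0, map_zero])
    refine M.minDeg_of_comp h (C g * X) (natDegree_C_mul_X g hg0) ?_
    simp [M.evalF_eq_eval₂]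

end CH1

end Fermat.Agent.S27
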