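import Fermat.Agent.S27.Interface2

/-!
# S27, package CH2 : holomorphic implicit function for a bivariate polynomial
-/

set_option autoImplicit false

namespace Fermat.Agent.S27

open Polynomial Filter
open scoped Polynomial.Bivariate Topology ContDiff

namespace CH2

/-- The polynomial function `(x, y) ↦ Φ(x, y)`. -/
noncomputable def fn (Φ : ℂ[X][Y]) : ℂ × ℂ → ℂ := fun v => Φ.evalEval v.1 v.2

theorem fn_eq_sum (Φ : ℂ[X][Y]) (v : ℂ × ℂ) :
    fn Φ v = ∑ i ∈ Finset.range (Φ.natDegree + 1), (Φ.coeff i).eval v.1 * v.2 ^ i := by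
  unfold fn
  rw [← Polynomial.map_evalRingHom_eval, Polynomial.eval_eq_sum_range' (n := Φ.natDegree + 1)]
  · simp
  · exact lt_of_le_of_lt Polynomial.natDegree_map_le (Nat.lt_succ_self _)

theorem analyticAt_fn (Φ : ℂ[X][Y]) (u : ℂ × ℂ) : AnalyticAt ℂ (fn Φ) u := by
  have h : fn Φ = fun v : ℂ × ℂ =>
      ∑ i ∈ Finset.range (Φ.natDegree + 1), (Φ.coeff i).eval v.1 * v.2 ^ i := by
    funext v; exact fn_eq_sum Φ v
  rw [h]
  refine Finset.analyticAt_fun_sum _ (fun i _ => ?_)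
  refine AnalyticAt.mul ?_ (analyticAt_snd.pow i)
  have h1 : AnalyticAt ℂ (fun x : ℂ => (Φ.coeff i).eval x) u.1 := by
    have := (Differentiable.analyticAt (f := fun x : ℂ => (Φ.coeff i).eval x)
      (Polynomial.differentiable _) u.1)
    exact this
  exact h1.fun_comp_of_eq analyticAt_fst rfl

theorem hasDerivAt_snd (Φ : ℂ[X][Y]) (x y : ℂ) :
    HasDerivAt (fun y' => fn Φ (x, y')) ((derivative Φ).evalEval x y) y := by
  have h : (fun y' => fn Φ (x, y')) = fun y' => (Φ.map (evalRingHom x)).eval y' := by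
    funext y'; simp [fn, Polynomial.map_evalRingHom_eval]
  rw [h, ← Polynomial.map_evalRingHom_eval, ← Polynomial.derivative_map]
  exact Polynomial.hasDerivAt _ _

theorem fderiv_inr_apply (Φ : ℂ[X][Y]) (u : ℂ × ℂ) :
    (fderiv ℂ (fn Φ) u ∘L ContinuousLinearMap.inr ℂ ℂ ℂ) 1 = (derivative Φ).evalEval u.1 u.2 := by
  have h1 : HasFDerivAt (fn Φ) (fderiv ℂ (fn Φ) u) (u.1, u.2) :=
    (analyticAt_fn Φ u).differentiableAt.hasFDerivAt
  have h2 : HasDerivAt (fun y' : ℂ => (u.1, y')) ((0 : ℂ), (1 : ℂ)) u.2 :=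
    (hasDerivAt_const u.2 u.1).prodMk (hasDerivAt_id u.2)
  have h3 := h1.comp_hasDerivAt u.2 h2
  have h4 := (hasDerivAt_snd Φ u.1 u.2).unique h3
  simp [h4]

theorem isInvertible_of_ne (L : ℂ →L[ℂ] ℂ) (h : L 1 ≠ 0) : L.IsInvertible := by
  refine ⟨ContinuousLinearEquiv.unitsEquivAut ℂ (Units.mk0 (L 1) h), ?_⟩
  apply ContinuousLinearMap.ext_ring
  simp

end CH2

open CH2 in
theorem ch2 : Stmt_CH2 := by
  intro Φ y₀ h0 h1
  set u : ℂ × ℂ := (0, y₀) with hu
  have cdf : ContDiffAt ℂ ω (fn Φ) u := (analyticAt_fn Φ u).contDiffAt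
  have pn : (ω : ℕ∞ω) ≠ 0 := by simp
  have inv : (fderiv ℂ (fn Φ) u ∘L ContinuousLinearMap.inr ℂ ℂ ℂ).IsInvertible := by
    apply isInvertible_of_ne
    rw [fderiv_inr_apply]
    exact h1
  set Yf := cdf.implicitFunction pn inv with hYf
  have hY0 : Yf 0 = y₀ := cdf.implicitFunction_apply_self pn inv
  have hev1 : ∀ᶠ x in 𝓝 (0 : ℂ), fn Φ (x, Yf x) = fn Φ u :=
    cdf.eventually_apply_implicitFunction pn inv
  have han : AnalyticAt ℂ Yf 0 := by
    have := cdf.contDiffAt_implicitFunction pn inv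
    rw [← contDiffWithinAt_univ] at this
    exact analyticWithinAt_univ.1 (contDiffWithinAt_omega_iff_analyticWithinAt.1 this)
  have hev2 : ∀ᶠ x in 𝓝 (0 : ℂ), AnalyticAt ℂ Yf x := han.eventually_analyticAt
  have hcont : ContinuousAt (fun x : ℂ => fn (derivative Φ) (x, Yf x)) 0 := by
    have h2 : ContinuousAt (fun x : ℂ => (x, Yf x)) 0 :=
      continuousAt_id.prodMk han.continuousAt
    exact ContinuousAt.comp (g := fn (derivative Φ)) (analyticAt_fn _ _).continuousAt h2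
  have hev3 : ∀ᶠ x in 𝓝 (0 : ℂ), fn (derivative Φ) (x, Yf x) ≠ 0 := by
    apply hcont.eventually_ne
    simpa [fn, hY0] using h1
  obtain ⟨r, hr, H⟩ := Metric.eventually_nhds_iff.1 (hev1.and (hev2.and hev3))
  refine ⟨r, hr, Yf, hY0, fun c hc => ?_⟩
  have := H (y := c) (by simpa using hc)
  refine ⟨this.2.1, ?_, this.2.2⟩
  have h5 := this.1
  simpa [fn, hu, h0] using h5

end Fermat.Agent.S27
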