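import Fermat.Agent.S27.Interface2
import Fermat.Agent.S24.ExistsIndex

/-!
# S27 : split of the package CH3 (plane model + holomorphic branch => chart)

No germ fields, no lifting of homomorphisms: every `f ∈ F` is `p(t,y)/q(t)`; the function
`ev f z := p(z, Y z)/q(z)` is meromorphic on the disc, and `f ↦ ev f` is additive and multiplicative
up to discrete sets (because the relation ideal of `(t,y)` is `(Φ)`).  This is an `IsAnModel`, and any
`IsAnModel` gives a chart (`P c :=` place of the valuation `f ↦ meromorphicOrderAt (ev f) c`).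
-/

set_option autoImplicit false

namespace Fermat.Agent.S27

open AlgebraicCurve IntermediateField Polynomial Filter Topology
open scoped Polynomial.Bivariate

universe u v

/-- CH3a: a `ℤ`-valued valuation trivial on `K` which takes the value `1` is the `ord` of a place. -/
def Stmt_CH3a : Prop :=
  ∀ (K : Type u) (F : Type v) [Field K] [Field F] [Algebra K F] (V : F → ℤ),
    S24.IsVal K V → (∃ π : F, π ≠ 0 ∧ V π = 1) →
      ∃ P : Place K F, ∀ f : F, f ≠ 0 → P.ord f = V f

/-- CH3b: algebra of a plane model: the relation ideal is `(Φ)`, `t` is transcendental, and every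
element of `F` is `p(t,y)/q(t)`. -/
def Stmt_CH3b : Prop :=
  ∀ (K : Type u) (F : Type v) [Field K] [Field F] [Algebra K F] (t y : F) (Φ : K[X][Y]),
    Φ.Monic → evalF Φ t y = 0 →
    (∀ Ψ : K[X][Y], Ψ.natDegree < Φ.natDegree → evalF Ψ t y = 0 → Ψ = 0) →
    IntermediateField.adjoin K {t, y} = ⊤ →
      (∀ Ψ : K[X][Y], evalF Ψ t y = 0 → Φ ∣ Ψ) ∧
      (∀ q : K[X], q ≠ 0 → Polynomial.aeval t q ≠ 0) ∧
      (∀ f : F, ∃ (p : K[X][Y]) (q : K[X]), q ≠ 0 ∧ f * Polynomial.aeval t q = evalF p t y)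

/-- An analytic model of `F` on the disc `‖c‖ < r`: a "homomorphism up to discrete sets" from `F` to
the meromorphic functions on the disc, sending `t` to the coordinate. -/
structure IsAnModel {F : Type*} [Field F] [Algebra ℂ F] (r : ℝ) (t : F) (ev : F → ℂ → ℂ) :
    Prop where
  mero : ∀ (f : F) (c : ℂ), ‖c‖ < r → MeromorphicAt (ev f) c
  add : ∀ (f g : F) (c : ℂ), ‖c‖ < r → ev (f + g) =ᶠ[𝓝[≠] c] fun z => ev f z + ev g z
  mul : ∀ (f g : F) (c : ℂ), ‖c‖ < r → ev (f * g) =ᶠ[𝓝[≠] c] fun z => ev f z * ev g z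
  const : ∀ (a c : ℂ), ‖c‖ < r → ev (algebraMap ℂ F a) =ᶠ[𝓝[≠] c] fun _ => a
  coord : ∀ c : ℂ, ‖c‖ < r → ev t =ᶠ[𝓝[≠] c] fun z => z

/-- CH3c: an analytic model gives a chart; values of the chart = limits of the model. -/
def Stmt_CH3c : Prop :=
  ∀ (F : Type u) [Field F] [Algebra ℂ F], IsFF ℂ F →
    ∀ (r : ℝ) (t : F) (ev : F → ℂ → ℂ), 0 < r → IsAnModel r t ev →
      ∃ P : ℂ → Place ℂ F, IsChart r P t ∧
        ∀ (f : F) (c a : ℂ), ‖c‖ < r → Tendsto (ev f) (𝓝[≠] c) (𝓝 a) →
          VanishesAt (P c) (f - algebraMap ℂ F a)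

end Fermat.Agent.S27
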