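import Fermat.Agent.S27.Chart
import Fermat.Agent.S27.CH1
import Fermat.Agent.S27.CH3a
import Fermat.Agent.S27.CH3b

/-!
# S27 / CH : existence of charts (unconditional)
-/

set_option autoImplicit false

namespace Fermat.Agent.S27

universe u

/-- **CH**: every place of a function field over `ℂ` is the centre of a holomorphic chart. -/
theorem ch : Stmt_CH.{u} := ch_of' ch1 ch3a ch3b

end Fermat.Agent.S27
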