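import Fermat.Agent.S27.Interface
import Fermat.Agent.S27.EvalAt
import Fermat.Agent.S27.R0

/-!
# S27, package KA, part 1 : plane models, uniqueness of the place over a nonsingular point,
and the Lagrange kernel `f_c = Ψ_c(y) / ((t - c) Φ_Y(c, Y(c)))`.
-/

set_option autoImplicit false
set_option linter.unusedSectionVars false

namespace Fermat.Agent.S27

namespace KA

open AlgebraicCurve IntermediateField Polynomial Finset

variable {K F : Type*} [Field K] [Field F] [Algebra K F]

/-- `Φ(c,a) = ∑ φ_m(c) a^m` -/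
noncomputable def phiV (n : ℕ) (φ : ℕ → K[X]) (c a : K) : K :=
  ∑ m ∈ range (n + 1), (φ m).eval c * a ^ m

/-- `Φ_Y(c,a)` written as a divided difference on the diagonal -/
noncomputable def dPhi (n : ℕ) (φ : ℕ → K[X]) (c a : K) : K :=
  ∑ m ∈ range (n + 1), (φ m).eval c * ∑ i ∈ range m, a ^ i * a ^ (m - 1 - i)

/-- `Ψ_{c,a}(y) = (Φ(c,y) - Φ(c,a)) / (y - a)` -/
noncomputable def psiF (n : ℕ) (φ : ℕ → K[X]) (y : F) (c a : K) : F :=
  ∑ m ∈ range (n + 1), algebraMap K F ((φ m).eval c) *
    ∑ i ∈ range m, y ^ i * algebraMap K F a ^ (m - 1 - i)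

/-- `Θ_c(t,y) = (Φ(t,y) - Φ(c,y)) / (t - c)` -/
noncomputable def thetaF (n : ℕ) (φ : ℕ → K[X]) (t y : F) (c : K) : F :=
  ∑ m ∈ range (n + 1), aeval t (φ m /ₘ (X - C c)) * y ^ m

theorem aeval_sub_eval (t : F) (p : K[X]) (c : K) :
    aeval t p - algebraMap K F (p.eval c) = (t - algebraMap K F c) * aeval t (p /ₘ (X - C c)) := by
  have h := Polynomial.modByMonic_add_div p (X - C c)
  rw [Polynomial.modByMonic_X_sub_C_eq_C_eval] at h
  have h2 := congrArg (aeval t) h
  simp only [map_add, map_mul, map_sub, aeval_C, aeval_X] at h2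
  rw [← h2]; ring

/-- the basic identity -/
theorem basic_identity (n : ℕ) (φ : ℕ → K[X]) (t y : F) (c a : K) :
    (t - algebraMap K F c) * thetaF n φ t y c + (y - algebraMap K F a) * psiF n φ y c a
      = ∑ m ∈ range (n + 1), aeval t (φ m) * y ^ m - algebraMap K F (phiV n φ c a) := by
  unfold thetaF psiF phiV
  rw [map_sum, mul_sum, mul_sum, ← sum_add_distrib, ← sum_sub_distrib]
  refine sum_congr rfl fun m _ => ?_
  have h1 := aeval_sub_eval t (φ m) c
  have h2 : (∑ i ∈ range m, y ^ i * algebraMap K F a ^ (m - 1 - i)) * (y - algebraMap K F a)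
      = y ^ m - algebraMap K F a ^ m := geom_sum₂_mul y (algebraMap K F a) m
  rw [map_mul, map_pow]
  linear_combination (y ^ m) * (-h1) + algebraMap K F ((φ m).eval c) * h2

theorem aeval_mem_adjoin (t y : F) (p : K[X]) : aeval t p ∈ Algebra.adjoin K {t, y} :=
  Algebra.adjoin_mono (by simp) (Polynomial.aeval_mem_adjoin_singleton K t)

theorem t_mem_adjoin (t y : F) : t ∈ Algebra.adjoin K {t, y} :=
  Algebra.subset_adjoin (by simp)

theorem y_mem_adjoin (t y : F) : y ∈ Algebra.adjoin K {t, y} :=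
  Algebra.subset_adjoin (by simp)

theorem psiF_mem (n : ℕ) (φ : ℕ → K[X]) (t y : F) (c a : K) :
    psiF n φ y c a ∈ Algebra.adjoin K {t, y} :=
  sum_mem fun _ _ => mul_mem (Subalgebra.algebraMap_mem _ _)
    (sum_mem fun _ _ => mul_mem (pow_mem (y_mem_adjoin t y) _)
      (pow_mem (Subalgebra.algebraMap_mem _ _) _))

theorem thetaF_mem (n : ℕ) (φ : ℕ → K[X]) (t y : F) (c : K) :
    thetaF n φ t y c ∈ Algebra.adjoin K {t, y} :=
  sum_mem fun _ _ => mul_mem (aeval_mem_adjoin t y _) (pow_mem (y_mem_adjoin t y) _)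

/-- every element of `K[t,y]` is `λ + (t-c) g₁ + (y-a) g₂` -/
theorem adjoin_decomp (t y : F) (c a : K) (g : F) (hg : g ∈ Algebra.adjoin K {t, y}) :
    ∃ (l : K) (g₁ g₂ : F), g₁ ∈ Algebra.adjoin K {t, y} ∧ g₂ ∈ Algebra.adjoin K {t, y} ∧
      g = algebraMap K F l + (t - algebraMap K F c) * g₁ + (y - algebraMap K F a) * g₂ := by
  induction hg using Algebra.adjoin_induction with
  | mem x hx =>
    rcases hx with rfl | hx
    · exact ⟨c, 1, 0, one_mem _, zero_mem _, by ring⟩
    · rw [Set.mem_singleton_iff] at hx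
      subst hx
      exact ⟨a, 0, 1, zero_mem _, one_mem _, by ring⟩
  | algebraMap r => exact ⟨r, 0, 0, zero_mem _, zero_mem _, by ring⟩
  | add x x' _ _ hx hx' =>
    obtain ⟨l, g₁, g₂, h₁, h₂, rfl⟩ := hx
    obtain ⟨l', g₁', g₂', h₁', h₂', rfl⟩ := hx'
    exact ⟨l + l', g₁ + g₁', g₂ + g₂', add_mem h₁ h₁', add_mem h₂ h₂', by rw [map_add]; ring⟩
  | mul x x' hxm hxm' hx hx' =>
    obtain ⟨l, g₁, g₂, h₁, h₂, hxe⟩ := hx
    obtain ⟨l', g₁', g₂', h₁', h₂', hxe'⟩ := hx'
    refine ⟨l * l', g₁ * x' + algebraMap K F l * g₁', g₂ * x' + algebraMap K F l * g₂',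
      add_mem (mul_mem h₁ hxm') (mul_mem (Subalgebra.algebraMap_mem _ _) h₁'),
      add_mem (mul_mem h₂ hxm') (mul_mem (Subalgebra.algebraMap_mem _ _) h₂'), ?_⟩
    rw [map_mul]
    linear_combination x' * hxe + algebraMap K F l * hxe'

section Unique

variable [IsAlgClosed K]

theorem regularAt_of_mem_adjoin {v : Place K F} {t y g : F} (ht : RegularAt v t)
    (hy : RegularAt v y) (hg : g ∈ Algebra.adjoin K {t, y}) : RegularAt v g := by
  induction hg using Algebra.adjoin_induction with
  | mem x hx =>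
    rcases hx with rfl | hx
    · exact ht
    · rw [Set.mem_singleton_iff] at hx
      subst hx
      exact hy
  | algebraMap r => exact regularAt_algebraMap v r
  | add x x' _ _ hx hx' => exact regularAt_add hx hx'
  | mul x x' _ _ hx hx' => exact regularAt_mul hx hx'

theorem regularAt_of_vanishesAt_sub {v : Place K F} {f : F} {a : K}
    (h : VanishesAt v (f - algebraMap K F a)) : RegularAt v f := by
  have := regularAt_add h.regularAt (regularAt_algebraMap v a)
  rwa [sub_add_cancel] at this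

theorem evalAt_psiF (hF : IsFF K F) (n : ℕ) (φ : ℕ → K[X]) (y : F) (c a : K) {v : Place K F}
    (hy : RegularAt v y) :
    RegularAt v (psiF n φ y c a) ∧ evalAt v (psiF n φ y c a) =
      ∑ m ∈ range (n + 1), (φ m).eval c * ∑ i ∈ range m, evalAt v y ^ i * a ^ (m - 1 - i) := by
  have h3 : ∀ m i : ℕ, RegularAt v (y ^ i * algebraMap K F a ^ (m - 1 - i)) := fun m i =>
    regularAt_mul (regularAt_pow hy i) (regularAt_pow (regularAt_algebraMap v a) _)
  have h2 : ∀ m : ℕ, RegularAt v (∑ i ∈ range m, y ^ i * algebraMap K F a ^ (m - 1 - i)) :=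
    fun m => regularAt_sum _ _ fun i _ => h3 m i
  have h1 : ∀ m : ℕ, RegularAt v (algebraMap K F ((φ m).eval c) *
      ∑ i ∈ range m, y ^ i * algebraMap K F a ^ (m - 1 - i)) := fun m =>
    regularAt_mul (regularAt_algebraMap v _) (h2 m)
  refine ⟨regularAt_sum _ _ fun m _ => h1 m, ?_⟩
  unfold psiF
  rw [evalAt_sum hF _ _ fun m _ => h1 m]
  refine sum_congr rfl fun m _ => ?_
  rw [evalAt_mul hF (regularAt_algebraMap v _) (h2 m), evalAt_algebraMap,
    evalAt_sum hF _ _ fun i _ => h3 m i]
  congr 1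
  refine sum_congr rfl fun i _ => ?_
  rw [evalAt_mul hF (regularAt_pow hy i) (regularAt_pow (regularAt_algebraMap v a) _),
    evalAt_pow hF hy, evalAt_pow hF (regularAt_algebraMap v a), evalAt_algebraMap]

theorem evalAt_psiF_diag (hF : IsFF K F) (n : ℕ) (φ : ℕ → K[X]) (y : F) (c a : K) {v : Place K F}
    (hy : VanishesAt v (y - algebraMap K F a)) :
    RegularAt v (psiF n φ y c a) ∧ evalAt v (psiF n φ y c a) = dPhi n φ c a := by
  have hr := regularAt_of_vanishesAt_sub hy
  obtain ⟨h1, h2⟩ := evalAt_psiF hF n φ y c a hr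
  refine ⟨h1, ?_⟩
  rw [h2, evalAt_unique v y a hy]
  rfl

/-- `Φ(c,a) = 0` if `(c,a)` is the image of a place -/
theorem phiV_eq_zero (n : ℕ) (φ : ℕ → K[X]) (t y : F) (c a : K) (v : Place K F)
    (hrel : ∑ m ∈ range (n + 1), aeval t (φ m) * y ^ m = 0)
    (hvt : VanishesAt v (t - algebraMap K F c)) (hvy : VanishesAt v (y - algebraMap K F a)) :
    phiV n φ c a = 0 := by
  have h := basic_identity n φ t y c a
  rw [hrel, zero_sub] at h
  have ht := regularAt_of_vanishesAt_sub hvt
  have hy := regularAt_of_vanishesAt_sub hvy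
  have h1 : VanishesAt v ((t - algebraMap K F c) * thetaF n φ t y c
      + (y - algebraMap K F a) * psiF n φ y c a) :=
    vanishesAt_add
      (vanishesAt_mul_right hvt (regularAt_of_mem_adjoin ht hy (thetaF_mem n φ t y c)))
      (vanishesAt_mul_right hvy (regularAt_of_mem_adjoin ht hy (psiF_mem n φ t y c a)))
  rw [h] at h1
  have h2 := vanishesAt_neg h1
  rw [neg_neg] at h2
  exact vanishesAt_algebraMap_iff.1 h2

/-- key computation: on `K[t,y]`, `ord_v = ord_v(t-c) * ord_w` if `v`, `w` both lie over the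
nonsingular point `(c,a)` and `t - c` is a uniformiser at `w`. -/
theorem ord_eq_mul (hF : IsFF K F) (n : ℕ) (φ : ℕ → K[X]) (t y : F) (c a : K) (v w : Place K F)
    (hrel : ∑ m ∈ range (n + 1), aeval t (φ m) * y ^ m = 0)
    (hvt : VanishesAt v (t - algebraMap K F c)) (hvy : VanishesAt v (y - algebraMap K F a))
    (hwt : w.ord (t - algebraMap K F c) = 1) (hwy : VanishesAt w (y - algebraMap K F a))
    (hd : dPhi n φ c a ≠ 0) :
    ∀ (k : ℕ) (g : F), g ∈ Algebra.adjoin K {t, y} → g ≠ 0 → w.ord g = k →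
      v.ord g = k * v.ord (t - algebraMap K F c) := by
  have hwt' : VanishesAt w (t - algebraMap K F c) := vanishesAt_of_ord_pos (by omega)
  have hs0 : t - algebraMap K F c ≠ 0 := by
    intro h
    rw [h] at hwt
    simp at hwt
  have htv := regularAt_of_vanishesAt_sub hvt
  have hyv := regularAt_of_vanishesAt_sub hvy
  have htw := regularAt_of_vanishesAt_sub hwt'
  have hyw := regularAt_of_vanishesAt_sub hwy
  have hphi := phiV_eq_zero n φ t y c a v hrel hvt hvy
  have hid := basic_identity n φ t y c a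
  rw [hrel, hphi, map_zero, sub_zero] at hid
  set β := psiF n φ y c a with hβ
  set θ := thetaF n φ t y c with hθ
  have hβm : β ∈ Algebra.adjoin K {t, y} := psiF_mem n φ t y c a
  have hθm : θ ∈ Algebra.adjoin K {t, y} := thetaF_mem n φ t y c
  obtain ⟨hβv, hβv'⟩ := evalAt_psiF_diag hF n φ y c a hvy
  obtain ⟨hβw, hβw'⟩ := evalAt_psiF_diag hF n φ y c a hwy
  have hβ0 : β ≠ 0 := by
    intro h
    rw [← hβ, h, evalAt_zero] at hβv'
    exact hd hβv'.symm
  have hordβv : v.ord β = 0 := (ord_eq_zero_iff hF hβ0).2 ⟨hβv, by rw [hβv']; exact hd⟩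
  have hordβw : w.ord β = 0 := (ord_eq_zero_iff hF hβ0).2 ⟨hβw, by rw [hβw']; exact hd⟩
  intro k
  induction k with
  | zero =>
    intro g hg hg0 hk
    obtain ⟨l, g₁, g₂, h₁, h₂, hge⟩ := adjoin_decomp t y c a g hg
    -- the value of `g` at both places is `l`
    have hval : ∀ u : Place K F, VanishesAt u (t - algebraMap K F c) →
        VanishesAt u (y - algebraMap K F a) → VanishesAt u (g - algebraMap K F l) := by
      intro u hut huy
      have hut' := regularAt_of_vanishesAt_sub hut
      have huy' := regularAt_of_vanishesAt_sub huy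
      have : g - algebraMap K F l = (t - algebraMap K F c) * g₁ + (y - algebraMap K F a) * g₂ := by
        rw [hge]; ring
      rw [this]
      exact vanishesAt_add (vanishesAt_mul_right hut (regularAt_of_mem_adjoin hut' huy' h₁))
        (vanishesAt_mul_right huy (regularAt_of_mem_adjoin hut' huy' h₂))
    have hw1 := (ord_eq_zero_iff hF hg0).1 (by simpa using hk)
    rw [evalAt_unique w g l (hval w hwt' hwy)] at hw1
    have hv1 : v.ord g = 0 := (ord_eq_zero_iff hF hg0).2
      ⟨regularAt_of_mem_adjoin htv hyv hg, by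
        rw [evalAt_unique v g l (hval v hvt hvy)]; exact hw1.2⟩
    simp [hv1]
  | succ k ih =>
    intro g hg hg0 hk
    obtain ⟨l, g₁, g₂, h₁, h₂, hge⟩ := adjoin_decomp t y c a g hg
    have hval : VanishesAt w (g - algebraMap K F l) := by
      have : g - algebraMap K F l = (t - algebraMap K F c) * g₁ + (y - algebraMap K F a) * g₂ := by
        rw [hge]; ring
      rw [this]
      exact vanishesAt_add (vanishesAt_mul_right hwt' (regularAt_of_mem_adjoin htw hyw h₁))
        (vanishesAt_mul_right hwy (regularAt_of_mem_adjoin htw hyw h₂))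
    have hl : l = 0 := by
      have h1 : VanishesAt w g := vanishesAt_of_ord_pos (by rw [hk]; positivity)
      have h2 := vanishesAt_sub h1 hval
      rw [sub_sub_cancel] at h2
      exact vanishesAt_algebraMap_iff.1 h2
    set g' := g₁ * β - θ * g₂ with hg'
    have hg'm : g' ∈ Algebra.adjoin K {t, y} := sub_mem (mul_mem h₁ hβm) (mul_mem hθm h₂)
    have hmul : g * β = (t - algebraMap K F c) * g' := by
      rw [hge, hl, map_zero, hg']
      linear_combination g₂ * hid
    have hg'0 : g' ≠ 0 := by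
      intro h
      rw [h, mul_zero] at hmul
      exact (mul_ne_zero hg0 hβ0) hmul
    have hw2 : w.ord g' = k := by
      have := congrArg w.ord hmul
      rw [w.ord_mul hg0 hβ0, w.ord_mul hs0 hg'0, hordβw, hwt, hk] at this
      push_cast at this
      omega
    have hv2 := ih g' hg'm hg'0 hw2
    have := congrArg v.ord hmul
    rw [v.ord_mul hg0 hβ0, v.ord_mul hs0 hg'0, hordβv, hv2] at this
    push_cast
    linarith

/-- uniqueness of the place over a nonsingular point of a plane model -/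
theorem place_unique (hF : IsFF K F) (n : ℕ) (φ : ℕ → K[X]) (t y : F) (c a : K) (v w : Place K F)
    (hrel : ∑ m ∈ range (n + 1), aeval t (φ m) * y ^ m = 0)
    (hgen : ∀ f : F, ∃ g h : F, g ∈ Algebra.adjoin K {t, y} ∧ h ∈ Algebra.adjoin K {t, y} ∧
      h ≠ 0 ∧ f * h = g)
    (hvt : VanishesAt v (t - algebraMap K F c)) (hvy : VanishesAt v (y - algebraMap K F a))
    (hwt : w.ord (t - algebraMap K F c) = 1) (hwy : VanishesAt w (y - algebraMap K F a))
    (hd : dPhi n φ c a ≠ 0) : v = w := by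
  symm
  refine place_eq_of_regularAt_imp fun f hf => ?_
  rcases eq_or_ne f 0 with rfl | hf0
  · exact regularAt_zero v
  obtain ⟨g, h, hg, hh, hh0, hfg⟩ := hgen f
  have hg0 : g ≠ 0 := hfg ▸ mul_ne_zero hf0 hh0
  have hwt' : VanishesAt w (t - algebraMap K F c) := vanishesAt_of_ord_pos (by omega)
  have htw := regularAt_of_vanishesAt_sub hwt'
  have hyw := regularAt_of_vanishesAt_sub hwy
  have key := ord_eq_mul hF n φ t y c a v w hrel hvt hvy hwt hwy hd
  have hgn : 0 ≤ w.ord g := (regularAt_of_mem_adjoin htw hyw hg).ord_nonneg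
  have hhn : 0 ≤ w.ord h := (regularAt_of_mem_adjoin htw hyw hh).ord_nonneg
  have h1 := key (w.ord g).toNat g hg hg0 (Int.toNat_of_nonneg hgn).symm
  have h2 := key (w.ord h).toNat h hh hh0 (Int.toNat_of_nonneg hhn).symm
  rw [Int.toNat_of_nonneg hgn] at h1
  rw [Int.toNat_of_nonneg hhn] at h2
  have h3 := congrArg w.ord hfg
  have h4 := congrArg v.ord hfg
  rw [w.ord_mul hf0 hh0] at h3
  rw [v.ord_mul hf0 hh0] at h4
  have hs0 : t - algebraMap K F c ≠ 0 := by
    intro h
    rw [h] at hwt
    simp at hwt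
  have he : 0 < v.ord (t - algebraMap K F c) := hvt.ord_pos hs0
  have hfn : 0 ≤ w.ord f := hf.ord_nonneg
  refine regularAt_of_ord_nonneg ?_
  have : v.ord f = w.ord f * v.ord (t - algebraMap K F c) := by
    have : w.ord f = w.ord g - w.ord h := by omega
    rw [this, sub_mul, ← h1, ← h2]
    omega
  rw [this]
  positivity

/-- the Lagrange kernel `f_c = Ψ_{c,a}(y) / ((t-c) Φ_Y(c,a))` -/
noncomputable def kern (n : ℕ) (φ : ℕ → K[X]) (t y : F) (c a : K) : F :=
  algebraMap K F (dPhi n φ c a)⁻¹ * psiF n φ y c a * (t - algebraMap K F c)⁻¹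

theorem kern_center (hF : IsFF K F) (n : ℕ) (φ : ℕ → K[X]) (t y : F) (c a : K) (w : Place K F)
    (hwt : w.ord (t - algebraMap K F c) = 1) (hwy : VanishesAt w (y - algebraMap K F a))
    (hd : dPhi n φ c a ≠ 0) :
    RegularAt w ((t - algebraMap K F c) * kern n φ t y c a) ∧
      evalAt w ((t - algebraMap K F c) * kern n φ t y c a) = 1 := by
  have hs0 : t - algebraMap K F c ≠ 0 := by
    intro h
    rw [h] at hwt
    simp at hwt
  have he : (t - algebraMap K F c) * kern n φ t y c a
      = algebraMap K F (dPhi n φ c a)⁻¹ * psiF n φ y c a := by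
    unfold kern
    field_simp
  obtain ⟨h1, h2⟩ := evalAt_psiF_diag hF n φ y c a hwy
  rw [he]
  refine ⟨regularAt_mul (regularAt_algebraMap w _) h1, ?_⟩
  rw [evalAt_mul hF (regularAt_algebraMap w _) h1, evalAt_algebraMap, h2, inv_mul_cancel₀ hd]

theorem kern_regular (hF : IsFF K F) (n : ℕ) (φ : ℕ → K[X]) (t y : F) (c a : K) (w : Place K F)
    (hrel : ∑ m ∈ range (n + 1), aeval t (φ m) * y ^ m = 0)
    (hgen : ∀ f : F, ∃ g h : F, g ∈ Algebra.adjoin K {t, y} ∧ h ∈ Algebra.adjoin K {t, y} ∧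
      h ≠ 0 ∧ f * h = g)
    (hint : ∀ v : Place K F, RegularAt v t → RegularAt v y)
    (hwt : w.ord (t - algebraMap K F c) = 1) (hwy : VanishesAt w (y - algebraMap K F a))
    (hd : dPhi n φ c a ≠ 0) (v : Place K F) (hvt : RegularAt v t) (hne : v ≠ w) :
    RegularAt v (kern n φ t y c a) := by
  have hvy := hint v hvt
  have hψ : RegularAt v (psiF n φ y c a) := regularAt_of_mem_adjoin hvt hvy (psiF_mem n φ t y c a)
  have hθ : RegularAt v (thetaF n φ t y c) :=
    regularAt_of_mem_adjoin hvt hvy (thetaF_mem n φ t y c)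
  have hs : RegularAt v (t - algebraMap K F c) := regularAt_sub hvt (regularAt_algebraMap v c)
  have hs0 : t - algebraMap K F c ≠ 0 := by
    intro h
    rw [h] at hwt
    simp at hwt
  by_cases h1 : evalAt v (t - algebraMap K F c) = 0
  · have hvt' : VanishesAt v (t - algebraMap K F c) := (evalAt_eq_zero_iff hF hs).1 h1
    have hu : RegularAt v (y - algebraMap K F a) := regularAt_sub hvy (regularAt_algebraMap v a)
    by_cases h2 : evalAt v (y - algebraMap K F a) = 0
    · have hvy' : VanishesAt v (y - algebraMap K F a) := (evalAt_eq_zero_iff hF hu).1 h2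
      exact absurd (place_unique hF n φ t y c a v w hrel hgen hvt' hvy' hwt hwy hd) hne
    · have hwt' : VanishesAt w (t - algebraMap K F c) := vanishesAt_of_ord_pos (by omega)
      have hphi := phiV_eq_zero n φ t y c a w hrel hwt' hwy
      have hid := basic_identity n φ t y c a
      rw [hrel, hphi, map_zero, sub_zero] at hid
      have hu0 : y - algebraMap K F a ≠ 0 := by
        intro h
        rw [h] at h2
        simp at h2
      have he : kern n φ t y c a = algebraMap K F (dPhi n φ c a)⁻¹ *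
          (-thetaF n φ t y c) * (y - algebraMap K F a)⁻¹ := by
        have he0 : psiF n φ y c a * (t - algebraMap K F c)⁻¹
            = (-thetaF n φ t y c) * (y - algebraMap K F a)⁻¹ := by
          field_simp
          linear_combination hid
        unfold kern
        rw [mul_assoc, he0, ← mul_assoc]
      rw [he]
      exact regularAt_mul (regularAt_mul (regularAt_algebraMap v _) (regularAt_neg hθ))
        (regularAt_inv hF hu h2).1
  · exact regularAt_mul (regularAt_mul (regularAt_algebraMap v _) hψ) (regularAt_inv hF hs h1).1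

/-- `kern` as an explicit linear combination of the `y^i (t-c)⁻¹` -/
theorem kern_eq_sum (n : ℕ) (φ : ℕ → K[X]) (t y : F) (c a : K) :
    kern n φ t y c a = ∑ m ∈ range (n + 1), ∑ i ∈ range m,
      algebraMap K F ((dPhi n φ c a)⁻¹ * ((φ m).eval c * a ^ (m - 1 - i))) *
        (y ^ i * (t - algebraMap K F c)⁻¹) := by
  unfold kern psiF
  rw [mul_sum, sum_mul]
  refine sum_congr rfl fun m _ => ?_
  rw [mul_sum, mul_sum, sum_mul]
  refine sum_congr rfl fun i _ => ?_
  simp only [map_mul, map_pow]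
  ring

end Unique

section Poles

/-- geometric expansion of `(t-c)⁻¹` at the poles of `t` -/
theorem inv_sub_expand (t : F) (c : K) (ht : t ≠ 0) (htc : t - algebraMap K F c ≠ 0) (J : ℕ) :
    (t - algebraMap K F c)⁻¹ = ∑ j ∈ range J, algebraMap K F (c ^ j) * t⁻¹ ^ (j + 1)
      + algebraMap K F (c ^ J) * (t⁻¹ ^ J * (t - algebraMap K F c)⁻¹) := by
  have h := geom_sum_mul (algebraMap K F c * t⁻¹) J
  have h1 : ∑ j ∈ range J, algebraMap K F (c ^ j) * t⁻¹ ^ (j + 1)
      = (∑ j ∈ range J, (algebraMap K F c * t⁻¹) ^ j) * t⁻¹ := by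
    rw [sum_mul]
    refine sum_congr rfl fun j _ => ?_
    rw [map_pow, mul_pow, pow_succ]; ring
  rw [h1]
  have h2 : (algebraMap K F c * t⁻¹ - 1) = -(t - algebraMap K F c) * t⁻¹ := by
    field_simp
    ring
  rw [h2] at h
  have h3 : (∑ j ∈ range J, (algebraMap K F c * t⁻¹) ^ j) * t⁻¹
      = (1 - (algebraMap K F c * t⁻¹) ^ J) * (t - algebraMap K F c)⁻¹ := by
    rw [eq_mul_inv_iff_mul_eq₀ htc]
    linear_combination -h
  rw [h3, map_pow, mul_pow]
  ring

theorem tail_regular {v : Place K F} {t : F} (hv : v.ord t < 0) (c : K) (g : F) (J : ℕ)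
    (hJ : -v.ord g ≤ J) : RegularAt v (g * (t⁻¹ ^ J * (t - algebraMap K F c)⁻¹)) := by
  have ht0 : t ≠ 0 := by
    rintro rfl
    simp at hv
  have h1 : RegularAt v (t - algebraMap K F c)⁻¹ := by
    refine (vanishesAt_inv_of_not_regularAt fun h => ?_).regularAt
    have := regularAt_add h (regularAt_algebraMap v c)
    rw [sub_add_cancel] at this
    exact absurd this.ord_nonneg (by omega)
  rw [← mul_assoc]
  refine regularAt_mul ?_ h1
  rcases eq_or_ne g 0 with rfl | hg
  · simp
  refine regularAt_of_ord_nonneg ?_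
  rw [v.ord_mul hg (pow_ne_zero _ (inv_ne_zero ht0)), ← zpow_natCast, v.ord_zpow, v.ord_inv]
  nlinarith

/-- A linear functional which kills the functions regular at all poles of `t` is polynomial
along `c ↦ g (t-c)⁻¹`. -/
theorem functional_expand (S : Finset (Place K F)) (t : F) (hS : ∀ v ∈ S, v.ord t < 0)
    (ht : Transcendental K t)
    (L : F →ₗ[K] K) (hL : ∀ f : F, (∀ v ∈ S, RegularAt v f) → L f = 0) (g : F) :
    ∃ J : ℕ, ∀ c : K, L (g * (t - algebraMap K F c)⁻¹)
      = ∑ j ∈ range J, c ^ j * L (g * t⁻¹ ^ (j + 1)) := by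
  classical
  refine ⟨∑ v ∈ S, (v.ord g).natAbs, fun c => ?_⟩
  set J := ∑ v ∈ S, (v.ord g).natAbs with hJ
  have ht0 : t ≠ 0 := by
    rintro rfl
    exact ht (isAlgebraic_zero)
  have htc : t - algebraMap K F c ≠ 0 := by
    intro h
    rw [sub_eq_zero] at h
    rw [h] at ht
    exact ht (isAlgebraic_algebraMap c)
  have hexp := inv_sub_expand t c ht0 htc J
  have h1 : g * (t - algebraMap K F c)⁻¹ = ∑ j ∈ range J, (c ^ j) • (g * t⁻¹ ^ (j + 1))
      + (c ^ J) • (g * (t⁻¹ ^ J * (t - algebraMap K F c)⁻¹)) := by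
    conv_lhs => rw [hexp]
    rw [mul_add, mul_sum]
    congr 1
    · refine sum_congr rfl fun j _ => ?_
      rw [Algebra.smul_def]; ring
    · rw [Algebra.smul_def]; ring
  rw [h1, map_add, map_sum, map_smul, hL _ fun v hv => tail_regular (hS v hv) c g J ?_]
  · simp
  · have h2 : (v.ord g).natAbs ≤ J := single_le_sum (f := fun v : Place K F => (v.ord g).natAbs)
      (fun _ _ => Nat.zero_le _) hv
    have h3 : -v.ord g ≤ ((v.ord g).natAbs : ℤ) := by omega
    exact h3.trans (by exact_mod_cast h2)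

end Poles

end KA

end Fermat.Agent.S27
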