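import Fermat.Agent.S27.Interface

/-!
# S27 / L1 : a countable field of characteristic zero embeds in `ℂ`
-/

set_option autoImplicit false

namespace Fermat.Agent.S27

open Cardinal

universe u

theorem l1 : Stmt_L1.{u} := by
  intro K₁ _ _ _
  obtain ⟨s, hs⟩ := exists_isTranscendenceBasis ℚ K₁
  obtain ⟨t, ht⟩ := exists_isTranscendenceBasis ℚ ℂ
  have hC : ℵ₀ < #ℂ := by rw [Cardinal.mk_complex]; exact Cardinal.aleph0_lt_continuum
  have h2 : #ℂ = #t :=
    IsAlgClosed.cardinal_eq_cardinal_transcendence_basis_of_aleph0_lt' _ ht (by simp) hC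
  have hs' : #s ≤ ℵ₀ := Cardinal.mk_le_aleph0
  have hle : Cardinal.lift.{0} #s ≤ Cardinal.lift.{u} #t := by
    rw [← h2]
    calc Cardinal.lift.{0} #s ≤ Cardinal.lift.{0} ℵ₀ := Cardinal.lift_le.2 hs'
      _ = Cardinal.lift.{u} (ℵ₀ : Cardinal.{0}) := by simp
      _ ≤ Cardinal.lift.{u} #ℂ := Cardinal.lift_le.2 hC.le
  obtain ⟨f⟩ := Cardinal.lift_mk_le'.1 hle
  have hind : AlgebraicIndependent ℚ (fun i : s => ((f i : t) : ℂ)) :=
    ht.1.comp f f.injective
  let φ : Algebra.adjoin ℚ (Set.range ((↑) : s → K₁)) →ₐ[ℚ] ℂ :=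
    (MvPolynomial.aeval (fun i : s => ((f i : t) : ℂ))).comp hs.1.aevalEquiv.symm.toAlgHom
  have hφ : Function.Injective φ := by
    intro a b hab
    have : Function.Injective (MvPolynomial.aeval (R := ℚ) (fun i : s => ((f i : t) : ℂ))) := hind
    exact hs.1.aevalEquiv.symm.injective (this hab)
  let _ : Algebra (Algebra.adjoin ℚ (Set.range ((↑) : s → K₁))) ℂ := φ.toRingHom.toAlgebra
  have : FaithfulSMul (Algebra.adjoin ℚ (Set.range ((↑) : s → K₁))) ℂ :=
    (faithfulSMul_iff_algebraMap_injective _ _).2 hφ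
  have : Algebra.IsAlgebraic (Algebra.adjoin ℚ (Set.range ((↑) : s → K₁))) K₁ := hs.isAlgebraic
  exact ⟨(IsAlgClosed.lift :
    K₁ →ₐ[Algebra.adjoin ℚ (Set.range ((↑) : s → K₁))] ℂ).toRingHom⟩

end Fermat.Agent.S27
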