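import Mathlib

/-!
# S27 / L4b (a) : abstract algebra

A commutative square of fields `k₁ → F₁ → F₂`, `k₁ → k₂ → F₂` such that every `k₁`-basis of `F₁` is
a `k₂`-basis of `F₂`: compatibility of traces, and the trace-dual-basis argument.
-/

set_option autoImplicit false

namespace Fermat.Agent.S27.L4b

open Module

section Square

variable {k₁ F₁ k₂ F₂ : Type*} [Field k₁] [Field F₁] [Field k₂] [Field F₂]
  [Algebra k₁ F₁] [Algebra k₂ F₂] [Algebra k₁ k₂] [Algebra F₁ F₂] [Algebra k₁ F₂]
  [IsScalarTower k₁ k₂ F₂] [IsScalarTower k₁ F₁ F₂]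

theorem map_smul_square (r : k₁) (y : F₁) :
    algebraMap F₁ F₂ (r • y) = algebraMap k₁ k₂ r • algebraMap F₁ F₂ y := by
  rw [Algebra.smul_def, Algebra.smul_def, map_mul, ← IsScalarTower.algebraMap_apply k₁ F₁ F₂,
    ← IsScalarTower.algebraMap_apply k₁ k₂ F₂]

variable {ι : Type*} [Fintype ι]

theorem repr_square (b : Basis ι k₁ F₁) (b' : Basis ι k₂ F₂)
    (hb : ∀ i, b' i = algebraMap F₁ F₂ (b i)) (y : F₁) (i : ι) :
    b'.repr (algebraMap F₁ F₂ y) i = algebraMap k₁ k₂ (b.repr y i) := by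
  have h : algebraMap F₁ F₂ y = ∑ i, algebraMap k₁ k₂ (b.repr y i) • b' i := by
    conv_lhs => rw [← b.sum_repr y]
    rw [map_sum]
    exact Finset.sum_congr rfl fun i _ => by rw [map_smul_square (k₂ := k₂), hb]
  rw [h, b'.repr_sum_self]

theorem trace_square (b : Basis ι k₁ F₁) (b' : Basis ι k₂ F₂)
    (hb : ∀ i, b' i = algebraMap F₁ F₂ (b i)) (y : F₁) :
    Algebra.trace k₂ F₂ (algebraMap F₁ F₂ y) = algebraMap k₁ k₂ (Algebra.trace k₁ F₁ y) := by
  classical
  rw [Algebra.trace_eq_matrix_trace b', Algebra.trace_eq_matrix_trace b, Matrix.trace,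
    Matrix.trace, map_sum]
  refine Finset.sum_congr rfl fun i _ => ?_
  rw [Matrix.diag_apply, Matrix.diag_apply, Algebra.leftMulMatrix_eq_repr_mul,
    Algebra.leftMulMatrix_eq_repr_mul, hb, ← map_mul, repr_square b b' hb]

/-- the trace-dual-basis argument -/
theorem exists_eq_sum_of_isIntegral {A : Type*} [CommRing A] [IsDomain A] [IsIntegrallyClosed A]
    [Algebra A k₂] [IsFractionRing A k₂] [Algebra A F₂] [IsScalarTower A k₂ F₂]
    [Algebra.IsSeparable k₁ F₁]
    (lift : ∀ c : Basis ι k₁ F₁, ∃ c' : Basis ι k₂ F₂, ∀ i, c' i = algebraMap F₁ F₂ (c i))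
    (b : Basis ι k₁ F₁) (hint : ∀ i, IsIntegral A (algebraMap F₁ F₂ (b i)))
    (z : F₂) (hz : IsIntegral A z) :
    ∃ (a : ι → A) (g : ι → F₁), z = ∑ i, algebraMap A F₂ (a i) * algebraMap F₁ F₂ (g i) := by
  classical
  have : FiniteDimensional k₁ F₁ := Module.Finite.of_basis b
  obtain ⟨b', hb'⟩ := lift b
  have : FiniteDimensional k₂ F₂ := Module.Finite.of_basis b'
  let d : Basis ι k₁ F₁ := (Algebra.traceForm k₁ F₁).dualBasis (traceForm_nondegenerate k₁ F₁) b
  obtain ⟨d', hd'⟩ := lift d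
  have htr : ∀ j, Algebra.trace k₂ F₂ (z * algebraMap F₁ F₂ (b j)) = d'.repr z j := by
    intro j
    conv_lhs => rw [← d'.sum_repr z]
    rw [Finset.sum_mul, map_sum, Finset.sum_eq_single j]
    · rw [smul_mul_assoc, map_smul, hd', ← map_mul, trace_square b b' hb']
      have : Algebra.trace k₁ F₁ (d j * b j) = 1 := by
        have := (Algebra.traceForm k₁ F₁).apply_dualBasis_left (traceForm_nondegenerate k₁ F₁) b j j
        simpa [Algebra.traceForm_apply] using this
      rw [this, map_one, smul_eq_mul, mul_one]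
    · intro i _ hij
      rw [smul_mul_assoc, map_smul, hd', ← map_mul, trace_square b b' hb']
      have : Algebra.trace k₁ F₁ (d i * b j) = 0 := by
        have := (Algebra.traceForm k₁ F₁).apply_dualBasis_left (traceForm_nondegenerate k₁ F₁) b i j
        simpa [Algebra.traceForm_apply, hij.symm] using this
      rw [this, map_zero, smul_zero]
    · intro h; exact absurd (Finset.mem_univ j) h
  have hmem : ∀ j, ∃ a : A, algebraMap A k₂ a = d'.repr z j := by
    intro j
    rw [← htr j]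
    exact IsIntegrallyClosed.isIntegral_iff.mp (Algebra.isIntegral_trace (hz.mul (hint j)))
  choose a ha using hmem
  refine ⟨a, d, ?_⟩
  conv_lhs => rw [← d'.sum_repr z]
  refine Finset.sum_congr rfl fun i _ => ?_
  rw [← ha i, hd', Algebra.smul_def, ← IsScalarTower.algebraMap_apply A k₂ F₂]

end Square

end Fermat.Agent.S27.L4b
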