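import Fermat.Agent.S27.L4bAltInterface
import Fermat.Agent.S27.EvalAt
import Fermat.Agent.S27.R0

/-!
# S27 / L4b, parallel route : package DEN
-/

set_option autoImplicit false

namespace Fermat.Agent.S27.L4bAlt

open AlgebraicCurve IntermediateField Polynomial

universe u v w x

theorem stmt_DEN : Stmt_DEN.{u, v, w, x} := by
  intro K₁ F₁ K₂ F₂ _ _ _ _ _ _ _ _ _ _ _ hyp hFF2 φ hφ t z ht hz
  classical
  have := hyp.algClosed₁
  have := hyp.algClosed₂
  have := hyp.charZero
  have hcz2 : CharZero K₂ := charZero_of_injective_algebraMap (algebraMap K₁ K₂).injective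
  have hFF1 := hyp.isFF
  let S : Finset (Place K₂ F₂) := (R0.finite_poles hFF2 z).toFinset
  have hS : ∀ w, w ∈ S ↔ w.ord z < 0 := fun w => by simp [S]
  have hne : Nonempty (Place K₁ F₁) := by
    have := R0.infinite_places hFF1
    infer_instance
  have hex : ∀ w : Place K₂ F₂, ∃ v : Place K₁ F₁, w ∈ S → φ v = w := by
    intro w
    by_cases hw : w ∈ S
    · have hr : w ∈ Set.range φ := by
        by_contra h
        exact (not_regularAt_iff.2 ((hS w).1 hw)) (hz w h)
      obtain ⟨v, hv⟩ := hr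
      exact ⟨v, fun _ => hv⟩
    · exact ⟨hne.some, fun h => absurd h hw⟩
  choose vv hvv using hex
  let a : Place K₂ F₂ → K₁ := fun w => evalAt (vv w) t
  let mm : Place K₂ F₂ → ℕ := fun w => (-(w.ord z)).toNat
  have hfac : ∀ w, t - algebraMap K₁ F₁ (a w) ≠ 0 := fun w h0 =>
    R0.transcendental_sub ht (a w) (by rw [h0]; exact isAlgebraic_zero)
  refine ⟨∏ w ∈ S, (t - algebraMap K₁ F₁ (a w)) ^ mm w,
    Finset.prod_ne_zero_iff.2 fun w _ => pow_ne_zero _ (hfac w), fun w0 hw0 => ?_⟩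
  have hreg : ∀ w, RegularAt w0 (algebraMap F₁ F₂ ((t - algebraMap K₁ F₁ (a w)) ^ mm w)) := by
    intro w
    rw [map_pow, map_sub, ← IsScalarTower.algebraMap_apply K₁ F₁ F₂,
      IsScalarTower.algebraMap_apply K₁ K₂ F₂]
    exact regularAt_pow (regularAt_sub hw0 (regularAt_algebraMap _ _)) _
  by_cases hzr : RegularAt w0 z
  · rw [map_prod]
    exact regularAt_mul (regularAt_prod _ _ fun w _ => hreg w) hzr
  · have hord : w0.ord z < 0 := not_regularAt_iff.1 hzr
    have hw0S : w0 ∈ S := (hS w0).2 hord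
    have hv0 := hvv w0 hw0S
    have hz0 : z ≠ 0 := by
      rintro rfl
      simp at hord
    rw [← Finset.mul_prod_erase S _ hw0S, map_mul, mul_right_comm, map_prod]
    refine regularAt_mul ?_ (regularAt_prod _ _ fun w _ => hreg w)
    apply regularAt_of_ord_nonneg
    have hf0 : algebraMap F₁ F₂ ((t - algebraMap K₁ F₁ (a w0)) ^ mm w0) ≠ 0 := by
      rw [Ne, map_eq_zero]
      exact pow_ne_zero _ (hfac w0)
    rw [Place.ord_mul _ hf0 hz0]
    have h1 : w0.ord (algebraMap F₁ F₂ ((t - algebraMap K₁ F₁ (a w0)) ^ mm w0)) =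
        (mm w0 : ℤ) * (vv w0).ord (t - algebraMap K₁ F₁ (a w0)) := by
      have h0 := hφ (vv w0) ((t - algebraMap K₁ F₁ (a w0)) ^ mm w0)
      rw [hv0] at h0
      rw [h0, ← zpow_natCast, Place.ord_zpow]
    have htreg : RegularAt (vv w0) t := by
      apply regularAt_of_ord_nonneg
      rw [← hφ, hv0]
      exact hw0.ord_nonneg
    have h2 : 0 < (vv w0).ord (t - algebraMap K₁ F₁ (a w0)) :=
      (evalAt_spec hFF1 htreg).ord_pos (hfac w0)
    have h3 : ((mm w0 : ℕ) : ℤ) = -(w0.ord z) := Int.toNat_of_nonneg (by omega)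
    rw [h1]
    have h4 : (0 : ℤ) ≤ (mm w0 : ℤ) := Int.natCast_nonneg _
    nlinarith

end Fermat.Agent.S27.L4bAlt
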