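import Fermat.Agent.S27.L4bAltInterface

/-!
# S27 / L4b, parallel route : package DER
-/

set_option autoImplicit false

namespace Fermat.Agent.S27.L4bAlt

open Polynomial

universe u v w

theorem stmt_DER : Stmt_DER.{u, v, w} := by
  intro A K L _ _ _ _ _ _ _ _ _ _ _ _ y z htop hy hz
  have hdual := traceForm_dualSubmodule_adjoin A K htop hy
  have hδ : aeval y (derivative (minpoly K y)) ≠ 0 :=
    Polynomial.Separable.aeval_derivative_ne_zero (Algebra.IsSeparable.isSeparable K y)
      (minpoly.aeval K y)
  have hmem : z ∈ (Algebra.traceForm K L).dualSubmodule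
      (Subalgebra.toSubmodule (Algebra.adjoin A {y})) := by
    rw [LinearMap.BilinForm.mem_dualSubmodule]
    intro a ha
    have ha' : a ∈ Algebra.adjoin A {y} := ha
    have hia : IsIntegral A a := by
      have hle : Algebra.adjoin A {y} ≤ integralClosure A L :=
        Algebra.adjoin_le (by
          intro b hb
          rw [Set.mem_singleton_iff.1 hb]
          exact hy)
      exact hle ha'
    have hint : IsIntegral A (Algebra.trace K L (z * a)) := Algebra.isIntegral_trace (hz.mul hia)
    obtain ⟨c, hc⟩ := IsIntegrallyClosed.isIntegral_iff.1 hint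
    rw [Algebra.traceForm_apply, Submodule.mem_one]
    exact ⟨c, hc⟩
  rw [hdual] at hmem
  obtain ⟨b, hb, hbz⟩ := Submodule.mem_smul_pointwise_iff_exists _ _ _ |>.1 hmem
  have hb' : b ∈ Algebra.adjoin A {y} := hb
  have : aeval y (derivative (minpoly K y)) * z = b := by
    rw [← hbz, smul_eq_mul, mul_inv_cancel_left₀ hδ]
  rw [this]
  exact hb'

end Fermat.Agent.S27.L4bAlt
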