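import Fermat.Agent.S27.L4bAltInterface
import Fermat.Agent.S27.L4a
import Fermat.Agent.S27.EvalAt

/-!
# S27 / L4b, parallel route : `L4b` from `INB`, `L4a`, `RA`
-/

set_option autoImplicit false

namespace Fermat.Agent.S27.L4bAlt

open AlgebraicCurve IntermediateField Polynomial

universe u v w x

theorem l4b_of_inb (hINB : Stmt_INB.{u, v, w, x}) (hL4a : Stmt_L4a.{u, v, w, x})
    (hRA : Stmt_RA.{u, v}) : Stmt_L4b.{u, v, w, x} := by
  intro K₁ F₁ K₂ F₂ _ _ _ _ _ _ _ _ _ _ _ hyp φ hord D
  have := hyp.algClosed₁
  have := hyp.algClosed₂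
  have := hyp.charZero
  obtain ⟨-, φ', hord', hne', -, hgauss⟩ := hL4a K₁ F₁ K₂ F₂ hyp
  -- `φ = φ'`
  have hφ : φ' = φ := by
    funext v
    obtain ⟨t, ht⟩ := S24.exists_ord_eq_one v
    obtain ⟨v', hv'⟩ := hne' (φ v) ⟨t, by rw [hord, ht]; norm_num⟩
    have : v' = v := by
      refine place_ext_of_ord fun f => ?_
      rw [← hord' v' f, hv', hord]
    rw [← hv', this]
  subst hφ
  have hinj : Function.Injective φ' := by
    intro v v' h
    refine place_ext_of_ord fun f => ?_
    rw [← hord v f, ← hord v' f, h]
  have hnew : ∀ (w : Place K₂ F₂), w ∉ Set.range φ' → ∀ f : F₁, w.ord (algebraMap F₁ F₂ f) = 0 := by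
    intro w hw f
    by_contra h0
    exact hw (hne' w ⟨f, h0⟩)
  have hfin : Module.Finite K₁ (riemannRochSpace D) := (hRA K₁ F₁ hyp.isFF).1 D
  have heq : riemannRochSpace (D.mapDomain φ') =
      Submodule.span K₂ ((algebraMap F₁ F₂) '' (riemannRochSpace D : Set F₁)) := by
    apply le_antisymm
    · intro z hz
      have hz' := mem_riemannRochSpace_iff.mp hz
      have hreg : ∀ w : Place K₂ F₂, w ∉ Set.range φ' → RegularAt w z := by
        intro w hw
        have := hz' w
        rwa [Finsupp.mapDomain_of_notMem_range _ _ hw, neg_zero] at this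
      have hB := hINB K₁ F₁ K₂ F₂ hyp φ' hord z hreg
      let E := Module.Basis.ofVectorSpace K₁ K₂
      obtain ⟨g, hg⟩ := L4a.adjoin_le_range_repMap (F₁ := F₁) E z hB
      rw [L4a.repMap_apply] at hg
      -- reindex by `Fin n`
      let e := g.support.equivFin
      let c : Fin g.support.card → K₂ := fun k => E (e.symm k)
      let f : Fin g.support.card → F₁ := fun k => g (e.symm k)
      have hc : LinearIndependent K₁ c :=
        E.linearIndependent.comp _ (Subtype.val_injective.comp e.symm.injective)
      have hsum : ∑ k, algebraMap K₂ F₂ (c k) * algebraMap F₁ F₂ (f k) = z := by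
        rw [← hg, ← Finset.sum_coe_sort g.support]
        exact Equiv.sum_comp e.symm
          (fun i : g.support => algebraMap K₂ F₂ (E i) * algebraMap F₁ F₂ (g i))
      have hfL : ∀ k, f k ∈ riemannRochSpace D := by
        intro k
        rw [mem_riemannRochSpace_iff]
        intro v
        refine hgauss v _ c f (-D v) hc ?_ k
        rw [hsum]
        have := hz' (φ' v)
        rwa [Finsupp.mapDomain_apply hinj] at this
      rw [← hsum]
      refine Submodule.sum_mem _ fun k _ => ?_
      rw [← Algebra.smul_def]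
      exact Submodule.smul_mem _ _ (Submodule.subset_span ⟨f k, hfL k, rfl⟩)
    · rw [Submodule.span_le]
      rintro _ ⟨f, hf, rfl⟩
      have hf' := mem_riemannRochSpace_iff.mp hf
      show algebraMap F₁ F₂ f ∈ riemannRochSpace (D.mapDomain φ')
      rw [mem_riemannRochSpace_iff]
      intro w
      by_cases hw : w ∈ Set.range φ'
      · obtain ⟨v, rfl⟩ := hw
        rw [Finsupp.mapDomain_apply hinj, hord]
        rcases hf' v with h | h
        · left; rw [h, map_zero]
        · right; exact h
      · right
        rw [Finsupp.mapDomain_of_notMem_range _ _ hw, hnew w hw]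
        simp
  refine ⟨heq, ?_⟩
  -- dimensions
  let b := Module.finBasis K₁ (riemannRochSpace D)
  have hb : LinearIndependent K₁ (fun k => ((b k : riemannRochSpace D) : F₁)) :=
    b.linearIndependent.map' (riemannRochSpace D).subtype (Submodule.ker_subtype _)
  have hB := L4a.linearIndependent_map hyp.ext _ hb
  have hspan : Submodule.span K₂ ((algebraMap F₁ F₂) '' (riemannRochSpace D : Set F₁)) =
      Submodule.span K₂ (Set.range fun k => algebraMap F₁ F₂ ((b k : riemannRochSpace D) : F₁)) := by
    apply le_antisymm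
    · rw [Submodule.span_le]
      rintro _ ⟨f, hf, rfl⟩
      have h1 : (⟨f, hf⟩ : riemannRochSpace D) = ∑ k, b.repr ⟨f, hf⟩ k • b k :=
        (b.sum_repr _).symm
      have h2 : f = ∑ k, b.repr ⟨f, hf⟩ k • ((b k : riemannRochSpace D) : F₁) := by
        have h3 := congrArg (riemannRochSpace D).subtype h1
        rw [map_sum] at h3
        simpa only [map_smul, Submodule.subtype_apply] using h3
      rw [h2, map_sum]
      refine Submodule.sum_mem _ fun k _ => ?_
      rw [Algebra.smul_def, map_mul, L4a.algebraMap_comm (K₂ := K₂), ← Algebra.smul_def]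
      exact Submodule.smul_mem _ _ (Submodule.subset_span ⟨k, rfl⟩)
    · rw [Submodule.span_le]
      rintro _ ⟨k, rfl⟩
      exact Submodule.subset_span ⟨_, (b k).2, rfl⟩
  rw [heq, hspan, finrank_span_eq_card hB, Fintype.card_fin]

end Fermat.Agent.S27.L4bAlt
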