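import Fermat.Agent.S27.L4bAltInterface
import Fermat.Agent.S27.L4a
import Fermat.Agent.S27.R0
import Fermat.Agent.S24.DegPrincipalCore

/-!
# S27 / L4b, parallel route : `INB` from `INT`, `MOD`, `TR`, `DEN` and `CH1`
-/

set_option autoImplicit false

namespace Fermat.Agent.S27.L4bAlt

open AlgebraicCurve IntermediateField Polynomial
open scoped Polynomial.Bivariate

universe u v w x

theorem inb_natDegree_ne_zero {K F : Type*} [Field K] [Field F] [Algebra K F] {t y : F}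
    {Φ : K[X][Y]} (h : IsModel t y Φ) : Φ.natDegree ≠ 0 := by
  intro h0
  have h1 : Φ = 1 := (Monic.natDegree_eq_zero h.monic).mp h0
  have h2 := h.root
  rw [h1] at h2
  simp [evalF] at h2

theorem inb_derivative_ne_zero {K F : Type*} [Field K] [Field F] [Algebra K F] [CharZero K]
    {t y : F} {Φ : K[X][Y]} (h : IsModel t y Φ) : evalF (derivative Φ) t y ≠ 0 := by
  intro h0
  have hn := inb_natDegree_ne_zero h
  have h1 : derivative Φ = 0 := h.minimal _ (natDegree_derivative_lt hn) h0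
  exact hn (derivative_eq_zero.mp h1)

theorem stmt_INB (hINT : Stmt_INT.{w, x}) (hMOD : Stmt_MOD.{w, x}) (hTR : Stmt_TR.{u, v, w, x})
    (hDEN : Stmt_DEN.{u, v, w, x}) (hCH1 : Stmt_CH1.{u, v}) (hR0 : Stmt_R0.{u, v})
    (hL4a : Stmt_L4a.{u, v, w, x}) : Stmt_INB.{u, v, w, x} := by
  intro K₁ F₁ K₂ F₂ _ _ _ _ _ _ _ _ _ _ _ hyp φ hord z hz
  have := hyp.algClosed₁
  have := hyp.algClosed₂
  have := hyp.charZero
  have : CharZero K₂ := charZero_of_injective_algebraMap (algebraMap K₁ K₂).injective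
  have hFF₂ : IsFF K₂ F₂ := (hL4a K₁ F₁ K₂ F₂ hyp).1
  obtain ⟨-, -, hinf, -, -⟩ := hR0 K₁ F₁ hyp.isFF
  obtain ⟨Q⟩ : Nonempty (Place K₁ F₁) := inferInstance
  obtain ⟨t, ht⟩ := S24.exists_ord_eq_one Q
  obtain ⟨y, Φ, hmodel⟩ := hCH1 K₁ F₁ hyp.isFF Q t ht
  have hM₁ : IsModel t y Φ := ⟨hmodel.monic, hmodel.root, hmodel.minimal, hmodel.gen⟩
  have htr : Transcendental K₁ t := by
    rcases R0.const_or_transcendental (K := K₁) t with ⟨a, rfl⟩ | h
    · rw [S24.ord_algebraMap] at ht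
      exact absurd ht (by norm_num)
    · exact h
  obtain ⟨hnat, hM₂'⟩ := hTR K₁ F₁ K₂ F₂ hyp.ext t y
  have hM₂ := hM₂' Φ hM₁
  obtain ⟨d, hd0, hd⟩ := hDEN K₁ F₁ K₂ F₂ hyp hFF₂ φ hord t z htr hz
  have hT : Transcendental K₂ (algebraMap F₁ F₂ t) := L4a.transcendental_ext hyp.ext htr
  have hfd : FiniteDimensional K₂⟮algebraMap F₁ F₂ t⟯ F₂ := by
    obtain ⟨x, hx, hfdx⟩ := hFF₂
    exact S24.finiteDimensional_adjoin_simple_of_transcendental x hx _ hT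
  have hint := hINT K₂ F₂ (algebraMap F₁ F₂ t) hT hfd _ hd
  have hmem := hMOD K₂ F₂ _ _ _ hM₂ _ hint
  rw [derivative_map, hnat] at hmem
  set δ : F₁ := evalF (derivative Φ) t y with hδ
  have hδ0 : δ ≠ 0 := inb_derivative_ne_zero hM₁
  have hle : Algebra.adjoin K₂ {algebraMap F₁ F₂ t, algebraMap F₁ F₂ y} ≤
      Algebra.adjoin K₂ (Set.range (algebraMap F₁ F₂)) := by
    refine Algebra.adjoin_mono ?_
    rintro _ (rfl | rfl)
    · exact ⟨t, rfl⟩
    · exact ⟨y, rfl⟩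
  have h1 := hle hmem
  have h2 : algebraMap F₁ F₂ (δ * d)⁻¹ ∈ Algebra.adjoin K₂ (Set.range (algebraMap F₁ F₂)) :=
    Algebra.subset_adjoin ⟨_, rfl⟩
  have h3 := mul_mem h2 h1
  have hδ2 : algebraMap F₁ F₂ δ ≠ 0 := by simpa using hδ0
  have hd2 : algebraMap F₁ F₂ d ≠ 0 := by simpa using hd0
  have h4 : algebraMap F₁ F₂ (δ * d)⁻¹ * (algebraMap F₁ F₂ δ * (algebraMap F₁ F₂ d * z)) = z := by
    rw [map_inv₀, map_mul]
    field_simp
  rwa [h4] at h3

end Fermat.Agent.S27.L4bAlt
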