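import Fermat.Agent.S27.L4bAltInterface

/-!
# S27 / L4bAlt-INT : regular wherever `x` is regular => integral over `K[x]`
-/

set_option autoImplicit false

namespace Fermat.Agent.S27.L4bAlt

open AlgebraicCurve IntermediateField Polynomial IsDedekindDomain
open scoped Polynomial.Bivariate

universe u v

theorem stmt_INT : Stmt_INT.{u, v} := by
  intro K F _ _ _ _ _ x hx hfin z hz
  have := S24.intRing_isDedekindDomain hx
  have := S24.intRing_isFractionRing (K := K) x
  have hxint : IsIntegral (S24.polyRing K x) x := by
    have : x = algebraMap (S24.polyRing K x) F (S24.xPoly K x) := rfl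
    rw [this]
    exact isIntegral_algebraMap
  have key : z ∈ (algebraMap (S24.intRing K x) F).range := by
    apply HeightOneSpectrum.mem_integers_of_valuation_le_one (R := S24.intRing K x) (K := F) z
    intro P
    rcases eq_or_ne z 0 with rfl | hz0
    · simp
    have hxreg : RegularAt (Place.ofHeightOneSpectrum (K := K) P) x := by
      right
      exact S24.ord_algebraMap_nonneg (K := K) P (⟨x, hxint⟩ : S24.intRing K x)
    rcases hz _ hxreg with h | h
    · exact absurd h hz0
    · exact (S24.ord_ofHeightOneSpectrum_nonneg_iff (K := K) P z hz0).mp h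
  obtain ⟨b, rfl⟩ := key
  exact b.2

end Fermat.Agent.S27.L4bAlt

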