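import Fermat.Agent.S27.Interface2
import Fermat.Agent.S24.FundId

/-!
# S27 / L4b, parallel route : interface

Goal: `z ∈ F₂` regular at all places which are not extensions of places of `F₁` lies in the ring
`K₂[F₁]` (`Stmt_INB`); then the Gauss formula of `L4a` gives `L4b`.

Route: plane model `(t, y, Φ)` of `F₁/K₁` (`CH1`), still a model of `F₂/K₂` (`TR`); `d ∈ F₁` kills
the poles of `z` at the places where `t` is regular (`DEN`); `d z` is integral over `K₂[t]` (`INT`);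
`Φ_Y(t,y) d z ∈ K₂[t,y]` (`MOD`, from Mathlib's `traceForm_dualSubmodule_adjoin` = `DER`).
-/

set_option autoImplicit false

namespace Fermat.Agent.S27.L4bAlt

open AlgebraicCurve IntermediateField Polynomial
open scoped Polynomial.Bivariate

universe u v w x

/-- A plane model `F = K(t)[y]`, `Φ(t,y) = 0`, `Φ` monic in `Y` and of minimal degree. -/
structure IsModel {K F : Type*} [Field K] [Field F] [Algebra K F] (t y : F) (Φ : K[X][Y]) :
    Prop where
  monic : Φ.Monic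
  root : evalF Φ t y = 0
  minimal : ∀ Ψ : K[X][Y], Ψ.natDegree < Φ.natDegree → evalF Ψ t y = 0 → Ψ = 0
  gen : IntermediateField.adjoin K {t, y} = ⊤

/-- INT: regular wherever `x` is regular => integral over `K[x]`. -/
def Stmt_INT : Prop :=
  ∀ (K : Type u) (F : Type v) [Field K] [Field F] [Algebra K F] [IsAlgClosed K] [CharZero K]
    (x : F), Transcendental K x → FiniteDimensional K⟮x⟯ F →
    ∀ z : F, (∀ v : Place K F, RegularAt v x → RegularAt v z) →
      IsIntegral (Algebra.adjoin K {x}) z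

/-- DER: `f'(y) z ∈ A[y]` for `z` integral over the integrally closed domain `A`. -/
def Stmt_DER : Prop :=
  ∀ (A : Type u) (K : Type v) (L : Type w) [CommRing A] [IsDomain A] [IsIntegrallyClosed A]
    [Field K] [Algebra A K] [IsFractionRing A K] [Field L] [Algebra K L] [Algebra A L]
    [IsScalarTower A K L] [FiniteDimensional K L] [Algebra.IsSeparable K L] (y z : L),
    Algebra.adjoin K {y} = ⊤ → IsIntegral A y → IsIntegral A z →
      aeval y (derivative (minpoly K y)) * z ∈ Algebra.adjoin A {y}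

/-- MOD: `Φ_Y(t,y) z ∈ K[t,y]` for `z` integral over `K[t]`. -/
def Stmt_MOD : Prop :=
  ∀ (K : Type u) (F : Type v) [Field K] [Field F] [Algebra K F] [CharZero K]
    (t y : F) (Φ : K[X][Y]), IsModel t y Φ →
    ∀ z : F, IsIntegral (Algebra.adjoin K {t}) z →
      evalF (derivative Φ) t y * z ∈ Algebra.adjoin K {t, y}

/-- TR: a model of `F₁/K₁` is a model of the constant field extension `F₂/K₂`. -/
def Stmt_TR : Prop :=
  ∀ (K₁ : Type u) (F₁ : Type v) (K₂ : Type w) (F₂ : Type x) [Field K₁] [Field F₁]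
    [Field K₂] [Field F₂] [Algebra K₁ F₁] [Algebra K₂ F₂] [Algebra K₁ K₂] [Algebra F₁ F₂]
    [Algebra K₁ F₂] [IsScalarTower K₁ K₂ F₂] [IsScalarTower K₁ F₁ F₂],
    IsConstExt K₁ F₁ K₂ F₂ → ∀ (t y : F₁),
      (∀ Ψ : K₁[X][Y], evalF (Ψ.map (mapRingHom (algebraMap K₁ K₂)))
          (algebraMap F₁ F₂ t) (algebraMap F₁ F₂ y) = algebraMap F₁ F₂ (evalF Ψ t y)) ∧
      ∀ Φ : K₁[X][Y], IsModel t y Φ →
        IsModel (algebraMap F₁ F₂ t) (algebraMap F₁ F₂ y)
          (Φ.map (mapRingHom (algebraMap K₁ K₂)))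

/-- DEN: a denominator in `F₁` for the poles at the places where `t` is regular. -/
def Stmt_DEN : Prop :=
  ∀ (K₁ : Type u) (F₁ : Type v) (K₂ : Type w) (F₂ : Type x) [Field K₁] [Field F₁]
    [Field K₂] [Field F₂] [Algebra K₁ F₁] [Algebra K₂ F₂] [Algebra K₁ K₂] [Algebra F₁ F₂]
    [Algebra K₁ F₂] [IsScalarTower K₁ K₂ F₂] [IsScalarTower K₁ F₁ F₂],
    ConstExtHyp K₁ F₁ K₂ F₂ → IsFF K₂ F₂ → ∀ φ : Place K₁ F₁ → Place K₂ F₂,
    (∀ (v : Place K₁ F₁) (f : F₁), (φ v).ord (algebraMap F₁ F₂ f) = v.ord f) →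
    ∀ (t : F₁) (z : F₂), Transcendental K₁ t →
      (∀ w : Place K₂ F₂, w ∉ Set.range φ → RegularAt w z) →
      ∃ d : F₁, d ≠ 0 ∧ ∀ w : Place K₂ F₂, RegularAt w (algebraMap F₁ F₂ t) →
        RegularAt w (algebraMap F₁ F₂ d * z)

/-- INB: regular at all new places => in the ring `K₂[F₁]`. -/
def Stmt_INB : Prop :=
  ∀ (K₁ : Type u) (F₁ : Type v) (K₂ : Type w) (F₂ : Type x) [Field K₁] [Field F₁]
    [Field K₂] [Field F₂] [Algebra K₁ F₁] [Algebra K₂ F₂] [Algebra K₁ K₂] [Algebra F₁ F₂]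
    [Algebra K₁ F₂] [IsScalarTower K₁ K₂ F₂] [IsScalarTower K₁ F₁ F₂],
    ConstExtHyp K₁ F₁ K₂ F₂ → ∀ φ : Place K₁ F₁ → Place K₂ F₂,
    (∀ (v : Place K₁ F₁) (f : F₁), (φ v).ord (algebraMap F₁ F₂ f) = v.ord f) →
    ∀ z : F₂, (∀ w : Place K₂ F₂, w ∉ Set.range φ → RegularAt w z) →
      z ∈ Algebra.adjoin K₂ (Set.range (algebraMap F₁ F₂))

end Fermat.Agent.S27.L4bAlt
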