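import Fermat.Agent.S27.L4bAltInterface

/-!
# S27 / L4b, parallel route : package MOD

`Φ_Y(t,y) z ∈ K[t,y]` for `z` integral over `K[t]`, from `Stmt_DER` applied to `A = K[X]` acting on
`F` through `X ↦ t`.
-/

set_option autoImplicit false

namespace Fermat.Agent.S27.L4bAlt

open AlgebraicCurve IntermediateField Polynomial
open scoped Polynomial.Bivariate

universe u v

namespace MOD

/-- abstract form: `A` an integrally closed domain acting faithfully on the field `F` of
characteristic zero, `Φ ∈ A[Y]` monic of minimal degree with root `y`, `F` generated by `A` and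
`y`. -/
theorem core (hDER : Stmt_DER.{u, u, v}) (A : Type u) (F : Type v) [CommRing A] [IsDomain A]
    [IsIntegrallyClosed A] [Field F] [CharZero F] [Algebra A F] [FaithfulSMul A F]
    (y z : F) (Φ : A[X]) (hmonic : Φ.Monic) (hroot : aeval y Φ = 0)
    (hmin : ∀ Ψ : A[X], Ψ.natDegree < Φ.natDegree → aeval y Ψ = 0 → Ψ = 0)
    (hgen : ∀ E : Subfield F, (∀ a : A, algebraMap A F a ∈ E) → y ∈ E → E = ⊤)
    (hz : IsIntegral A z) :
    aeval y (derivative Φ) * z ∈ Algebra.adjoin A {y} := by
  let _ : Algebra (FractionRing A) F := FractionRing.liftAlgebra A F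
  have : IsScalarTower A (FractionRing A) F := FractionRing.isScalarTower_liftAlgebra A F
  have hyA : IsIntegral A y := ⟨Φ, hmonic, hroot⟩
  have hyK : IsIntegral (FractionRing A) y := hyA.tower_top
  -- the minimal polynomial
  have hminpoly : Φ = minpoly A y := by
    refine minpoly.unique' A y hmonic hroot fun q hq => ?_
    by_cases hq0 : q = 0
    · exact Or.inl hq0
    · refine Or.inr fun hq1 => hq0 (hmin q ?_ hq1)
      exact natDegree_lt_natDegree hq0 hq
  have hminK : minpoly (FractionRing A) y = Φ.map (algebraMap A (FractionRing A)) := by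
    rw [minpoly.isIntegrallyClosed_eq_field_fractions' (FractionRing A) hyA, ← hminpoly]
  have hder : aeval y (derivative (minpoly (FractionRing A) y)) = aeval y (derivative Φ) := by
    rw [hminK, derivative_map, aeval_map_algebraMap]
  -- generation
  have htop : (FractionRing A)⟮y⟯ = ⊤ := by
    have h1 := hgen ((FractionRing A)⟮y⟯).toSubfield (fun a => by
      rw [IsScalarTower.algebraMap_apply A (FractionRing A) F]
      exact ((FractionRing A)⟮y⟯).algebraMap_mem _) (mem_adjoin_simple_self _ y)
    refine eq_top_iff.mpr fun f _ => ?_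
    have : f ∈ ((FractionRing A)⟮y⟯).toSubfield := by rw [h1]; exact Subfield.mem_top f
    exact this
  have hadj : Algebra.adjoin (FractionRing A) {y} = ⊤ := by
    rw [← adjoin_simple_toSubalgebra_of_isAlgebraic hyK.isAlgebraic, htop, top_toSubalgebra]
  have hfd : FiniteDimensional (FractionRing A) F := by
    have h1 : FiniteDimensional (FractionRing A) (FractionRing A)⟮y⟯ :=
      adjoin.finiteDimensional hyK
    rw [htop] at h1
    exact Module.Finite.equiv (topEquiv (F := FractionRing A) (E := F)).toLinearEquiv
  have : CharZero (FractionRing A) :=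
    (RingHom.charZero_iff (algebraMap (FractionRing A) F).injective).mpr inferInstance
  have hsep : Algebra.IsSeparable (FractionRing A) F := inferInstance
  rw [← hder]
  exact hDER A (FractionRing A) F y z hadj hyA hz

section Model

variable {K : Type u} {F : Type v} [Field K] [Field F] [Algebra K F]

theorem evalF_C (p : K[X]) (t y : F) : evalF (C p : K[X][Y]) t y = aeval t p := by
  unfold evalF
  rw [Polynomial.map_C, eval_C]
  rfl

theorem evalF_one (t y : F) : evalF (1 : K[X][Y]) t y = 1 := by
  unfold evalF
  rw [Polynomial.map_one, eval_one]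

theorem natDegree_pos {t y : F} {Φ : K[X][Y]} (h : IsModel t y Φ) : 0 < Φ.natDegree := by
  rcases Nat.eq_zero_or_pos Φ.natDegree with h0 | h0
  · exfalso
    have h1 : Φ = 1 := h.monic.natDegree_eq_zero.mp h0
    have h2 := h.root
    rw [h1, evalF_one] at h2
    exact one_ne_zero h2
  · exact h0

theorem transcendental_t {t y : F} {Φ : K[X][Y]} (h : IsModel t y Φ) : Transcendental K t := by
  rw [transcendental_iff]
  intro p hp
  have h1 : (C p : K[X][Y]) = 0 :=
    h.minimal (C p) (by rw [natDegree_C]; exact natDegree_pos h) (by rw [evalF_C, hp])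
  exact C_eq_zero.mp h1

end Model

end MOD

open MOD in
/-- MOD: `Φ_Y(t,y) z ∈ K[t,y]` for `z` integral over `K[t]`. -/
theorem stmt_MOD (hDER : Stmt_DER.{u, u, v}) : Stmt_MOD.{u, v} := by
  intro K F _ _ _ _ t y Φ hΦ z hz
  have ht : Transcendental K t := transcendental_t hΦ
  let _ : Algebra K[X] F := (aeval t : K[X] →ₐ[K] F).toRingHom.toAlgebra
  have halg : ∀ p : K[X], algebraMap K[X] F p = aeval t p := fun _ => rfl
  have hev : ∀ Ψ : K[X][Y], aeval y Ψ = evalF Ψ t y := by
    intro Ψ
    unfold evalF
    rw [eval_map, aeval_def]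
    rfl
  have : FaithfulSMul K[X] F :=
    (faithfulSMul_iff_algebraMap_injective K[X] F).mpr (transcendental_iff_injective.mp ht)
  have : CharZero F := charZero_of_injective_algebraMap (algebraMap K F).injective
  have hzX : IsIntegral K[X] z := by
    have := IsIntegral.map_of_comp_eq (R := Algebra.adjoin K {t}) (S := F) (T := K[X]) (U := F)
      ((algEquivOfTranscendental K t ht).symm : Algebra.adjoin K {t} →+* K[X]) (RingHom.id F) (by
        ext a
        obtain ⟨p, rfl⟩ := (algEquivOfTranscendental K t ht).surjective a
        simp only [RingHom.comp_apply, RingHom.coe_coe, AlgEquiv.symm_apply_apply, RingHom.id_apply]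
        rw [halg, algEquivOfTranscendental_apply]
        exact aeval_algebraMap_apply F
          (⟨t, Algebra.self_mem_adjoin_singleton K t⟩ : Algebra.adjoin K {t}) p) hz
    exact this
  have key := core hDER K[X] F y z Φ hΦ.monic (by rw [hev]; exact hΦ.root)
    (fun Ψ h1 h2 => hΦ.minimal Ψ h1 (by rw [← hev]; exact h2)) ?_ hzX
  · rw [hev] at key
    refine Algebra.adjoin_induction (p := fun x _ => x ∈ Algebra.adjoin K {t, y}) ?_ ?_ ?_ ?_ key
    · intro x hx
      rw [Set.mem_singleton_iff] at hx
      exact Algebra.subset_adjoin (by rw [hx]; simp)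
    · intro p
      rw [halg]
      exact Algebra.adjoin_mono (by simp) (aeval_mem_adjoin_singleton K t)
    · intro a b _ _ ha hb
      exact add_mem ha hb
    · intro a b _ _ ha hb
      exact mul_mem ha hb
  · intro E hE hyE
    have hK : ∀ a : K, algebraMap K F a ∈ E := fun a => by
      have := hE (C a)
      rwa [halg, aeval_C] at this
    have htE : t ∈ E := by
      have := hE X
      rwa [halg, aeval_X] at this
    have hle : IntermediateField.adjoin K {t, y} ≤ E.toIntermediateField hK := by
      rw [IntermediateField.adjoin_le_iff]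
      rintro x (rfl | rfl)
      · exact htE
      · exact hyE
    rw [hΦ.gen] at hle
    refine eq_top_iff.mpr fun f _ => ?_
    exact hle (IntermediateField.mem_top (x := f))

end Fermat.Agent.S27.L4bAlt
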