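import Fermat.Agent.S27.L4bAltInterface
import Fermat.Agent.S27.L4a

/-!
# S27 / L4b, parallel route, package TR : a plane model of `F₁/K₁` is a plane model of `F₂/K₂`
-/

set_option autoImplicit false

namespace Fermat.Agent.S27.L4bAlt

open AlgebraicCurve IntermediateField Polynomial
open scoped Polynomial.Bivariate

universe u v w x

namespace TR

section General

variable {K F : Type*} [Field K] [Field F] [Algebra K F]

/-- `evalF` as a ring homomorphism. -/
noncomputable def evalFHom (t y : F) : K[X][Y] →+* F :=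
  (evalRingHom y).comp (mapRingHom (Polynomial.aeval t : K[X] →ₐ[K] F).toRingHom)

lemma evalF_eq (Ψ : K[X][Y]) (t y : F) : evalF Ψ t y = evalFHom t y Ψ := rfl

lemma evalF_monomial (i j : ℕ) (c : K) (t y : F) :
    evalF (monomial i (monomial j c)) t y = c • (t ^ j * y ^ i) := by
  simp [evalF, Algebra.smul_def, mul_assoc]

/-- the family `t^j y^i`, `i < n`. -/
def fam (t y : F) (n : ℕ) : ℕ × Fin n → F := fun p => t ^ p.1 * y ^ (p.2 : ℕ)

lemma linearIndependent_fam {t y : F} {n : ℕ}
    (h : ∀ Ψ : K[X][Y], Ψ.natDegree < n → evalF Ψ t y = 0 → Ψ = 0) :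
    LinearIndependent K (fam t y n) := by
  classical
  rw [linearIndependent_iff']
  intro s g hg p₀ hp₀
  set Ψ : K[X][Y] := ∑ p ∈ s, monomial (p.2 : ℕ) (monomial p.1 (g p)) with hΨ
  have hev : evalF Ψ t y = 0 := by
    rw [evalF_eq, hΨ, map_sum, ← hg]
    refine Finset.sum_congr rfl fun p _ => ?_
    rw [← evalF_eq, evalF_monomial]
    rfl
  have hdeg : Ψ ∈ degreeLT K[X] n := by
    refine Submodule.sum_mem _ fun p _ => ?_
    rw [mem_degreeLT]
    exact lt_of_le_of_lt (degree_monomial_le _ _) (by exact_mod_cast p.2.2)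
  have h0 : Ψ = 0 := by
    by_cases hz : Ψ = 0
    · exact hz
    · exact h Ψ ((natDegree_lt_iff_degree_lt hz).2 (mem_degreeLT.1 hdeg)) hev
  have hc : (Ψ.coeff (p₀.2 : ℕ)).coeff p₀.1 = g p₀ := by
    rw [hΨ, finsetSum_coeff, finsetSum_coeff, Finset.sum_eq_single p₀]
    · simp
    · intro p _ hp
      rw [coeff_monomial]
      split_ifs with h1
      · rw [coeff_monomial, if_neg]
        intro h2
        exact hp (Prod.ext h2 (Fin.ext h1))
      · simp
    · intro hp
      exact absurd hp₀ hp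
  rw [← hc, h0]
  simp

lemma eq_zero_of_linearIndependent_fam {t y : F} {n : ℕ}
    (h : LinearIndependent K (fam t y n)) (Ψ : K[X][Y]) (hn : Ψ.natDegree < n)
    (hev : evalF Ψ t y = 0) : Ψ = 0 := by
  classical
  rw [linearIndependent_iff'] at h
  set B : ℕ := (Finset.range n).sup (fun i => (Ψ.coeff i).natDegree) + 1 with hB
  have hBi : ∀ i < n, (Ψ.coeff i).natDegree < B := fun i hi =>
    Nat.lt_succ_of_le (Finset.le_sup (f := fun i => (Ψ.coeff i).natDegree) (Finset.mem_range.2 hi))
  have hsum : ∑ p ∈ Finset.range B ×ˢ (Finset.univ : Finset (Fin n)),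
      ((Ψ.coeff (p.2 : ℕ)).coeff p.1) • fam t y n p = 0 := by
    rw [← hev, Finset.sum_product_right]
    have h1 : evalF Ψ t y = ∑ i ∈ Finset.range n, aeval t (Ψ.coeff i) * y ^ i := by
      have hn' : (Ψ.map (Polynomial.aeval t : K[X] →ₐ[K] F).toRingHom).natDegree < n :=
        lt_of_le_of_lt natDegree_map_le hn
      rw [evalF, eval_eq_sum_range' hn']
      refine Finset.sum_congr rfl fun i _ => ?_
      rw [coeff_map]
      rfl
    rw [h1, Finset.sum_range]
    refine Finset.sum_congr rfl fun i _ => ?_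
    rw [aeval_eq_sum_range' (hBi i i.2), Finset.sum_mul]
    refine Finset.sum_congr rfl fun j _ => ?_
    rw [fam, smul_mul_assoc]
  have hall := h _ _ hsum
  ext i j
  rw [coeff_zero, coeff_zero]
  by_cases hi : i < n
  · by_cases hj : j < B
    · exact hall (j, ⟨i, hi⟩) (Finset.mem_product.2 ⟨Finset.mem_range.2 hj, Finset.mem_univ _⟩)
    · exact coeff_eq_zero_of_natDegree_lt (lt_of_lt_of_le (hBi i hi) (not_lt.1 hj))
  · rw [coeff_eq_zero_of_natDegree_lt (lt_of_lt_of_le hn (not_lt.1 hi)), coeff_zero]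

end General

end TR

open TR in
/-- **TR** -/
theorem stmt_TR : Stmt_TR.{u, v, w, x} := by
  intro K₁ F₁ K₂ F₂ _ _ _ _ _ _ _ _ _ _ _ h t y
  have hnat : ∀ Ψ : K₁[X][Y], evalF (Ψ.map (mapRingHom (algebraMap K₁ K₂)))
      (algebraMap F₁ F₂ t) (algebraMap F₁ F₂ y) = algebraMap F₁ F₂ (evalF Ψ t y) := by
    intro Ψ
    rw [evalF, evalF, Polynomial.map_map, ← eval_map_apply, Polynomial.map_map]
    congr 2
    ext p
    · simp [← IsScalarTower.algebraMap_apply]
    · simp
  refine ⟨hnat, fun Φ hΦ => ⟨hΦ.monic.map _, ?_, ?_, ?_⟩⟩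
  · rw [hnat, hΦ.root, map_zero]
  · intro Ψ hdeg hev
    rw [hΦ.monic.natDegree_map] at hdeg
    have h1 : LinearIndependent K₁ (fam t y Φ.natDegree) := linearIndependent_fam hΦ.minimal
    have h2 := L4a.linearIndependent_map h _ h1
    refine eq_zero_of_linearIndependent_fam ?_ Ψ hdeg hev
    convert h2 using 1
    funext p
    simp [fam]
  · rw [eq_top_iff, ← h.gen, adjoin_le_iff]
    rintro _ ⟨f, rfl⟩
    have hf : f ∈ IntermediateField.adjoin K₁ {t, y} := by rw [hΦ.gen]; trivial
    show algebraMap F₁ F₂ f ∈ IntermediateField.adjoin K₂ {algebraMap F₁ F₂ t, algebraMap F₁ F₂ y}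
    induction hf using IntermediateField.adjoin_induction with
    | mem z hz =>
      apply IntermediateField.subset_adjoin
      rcases hz with rfl | rfl
      · exact Set.mem_insert _ _
      · exact Set.mem_insert_of_mem _ rfl
    | algebraMap c =>
      rw [← IsScalarTower.algebraMap_apply, IsScalarTower.algebraMap_apply K₁ K₂ F₂]
      exact IntermediateField.algebraMap_mem _ _
    | add a b _ _ ha hb => rw [map_add]; exact add_mem ha hb
    | inv a _ ha => rw [map_inv₀]; exact inv_mem ha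
    | mul a b _ _ ha hb => rw [map_mul]; exact mul_mem ha hb

end Fermat.Agent.S27.L4bAlt
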