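import Fermat.Agent.S27.L5Ext
import Fermat.Agent.S27.L4bAbs
import Fermat.Agent.S24.FundId

/-!
# S27 / L4b (b) : `F₂ / K₂(x)` versus `F₁ / K₁(x)` in a constant field extension
-/

set_option autoImplicit false
set_option linter.unusedSectionVars false

namespace Fermat.Agent.S27.L4b

open AlgebraicCurve IntermediateField Module Polynomial
open scoped IntermediateField.algebraAdjoinAdjoin

universe u v w x

variable {K₁ : Type u} {F₁ : Type v} {K₂ : Type w} {F₂ : Type x} [Field K₁] [Field F₁] [Field K₂]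
  [Field F₂] [Algebra K₁ F₁] [Algebra K₂ F₂] [Algebra K₁ K₂] [Algebra F₁ F₂] [Algebra K₁ F₂]
  [IsScalarTower K₁ K₂ F₂] [IsScalarTower K₁ F₁ F₂]

theorem linearIndependent_pow {K A : Type*} [Field K] [CommRing A] [Algebra K A] {t : A}
    (ht : Transcendental K t) : LinearIndependent K (fun i : ℕ => t ^ i) := by
  have h := (Polynomial.basisMonomials K).linearIndependent.map' (Polynomial.aeval t).toLinearMap
    (LinearMap.ker_eq_bot.mpr (transcendental_iff_injective.mp ht))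
  have he : (fun i : ℕ => t ^ i)
      = (Polynomial.aeval t).toLinearMap ∘ (Polynomial.basisMonomials K) := by
    funext i
    simp
  rw [he]
  exact h

theorem transcendental_of_linearIndependent_pow {K A : Type*} [Field K] [CommRing A] [Algebra K A]
    {t : A} (ht : LinearIndependent K (fun i : ℕ => t ^ i)) : Transcendental K t := by
  rw [transcendental_iff]
  intro p hp
  rw [aeval_eq_sum_range] at hp
  have := (linearIndependent_iff'.mp ht) (Finset.range (p.natDegree + 1)) (fun i => p.coeff i) hp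
  ext i
  by_cases hi : i ∈ Finset.range (p.natDegree + 1)
  · simpa using this i hi
  · rw [coeff_zero]
    exact coeff_eq_zero_of_natDegree_lt (by simpa using hi)

omit [Algebra K₁ K₂] [Algebra K₁ F₂] [IsScalarTower K₁ K₂ F₂] [IsScalarTower K₁ F₁ F₂] in
theorem transcendental_map (h : IsConstExt K₁ F₁ K₂ F₂) {t : F₁} (ht : Transcendental K₁ t) :
    Transcendental K₂ (algebraMap F₁ F₂ t) := by
  apply transcendental_of_linearIndependent_pow
  have := L5.linearIndependent_of_linDisj h _ (linearIndependent_pow ht)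
  simpa only [map_pow] using this

variable {t : F₁} {t₂ : F₂}

theorem map_mem_adjoin (e : algebraMap F₁ F₂ t = t₂) (r : F₁) (hr : r ∈ K₁⟮t⟯) :
    algebraMap F₁ F₂ r ∈ K₂⟮t₂⟯ := by
  have h1 : K₁⟮t⟯ ≤ ((K₂⟮t₂⟯).restrictScalars K₁).comap (IsScalarTower.toAlgHom K₁ F₁ F₂) := by
    rw [adjoin_simple_le_iff]
    show algebraMap F₁ F₂ t ∈ K₂⟮t₂⟯
    rw [e]
    exact mem_adjoin_simple_self K₂ _
  exact h1 hr

variable (K₁ K₂) in
/-- the restriction `K₁(t) → K₂(t)` of `F₁ → F₂` -/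
noncomputable def kHom (e : algebraMap F₁ F₂ t = t₂) : K₁⟮t⟯ →+* K₂⟮t₂⟯ :=
  ((algebraMap F₁ F₂).comp (algebraMap K₁⟮t⟯ F₁)).codRestrict (K₂⟮t₂⟯)
    (fun r => map_mem_adjoin e r r.2)

variable (K₁ K₂) in
/-- `K₂(t)` as an algebra over `K₁(t)` -/
@[reducible] noncomputable def kAlg (e : algebraMap F₁ F₂ t = t₂) : Algebra K₁⟮t⟯ K₂⟮t₂⟯ :=
  (kHom K₁ K₂ e).toAlgebra

variable (K₁ K₂) in
theorem kTower (e : algebraMap F₁ F₂ t = t₂) :
    letI := kAlg K₁ K₂ e
    IsScalarTower K₁⟮t⟯ K₂⟮t₂⟯ F₂ :=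
  letI := kAlg K₁ K₂ e
  IsScalarTower.of_algebraMap_eq fun _ => rfl

/-- linear disjointness over `K₁(t)` -/
theorem linearIndependent_adjoin (h : IsConstExt K₁ F₁ K₂ F₂) (ht : Transcendental K₁ t)
    (e : algebraMap F₁ F₂ t = t₂) {ι : Type*} (f : ι → F₁) (hf : LinearIndependent K₁⟮t⟯ f) :
    LinearIndependent K₂⟮t₂⟯ (fun i => algebraMap F₁ F₂ (f i)) := by
  classical
  rw [← LinearIndependent.iff_fractionRing (Algebra.adjoin K₂ {t₂}) K₂⟮t₂⟯]
  -- the `K₁`-independent family `t ^ j * f i`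
  have hg : LinearIndependent K₁ (fun j : ℕ => (AdjoinSimple.gen K₁ t) ^ j) := by
    apply linearIndependent_pow
    intro hal
    apply ht
    have := hal.algebraMap (A := F₁)
    rwa [AdjoinSimple.algebraMap_gen] at this
  have h1 := L5.linearIndependent_of_linDisj h _ (linearIndependent_smul hg hf)
  have h2 : ∀ p : ℕ × ι, algebraMap F₁ F₂ ((AdjoinSimple.gen K₁ t) ^ p.1 • f p.2)
      = t₂ ^ p.1 * algebraMap F₁ F₂ (f p.2) := by
    intro p
    rw [Algebra.smul_def, map_mul, map_pow, AdjoinSimple.algebraMap_gen, map_pow, e]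
  simp only [h2] at h1
  rw [linearIndependent_iff']
  intro s g hg0 i hi
  have hP : ∀ i, ∃ P : K₂[X], (g i : F₂) = aeval t₂ P := by
    intro i
    have h3 : (g i : F₂) ∈ (aeval t₂ : K₂[X] →ₐ[K₂] F₂).range := by
      rw [← Algebra.adjoin_singleton_eq_range_aeval]
      exact (g i).2
    obtain ⟨P, hP⟩ := h3
    exact ⟨P, hP.symm⟩
  choose P hP using hP
  set N : ℕ := (s.sup fun i => (P i).natDegree) + 1 with hN
  have hlt : ∀ i ∈ s, (P i).natDegree < N := fun i hi =>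
    Nat.lt_succ_of_le (Finset.le_sup (f := fun i => (P i).natDegree) hi)
  have hsum : ∑ p ∈ Finset.range N ×ˢ s, (P p.2).coeff p.1 •
      (t₂ ^ p.1 * algebraMap F₁ F₂ (f p.2)) = 0 := by
    rw [Finset.sum_product_right, ← hg0]
    refine Finset.sum_congr rfl fun i hi => ?_
    have : g i • algebraMap F₁ F₂ (f i) = (g i : F₂) * algebraMap F₁ F₂ (f i) := rfl
    rw [this, hP i, aeval_eq_sum_range' (hlt i hi), Finset.sum_mul]
    exact Finset.sum_congr rfl fun j _ => by rw [smul_mul_assoc]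
  have hz := (linearIndependent_iff'.mp h1) _ (fun p => (P p.2).coeff p.1) hsum
  have hPi : P i = 0 := by
    ext j
    rw [coeff_zero]
    by_cases hj : j < N
    · exact hz (j, i) (Finset.mem_product.mpr ⟨Finset.mem_range.mpr hj, hi⟩)
    · exact coeff_eq_zero_of_natDegree_lt (lt_of_lt_of_le (hlt i hi) (not_lt.mp hj))
  apply Subtype.ext
  rw [hP i, hPi, map_zero]
  rfl

/-- `F₂` is spanned by `F₁` over `K₂(t)` -/
theorem span_adjoin_eq_top (h : IsConstExt K₁ F₁ K₂ F₂) (e : algebraMap F₁ F₂ t = t₂)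
    [FiniteDimensional K₁⟮t⟯ F₁] :
    Submodule.span K₂⟮t₂⟯ (Set.range (algebraMap F₁ F₂)) = ⊤ := by
  let _ := kAlg K₁ K₂ e
  have := kTower K₁ K₂ e
  have hal : ∀ y ∈ Set.range (algebraMap F₁ F₂), IsAlgebraic K₂⟮t₂⟯ y := by
    rintro _ ⟨f, rfl⟩
    have h1 : IsAlgebraic K₁⟮t⟯ f := Algebra.IsAlgebraic.isAlgebraic f
    exact (h1.algebraMap (A := F₂)).tower_top K₂⟮t₂⟯
  have htop : IntermediateField.adjoin K₂⟮t₂⟯ (Set.range (algebraMap F₁ F₂)) = ⊤ := by
    rw [eq_top_iff]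
    intro y _
    have hle : IntermediateField.adjoin K₂ (Set.range (algebraMap F₁ F₂)) ≤
        (IntermediateField.adjoin K₂⟮t₂⟯ (Set.range (algebraMap F₁ F₂))).restrictScalars K₂ := by
      rw [IntermediateField.adjoin_le_iff]
      exact IntermediateField.subset_adjoin _ _
    rw [h.gen] at hle
    exact hle (IntermediateField.mem_top (x := y))
  have h2 := adjoin_toSubalgebra_of_isAlgebraic hal
  rw [htop] at h2
  have h3 := Algebra.adjoin_eq_span K₂⟮t₂⟯ (Set.range (algebraMap F₁ F₂))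
  rw [← h2] at h3
  have h4 : (Submonoid.closure (Set.range (algebraMap F₁ F₂)) : Set F₂)
      = Set.range (algebraMap F₁ F₂) := by
    have : Set.range (algebraMap F₁ F₂)
        = (MonoidHom.mrange (algebraMap F₁ F₂ : F₁ →* F₂) : Set F₂) := by
      ext; simp
    rw [this, Submonoid.closure_eq]
  rw [h4] at h3
  rw [← h3]
  simp

/-- a basis of `F₁ / K₁(t)` is a basis of `F₂ / K₂(t)` -/
theorem exists_basis_lift (h : IsConstExt K₁ F₁ K₂ F₂) (ht : Transcendental K₁ t)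
    (e : algebraMap F₁ F₂ t = t₂)
    [FiniteDimensional K₁⟮t⟯ F₁] {ι : Type*} [Fintype ι] (c : Basis ι K₁⟮t⟯ F₁) :
    ∃ c' : Basis ι K₂⟮t₂⟯ F₂, ∀ i, c' i = algebraMap F₁ F₂ (c i) := by
  let _ := kAlg K₁ K₂ e
  have := kTower K₁ K₂ e
  refine ⟨Basis.mk (linearIndependent_adjoin h ht e c c.linearIndependent) ?_,
    fun i => Basis.mk_apply _ _ i⟩
  rw [← span_adjoin_eq_top h e, Submodule.span_le]
  rintro _ ⟨f, rfl⟩
  rw [← c.sum_repr f, map_sum]
  refine Submodule.sum_mem _ fun i _ => ?_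
  rw [map_smul_square (k₂ := K₂⟮t₂⟯)]
  exact Submodule.smul_mem _ _ (Submodule.subset_span ⟨i, rfl⟩)

theorem finiteDimensional_adjoin (h : IsConstExt K₁ F₁ K₂ F₂) (ht : Transcendental K₁ t)
    (e : algebraMap F₁ F₂ t = t₂) [FiniteDimensional K₁⟮t⟯ F₁] : FiniteDimensional K₂⟮t₂⟯ F₂ := by
  obtain ⟨c', -⟩ := exists_basis_lift h ht e (Module.finBasis K₁⟮t⟯ F₁)
  exact Module.Finite.of_basis c'

end Fermat.Agent.S27.L4b
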