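import Fermat.Agent.S27.L5Ext
import Fermat.Agent.S24.PlaceBasic

/-!
# S27 / L5 (b) : descent of torsion classes along a constant field extension
-/

set_option autoImplicit false

namespace Fermat.Agent.S27.L5

open AlgebraicCurve IntermediateField Fermat.Agent.S24

universe u v w x

section Basic

variable {K : Type u} {F : Type v} [Field K] [Field F] [Algebra K F]

theorem place_ext_ord {v w : Place K F} (h : ∀ f, v.ord f = w.ord f) : v = w := by
  ext f
  rcases eq_or_ne f 0 with rfl | hf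
  · simp [zero_mem]
  · rw [mem_iff_ord_nonneg v hf, mem_iff_ord_nonneg w hf, h]

theorem vanishesAt_unique (v : Place K F) (X : F) (a b : K)
    (ha : VanishesAt v (X - algebraMap K F a)) (hb : VanishesAt v (X - algebraMap K F b)) :
    a = b := by
  by_contra hne
  have hd : algebraMap K F (b - a) ≠ 0 := by
    simpa [sub_eq_zero] using (Ne.symm hne)
  have h0 : v.ord (algebraMap K F (b - a)) = 0 := ord_algebraMap v _
  have hsum : (X - algebraMap K F a) + -(X - algebraMap K F b) = algebraMap K F (b - a) := by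
    rw [map_sub]; ring
  have hneg : ∀ f : F, v.ord (-f) = v.ord f := fun f => by
    unfold Place.ord; rw [Valuation.map_neg]
  rcases ha with ha | ha
  · rcases hb with hb | hb
    · rw [ha, hb] at hsum
      exact hd (by rw [← hsum]; simp)
    · rw [ha, zero_add] at hsum
      rw [← hsum, hneg] at h0
      omega
  · rcases hb with hb | hb
    · rw [hb, neg_zero, add_zero] at hsum
      rw [← hsum] at h0
      omega
    · have hA : X - algebraMap K F a ≠ 0 := fun h => by rw [h] at ha; simp at ha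
      have hB : -(X - algebraMap K F b) ≠ 0 := fun h => by
        rw [neg_eq_zero] at h; rw [h] at hb; simp at hb
      have h1 := ord_add_ge v hA hB (by rw [hsum]; exact hd)
      rw [hsum, h0, hneg] at h1
      have := lt_min ha hb
      omega

theorem vanishesAt_smul (g : SemilinearAut K F) (v : Place K F) (f : F) (h : VanishesAt v f) :
    VanishesAt (g • v) (g • f) := by
  rcases h with h | h
  · left; rw [h]; exact smul_zero g
  · right; rwa [SemilinearAut.ord_smul]

/-- A degree zero divisor class has, after adding the minimal multiple of `P`, a *rigid* effective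
representative `E` (`L(E)` consists of constants). -/
theorem exists_rigid_effective
    (hPD : HasPrincipalDivisors K F) (hdeg : ∀ v : Place K F, v.deg = 1)
    (hneg : ∀ D : Divisor K F, Divisor.degree D < 0 → riemannRochSpace D = ⊥)
    (hfin : ∀ D : Divisor K F, Module.Finite K (riemannRochSpace D))
    (hstep : ∀ (D : Divisor K F) (v : Place K F),
      Module.finrank K (riemannRochSpace (D + Finsupp.single v 1)) ≤
        Module.finrank K (riemannRochSpace D) + 1)
    (hbig : ∃ c : ℤ, ∀ D : Divisor K F, c ≤ Divisor.degree D → riemannRochSpace D ≠ ⊥)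
    (D : Divisor K F) (hD : Divisor.degree D = 0) (P : Place K F) :
    ∃ (m : ℕ) (f : F) (E : Divisor K F), f ≠ 0 ∧
      (∀ v, E v = D v + (Finsupp.single P (m : ℤ) : Divisor K F) v + v.ord f) ∧ (∀ v, 0 ≤ E v) ∧
      (∀ u : F, u ≠ 0 → (∀ v, - E v ≤ v.ord u) → ∃ c : K, u = algebraMap K F c) := by
  classical
  have hdegA : ∀ k : ℤ, Divisor.degree (D + Finsupp.single P k) = k := fun k => by
    rw [map_add, hD, Divisor.degree_single, hdeg]; simp
  have hex : ∃ m : ℕ, riemannRochSpace (D + Finsupp.single P (m : ℤ)) ≠ ⊥ := by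
    obtain ⟨c, hc⟩ := hbig
    refine ⟨c.toNat, hc _ ?_⟩
    rw [hdegA]
    exact Int.self_le_toNat c
  let m := Nat.find hex
  have hm : riemannRochSpace (D + Finsupp.single P (m : ℤ)) ≠ ⊥ := Nat.find_spec hex
  have hm' : riemannRochSpace (D + Finsupp.single P ((m : ℤ) - 1)) = ⊥ := by
    rcases Nat.eq_zero_or_pos m with h0 | hpos
    · apply hneg
      rw [hdegA, h0]; simp
    · have := Nat.find_min hex (m := m - 1) (by omega)
      rw [not_not] at this
      rw [← this]
      congr 3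
      omega
  have hA : D + Finsupp.single P (m : ℤ) = (D + Finsupp.single P ((m : ℤ) - 1)) + Finsupp.single P 1 := by
    rw [add_assoc, ← Finsupp.single_add]; congr 2; ring
  have hle : Module.finrank K (riemannRochSpace (D + Finsupp.single P (m : ℤ))) ≤ 1 := by
    have := hstep (D + Finsupp.single P ((m : ℤ) - 1)) P
    rw [← hA, hm', finrank_bot] at this
    simpa using this
  have := hfin (D + Finsupp.single P (m : ℤ))
  obtain ⟨v₀, hv₀⟩ := finrank_le_one_iff.mp hle
  obtain ⟨f, hfL, hf0⟩ := (Submodule.ne_bot_iff _).mp hm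
  obtain ⟨Df, hDf, -⟩ := hPD.exists_divisor f hf0
  have hfL' := mem_riemannRochSpace_iff.mp hfL
  refine ⟨m, f, D + Finsupp.single P (m : ℤ) + Df, hf0, fun v => ?_, fun v => ?_, ?_⟩
  · rw [Finsupp.add_apply, Finsupp.add_apply, hDf]
  · rw [Finsupp.add_apply, hDf]
    have := (hfL' v).resolve_left hf0
    omega
  · intro u hu hu'
    have huf : u * f ∈ riemannRochSpace (D + Finsupp.single P (m : ℤ)) := by
      rw [mem_riemannRochSpace_iff]
      intro v
      right
      rw [v.ord_mul hu hf0]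
      have := hu' v
      rw [Finsupp.add_apply, hDf] at this
      omega
    obtain ⟨c₁, hc₁⟩ := hv₀ ⟨f, hfL⟩
    obtain ⟨c₂, hc₂⟩ := hv₀ ⟨u * f, huf⟩
    have hc₁' : c₁ • (v₀ : F) = f := congrArg Subtype.val hc₁
    have hc₂' : c₂ • (v₀ : F) = u * f := congrArg Subtype.val hc₂
    have hc₁0 : c₁ ≠ 0 := fun h => hf0 (by rw [← hc₁', h, zero_smul])
    refine ⟨c₂ / c₁, ?_⟩
    have hc₁F : algebraMap K F c₁ ≠ 0 := by simpa using hc₁0
    rw [Algebra.smul_def] at hc₁' hc₂'
    rw [map_div₀, eq_div_iff hc₁F]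
    have hv₀0 : (v₀ : F) ≠ 0 := fun h => hf0 (by rw [← hc₁', h, mul_zero])
    apply mul_right_cancel₀ hv₀0
    rw [hc₂', mul_assoc, hc₁']

/-- rigidity: an automorphism fixing `P` and the class of `D` fixes `E`. -/
theorem smul_rigid_eq (D E : Divisor K F) (P : Place K F) (m : ℕ) (f : F) (hf : f ≠ 0)
    (hE : ∀ v, E v = D v + (Finsupp.single P (m : ℤ) : Divisor K F) v + v.ord f)
    (hE0 : ∀ v, 0 ≤ E v)
    (hrig : ∀ u : F, u ≠ 0 → (∀ v, - E v ≤ v.ord u) → ∃ c : K, u = algebraMap K F c)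
    (k : SemilinearAut K F) (hkP : k • P = P) (hkD : Divisor.IsPrincipal (k • D - D)) :
    k • E = E := by
  classical
  obtain ⟨u, hu, hu'⟩ := hkD
  have hkf : k • f ≠ 0 := by simpa using hf
  have hkP' : k⁻¹ • P = P := by rw [inv_smul_eq_iff, hkP]
  have hsingle : ∀ w, (Finsupp.single P (m : ℤ) : Divisor K F) (k⁻¹ • w)
      = (Finsupp.single P (m : ℤ) : Divisor K F) w := fun w => by
    by_cases hw : w = P
    · rw [hw, hkP']
    · rw [Finsupp.single_apply, Finsupp.single_apply, if_neg (Ne.symm hw), if_neg]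
      intro h
      apply hw
      rw [← hkP, h, smul_inv_smul]
  have hord : ∀ w : Place K F, (k⁻¹ • w).ord f = w.ord (k • f) := fun w => by
    have := SemilinearAut.ord_smul k (k⁻¹ • w) f
    rw [smul_inv_smul] at this
    exact this.symm
  have key : ∀ w : Place K F, (k • E) w - E w = w.ord (u * (k • f) * f⁻¹) := fun w => by
    rw [w.ord_mul (mul_ne_zero hu hkf) (inv_ne_zero hf), w.ord_mul hu hkf, w.ord_inv, ← hu' w,
      SemilinearAut.divisor_smul_apply, hE, hE, hsingle, hord, Finsupp.sub_apply,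
      SemilinearAut.divisor_smul_apply]
    ring
  have hne : u * (k • f) * f⁻¹ ≠ 0 := mul_ne_zero (mul_ne_zero hu hkf) (inv_ne_zero hf)
  obtain ⟨c, hc⟩ := hrig _ hne fun w => by
    rw [← key, SemilinearAut.divisor_smul_apply]
    have := hE0 (k⁻¹ • w)
    omega
  ext w
  have := key w
  rw [hc, ord_algebraMap] at this
  omega

end Basic

section Descent

variable {K₁ : Type u} {F₁ : Type v} {K₂ : Type w} {F₂ : Type x} [Field K₁] [Field F₁] [Field K₂]
  [Field F₂] [Algebra K₁ F₁] [Algebra K₂ F₂] [Algebra K₁ K₂] [Algebra F₁ F₂] [Algebra K₁ F₂]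
  [IsScalarTower K₁ K₂ F₂] [IsScalarTower K₁ F₁ F₂]

omit [Algebra K₁ K₂] [Algebra K₁ F₂] [IsScalarTower K₁ K₂ F₂] [IsScalarTower K₁ F₁ F₂] in
theorem smul_phi {φ : Place K₁ F₁ → Place K₂ F₂} (hφ : IsPlaceExt φ) (g : SemilinearAut K₂ F₂)
    (hg : ∀ f : F₁, g • algebraMap F₁ F₂ f = algebraMap F₁ F₂ f) (v : Place K₁ F₁) :
    g • φ v = φ v := by
  have h1 : ∀ f : F₁, (g • φ v).ord (algebraMap F₁ F₂ f) = v.ord f := fun f => by
    conv_lhs => rw [← hg f]
    rw [SemilinearAut.ord_smul, hφ.ord_eq]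
  obtain ⟨t, ht⟩ := exists_ord_eq_one v
  obtain ⟨v', hv'⟩ := hφ.exists_of_ne (g • φ v) ⟨t, by rw [h1, ht]; exact one_ne_zero⟩
  have : v' = v := place_ext_ord fun f => by rw [← hφ.ord_eq v' f, hv', h1]
  rw [← hv', this]

/-- The descent argument, with all inputs as explicit hypotheses. -/
theorem descent_core (hext : IsConstExt K₁ F₁ K₂ F₂) {φ : Place K₁ F₁ → Place K₂ F₂}
    (hφ : IsPlaceExt φ) (x : F₁) (hx : Transcendental K₁ x) (v0 : Place K₁ F₁)
    (hL2 : ∀ z : K₂, (Set.range fun σ : K₂ ≃ₐ[K₁] K₂ => σ z).Finite →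
      z ∈ Set.range (algebraMap K₁ K₂))
    (hPD : HasPrincipalDivisors K₂ F₂) (hdeg : ∀ v : Place K₂ F₂, v.deg = 1)
    (heval : ∀ (v : Place K₂ F₂) (f : F₂), RegularAt v f →
      ∃ a : K₂, VanishesAt v (f - algebraMap K₂ F₂ a))
    (hneg : ∀ D : Divisor K₂ F₂, Divisor.degree D < 0 → riemannRochSpace D = ⊥)
    (hfin : ∀ D : Divisor K₂ F₂, Module.Finite K₂ (riemannRochSpace D))
    (hstep : ∀ (D : Divisor K₂ F₂) (v : Place K₂ F₂),
      Module.finrank K₂ (riemannRochSpace (D + Finsupp.single v 1)) ≤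
        Module.finrank K₂ (riemannRochSpace D) + 1)
    (hbig : ∃ c : ℤ, ∀ D : Divisor K₂ F₂, c ≤ Divisor.degree D → riemannRochSpace D ≠ ⊥)
    (n : ℕ) (hfinT : Finite (Pic0.torsion K₂ F₂ n))
    (D₂ : Divisor K₂ F₂) (hD₂ : Divisor.degree D₂ = 0) (hnD : Divisor.IsPrincipal (n • D₂)) :
    ∃ D₁ : Divisor K₁ F₁, Divisor.degree D₁ = 0 ∧
      Divisor.IsPrincipal (D₂ - D₁.mapDomain φ) := by
  classical
  obtain ⟨m, f, E, hf, hE, hE0, hrig⟩ :=
    exists_rigid_effective hPD hdeg hneg hfin hstep hbig D₂ hD₂ (φ v0)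
  -- the group of automorphisms fixing `F₁`
  let G : Subgroup (SemilinearAut K₂ F₂) :=
    { carrier := {g | ∀ f : F₁, g • algebraMap F₁ F₂ f = algebraMap F₁ F₂ f}
      one_mem' := fun f => one_smul _ _
      mul_mem' := fun {a b} ha hb f => by rw [mul_smul, hb f, ha f]
      inv_mem' := fun {a} ha f => by rw [inv_smul_eq_iff, ha f] }
  have hG : ∀ g : G, ∀ f : F₁, (g : SemilinearAut K₂ F₂) • algebraMap F₁ F₂ f
      = algebraMap F₁ F₂ f := fun g => g.2
  let z : Pic0 K₂ F₂ := Pic0.mk ⟨D₂, hD₂⟩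
  have hz : z ∈ Pic0.torsion K₂ F₂ n := by
    rw [Pic0.mem_torsion]
    have h1 : ((n : ℤ) • z) = Pic0.mk ((n : ℤ) • (⟨D₂, hD₂⟩ : Divisor.degZero (K := K₂) (F := F₂))) :=
      rfl
    rw [h1]
    refine (QuotientAddGroup.eq_zero_iff _).mpr ?_
    rw [AddSubgroup.mem_addSubgroupOf]
    have h2 : n • D₂ ∈ Divisor.principal (K := K₂) (F := F₂) := hnD
    simpa using h2
  -- stabiliser of the class fixes `E`
  have hstab : ∀ k : G, (k : SemilinearAut K₂ F₂) • z = z → (k : SemilinearAut K₂ F₂) • E = E := by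
    intro k hk
    refine smul_rigid_eq D₂ E (φ v0) m f hf hE hE0 hrig k (smul_phi hφ k (hG k) v0) ?_
    have h1 : Pic0.mk (SemilinearAut.degZeroSMulHom (k : SemilinearAut K₂ F₂) ⟨D₂, hD₂⟩)
        = Pic0.mk ⟨D₂, hD₂⟩ := hk
    have h2 := QuotientAddGroup.eq.mp h1.symm
    rw [AddSubgroup.mem_addSubgroupOf] at h2
    have h3 : (k : SemilinearAut K₂ F₂) • D₂ - D₂ ∈ Divisor.principal (K := K₂) (F := F₂) := by
      convert h2 using 1
      simp [sub_eq_neg_add]
    exact h3
  let Φ : G → Pic0 K₂ F₂ := fun g => (g : SemilinearAut K₂ F₂) • z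
  let Ψ : G → Divisor K₂ F₂ := fun g => (g : SemilinearAut K₂ F₂) • E
  have hfac : Function.FactorsThrough Ψ Φ := by
    intro g h hgh
    have h1 : ((h⁻¹ * g : G) : SemilinearAut K₂ F₂) • z = z := by
      have : (g : SemilinearAut K₂ F₂) • z = (h : SemilinearAut K₂ F₂) • z := hgh
      rw [Subgroup.coe_mul, mul_smul, this, Subgroup.coe_inv, inv_smul_smul]
    have h2 := hstab _ h1
    rw [Subgroup.coe_mul, mul_smul, Subgroup.coe_inv, inv_smul_eq_iff] at h2
    exact h2
  have hΦfin : (Set.range Φ).Finite := by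
    have : (Pic0.torsion K₂ F₂ n : Set (Pic0 K₂ F₂)).Finite := Set.toFinite _
    refine this.subset ?_
    rintro _ ⟨g, rfl⟩
    exact SemilinearAut.smul_mem_torsion _ hz
  have hΨfin : (Set.range Ψ).Finite := by
    refine (hΦfin.image (Function.extend Φ Ψ 0)).subset ?_
    rintro _ ⟨g, rfl⟩
    exact ⟨Φ g, ⟨g, rfl⟩, hfac.extend_apply _ g⟩
  let W : Set (Place K₂ F₂) := ⋃ D ∈ Set.range Ψ, (D.support : Set (Place K₂ F₂))
  have hWfin : W.Finite := hΨfin.biUnion fun D _ => D.support.finite_toSet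
  have hW : ∀ w ∈ E.support, ∀ g : G, (g : SemilinearAut K₂ F₂) • w ∈ W := by
    intro w hw g
    refine Set.mem_biUnion ⟨g, rfl⟩ ?_
    rw [Finset.mem_coe, Finsupp.mem_support_iff, SemilinearAut.divisor_smul_apply_smul]
    exact Finsupp.mem_support_iff.mp hw
  -- the support of `E` consists of extended places
  have hsupp : (E.support : Set (Place K₂ F₂)) ⊆ Set.range φ := by
    intro w hw
    by_cases hreg : RegularAt w (algebraMap F₁ F₂ x)
    · obtain ⟨a, ha⟩ := heval w _ hreg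
      have horb : (Set.range fun σ : K₂ ≃ₐ[K₁] K₂ => σ a).Finite := by
        have hfin2 : (⋃ w' ∈ W, {b : K₂ | VanishesAt w'
            (algebraMap F₁ F₂ x - algebraMap K₂ F₂ b)}).Finite := by
          refine hWfin.biUnion fun w' _ => Set.Subsingleton.finite ?_
          intro b hb b' hb'
          exact vanishesAt_unique w' _ b b' hb hb'
        refine hfin2.subset ?_
        rintro _ ⟨σ, rfl⟩
        obtain ⟨g, hgσ, hgF⟩ := exists_semilinearAut hext σ
        refine Set.mem_biUnion (hW w hw ⟨g, hgF⟩) ?_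
        have := vanishesAt_smul g w _ ha
        rw [smul_sub, hgF, SemilinearAut.smul_algebraMap, hgσ] at this
        exact this
      obtain ⟨a₁, rfl⟩ := hL2 a horb
      have heq : algebraMap F₁ F₂ x - algebraMap K₂ F₂ (algebraMap K₁ K₂ a₁)
          = algebraMap F₁ F₂ (x - algebraMap K₁ F₁ a₁) := by
        rw [map_sub, ← IsScalarTower.algebraMap_apply, ← IsScalarTower.algebraMap_apply]
      have hne : x - algebraMap K₁ F₁ a₁ ≠ 0 := fun h =>
        hx (sub_eq_zero.mp h ▸ isAlgebraic_algebraMap a₁)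
      rw [heq] at ha
      have hpos : 0 < w.ord (algebraMap F₁ F₂ (x - algebraMap K₁ F₁ a₁)) :=
        ha.resolve_left ((map_ne_zero (algebraMap F₁ F₂)).mpr hne)
      obtain ⟨v, hv⟩ := hφ.exists_of_ne w ⟨_, hpos.ne'⟩
      exact ⟨v, hv⟩
    · have hlt : w.ord (algebraMap F₁ F₂ x) ≠ 0 := by
        intro h
        exact hreg (Or.inr h.ge)
      obtain ⟨v, hv⟩ := hφ.exists_of_ne w ⟨_, hlt⟩
      exact ⟨v, hv⟩
  let D' : Divisor K₁ F₁ := E.comapDomain φ hφ.injective.injOn
  have hD' : D'.mapDomain φ = E := Finsupp.mapDomain_comapDomain φ hφ.injective E hsupp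
  obtain ⟨Df, hDf, hDf0⟩ := hPD.exists_divisor f hf
  have hEeq : E = D₂ + Finsupp.single (φ v0) (m : ℤ) + Df := by
    ext v
    rw [hE, Finsupp.add_apply, Finsupp.add_apply, hDf]
  have hmap : (D' + Finsupp.single v0 (-(m : ℤ))).mapDomain φ = D₂ + Df := by
    rw [Finsupp.mapDomain_add, hD', Finsupp.mapDomain_single, hEeq, Finsupp.single_neg]
    abel
  refine ⟨D' + Finsupp.single v0 (-(m : ℤ)), ?_, ?_⟩
  · rw [← hφ.degree_eq, hmap, map_add, hD₂, hDf0, add_zero]
  · rw [hmap]
    refine ⟨f⁻¹, inv_ne_zero hf, fun v => ?_⟩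
    rw [v.ord_inv, ← hDf v, Finsupp.sub_apply, Finsupp.add_apply]
    ring

end Descent

end Fermat.Agent.S27.L5
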