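import Fermat.Agent.S27.Interface
import Fermat.Prelude.Def_AlgebraicCurve_BaseChangeGalois

/-!
# S27 / L5 (a) : extension of automorphisms of the constant field

If `F₂ = F₁ K₂` is a constant field extension of `F₁ / K₁`, every `σ ∈ Aut(K₂ / K₁)` extends to a
`σ`-semilinear automorphism of `F₂` fixing `F₁` pointwise.
-/

set_option autoImplicit false

namespace Fermat.Agent.S27.L5

open AlgebraicCurve IntermediateField TensorProduct

universe u v w x

variable {K₁ : Type u} {F₁ : Type v} {K₂ : Type w} {F₂ : Type x} [Field K₁] [Field F₁] [Field K₂]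
  [Field F₂] [Algebra K₁ F₁] [Algebra K₂ F₂] [Algebra K₁ K₂] [Algebra F₁ F₂] [Algebra K₁ F₂]
  [IsScalarTower K₁ K₂ F₂] [IsScalarTower K₁ F₁ F₂]

variable (K₁ F₁ K₂ F₂) in
/-- the multiplication map `K₂ ⊗ F₁ → F₂`. -/
noncomputable def mu : K₂ ⊗[K₁] F₁ →ₐ[K₂] F₂ :=
  Algebra.TensorProduct.productLeftAlgHom (Algebra.ofId K₂ F₂) (IsScalarTower.toAlgHom K₁ F₁ F₂)

@[simp] theorem mu_tmul (c : K₂) (f : F₁) :
    mu K₁ F₁ K₂ F₂ (c ⊗ₜ f) = algebraMap K₂ F₂ c * algebraMap F₁ F₂ f := by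
  simp [mu, Algebra.ofId_apply]

omit [Algebra K₁ K₂] [Algebra K₁ F₂] [IsScalarTower K₁ K₂ F₂] [IsScalarTower K₁ F₁ F₂] in
theorem linearIndependent_of_linDisj (h : IsConstExt K₁ F₁ K₂ F₂) {ι : Type*} (b : ι → F₁)
    (hb : LinearIndependent K₁ b) : LinearIndependent K₂ (fun i => algebraMap F₁ F₂ (b i)) := by
  classical
  rw [linearIndependent_iff_finset_linearIndependent]
  intro s
  have hs : LinearIndependent K₁ (fun i : s => b i) := hb.comp _ Subtype.val_injective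
  have e := (Fintype.equivFin s)
  have h1 : LinearIndependent K₁ (fun k : Fin (Fintype.card s) => b (e.symm k)) :=
    hs.comp _ e.symm.injective
  have h2 := h.linDisj _ _ h1
  have h3 := h2.comp _ e.injective
  convert h3 using 1
  ext i
  simp

theorem mu_injective (h : IsConstExt K₁ F₁ K₂ F₂) : Function.Injective (mu K₁ F₁ K₂ F₂) := by
  classical
  let b := Module.Basis.ofVectorSpace K₁ F₁
  let B := Algebra.TensorProduct.basis K₂ b
  have hli := linearIndependent_of_linDisj h b b.linearIndependent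
  rw [injective_iff_map_eq_zero]
  intro t ht
  have h1 : t = Finsupp.linearCombination K₂ B (B.repr t) := (B.linearCombination_repr t).symm
  have h2 : mu K₁ F₁ K₂ F₂ t
      = Finsupp.linearCombination K₂ (fun i => algebraMap F₁ F₂ (b i)) (B.repr t) := by
    conv_lhs => rw [h1]
    rw [Finsupp.linearCombination_apply, Finsupp.linearCombination_apply, Finsupp.sum, Finsupp.sum,
      map_sum]
    refine Finset.sum_congr rfl fun i _ => ?_
    rw [map_smul, Algebra.TensorProduct.basis_apply, mu_tmul, map_one, one_mul]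
  rw [ht] at h2
  have h3 := (linearIndependent_iff.mp hli) _ h2.symm
  rw [h1, h3, map_zero]

theorem exists_div_mu (h : IsConstExt K₁ F₁ K₂ F₂) (z : F₂) :
    ∃ a b : K₂ ⊗[K₁] F₁, z = mu K₁ F₁ K₂ F₂ a / mu K₁ F₁ K₂ F₂ b := by
  have hz : z ∈ IntermediateField.adjoin K₂ (Set.range (algebraMap F₁ F₂)) := by
    rw [h.gen]; exact IntermediateField.mem_top
  obtain ⟨r, hr, s, hs, rfl⟩ := IntermediateField.mem_adjoin_iff_div.mp hz
  have hle : Algebra.adjoin K₂ (Set.range (algebraMap F₁ F₂)) ≤ (mu K₁ F₁ K₂ F₂).range := by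
    refine Algebra.adjoin_le ?_
    rintro _ ⟨f, rfl⟩
    exact ⟨1 ⊗ₜ f, by simp⟩
  obtain ⟨a, rfl⟩ := hle hr
  obtain ⟨b, rfl⟩ := hle hs
  exact ⟨a, b, rfl⟩

/-- Every `σ ∈ Aut(K₂/K₁)` extends to a semilinear automorphism of `F₂` fixing `F₁`. -/
theorem exists_semilinearAut (h : IsConstExt K₁ F₁ K₂ F₂) (σ : K₂ ≃ₐ[K₁] K₂) :
    ∃ g : SemilinearAut K₂ F₂, (∀ c : K₂, SemilinearAut.baseAut g c = σ c) ∧
      ∀ f : F₁, g • algebraMap F₁ F₂ f = algebraMap F₁ F₂ f := by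
  let _ : Algebra (K₂ ⊗[K₁] F₁) F₂ := (mu K₁ F₁ K₂ F₂).toRingHom.toAlgebra
  have hmap : ∀ t, algebraMap (K₂ ⊗[K₁] F₁) F₂ t = mu K₁ F₁ K₂ F₂ t := fun _ => rfl
  have : FaithfulSMul (K₂ ⊗[K₁] F₁) F₂ :=
    (faithfulSMul_iff_algebraMap_injective _ _).mpr (mu_injective h)
  have : IsFractionRing (K₂ ⊗[K₁] F₁) F₂ := IsFractionRing.of_field _ _ (exists_div_mu h)
  let τ : (K₂ ⊗[K₁] F₁) ≃+* (K₂ ⊗[K₁] F₁) :=
    (Algebra.TensorProduct.congr σ (AlgEquiv.refl : F₁ ≃ₐ[K₁] F₁)).toRingEquiv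
  have hτ : ∀ (c : K₂) (f : F₁), τ (c ⊗ₜ f) = (σ c) ⊗ₜ f := fun c f => by
    simp [τ]
  let s : F₂ ≃+* F₂ := IsFractionRing.ringEquivOfRingEquiv τ
  have hs : ∀ t, s (mu K₁ F₁ K₂ F₂ t) = mu K₁ F₁ K₂ F₂ (τ t) := fun t =>
    IsFractionRing.ringEquivOfRingEquiv_algebraMap τ t
  have hsK : ∀ c : K₂, s (algebraMap K₂ F₂ c) = algebraMap K₂ F₂ (σ c) := fun c => by
    have := hs (c ⊗ₜ 1)
    rwa [hτ, mu_tmul, mu_tmul, map_one, mul_one, mul_one] at this
  have hsF : ∀ f : F₁, s (algebraMap F₁ F₂ f) = algebraMap F₁ F₂ f := fun f => by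
    have := hs (1 ⊗ₜ f)
    simpa [hτ] using this
  refine ⟨⟨(s, σ.toRingEquiv), fun a => hsK a⟩, fun c => rfl, fun f => hsF f⟩

end Fermat.Agent.S27.L5
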