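import Fermat.Agent.S27.LA
import Fermat.Agent.S27.LAG
import Fermat.Agent.S27.LADiv
import Fermat.Agent.S27.LARes
import Fermat.Agent.S27.LALin
import Fermat.Agent.S27.ANIft
import Fermat.Agent.S27.ANEasy
import Fermat.Agent.S27.ANHard
import Fermat.Agent.S27.ANConv

/-!
# S27 / LA : the local Abel theorem, final wiring

`Stmt_LA` from the packages `SEP`, `R0`, `RA`, `AD`, `KA`.
-/

set_option autoImplicit false

namespace Fermat.Agent.S27

universe u

/-- Package LA (local Abel theorem, both directions). -/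
theorem la (hSEP : Stmt_SEP.{u}) (hR0 : Stmt_R0.{0, u}) (hRA : Stmt_RA.{0, u})
    (hAD : Stmt_AD.{0, u}) (hKA : Stmt_KA.{u}) : Stmt_LA.{u} :=
  la_of_parts hRA hKA (la_g hSEP hR0) (la_div hR0) (la_res hR0 hAD) (la_lin hR0 hRA hAD)
    an_ift an_easy an_hard an_conv

end Fermat.Agent.S27
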