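import Mathlib
import Fermat.Prelude.Def_AlgebraicCurve_Repartitions
import Fermat.Prelude.Def_AlgebraicCurve_IsCurveOver

/-!
# S27, parts (0) + (R): Riemann's theorem in the adelic language of the prelude

Interface file (definitions + statements as `Prop`s).  Every `Stmt_X K F` below is proved in
`Fermat/Agent/S27/RR/X.lean` as `theorem stmt_X ... : Stmt_X K F` under (a subset of) the standing
hypotheses of S27:
`[IsAlgClosed K] [CharZero K] [IsCurveOver K F] [Algebra.EssFiniteType K F]`.

Notation: `A = repartitions K F`, `A(D) = repartitionsOf D`, `L(D) = riemannRochSpace D`,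
`H1 D = A / (A(D) + F)`, `g = genusFF K F = dim H1 0`.
All local conditions are phrased with `v.adicValuation` (no junk value at `0`);
`v.adicValuation f ≤ exp n ↔ f = 0 ∨ -n ≤ v.ord f` is `Place.adicValuation_le_exp_iff`.
-/

set_option autoImplicit false

namespace Fermat.Agent.S27.RR

open AlgebraicCurve IntermediateField WithZero

variable (K F : Type*) [Field K] [Field F] [Algebra K F]

/-! ## Definitions -/

variable {K F} in
open Classical in
/-- The adele equal to `f` at the place `v` and to `0` elsewhere. -/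
noncomputable def single (v : Place K F) (f : F) : ↥(repartitions K F) :=
  ⟨Pi.single v f, mem_repartitions_of_finite <| (Set.finite_singleton v).subset fun w hw => by
    by_contra hne
    apply hw
    have hne' : w ≠ v := hne
    simp [Pi.single_eq_of_ne hne']⟩

/-- The diagonal embedding `F → A`, as a `K`-linear map. -/
noncomputable def diag : F →ₗ[K] ↥(repartitions K F) :=
  (Algebra.linearMap F ↥(repartitions K F)).restrictScalars K

variable {K F} in
/-- The class of an adele in `H1 D`. -/
noncomputable def cls (D : Divisor K F) : ↥(repartitions K F) →ₗ[K] H1 D :=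
  (repartitionsOf D ⊔ principalRepartitions K F).mkQ

variable {K F} in
/-- The divisor `∑_{v ∈ s} v`. -/
noncomputable def sumDiv (s : Finset (Place K F)) : Divisor K F :=
  ∑ v ∈ s, Finsupp.single v 1

/-! ## (0) `F` is a finite extension of `K(x)` -/

/-- (0): there are transcendental elements and `F` is finite over `K(x)` for each of them. -/
def Stmt_Fin : Prop :=
  (∃ x : F, Transcendental K x) ∧ ∀ x : F, Transcendental K x → FiniteDimensional K⟮x⟯ F

/-! ## Places -/

/-- There are infinitely many places. -/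
def Stmt_InfPlaces : Prop := Infinite (Place K F)

/-- Nonzero constants are units at every place. -/
def Stmt_ConstVal : Prop :=
  ∀ (v : Place K F) (c : K), c ≠ 0 → v.adicValuation (algebraMap K F c) = 1

/-- Every place has a uniformizer. -/
def Stmt_Unif : Prop := ∀ v : Place K F, ∃ t : F, v.adicValuation t = exp (-1 : ℤ)

/-- The residue field at every place is `K`: value of a regular function at a place. -/
def Stmt_Residue : Prop :=
  ∀ (v : Place K F) (f : F), v.adicValuation f ≤ 1 →
    ∃ c : K, v.adicValuation (f - algebraMap K F c) < 1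

/-- Leading coefficients: if `t` is a uniformizer at `v` and `f` has a pole of order `≤ n`,
then `f - c t^{-n}` has a pole of order `≤ n - 1` for some constant `c`. -/
def Stmt_Lead : Prop :=
  ∀ (v : Place K F) (t : F), v.adicValuation t = exp (-1 : ℤ) → ∀ (n : ℤ) (f : F),
    v.adicValuation f ≤ exp n →
    ∃ c : K, v.adicValuation (f - algebraMap K F c * t ^ (-n)) ≤ exp (n - 1)

/-! ## Adeles -/

/-- An element of `Place K F → F` is an adele iff it has finitely many poles. -/
def Stmt_MemRep : Prop :=
  ∀ α : Place K F → F,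
    α ∈ repartitions K F ↔ {v : Place K F | ¬ v.adicValuation (α v) ≤ 1}.Finite

/-- Every adele lies in `A(D)` for some `D` above a given divisor. -/
def Stmt_ExistsDiv : Prop :=
  ∀ (α : ↥(repartitions K F)) (D₀ : Divisor K F),
    ∃ D : Divisor K F, D₀ ≤ D ∧ α ∈ repartitionsOf D

/-- One step `A(D) ⊆ A(D + v)`: the quotient is one-dimensional. -/
def Stmt_Step : Prop :=
  ∀ (D : Divisor K F) (v : Place K F),
    ∃ lam : ↥(repartitionsOf (D + Finsupp.single v 1)) →ₗ[K] K, Function.Surjective lam ∧
      ∀ a, lam a = 0 ↔ (a : ↥(repartitions K F)) ∈ repartitionsOf D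

/-- `L(D) ≃ A(D) ∩ F`. -/
def Stmt_LEquiv : Prop :=
  ∀ D : Divisor K F,
    Nonempty (↥(riemannRochSpace D) ≃ₗ[K]
      ↥(repartitionsOf D ⊓ principalRepartitions K F))

/-- Pure linear algebra: the five-term exact sequence
`0 → A₁ ∩ P → A₂ ∩ P → A₂/A₁ → M/(A₁+P) → M/(A₂+P) → 0` when `A₂/A₁` is one-dimensional. -/
def Stmt_LA (K M : Type*) [Field K] [AddCommGroup M] [Module K M] : Prop :=
  ∀ (A₁ A₂ P : Submodule K M) (lam : ↥A₂ →ₗ[K] K), A₁ ≤ A₂ → Function.Surjective lam →
    (∀ a, lam a = 0 ↔ (a : M) ∈ A₁) →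
    Module.Finite K ↥(A₁ ⊓ P) → Module.Finite K (M ⧸ (A₂ ⊔ P)) →
    Module.Finite K ↥(A₂ ⊓ P) ∧ Module.Finite K (M ⧸ (A₁ ⊔ P)) ∧
      (Module.finrank K ↥(A₂ ⊓ P) : ℤ) - Module.finrank K (M ⧸ (A₂ ⊔ P)) =
        Module.finrank K ↥(A₁ ⊓ P) - Module.finrank K (M ⧸ (A₁ ⊔ P)) + 1

/-! ## The spaces `L(D)` -/

/-- `L(D) = 0` if `deg D < 0`. -/
def Stmt_LNeg : Prop :=
  ∀ D : Divisor K F, Divisor.degree D < 0 → riemannRochSpace D = ⊥

/-- `L(0) = K`. -/
def Stmt_LZero : Prop :=
  ∀ f ∈ riemannRochSpace (0 : Divisor K F), ∃ c : K, f = algebraMap K F c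

/-- `L(D)` is finite-dimensional. -/
def Stmt_LFin : Prop := ∀ D : Divisor K F, Module.Finite K ↥(riemannRochSpace D)

/-- `l(D + v) ≤ l(D) + 1` and `l(D) ≤ l(D + v)`. -/
def Stmt_LStep : Prop :=
  ∀ (D : Divisor K F) (v : Place K F),
    Module.finrank K ↥(riemannRochSpace D) ≤
        Module.finrank K ↥(riemannRochSpace (D + Finsupp.single v 1)) ∧
      Module.finrank K ↥(riemannRochSpace (D + Finsupp.single v 1)) ≤
        Module.finrank K ↥(riemannRochSpace D) + 1

/-- `l(D + div f) = l(D)`. -/
def Stmt_LMul : Prop :=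
  ∀ (D E : Divisor K F) (f : F), f ≠ 0 → (∀ v : Place K F, E v = v.ord f) →
    Module.finrank K ↥(riemannRochSpace (D + E)) = Module.finrank K ↥(riemannRochSpace D)

/-! ## Riemann's bound -/

/-- The basic lower bound: there are effective divisors `B`, `C` with `deg B = n > 0` and
`l(l B + C) ≥ n (l + 1)` for all `l` (`B` = pole divisor of `x`, `n = [F : K(x)]`). -/
def Stmt_Bound1 : Prop :=
  ∃ (B C : Divisor K F) (n : ℕ), 0 ≤ B ∧ 0 ≤ C ∧ 0 < n ∧ Divisor.degree B = n ∧
    ∀ l : ℕ, n * (l + 1) ≤ Module.finrank K ↥(riemannRochSpace (l • B + C))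

/-- Riemann's bound: `deg D - l(D)` is bounded above. -/
def Stmt_Bound : Prop :=
  ∃ γ : ℤ, ∀ D : Divisor K F,
    Divisor.degree D - Module.finrank K ↥(riemannRochSpace D) ≤ γ

/-- There is a divisor `D₀` such that `A = A(D) + F` for all `D ≥ D₀`. -/
def Stmt_Van0 : Prop :=
  ∃ D₀ : Divisor K F, ∀ D : Divisor K F, D₀ ≤ D →
    repartitionsOf D ⊔ principalRepartitions K F = ⊤

/-! ## Final statements (what the rest of S27 uses) -/

/-- `H1 D` is finite-dimensional. -/
def Stmt_H1Fin : Prop := ∀ D : Divisor K F, Module.Finite K (H1 D)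

/-- Riemann's theorem with the error term `dim H1 D`. -/
def Stmt_RR : Prop :=
  ∀ D : Divisor K F,
    (Module.finrank K ↥(riemannRochSpace D) : ℤ) - Module.finrank K (H1 D)
      = Divisor.degree D + 1 - genusFF K F

/-- Riemann's inequality. -/
def Stmt_RiemannIneq : Prop :=
  ∀ D : Divisor K F,
    Divisor.degree D + 1 - genusFF K F ≤ Module.finrank K ↥(riemannRochSpace D)

/-- `H1 D = 0` as soon as `deg D` is large. -/
def Stmt_H1Vanish : Prop :=
  ∃ c : ℤ, ∀ D : Divisor K F, c ≤ Divisor.degree D →
    repartitionsOf D ⊔ principalRepartitions K F = ⊤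

/-- A divisor of degree `≥ g` is linearly equivalent to an effective divisor. -/
def Stmt_Effective : Prop :=
  ∀ D : Divisor K F, (genusFF K F : ℤ) ≤ Divisor.degree D →
    ∃ f : F, f ≠ 0 ∧ ∀ v : Place K F, 0 ≤ D v + v.ord f

/-- Polar parts: let `s` be a finite set of places with `H1 (∑_{v ∈ s} v) = 0` and `t v` a
uniformizer at `v`.  Then the classes `κ_v` of the adeles `single v (t v)⁻¹` span `H1 0`, and
`∑ a_v κ_v = 0` iff `(a_v)` is the vector of polar coefficients of some `f ∈ L(∑_{v ∈ s} v)`. -/
def Stmt_Polar : Prop :=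
  ∀ (s : Finset (Place K F)) (t : Place K F → F),
    (∀ v ∈ s, v.adicValuation (t v) = exp (-1 : ℤ)) →
    repartitionsOf (sumDiv s) ⊔ principalRepartitions K F = ⊤ →
    (∀ ξ : H1 (0 : Divisor K F), ∃ a : Place K F → K,
        ξ = ∑ v ∈ s, a v • cls (0 : Divisor K F) (single v (t v)⁻¹)) ∧
    (∀ a : Place K F → K, ∑ v ∈ s, a v • cls (0 : Divisor K F) (single v (t v)⁻¹) = 0 ↔
        ∃ f ∈ riemannRochSpace (sumDiv s),
          ∀ v ∈ s, v.adicValuation (f - algebraMap K F (a v) * (t v)⁻¹) ≤ 1)

/-! ## Basic API -/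

section API

variable {K F : Type*} [Field K] [Field F] [Algebra K F]

@[simp] theorem single_apply_self (v : Place K F) (f : F) :
    (single v f : Place K F → F) v = f := by
  classical
  simp [single]

theorem single_apply_of_ne {v w : Place K F} (h : w ≠ v) (f : F) :
    (single v f : Place K F → F) w = 0 := by
  classical
  simp [single, Pi.single_eq_of_ne h]

@[simp] theorem diag_apply (f : F) (v : Place K F) :
    (diag K F f : Place K F → F) v = f := rfl

theorem diag_mem_principal (f : F) : diag K F f ∈ principalRepartitions K F :=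
  mem_principalRepartitions_iff.mpr ⟨f, rfl⟩

theorem mem_principal_iff {α : ↥(repartitions K F)} :
    α ∈ principalRepartitions K F ↔ ∃ f : F, α = diag K F f := by
  rw [mem_principalRepartitions_iff]
  constructor
  · rintro ⟨f, hf⟩
    exact ⟨f, Subtype.ext hf⟩
  · rintro ⟨f, rfl⟩
    exact ⟨f, rfl⟩

theorem diag_mem_repartitionsOf_iff {D : Divisor K F} {f : F} :
    diag K F f ∈ repartitionsOf D ↔ f ∈ riemannRochSpace D := Iff.rfl

theorem cls_eq_zero_iff {D : Divisor K F} {α : ↥(repartitions K F)} :
    cls D α = 0 ↔ ∃ f : F, α - diag K F f ∈ repartitionsOf D := by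
  rw [cls, Submodule.mkQ_apply, Submodule.Quotient.mk_eq_zero, Submodule.mem_sup]
  constructor
  · rintro ⟨a, ha, p, hp, rfl⟩
    obtain ⟨f, rfl⟩ := mem_principal_iff.mp hp
    exact ⟨f, by simpa using ha⟩
  · rintro ⟨f, hf⟩
    exact ⟨_, hf, _, diag_mem_principal f, by simp⟩

theorem cls_surjective (D : Divisor K F) : Function.Surjective (cls D) :=
  Submodule.mkQ_surjective _

theorem sumDiv_apply (s : Finset (Place K F)) (v : Place K F) [Decidable (v ∈ s)] :
    sumDiv s v = if v ∈ s then 1 else 0 := by
  classical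
  rw [sumDiv, Finsupp.finsetSum_apply]
  simp [Finsupp.single_apply]

/-- Upward induction on divisors. -/
theorem divisor_induction {p : Divisor K F → Prop} (D : Divisor K F) (h0 : p D)
    (hstep : ∀ (E : Divisor K F) (v : Place K F), D ≤ E → p E → p (E + Finsupp.single v 1)) :
    ∀ D' : Divisor K F, D ≤ D' → p D' := by
  classical
  have key : ∀ E : Place K F →₀ ℕ, D ≤ D + E.mapRange (Nat.cast : ℕ → ℤ) rfl ∧
      p (D + E.mapRange (Nat.cast : ℕ → ℤ) rfl) := by
    intro E
    induction E using Finsupp.induction with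
    | zero => simpa using h0
    | single_add a b f _ _ ih =>
      have hb : ∀ b : ℕ, D ≤ D + (Finsupp.single a b + f).mapRange (Nat.cast : ℕ → ℤ) rfl ∧
          p (D + (Finsupp.single a b + f).mapRange (Nat.cast : ℕ → ℤ) rfl) := by
        intro b
        induction b with
        | zero => simpa using ih
        | succ b ihb =>
          have e : D + (Finsupp.single a (b + 1) + f).mapRange (Nat.cast : ℕ → ℤ) rfl
              = (D + (Finsupp.single a b + f).mapRange (Nat.cast : ℕ → ℤ) rfl)
                + Finsupp.single a 1 := by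
            ext w
            simp only [Finsupp.add_apply, Finsupp.mapRange_apply, Finsupp.single_apply]
            split_ifs <;> push_cast <;> ring
          rw [e]
          refine ⟨ihb.1.trans ?_, hstep _ a ihb.1 ihb.2⟩
          intro w
          simp only [Finsupp.add_apply, Finsupp.single_apply]
          split_ifs <;> simp
      exact hb b
  intro D' hD'
  have e : D' = D + ((D' - D).mapRange Int.toNat rfl).mapRange (Nat.cast : ℕ → ℤ) rfl := by
    ext w
    have hw : 0 ≤ D' w - D w := sub_nonneg.mpr (hD' w)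
    simp only [Finsupp.add_apply, Finsupp.mapRange_apply, Finsupp.sub_apply,
      Int.toNat_of_nonneg hw]
    ring
  rw [e]
  exact (key _).2

theorem degree_add_single [IsAlgClosed K] [IsCurveOver K F] (D : Divisor K F) (v : Place K F) :
    Divisor.degree (D + Finsupp.single v 1) = Divisor.degree D + 1 := by
  rw [map_add, Divisor.degree_single, IsCurveOver.deg_eq_one_of_isAlgClosed]
  simp

end API

end Fermat.Agent.S27.RR
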